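import Mathlib
import Fermat.Agent.RR.Defs
import Fermat.Agent.RR.PlaceFactsOf
import Fermat.Agent.S24.BDefs
import Fermat.Agent.S24.Degree
import Fermat.Agent.S24.CardX0
import Fermat.Agent.S24.FinalAsm

/-!
# S18 / ConstPF: a function without zeros and poles is constant (any characteristic)

`exists_const`: for a function field `F/K` satisfying the place facts of the Riemann–Roch
development (`Fermat.Agent.RR.PlaceFacts`), an element `f ≠ 0` with `v.ord f = 0` at every
place is a constant.  Only zeros are used (`0 < v.ord f` nowhere is enough), see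
`exists_const_of_no_zero`.
-/

set_option autoImplicit false

namespace Fermat.Agent.S18.ConstPF

open AlgebraicCurve IntermediateField

variable {K F : Type*} [Field K] [Field F] [Algebra K F]

/-- Elements of `F` integral over `K` lie in the valuation ring of every place. -/
theorem mem_of_isIntegral (v : Place K F) {g : F} (hg : IsIntegral K g) :
    g ∈ v.toValuationSubring := by
  have h1 : IsIntegral v.toValuationSubring g := hg.tower_top
  obtain ⟨y, hy⟩ := IsIntegrallyClosed.isIntegral_iff.mp h1
  rw [← hy]
  exact y.2

/-- A nonzero element of `F` algebraic over `K` has order `0` at every place. -/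
theorem ord_eq_zero_of_isAlgebraic (v : Place K F) {g : F} (hg : IsAlgebraic K g) (hg0 : g ≠ 0) :
    v.ord g = 0 := by
  have h1 : g ∈ v.toValuationSubring := mem_of_isIntegral v hg.isIntegral
  have h2 : g⁻¹ ∈ v.toValuationSubring := mem_of_isIntegral v hg.inv.isIntegral
  have e1 : 0 ≤ v.ord g :=
    (v.adicValuation_le_one_iff.mp (v.adicValuation_le_one_of_mem h1)).resolve_left hg0
  have e2 : 0 ≤ v.ord g⁻¹ :=
    (v.adicValuation_le_one_iff.mp (v.adicValuation_le_one_of_mem h2)).resolve_left
      (inv_ne_zero hg0)
  rw [v.ord_inv] at e2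
  omega

/-- A transcendental element has a zero. -/
theorem exists_zero_of_transcendental (hP : Fermat.Agent.RR.PlaceFacts K F) {f : F}
    (hf : Transcendental K f) : ∃ v : Place K F, 0 < v.ord f := by
  by_contra hno
  have hfd := hP.hfd f hf
  have hsum := hP.hsum f hf
  have hpos : 0 < Module.finrank K⟮f⟯ F := Module.finrank_pos
  have hempty : {v : Place K F | 0 < v.ord f} = ∅ :=
    Set.eq_empty_of_forall_notMem fun v hv => hno ⟨v, hv⟩
  rw [hempty, finsum_mem_empty] at hsum
  have : (Module.finrank K⟮f⟯ F : ℤ) = 0 := hsum.symm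
  omega

/-- There is at least one place. -/
theorem exists_place (hP : Fermat.Agent.RR.PlaceFacts K F) : Nonempty (Place K F) := by
  obtain ⟨x, hx⟩ := hP.htr
  obtain ⟨v, -⟩ := exists_zero_of_transcendental hP hx
  exact ⟨v⟩

/-- A function without zeros is a constant. -/
theorem exists_const_of_no_zero (hP : Fermat.Agent.RR.PlaceFacts K F) (f : F)
    (h : ∀ v : Place K F, ¬ 0 < v.ord f) : ∃ c : K, f = algebraMap K F c := by
  by_cases htr : Transcendental K f
  · exact absurd (exists_zero_of_transcendental hP htr) (fun ⟨v, hv⟩ => h v hv)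
  · have halg : IsAlgebraic K f := by
      unfold Transcendental at htr
      exact not_not.mp htr
    obtain ⟨v⟩ := exists_place hP
    obtain ⟨a, ha⟩ := hP.hres v f (mem_of_isIntegral v halg.isIntegral)
    refine ⟨a, ?_⟩
    rcases ha with ha | ha
    · exfalso
      have hne : f - algebraMap K F a ≠ 0 := by
        intro h0
        rw [h0, v.ord_zero] at ha
        exact lt_irrefl _ ha
      have h0 := ord_eq_zero_of_isAlgebraic v (halg.sub (isAlgebraic_algebraMap a)) hne
      omega
    · exact ha

/-- A function with neither zeros nor poles is a constant (the shape used by `S18/Extract`). -/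
theorem exists_const (hP : Fermat.Agent.RR.PlaceFacts K F) (f : F) (_hf : f ≠ 0)
    (h : ∀ v : Place K F, v.ord f = 0) : ∃ c : K, f = algebraMap K F c :=
  exists_const_of_no_zero hP f fun v hv => by
    have := h v
    omega

/-- The place facts of the modular function field `F_N = modularFunctionFieldBar N` over
`ℚ̄` (characteristic `0`; from S24 side A on main). -/
theorem placeFacts_bar (N : ℕ) [NeZero N] :
    Fermat.Agent.RR.PlaceFacts (AlgebraicClosure ℚ) (ModularCurve.modularFunctionFieldBar N) := by
  have hx := Fermat.Agent.S24.transcendental_xgen (AlgebraicClosure ℚ) N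
  have hdeg := Fermat.Agent.S24.finrank_FK (AlgebraicClosure ℚ) Fermat.Agent.S24.kEmb N
  have hn0 : 0 < Module.finrank (AlgebraicClosure ℚ)⟮Fermat.Agent.S24.xgen (AlgebraicClosure ℚ) N⟯
      (Fermat.Agent.S24.FK (AlgebraicClosure ℚ) N) := by
    rw [hdeg, Fermat.Agent.S24.card_X0 N]
    exact Fermat.Agent.S24.dedekindPsi_pos N
  exact Fermat.Agent.RR.placeFacts_of (Fermat.Agent.S24.xgen (AlgebraicClosure ℚ) N) hx hn0

/-- `hc0` of `S18/Extract`: a function on `X₀(N)` over `ℚ̄` without zeros and poles is
constant. -/
theorem exists_const_bar (N : ℕ) [NeZero N] (f : ModularCurve.modularFunctionFieldBar N)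
    (hf : f ≠ 0)
    (h : ∀ v : Place (AlgebraicClosure ℚ) (ModularCurve.modularFunctionFieldBar N),
      v.ord f = 0) :
    ∃ c : AlgebraicClosure ℚ,
      f = algebraMap (AlgebraicClosure ℚ) (ModularCurve.modularFunctionFieldBar N) c :=
  exists_const (placeFacts_bar N) f hf h

end Fermat.Agent.S18.ConstPF
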