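import Mathlib
import Fermat.Prelude.Def_AlgebraicCurve_Repartitions
import Fermat.Agent.RR.Defs

/-!
# S18 core: abstract interface

`RedFacts A Red` : an abstract "Gauss reduction" relation `Red : F → κ → Prop` between a function
field `F / K` (`K` with valuation subring `A`) and a function field `κ / k`, `k` the residue field
of `A`.  `Red f x` reads: "`f` is Gauss-integral and its reduction is `x`".

`ChartFacts A Red g Z0 Z1 Zb0 Zb1` : two disjoint effective chart divisors `Z0, Z1` on `F`
(think `(j)_∞`, `(j)_0`), their counterparts on `κ`, compatibility of reduction with the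
Riemann–Roch spaces of `a Z0 + b Z1`, and the genus bound on the `κ` side.
-/

set_option autoImplicit false

noncomputable section

namespace Fermat.Agent.S18

open AlgebraicCurve

/-- Abstract reduction relation: `Red f x` = "`f` is integral for the Gauss valuation and reduces
to `x`". -/
structure RedFacts {K F κ : Type*} [Field K] [Field F] [Algebra K F] (A : ValuationSubring K)
    [Field κ] [Algebra (IsLocalRing.ResidueField A) κ] (Red : F → κ → Prop) : Prop where
  unique : ∀ (f : F) (x y : κ), Red f x → Red f y → x = y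
  one : Red 1 1
  add : ∀ (f g : F) (x y : κ), Red f x → Red g y → Red (f + g) (x + y)
  mul : ∀ (f g : F) (x y : κ), Red f x → Red g y → Red (f * g) (x * y)
  const : ∀ c : A, Red (algebraMap K F (c : K))
    (algebraMap (IsLocalRing.ResidueField A) κ (IsLocalRing.residue A c))
  /-- every nonzero function can be scaled to Gauss norm one -/
  normalize : ∀ f : F, f ≠ 0 → ∃ c : K, c ≠ 0 ∧ ∃ x : κ, x ≠ 0 ∧ Red (algebraMap K F c * f) x
  /-- every finite-dimensional `K`-subspace has an orthonormal basis -/
  lattice : ∀ V : Submodule K F, FiniteDimensional K V →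
    ∃ (e : Fin (Module.finrank K V) → F) (eb : Fin (Module.finrank K V) → κ),
      (∀ i, e i ∈ V) ∧ (∀ i, Red (e i) (eb i)) ∧
        LinearIndependent (IsLocalRing.ResidueField A) eb

/-- Chart data for the two-chart core. `g` is the genus of `F` (`finrank K (H1 0)`). -/
structure ChartFacts {K F κ : Type*} [Field K] [Field F] [Algebra K F] (A : ValuationSubring K)
    [Field κ] [Algebra (IsLocalRing.ResidueField A) κ] (Red : F → κ → Prop) (g : ℤ)
    (Z0 Z1 : Divisor K F) (Zb0 Zb1 : Divisor (IsLocalRing.ResidueField A) κ) : Prop where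
  Z0_nonneg : ∀ v, 0 ≤ Z0 v
  Z1_nonneg : ∀ v, 0 ≤ Z1 v
  disj : ∀ v, Z0 v = 0 ∨ Z1 v = 0
  Zb0_nonneg : ∀ v, 0 ≤ Zb0 v
  Zb1_nonneg : ∀ v, 0 ≤ Zb1 v
  disjb : ∀ v, Zb0 v = 0 ∨ Zb1 v = 0
  deg_eq : Divisor.degree Z1 = Divisor.degree Z0
  /-- reduction maps `L(a Z0 + b Z1)` into `L(a Zb0 + b Zb1)` -/
  compat : ∀ (a b : ℕ) (f : F) (x : κ), f ∈ riemannRochSpace (a • Z0 + b • Z1) → Red f x →
    x ∈ riemannRochSpace (a • Zb0 + b • Zb1)
  /-- the genus bound on the residue side (`gbar ≥ g` + vanishing of `H¹` in large degree) -/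
  bound : ∃ n : ℕ, 0 < n ∧
    (Module.finrank (IsLocalRing.ResidueField A) (riemannRochSpace (n • Zb0)) : ℤ)
        ≤ n * Divisor.degree Z0 + 1 - g ∧
    (Module.finrank (IsLocalRing.ResidueField A) (riemannRochSpace (n • Zb1)) : ℤ)
        ≤ n * Divisor.degree Z0 + 1 - g

/-- The statement of the two-chart core. -/
def CoreStmt {K F κ : Type*} [Field K] [Field F] [Algebra K F] (A : ValuationSubring K)
    [Field κ] [Algebra (IsLocalRing.ResidueField A) κ] (Red : F → κ → Prop) : Prop :=
  ∀ (d : ℕ), ((d : ℕ) : IsLocalRing.ResidueField A) ≠ 0 →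
    ∀ (D' : Divisor K F) (u : F), u ≠ 0 → (∀ v : Place K F, (d : ℤ) * D' v = v.ord u) →
      Red u 1 → D' ∈ Divisor.principal (K := K) (F := F)

end Fermat.Agent.S18

end
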