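import Fermat.Agent.S18.Defs

/-!
# S18: descent of the Kummer statement from level `M` to level `N ∣ M` (wiring)

`KummerStmt ℓ A M`, restriction of places along `F_N ⊆ F_M` and descent of roots give
`KummerStmt ℓ A N`.
-/

set_option autoImplicit false
set_option synthInstance.maxHeartbeats 400000

noncomputable section

namespace Fermat.Agent.S18.Descent

open AlgebraicCurve ModularCurve Fermat.Agent.S18

/-- `F_N ⊆ F_M` for `N ∣ M`. -/
theorem bar_le {N M : ℕ} (hN : N ≠ 0) (hM : M ≠ 0) (hNM : N ∣ M) :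
    modularFunctionFieldBar N ≤ modularFunctionFieldBar M := by
  have : NeZero N := ⟨hN⟩
  have : NeZero M := ⟨hM⟩
  have h0 : modularFunctionFieldFull N ≤ modularFunctionFieldFull M := by
    have := full_degeneracyC_le ℚ (N := N) (M := M) hNM
    rwa [modularFunctionFieldFullC_rat, modularFunctionFieldFullC_rat] at this
  show laurentBaseChange (AlgebraicClosure ℚ) (modularFunctionFieldFull N)
      ≤ laurentBaseChange (AlgebraicClosure ℚ) (modularFunctionFieldFull M)
  unfold laurentBaseChange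
  apply IntermediateField.adjoin.mono
  rintro _ ⟨x, hx, rfl⟩
  exact ⟨x, h0 hx, rfl⟩

/-- Coefficientwise inclusion is injective. -/
theorem genS_injective (A : ValuationSubring (AlgebraicClosure ℚ)) :
    Function.Injective (genS A) := by
  intro x y hxy
  ext n
  have h := congrArg (fun s : LaurentSeries (AlgebraicClosure ℚ) => s.coeff n) hxy
  simp only [genS, coeffMap_coeff] at h
  exact h

theorem genS_ne_zero (A : ValuationSubring (AlgebraicClosure ℚ)) {V : LaurentSeries A}
    (h : redS A V ≠ 0) : genS A V ≠ 0 := by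
  intro h0
  apply h
  have : V = 0 := genS_injective A (by rw [h0, map_zero])
  rw [this, map_zero]

/-- **Descent (wiring).** -/
theorem main {ℓ N M : ℕ} (hN : N ≠ 0) (hM : M ≠ 0) (hNM : N ∣ M)
    (A : ValuationSubring (AlgebraicClosure ℚ))
    (hK : KummerStmt ℓ A M) (hR : RestrictStmt N M) (hD : RootDescentStmt ℓ A N M) :
    KummerStmt ℓ A N := by
  intro d hd hdℓ V₁ V₂ h₁ h₂ hred hne hdiv
  have hle := bar_le hN hM hNM
  have h₁' : genS A V₁ ∈ modularFunctionFieldBar M := hle h₁
  have h₂' : genS A V₂ ∈ modularFunctionFieldBar M := hle h₂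
  have hV₂ : genS A V₂ ≠ 0 := genS_ne_zero A (hred ▸ hne)
  -- the quotient as a Laurent series
  have hqN : genS A V₁ / genS A V₂ ∈ modularFunctionFieldBar N := div_mem h₁ h₂
  have hqM : genS A V₁ / genS A V₂ ∈ modularFunctionFieldBar M := hle hqN
  have eN : ((⟨genS A V₁, h₁⟩ : modularFunctionFieldBar N) / ⟨genS A V₂, h₂⟩)
      = ⟨genS A V₁ / genS A V₂, hqN⟩ := Subtype.ext rfl
  have eM : ((⟨genS A V₁, h₁'⟩ : modularFunctionFieldBar M) / ⟨genS A V₂, h₂'⟩)
      = ⟨genS A V₁ / genS A V₂, hqM⟩ := Subtype.ext rfl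
  -- divisibility of the orders at level `M`
  have hdivM : ∀ P' : Place (AlgebraicClosure ℚ) (modularFunctionFieldBar M),
      (d : ℤ) ∣ P'.ord ((⟨genS A V₁, h₁'⟩ : modularFunctionFieldBar M) / ⟨genS A V₂, h₂'⟩) := by
    intro P'
    obtain ⟨P, e, hPe⟩ := hR P'
    rw [eM, hPe _ hqN hqM]
    have := hdiv P
    rw [eN] at this
    exact Dvd.dvd.mul_left this e
  obtain ⟨w', hw'⟩ := hK d hd hdℓ V₁ V₂ h₁' h₂' hred hne hdivM
  -- as an identity of Laurent series
  have hser : (w' : LaurentSeries (AlgebraicClosure ℚ)) ^ d * genS A V₂ = genS A V₁ := by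
    have h := congrArg (fun x : modularFunctionFieldBar M =>
      (x : LaurentSeries (AlgebraicClosure ℚ))) hw'
    simp only [SubmonoidClass.coe_pow] at h
    rw [h]
    show genS A V₁ / genS A V₂ * genS A V₂ = genS A V₁
    exact div_mul_cancel₀ _ hV₂
  obtain ⟨w, hwN, hw⟩ := hD d hd hdℓ V₁ V₂ h₁ h₂ hred hne ⟨w', w'.2, hser⟩
  refine ⟨⟨w, hwN⟩, ?_⟩
  rw [eN]
  apply Subtype.ext
  show w ^ d = genS A V₁ / genS A V₂
  rw [eq_div_iff hV₂]
  exact hw

end Fermat.Agent.S18.Descent

end
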