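import Fermat.Agent.S18.Defs
import Fermat.Agent.S18.CoreDefs
import Fermat.Agent.S18.ConstPF
import Fermat.Agent.S18.Descent
import Fermat.Agent.S24.Principal
import Fermat.Prelude.Def_FLTPrelim_Ramification

/-!
# S18: from the abstract two-chart core to the Kummer statement (wiring)

Given a "Gauss layer" at level `M` (a residue field `κ ⊆ k((q))`, a reduction relation
`Red : F_M → κ → Prop` with `RedFacts`, and the fact that integral series reduce
coefficientwise), the abstract core statement `CoreStmt A Red` implies `KummerStmt ℓ A M`.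
-/

set_option autoImplicit false
set_option synthInstance.maxHeartbeats 400000

noncomputable section

namespace Fermat.Agent.S18.Bridge

open AlgebraicCurve ModularCurve Fermat.Agent.S18

/-- A prime `d ≠ ℓ` is nonzero in the residue field of a valuation ring over `ℓ`. -/
theorem natCast_residue_ne_zero {ℓ d : ℕ} (hℓ : ℓ.Prime) (hd : d.Prime) (hdℓ : d ≠ ℓ)
    (A : ValuationSubring (AlgebraicClosure ℚ)) (hA : A.LiesOverPrime ℓ) :
    ((d : ℕ) : IsLocalRing.ResidueField A) ≠ 0 := by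
  intro h0
  have hℓm : ((ℓ : ℕ) : A) ∈ IsLocalRing.maximalIdeal A := by
    obtain ⟨ha, hm⟩ := (ValuationSubring.mem_nonunits_iff_exists_mem_maximalIdeal).mp hA
    have : (⟨(ℓ : AlgebraicClosure ℚ), ha⟩ : A) = ((ℓ : ℕ) : A) := Subtype.ext (by simp)
    rwa [this] at hm
  have hdm : ((d : ℕ) : A) ∈ IsLocalRing.maximalIdeal A := by
    rw [← IsLocalRing.residue_eq_zero_iff, map_natCast]
    exact h0
  have hcop : IsCoprime (d : ℤ) (ℓ : ℤ) :=
    Nat.isCoprime_iff_coprime.mpr ((Nat.coprime_primes hd hℓ).mpr hdℓ)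
  obtain ⟨a, b, hab⟩ := hcop
  have h1 : (1 : A) ∈ IsLocalRing.maximalIdeal A := by
    have : (1 : A) = (a : A) * ((d : ℕ) : A) + (b : A) * ((ℓ : ℕ) : A) := by
      have := congrArg (Int.cast : ℤ → A) hab
      push_cast at this
      exact this.symm
    rw [this]
    exact Ideal.add_mem _ (Ideal.mul_mem_left _ _ hdm) (Ideal.mul_mem_left _ _ hℓm)
  exact (Ideal.ne_top_iff_one _).mp (IsLocalRing.maximalIdeal.isMaximal A).ne_top h1

section Abstract

variable {K F κ : Type*} [Field K] [Field F] [Algebra K F] {A : ValuationSubring K}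
  [Field κ] [Algebra (IsLocalRing.ResidueField A) κ] {Red : F → κ → Prop}

/-- If `a`, `b` reduce to the same nonzero element then `a / b` reduces to `1`. -/
theorem red_div_one (hR : RedFacts A Red) {a b : F} {x : κ} (hx : x ≠ 0)
    (ha : Red a x) (hb : Red b x) (ha0 : a ≠ 0) (hb0 : b ≠ 0) : Red (a / b) 1 := by
  have hu0 : a / b ≠ 0 := div_ne_zero ha0 hb0
  obtain ⟨c, hc0, y, hy0, hcy⟩ := hR.normalize (a / b) hu0
  rcases A.mem_or_inv_mem c with hcA | hcA
  · -- `c ∈ A`
    have h1 := hR.const ⟨c, hcA⟩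
    have h2 := hR.mul _ _ _ _ hcy hb
    have h3 := hR.mul _ _ _ _ h1 ha
    have e : algebraMap K F c * (a / b) * b = algebraMap K F ((⟨c, hcA⟩ : A) : K) * a := by
      field_simp
    rw [e] at h2
    have h4 := hR.unique _ _ _ h2 h3
    have h5 : y = algebraMap (IsLocalRing.ResidueField A) κ
        (IsLocalRing.residue A ⟨c, hcA⟩) := mul_right_cancel₀ hx h4
    have hres : IsLocalRing.residue A ⟨c, hcA⟩ ≠ 0 := by
      intro h0
      rw [h0, map_zero] at h5
      exact hy0 h5
    have hunit : IsUnit (⟨c, hcA⟩ : A) := by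
      by_contra hnu
      exact hres ((IsLocalRing.residue_eq_zero_iff _).mpr hnu)
    obtain ⟨v, hv⟩ := hunit
    have h6 := hR.const (↑v⁻¹ : A)
    have h7 := hR.mul _ _ _ _ h6 hcy
    have hvc : ((↑v⁻¹ : A) : K) * c = 1 := by
      have : (↑v⁻¹ : A) * (⟨c, hcA⟩ : A) = 1 := by rw [← hv]; exact v.inv_mul
      exact congrArg (Subtype.val) this
    have e2 : algebraMap K F ((↑v⁻¹ : A) : K) * (algebraMap K F c * (a / b)) = a / b := by
      rw [← mul_assoc, ← map_mul, hvc, map_one, one_mul]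
    have e3 : algebraMap (IsLocalRing.ResidueField A) κ (IsLocalRing.residue A (↑v⁻¹ : A)) * y
        = 1 := by
      rw [h5, ← map_mul, ← map_mul]
      have : (↑v⁻¹ : A) * (⟨c, hcA⟩ : A) = 1 := by rw [← hv]; exact v.inv_mul
      rw [this, map_one, map_one]
    rw [e2, e3] at h7
    exact h7
  · -- `c⁻¹ ∈ A`, and we may assume `c ∉ A`
    by_cases hcA' : c ∈ A
    · -- reduce to the first case by symmetry: repeat the argument
      have h1 := hR.const ⟨c, hcA'⟩
      have h2 := hR.mul _ _ _ _ hcy hb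
      have h3 := hR.mul _ _ _ _ h1 ha
      have e : algebraMap K F c * (a / b) * b = algebraMap K F ((⟨c, hcA'⟩ : A) : K) * a := by
        field_simp
      rw [e] at h2
      have h4 := hR.unique _ _ _ h2 h3
      have h5 : y = algebraMap (IsLocalRing.ResidueField A) κ
          (IsLocalRing.residue A ⟨c, hcA'⟩) := mul_right_cancel₀ hx h4
      have hres : IsLocalRing.residue A ⟨c, hcA'⟩ ≠ 0 := by
        intro h0
        rw [h0, map_zero] at h5
        exact hy0 h5
      have hunit : IsUnit (⟨c, hcA'⟩ : A) := by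
        by_contra hnu
        exact hres ((IsLocalRing.residue_eq_zero_iff _).mpr hnu)
      obtain ⟨v, hv⟩ := hunit
      have h6 := hR.const (↑v⁻¹ : A)
      have h7 := hR.mul _ _ _ _ h6 hcy
      have hvc : ((↑v⁻¹ : A) : K) * c = 1 := by
        have : (↑v⁻¹ : A) * (⟨c, hcA'⟩ : A) = 1 := by rw [← hv]; exact v.inv_mul
        exact congrArg (Subtype.val) this
      have e2 : algebraMap K F ((↑v⁻¹ : A) : K) * (algebraMap K F c * (a / b)) = a / b := by
        rw [← mul_assoc, ← map_mul, hvc, map_one, one_mul]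
      have e3 : algebraMap (IsLocalRing.ResidueField A) κ (IsLocalRing.residue A (↑v⁻¹ : A)) * y
          = 1 := by
        rw [h5, ← map_mul, ← map_mul]
        have : (↑v⁻¹ : A) * (⟨c, hcA'⟩ : A) = 1 := by rw [← hv]; exact v.inv_mul
        rw [this, map_one, map_one]
      rw [e2, e3] at h7
      exact h7
    · exfalso
      -- `c⁻¹` is a nonunit of `A`
      have hnu : ¬ IsUnit (⟨c⁻¹, hcA⟩ : A) := by
        rintro ⟨v, hv⟩
        apply hcA'
        have : ((↑v⁻¹ : A) : K) = c := by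
          have h1 : (↑v⁻¹ : A) * (⟨c⁻¹, hcA⟩ : A) = 1 := by rw [← hv]; exact v.inv_mul
          have h2 : ((↑v⁻¹ : A) : K) * c⁻¹ = 1 := congrArg (Subtype.val) h1
          field_simp at h2
          exact h2
        rw [← this]
        exact (↑v⁻¹ : A).2
      have hres : IsLocalRing.residue A ⟨c⁻¹, hcA⟩ = 0 :=
        (IsLocalRing.residue_eq_zero_iff _).mpr hnu
      have h1 := hR.const ⟨c⁻¹, hcA⟩
      rw [hres, map_zero] at h1
      have h2 := hR.mul _ _ _ _ h1 hcy
      have e : algebraMap K F ((⟨c⁻¹, hcA⟩ : A) : K) * (algebraMap K F c * (a / b)) = a / b := by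
        rw [← mul_assoc, ← map_mul]
        show algebraMap K F (c⁻¹ * c) * (a / b) = a / b
        rw [inv_mul_cancel₀ hc0, map_one, one_mul]
      rw [e, zero_mul] at h2
      have h3 := hR.mul _ _ _ _ h2 hb
      rw [div_mul_cancel₀ _ hb0, zero_mul] at h3
      exact hx (hR.unique _ _ _ ha h3)

end Abstract

/-- **Bridge.**  The abstract core statement for a Gauss layer at level `M` implies the Kummer
statement at level `M`. -/
theorem main {ℓ M : ℕ} [NeZero M] (hℓ : ℓ.Prime) (A : ValuationSubring (AlgebraicClosure ℚ))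
    (hA : A.LiesOverPrime ℓ)
    (κ : IntermediateField (IsLocalRing.ResidueField A)
      (LaurentSeries (IsLocalRing.ResidueField A)))
    (Red : modularFunctionFieldBar M → κ → Prop)
    (hR : RedFacts A Red)
    (hint : ∀ (V : LaurentSeries A) (hV : genS A V ∈ modularFunctionFieldBar M),
      ∃ hx : redS A V ∈ κ, Red ⟨genS A V, hV⟩ ⟨redS A V, hx⟩)
    (hcore : CoreStmt A Red) : KummerStmt ℓ A M := by
  classical
  intro d hd hdℓ V₁ V₂ h₁ h₂ hred hne hdiv
  have hP := ConstPF.placeFacts_bar M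
  have hV₁ : genS A V₁ ≠ 0 := Descent.genS_ne_zero A hne
  have hV₂ : genS A V₂ ≠ 0 := Descent.genS_ne_zero A (hred ▸ hne)
  set a : modularFunctionFieldBar M := ⟨genS A V₁, h₁⟩ with ha
  set b : modularFunctionFieldBar M := ⟨genS A V₂, h₂⟩ with hb
  have ha0 : a ≠ 0 := fun h => hV₁ (congrArg Subtype.val h)
  have hb0 : b ≠ 0 := fun h => hV₂ (congrArg Subtype.val h)
  obtain ⟨hx₁, hR₁⟩ := hint V₁ h₁
  obtain ⟨hx₂, hR₂⟩ := hint V₂ h₂
  have hxx : (⟨redS A V₂, hx₂⟩ : κ) = ⟨redS A V₁, hx₁⟩ := Subtype.ext hred.symm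
  rw [hxx] at hR₂
  have hx0 : (⟨redS A V₁, hx₁⟩ : κ) ≠ 0 := fun h => hne (congrArg Subtype.val h)
  have hRu : Red (a / b) 1 := red_div_one hR hx0 hR₁ hR₂ ha0 hb0
  have hu0 : a / b ≠ 0 := div_ne_zero ha0 hb0
  -- the divisor of `u`, divided by `d`
  have hprinc : HasPrincipalDivisors (AlgebraicClosure ℚ) (modularFunctionFieldBar M) :=
    Fermat.Agent.S24.hasPrincipalDivisors_of hP.hdeg hP.hfin hP.hsum
  obtain ⟨Du, hDu, -⟩ := hprinc.exists_divisor (a / b) hu0
  let D' : Divisor (AlgebraicClosure ℚ) (modularFunctionFieldBar M) :=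
    Du.mapRange (fun n : ℤ => n / (d : ℤ)) (by simp)
  have hD' : ∀ v : Place (AlgebraicClosure ℚ) (modularFunctionFieldBar M),
      (d : ℤ) * D' v = v.ord (a / b) := by
    intro v
    show (d : ℤ) * (Du.mapRange (fun n : ℤ => n / (d : ℤ)) (by simp)) v = _
    rw [Finsupp.mapRange_apply, hDu v]
    exact Int.mul_ediv_cancel' (hdiv v)
  have hdk := natCast_residue_ne_zero hℓ hd hdℓ A hA
  obtain ⟨w₀, hw₀, hw₀D⟩ := hcore d hdk D' (a / b) hu0 hD' hRu
  -- `u / w₀ ^ d` has neither zeros nor poles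
  have hq0 : a / b / w₀ ^ d ≠ 0 := div_ne_zero hu0 (pow_ne_zero _ hw₀)
  have hord : ∀ v : Place (AlgebraicClosure ℚ) (modularFunctionFieldBar M),
      v.ord (a / b / w₀ ^ d) = 0 := by
    intro v
    rw [div_eq_mul_inv, v.ord_mul hu0 (inv_ne_zero (pow_ne_zero _ hw₀)), v.ord_inv,
      ← zpow_natCast, v.ord_zpow, ← hD' v, hw₀D v]
    ring
  obtain ⟨c, hc⟩ := ConstPF.exists_const_bar M _ hq0 hord
  have hc0 : c ≠ 0 := by
    rintro rfl
    rw [map_zero] at hc
    exact hq0 hc
  obtain ⟨c₁, hc₁⟩ := IsAlgClosed.exists_pow_nat_eq c hd.pos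
  refine ⟨algebraMap (AlgebraicClosure ℚ) (modularFunctionFieldBar M) c₁ * w₀, ?_⟩
  rw [mul_pow, ← map_pow, hc₁, ← hc, div_mul_cancel₀ _ (pow_ne_zero _ hw₀)]

end Fermat.Agent.S18.Bridge

end
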