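import Fermat.Agent.S24.Degree
import Fermat.Prelude.Def_ModularCurve_X0ModL

/-!
# S18 / ConstB, algebraic part

* `transcendental_jqModC`: `j` is transcendental over any field `k` (inside `k((q))`);
* `not_linearIndependent_monomials`: for every field `k` and `d ∣ N`, the monomials
  `j^a * j(q^d)^b` (`a ≤ D`, `b ≤ n`) are `k`-linearly dependent in `k((q))` (transfer of the
  characteristic-zero relation of S24 through a primitive integral relation);
* `finiteDimensional_full`: `modularFunctionFieldFullC k N` is finite over `k(j)`.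
-/

set_option autoImplicit false

namespace Fermat.Agent.S18.ConstBAlg

open ModularCurve Polynomial IntermediateField

section Trans

variable (k : Type*) [Field k]

theorem coeff_algebraMap_mul (c : k) (f : LaurentSeries k) (z : ℤ) :
    (algebraMap k (LaurentSeries k) c * f).coeff z = c * f.coeff z := by
  rw [ModularCurve.algebraMap_laurentSeries_eq_single, HahnSeries.coeff_single_zero_mul]

/-- The coefficient of `q^(-m)` in `j^i`, `i ≤ m`. -/
theorem coeff_jqModC_pow (i m : ℕ) (him : i ≤ m) :
    ((jqModC k) ^ i).coeff (-(m : ℤ)) = if i = m then 1 else 0 := by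
  split_ifs with h
  · subst h
    rw [coeff_jqModC_pow_self]
  · have hlt : i < m := lt_of_le_of_ne him h
    rw [coeff_jqModC_pow_of_lt k (by omega)]

/-- `j` is transcendental over the constants, in every characteristic. -/
theorem transcendental_jqModC : Transcendental k (jqModC k) := by
  rw [transcendental_iff]
  intro p hp
  by_contra hp0
  have h := congrArg (fun f : LaurentSeries k => f.coeff (-(p.natDegree : ℤ))) hp
  simp only [HahnSeries.coeff_zero] at h
  rw [aeval_eq_sum_range] at h
  rw [HahnSeries.coeff_sum, Finset.sum_eq_single p.natDegree] at h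
  · rw [Algebra.smul_def, coeff_algebraMap_mul, coeff_jqModC_pow k _ _ le_rfl, if_pos rfl,
      mul_one] at h
    exact hp0 (leadingCoeff_eq_zero.mp h)
  · intro i hi hne
    rw [Algebra.smul_def, coeff_algebraMap_mul,
      coeff_jqModC_pow k i _ (Nat.lt_succ_iff.mp (Finset.mem_range.mp hi)), if_neg hne,
      mul_zero]
  · intro h'
    exact absurd (Finset.mem_range.mpr (Nat.lt_succ_self _)) h'

end Trans

section Prim

/-- A `ℚ`-linear relation between integral Laurent series reduces to a nontrivial linear relation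
over any field (primitive integral relation). -/
theorem not_linearIndependent_of_rat {ι : Type*} [Fintype ι] (k : Type*) [Field k]
    (w : ι → LaurentSeries ℤ)
    (h : ¬ LinearIndependent ℚ (fun i => coeffMap (Int.castRingHom ℚ) (w i))) :
    ∃ c : ι → k, (∃ i, c i ≠ 0) ∧
      ∑ i, HahnSeries.C (c i) * coeffMap (Int.castRingHom k) (w i) = 0 := by
  classical
  have h1 : ¬ LinearIndependent ℤ w := by
    intro hli
    apply h
    have hinj : Function.Injective (coeffMap (Int.castRingHom ℚ)) := by
      intro x y hxy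
      ext n
      have := congrArg (fun z : LaurentSeries ℚ => z.coeff n) hxy
      simp only [coeffMap_coeff] at this
      exact Int.cast_injective this
    have hli' : LinearIndependent ℤ (fun i => coeffMap (Int.castRingHom ℚ) (w i)) :=
      hli.map' ((coeffMap (Int.castRingHom ℚ)).toAddMonoidHom.toIntLinearMap)
        (LinearMap.ker_eq_bot.mpr hinj)
    exact (LinearIndependent.iff_fractionRing (R := ℤ) (K := ℚ)).mp hli'
  rw [Fintype.linearIndependent_iff] at h1
  push Not at h1
  obtain ⟨c, hc, i₀, hi₀⟩ := h1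
  obtain ⟨g, hg, hgcd⟩ := Finset.extract_gcd c (Finset.univ_nonempty_iff.mpr ⟨i₀⟩)
  have hG : Finset.univ.gcd c ≠ 0 := by
    intro h0
    rw [Finset.gcd_eq_zero_iff] at h0
    exact hi₀ (h0 i₀ (Finset.mem_univ _))
  have hsum : ∑ i, g i • w i = 0 := by
    have hG0 : (Finset.univ.gcd c) • ∑ i, g i • w i = 0 := by
      rw [Finset.smul_sum, ← hc]
      refine Finset.sum_congr rfl fun i _ => ?_
      rw [smul_smul, ← hg i (Finset.mem_univ _)]
    ext n
    have h2 := congrArg (fun z : LaurentSeries ℤ => (HahnSeries.coeff.addMonoidHom n) z) hG0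
    simp only [map_zsmul, map_zero] at h2
    rcases smul_eq_zero.mp h2 with h3 | h3
    · exact absurd h3 hG
    · simpa using h3
  refine ⟨fun i => (g i : k), ?_, ?_⟩
  swap
  · have h3 := congrArg (coeffMap (Int.castRingHom k)) hsum
    rw [map_sum, map_zero] at h3
    rw [← h3]
    refine Finset.sum_congr rfl fun i _ => ?_
    rw [map_zsmul, zsmul_eq_mul, map_intCast]
  by_contra hk'
  push Not at hk'
  have hk : ∀ i, (g i : k) = 0 := hk'
  obtain ⟨p, hp⟩ := CharP.exists k
  have hdvd : ∀ i, (p : ℤ) ∣ g i := fun i => (CharP.intCast_eq_zero_iff k p (g i)).mp (hk i)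
  have hp1 : (p : ℤ) ∣ Finset.univ.gcd g := Finset.dvd_gcd fun i _ => hdvd i
  rw [hgcd] at hp1
  have hp1' : p = 1 := by
    have := Int.natCast_dvd_natCast.mp (by simpa using hp1 : ((p : ℕ) : ℤ) ∣ ((1 : ℕ) : ℤ))
    exact Nat.dvd_one.mp this
  subst hp1'
  exact CharP.char_ne_one k 1 rfl

end Prim

section Mono

theorem linearIndependent_of_val {K L : Type*} [Field K] [Field L] [Algebra K L]
    (E : IntermediateField K L) {ι : Type*} (v : ι → E)
    (h : LinearIndependent K (fun i => (v i : L))) : LinearIndependent K v :=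
  LinearIndependent.of_comp E.val.toLinearMap h

/-- The integral monomials `j^a * j(q^d)^b`. -/
noncomputable def mono (d : ℕ) [NeZero d] (a b : ℕ) : LaurentSeries ℤ :=
  (qExpand ℤ 1 (jqModC ℤ)) ^ a * (qExpand ℤ d (jqModC ℤ)) ^ b

theorem coeffMap_mono (R : Type*) [CommRing R] (d : ℕ) [NeZero d] (a b : ℕ) :
    coeffMap (Int.castRingHom R) (mono d a b)
      = (jqModC R) ^ a * (qExpand R d (jqModC R)) ^ b := by
  rw [mono, map_mul, map_pow, map_pow, coeffMap_qExpand, coeffMap_qExpand, coeffMap_jqModC,
    qExpand_one_apply]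

/-- For every field `k` and `d ∣ N`, the monomials `j^a * j(q^d)^b` (`a ≤ D`, `b ≤ n`) are
`k`-linearly dependent. -/
theorem not_linearIndependent_monomials (k : Type*) [Field k] (N : ℕ) [NeZero N] (d : ℕ)
    [NeZero d] (hd : d ∣ N) :
    ∃ (n D : ℕ) (c : Fin (D + 1) × Fin (n + 1) → k), (∃ ik, c ik ≠ 0) ∧
      ∑ ik : Fin (D + 1) × Fin (n + 1), HahnSeries.C (c ik) *
        ((jqModC k) ^ (ik.1 : ℕ) * (qExpand k d (jqModC k)) ^ (ik.2 : ℕ)) = 0 := by
  obtain ⟨D, hD⟩ := Fermat.Agent.S24.Degree.not_linearIndependent_of_mem (K := ℚ)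
    (algebraMap ℚ ℂ) N (Fermat.Agent.S24.Jgen ℚ N d)
    (@Algebra.subset_adjoin ℚ _ _ _ (SubalgebraClass.toAlgebra (Fermat.Agent.S24.FK ℚ N)) _ _
      ⟨d, hd, rfl⟩)
  refine ⟨Nat.card (Fermat.Agent.S24.X0 N), D, ?_⟩
  have hemb : ∀ x : LaurentSeries ℚ, coeffEmb ℚ x = x := fun x => by
    rw [coeffEmb]
    exact (coeffMap_congr rfl x).trans (coeffMap_id x)
  have h1 : ¬ LinearIndependent ℚ
      (fun ik : Fin (D + 1) × Fin (Nat.card (Fermat.Agent.S24.X0 N) + 1) =>
        coeffMap (Int.castRingHom ℚ) (mono d ik.1 ik.2)) := by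
    intro hli
    apply hD
    apply linearIndependent_of_val
    convert hli using 1
    · funext ik
      rw [coeffMap_mono]
      rw [MulMemClass.coe_mul, SubmonoidClass.coe_pow, SubmonoidClass.coe_pow,
        Fermat.Agent.S24.coe_xgen, Fermat.Agent.S24.coe_Jgen ℚ N hd, Fermat.Agent.S24.Jser_eq,
        Fermat.Agent.S24.Jser_eq, hemb, hemb, qExpand_one_apply]
      rfl
    all_goals first | rfl | exact (subsingleton_rat_module (LaurentSeries ℚ)).elim _ _
  obtain ⟨c, hc, hsum⟩ := not_linearIndependent_of_rat k _ h1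
  refine ⟨c, hc, ?_⟩
  rw [← hsum]
  refine Finset.sum_congr rfl fun ik _ => ?_
  rw [coeffMap_mono]

end Mono

section FD

variable (k : Type*) [Field k] (N : ℕ) [NeZero N]

/-- The coordinate `j` of `Fb_N = modularFunctionFieldFullC k N`. -/
noncomputable def xC : modularFunctionFieldFullC k N := ⟨jqModC k, jqModC_mem_full k N⟩

omit [NeZero N] in
theorem coe_xC : ((xC k N : modularFunctionFieldFullC k N) : LaurentSeries k) = jqModC k := rfl

omit [NeZero N] in
theorem transcendental_xC : Transcendental k (xC k N) := by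
  intro h
  have h2 : IsAlgebraic k ((xC k N : modularFunctionFieldFullC k N) : LaurentSeries k) :=
    h.algebraMap (A := LaurentSeries k)
  exact transcendental_jqModC k h2

open Classical in
/-- The generators `j(q^d)`, `d ∣ N`, of `Fb_N` (zero if `d ∤ N`). -/
noncomputable def genC (d : ℕ) : modularFunctionFieldFullC k N :=
  if h : d ∣ N then
    haveI : NeZero d := ⟨fun h0 => NeZero.ne N (by rw [h0] at h; exact zero_dvd_iff.mp h)⟩
    ⟨qExpand k d (jqModC k), jqModCd_mem_full k N h⟩
  else 0

theorem coe_genC {d : ℕ} [NeZero d] (hd : d ∣ N) :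
    ((genC k N d : modularFunctionFieldFullC k N) : LaurentSeries k)
      = qExpand k d (jqModC k) := by
  rw [genC, dif_pos hd]

/-- Each generator is integral over `k(j)`. -/
theorem isIntegral_genC (d : ℕ) : IsIntegral k⟮xC k N⟯ (genC k N d) := by
  by_cases hd : d ∣ N
  · have : NeZero d := ⟨fun h0 => NeZero.ne N (by rw [h0] at hd; exact zero_dvd_iff.mp hd)⟩
    obtain ⟨n, D, c, ⟨ik₀, hik₀⟩, hsum⟩ := not_linearIndependent_monomials k N d hd
    have h' : ¬ LinearIndependent k (fun ik : Fin (D + 1) × Fin (n + 1) =>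
        (xC k N) ^ (ik.1 : ℕ) * (genC k N d) ^ (ik.2 : ℕ)) := by
      intro hli
      rw [Fintype.linearIndependent_iff] at hli
      refine hik₀ (hli c ?_ ik₀)
      apply Subtype.val_injective
      rw [AddSubmonoidClass.coe_finsetSum, ZeroMemClass.coe_zero, ← hsum]
      refine Finset.sum_congr rfl fun ik _ => ?_
      rw [IntermediateField.coe_smul, MulMemClass.coe_mul, SubmonoidClass.coe_pow,
        SubmonoidClass.coe_pow, coe_xC, coe_genC k N hd, Algebra.smul_def,
        ModularCurve.algebraMap_laurentSeries_eq_single, HahnSeries.C_apply]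
    obtain ⟨p, hp0, -, hp⟩ :=
      Fermat.Agent.S24.DegreeAlg.exists_poly_of_not_linearIndependent (transcendental_xC k N)
        (genC k N d) n D h'
    have halg : IsAlgebraic k⟮xC k N⟯ (genC k N d) := ⟨p, hp0, hp⟩
    exact halg.isIntegral
  · rw [genC, dif_neg hd]
    exact isIntegral_zero

set_option synthInstance.maxHeartbeats 400000 in
/-- `Fb_N` is finite over `k(j)`, for every field `k`. -/
theorem finiteDimensional_full :
    FiniteDimensional k⟮xC k N⟯ (modularFunctionFieldFullC k N) := by
  have hint : ∀ y ∈ Set.range (fun i : Fin (N + 1) => genC k N (i : ℕ)),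
      IsIntegral k⟮xC k N⟯ y := by
    rintro _ ⟨i, rfl⟩
    exact isIntegral_genC k N i
  have htop : IntermediateField.adjoin k⟮xC k N⟯
      (Set.range (fun i : Fin (N + 1) => genC k N (i : ℕ))) = ⊤ := by
    rw [← IntermediateField.restrictScalars_eq_top_iff (K := k),
      IntermediateField.adjoin_adjoin_left]
    apply IntermediateField.map_injective (modularFunctionFieldFullC k N).val
    rw [IntermediateField.adjoin_map, ← AlgHom.fieldRange_eq_map,
      IntermediateField.fieldRange_val]
    apply le_antisymm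
    · rw [IntermediateField.adjoin_le_iff]
      rintro _ ⟨z, -, rfl⟩
      exact z.2
    · show IntermediateField.adjoin k (divisorExpansionsC k N) ≤ _
      rw [IntermediateField.adjoin_le_iff]
      rintro _ ⟨d, hne, hdvd, rfl⟩
      apply IntermediateField.subset_adjoin
      have hdN : d < N + 1 := Nat.lt_succ_of_le (Nat.le_of_dvd (NeZero.pos N) hdvd)
      exact ⟨genC k N d, Or.inr ⟨⟨d, hdN⟩, rfl⟩, coe_genC k N hdvd⟩
  have hfd := IntermediateField.finiteDimensional_adjoin (K := k⟮xC k N⟯) hint
  rw [htop] at hfd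
  exact (IntermediateField.topEquiv (F := k⟮xC k N⟯)
    (E := modularFunctionFieldFullC k N)).toLinearEquiv.finiteDimensional

end FD

end Fermat.Agent.S18.ConstBAlg
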