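import Mathlib
import Fermat.Prelude.Def_FLTPrelim_Ramification

/-!
# S18: the residue field of a valuation subring of an algebraically closed field

Shared utilities for `k = IsLocalRing.ResidueField A`, `A` a valuation subring of an
algebraically closed field `K` lying over a prime `ℓ`:

* `ResField.isAlgClosed` : `k` is algebraically closed;
* `ResField.charP` : `k` has characteristic `ℓ`;
* `ResField.natCast_ne_zero` : `(d : k) ≠ 0` for `ℓ ∤ d`;
* `ResField.isUnit_natCast`, `ResField.inv_natCast_mem` : such `d` are units of `A`;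
* `ResField.exists_root_of_unity_lift` : roots of unity of order prime to `ℓ` lift to `A`.
-/

set_option autoImplicit false
set_option synthInstance.maxHeartbeats 400000

namespace Fermat.Agent.S18.ResField

open IsLocalRing Polynomial

variable {K : Type*} [Field K]

/-- An element of `K` which is a root of a monic polynomial over the valuation subring `A` lies
in `A`. -/
theorem mem_of_monic_root (A : ValuationSubring K) (P : A[X]) (hP : P.Monic) (x : K)
    (hx : (P.map A.subtype).eval x = 0) : x ∈ A := by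
  have hint : IsIntegral A x := ⟨P, hP, by rwa [eval_map] at hx⟩
  obtain ⟨y, hy⟩ := IsIntegrallyClosed.isIntegral_iff.mp hint
  rw [← hy]
  exact y.2

/-- The residue field of a valuation subring of an algebraically closed field is algebraically
closed. -/
theorem isAlgClosed [IsAlgClosed K] (A : ValuationSubring K) :
    IsAlgClosed (ResidueField A) := by
  refine IsAlgClosed.of_exists_root _ fun p hpm hpirr => ?_
  obtain ⟨P, hPmap, hPdeg, hPm⟩ := lifts_and_degree_eq_and_monic
    ((mem_lifts p).mpr (map_surjective (residue A) residue_surjective p)) hpm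
  have hdeg : (P.map A.subtype).degree ≠ 0 := by
    rw [degree_map_eq_of_injective A.subtype_injective, hPdeg]
    exact fun h => hpirr.not_isUnit (isUnit_iff_degree_eq_zero.mpr h)
  obtain ⟨x, hx⟩ := IsAlgClosed.exists_root (P.map A.subtype) hdeg
  have hxA : x ∈ A := mem_of_monic_root A P hPm x hx
  have hx' : (P.map A.subtype).eval x = 0 := hx
  refine ⟨residue A ⟨x, hxA⟩, ?_⟩
  rw [← hPmap, eval_map, eval₂_hom]
  have h0 : P.eval (⟨x, hxA⟩ : A) = 0 := by
    apply A.subtype_injective
    rw [map_zero, ← eval₂_hom]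
    rw [eval_map] at hx'
    exact hx'
  rw [h0, map_zero]

/-- If `A` lies over `ℓ`, then `ℓ` is zero in the residue field. -/
theorem natCast_self_eq_zero (A : ValuationSubring K) {ℓ : ℕ} (hA : A.LiesOverPrime ℓ) :
    ((ℓ : ℕ) : ResidueField A) = 0 := by
  have hmem : (ℓ : K) ∈ A := A.nonunits_le hA
  have h1 : ((ℓ : ℕ) : A) = ⟨(ℓ : K), hmem⟩ := Subtype.ext (by simp)
  have h2 : (⟨(ℓ : K), hmem⟩ : A) ∈ maximalIdeal A := by
    rw [mem_maximalIdeal, mem_nonunits_iff]
    intro hu
    exact (ValuationSubring.mem_nonunits_iff_exists_mem_maximalIdeal.mp hA).elim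
      fun ha h => (mem_nonunits_iff.mp ((mem_maximalIdeal _).mp h))
        (by convert hu)
  rw [← map_natCast (residue A), h1]
  exact (residue_eq_zero_iff _).mpr h2

/-- If `A` lies over the prime `ℓ`, the residue field has characteristic `ℓ`. -/
theorem charP (A : ValuationSubring K) {ℓ : ℕ} (hℓ : ℓ.Prime) (hA : A.LiesOverPrime ℓ) :
    CharP (ResidueField A) ℓ := by
  have h := CharP.ringChar_of_prime_eq_zero hℓ (natCast_self_eq_zero A hA)
  have := ringChar.charP (ResidueField A)
  rwa [h] at this

/-- `(d : k) ≠ 0` for `ℓ ∤ d`. -/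
theorem natCast_ne_zero (A : ValuationSubring K) {ℓ : ℕ} (hℓ : ℓ.Prime) (hA : A.LiesOverPrime ℓ)
    {d : ℕ} (hd : ¬ ℓ ∣ d) : ((d : ℕ) : ResidueField A) ≠ 0 := by
  have := charP A hℓ hA
  intro h
  exact hd ((CharP.cast_eq_zero_iff (ResidueField A) ℓ d).mp h)

/-- `(d : k) ≠ 0` for a prime `d ≠ ℓ`. -/
theorem natCast_ne_zero_of_prime (A : ValuationSubring K) {ℓ : ℕ} (hℓ : ℓ.Prime)
    (hA : A.LiesOverPrime ℓ) {d : ℕ} (hd : d.Prime) (hne : d ≠ ℓ) :
    ((d : ℕ) : ResidueField A) ≠ 0 :=
  natCast_ne_zero A hℓ hA fun h => hne ((Nat.prime_dvd_prime_iff_eq hℓ hd).mp h).symm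

/-- A natural number prime to `ℓ` is a unit of `A`. -/
theorem isUnit_natCast (A : ValuationSubring K) {ℓ : ℕ} (hℓ : ℓ.Prime) (hA : A.LiesOverPrime ℓ)
    {d : ℕ} (hd : ¬ ℓ ∣ d) : IsUnit ((d : ℕ) : A) := by
  by_contra hu
  have hm : ((d : ℕ) : A) ∈ maximalIdeal A := by
    rw [mem_maximalIdeal, mem_nonunits_iff]; exact hu
  have h0 := (residue_eq_zero_iff _).mpr hm
  rw [map_natCast] at h0
  exact natCast_ne_zero A hℓ hA hd h0

/-- The inverse of a natural number prime to `ℓ` lies in `A`. -/
theorem inv_natCast_mem (A : ValuationSubring K) {ℓ : ℕ} (hℓ : ℓ.Prime) (hA : A.LiesOverPrime ℓ)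
    {d : ℕ} (hd : ¬ ℓ ∣ d) : ((d : ℕ) : K)⁻¹ ∈ A := by
  obtain ⟨u, hu⟩ := isUnit_natCast A hℓ hA hd
  have h1 : ((u : A) : K) = (d : K) := by rw [hu]; simp
  have h3 : (((u⁻¹ : Aˣ) : A) : K) * ((u : A) : K) = 1 := by
    have h := congrArg A.subtype (Units.inv_mul u)
    rw [map_mul, map_one] at h
    exact h
  have h2 : (((u⁻¹ : Aˣ) : A) : K) = ((d : ℕ) : K)⁻¹ := by
    rw [← h1]
    exact eq_inv_of_mul_eq_one_left h3
  rw [← h2]
  exact ((u⁻¹ : Aˣ) : A).2

/-- Every element of the residue field lifts to `A`. -/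
theorem exists_lift (A : ValuationSubring K) (x : ResidueField A) :
    ∃ a : A, residue A a = x :=
  residue_surjective x

/-- A root of unity of order `d` (with `(d : k) ≠ 0`, `K` algebraically closed) in the residue
field lifts to a `d`-th root of unity of `A`. -/
theorem exists_root_of_unity_lift [IsAlgClosed K] (A : ValuationSubring K) {d : ℕ} (hd0 : 0 < d)
    (ξ : ResidueField A) (hξ : ξ ^ d = 1) :
    ∃ ζ : A, ζ ^ d = 1 ∧ residue A ζ = ξ := by
  classical
  -- `X ^ d - 1` splits over `K` with all roots in `A`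
  have hsplit : ((X ^ d - 1 : K[X])).Splits :=
    IsAlgClosed.splits _
  have hmonicA : (X ^ d - 1 : A[X]).Monic := by
    simpa using monic_X_pow_sub_C (1 : A) hd0.ne'
  have hmapA : (X ^ d - 1 : A[X]).map A.subtype = (X ^ d - 1 : K[X]) := by simp
  have hmonicK : (X ^ d - 1 : K[X]).Monic := by
    simpa using monic_X_pow_sub_C (1 : K) hd0.ne'
  -- the roots, as elements of `A`
  have hroots : ∀ x ∈ (X ^ d - 1 : K[X]).roots, x ∈ A := fun x hx =>
    mem_of_monic_root A _ hmonicA x (by rw [hmapA]; exact (mem_roots'.mp hx).2)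
  let s : Multiset A := (X ^ d - 1 : K[X]).roots.pmap (fun x hx => (⟨x, hx⟩ : A)) hroots
  have hs : s.map A.subtype = (X ^ d - 1 : K[X]).roots := by
    simp only [s]
    rw [Multiset.map_pmap]
    simp [Multiset.pmap_eq_map]
  have hprodA : (X ^ d - 1 : A[X]) = (s.map fun a => X - C a).prod := by
    apply map_injective A.subtype A.subtype_injective
    rw [hmapA, Polynomial.map_multiset_prod, Multiset.map_map]
    have h1 := hsplit.eq_prod_roots_of_monic hmonicK
    rw [← hs, Multiset.map_map] at h1
    have hfun : (Polynomial.map A.subtype ∘ fun a : A => (X - C a : A[X]))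
        = ((fun a : K => (X - C a : K[X])) ∘ A.subtype) := by
      funext a; simp
    rw [hfun]; exact h1
  -- reduce
  have hprodk : (X ^ d - 1 : (ResidueField A)[X]) =
      (s.map fun a => X - C (residue A a)).prod := by
    have h2 := congrArg (Polynomial.map (residue A)) hprodA
    rw [Polynomial.map_multiset_prod, Multiset.map_map] at h2
    simpa using h2
  have hev : ((s.map fun a => X - C (residue A a)).prod).eval ξ = 0 := by
    rw [← hprodk]; simp [hξ]
  rw [eval_multiset_prod, Multiset.prod_eq_zero_iff, Multiset.map_map] at hev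
  obtain ⟨a, ha, ha0⟩ := Multiset.mem_map.mp hev
  refine ⟨a, ?_, ?_⟩
  · have haK : (a : K) ∈ (X ^ d - 1 : K[X]).roots := by
      rw [← hs]; exact Multiset.mem_map.mpr ⟨a, ha, rfl⟩
    have h3 := (mem_roots'.mp haK).2
    apply A.subtype_injective
    have h4 : (a : K) ^ d - 1 = 0 := by simpa using h3
    simpa using sub_eq_zero.mp h4
  · have : ξ - residue A a = 0 := by simpa using ha0
    exact (sub_eq_zero.mp this).symm

/-- An element of a field extension of an algebraically closed field `k` which is integral over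
`k` lies in `k`. -/
theorem mem_range_of_isIntegral {k κ : Type*} [Field k] [IsAlgClosed k] [Field κ] [Algebra k κ]
    {x : κ} (hx : IsIntegral k x) : x ∈ (algebraMap k κ).range :=
  minpoly.mem_range_of_degree_eq_one k x
    (IsAlgClosed.degree_eq_one_of_irreducible k (minpoly.irreducible hx))

/-- A `d`-th root of unity (`d > 0`) in a field extension `κ` of the residue field `k` of `A`
(`K` algebraically closed) is the reduction of a `d`-th root of unity of `A`. -/
theorem exists_root_of_unity_lift' [IsAlgClosed K] (A : ValuationSubring K) {κ : Type*} [Field κ]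
    [Algebra (ResidueField A) κ] {d : ℕ} (hd0 : 0 < d) (ξ : κ) (hξ : ξ ^ d = 1) :
    ∃ ζ : A, ζ ^ d = 1 ∧ algebraMap (ResidueField A) κ (residue A ζ) = ξ := by
  have := isAlgClosed A
  have hint : IsIntegral (ResidueField A) ξ :=
    ⟨X ^ d - 1, by simpa using monic_X_pow_sub_C (1 : ResidueField A) hd0.ne', by simp [hξ]⟩
  obtain ⟨c, hc⟩ := mem_range_of_isIntegral hint
  have hc1 : c ^ d = 1 := by
    apply (algebraMap (ResidueField A) κ).injective
    rw [map_pow, hc, hξ, map_one]
  obtain ⟨ζ, hζ, hζc⟩ := exists_root_of_unity_lift A hd0 c hc1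
  exact ⟨ζ, hζ, by rw [hζc, hc]⟩

end Fermat.Agent.S18.ResField
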