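import Fermat.Agent.RR.Defs
import Fermat.Agent.S24.FFBasic
import Fermat.Agent.S24.Exchange
import Fermat.Agent.S24.PlacesOver
import Fermat.Agent.S24.Residue

/-!
# S18: `PlaceFacts` for a function field over an algebraically closed field of any characteristic

`placeFacts_of_sep`: if `F/K(x)` is finite separable (`x` transcendental, `K` algebraically
closed), then `RR.PlaceFacts K F` holds.  The `hfin`/`hsum` fields for an arbitrary transcendental
`y` (possibly inseparable) are obtained by Frobenius descent.
-/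

set_option autoImplicit false

namespace Fermat.Agent.S18.PlaceFactsP

open AlgebraicCurve IntermediateField Polynomial

universe u v

section Sep

open scoped IntermediateField.algebraAdjoinAdjoin

variable {K : Type u} {F : Type v} [Field K] [Field F] [Algebra K F]

/-- The places over `y = 0`, for a separating `y` (any characteristic). -/
theorem exists_places_package_sep [IsAlgClosed K] (y : F) (hy : Transcendental K y)
    [FiniteDimensional K⟮y⟯ F] [Algebra.IsSeparable K⟮y⟯ F] :
    ∃ (ι : Type v) (_ : Fintype ι) (g : ι → Place K F) (e : ι → ℕ), Function.Injective g ∧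
      Set.range g = {v : Place K F | 0 < v.ord y} ∧ (∀ i, (g i).ord y = e i) ∧
      ∑ i, e i = Module.finrank K⟮y⟯ F := by
  have := Fermat.Agent.S24.PlacesOver.isPrincipalIdealRing_adjoin y hy
  have : IsDedekindDomain (integralClosure (Algebra.adjoin K {y}) F) :=
    integralClosure.isDedekindDomain (Algebra.adjoin K {y}) K⟮y⟯ F
  have : IsFractionRing (integralClosure (Algebra.adjoin K {y}) F) F :=
    integralClosure.isFractionRing_of_finite_extension K⟮y⟯ F
  have : Module.Finite (Algebra.adjoin K {y}) (integralClosure (Algebra.adjoin K {y}) F) :=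
    IsIntegralClosure.finite (Algebra.adjoin K {y}) K⟮y⟯ F _
  have : FaithfulSMul (Algebra.adjoin K {y}) (integralClosure (Algebra.adjoin K {y}) F) :=
    (faithfulSMul_iff_algebraMap_injective _ _).mpr (fun a b h =>
      Subtype.ext (congrArg (fun z : integralClosure (Algebra.adjoin K {y}) F => (z : F)) h))
  have halg : ∀ f : F, Transcendental K f → Algebra.IsAlgebraic K⟮f⟯ F := fun f hf =>
    Fermat.Agent.S24.PlacesOver.isAlgebraic_adjoin_of_transcendental y hy inferInstance f hf
  have hy0 : y ≠ 0 := fun h => hy (h ▸ isAlgebraic_zero)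
  exact Fermat.Agent.S24.PlacesOver.exists_places_package_aux' y halg
    (fun h => hy0 (congrArg Subtype.val h))
    (Fermat.Agent.S24.PlacesOver.isMaximal_span_gen y hy)

theorem finite_places_pos_sep [IsAlgClosed K] (y : F) (hy : Transcendental K y)
    [FiniteDimensional K⟮y⟯ F] [Algebra.IsSeparable K⟮y⟯ F] :
    {v : Place K F | 0 < v.ord y}.Finite := by
  obtain ⟨ι, hι, g, e, hg, hrange, hord, hsum⟩ := exists_places_package_sep y hy
  rw [← hrange]
  exact Set.finite_range g

theorem sum_ord_eq_finrank_sep [IsAlgClosed K] (y : F) (hy : Transcendental K y)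
    [FiniteDimensional K⟮y⟯ F] [Algebra.IsSeparable K⟮y⟯ F] :
    ∑ᶠ v ∈ {v : Place K F | 0 < v.ord y}, v.ord y = (Module.finrank K⟮y⟯ F : ℤ) := by
  obtain ⟨ι, hι, g, e, hg, hrange, hord, hsum⟩ := exists_places_package_sep y hy
  rw [← hrange, finsum_mem_range hg, finsum_eq_sum_of_fintype, ← hsum, Nat.cast_sum]
  exact Finset.sum_congr rfl fun i _ => hord i

end Sep

section Frob

variable {K : Type u} {F : Type v} [Field K] [Field F] [Algebra K F]

/-- A transcendental `w` is not a rational function of `w ^ p` (`p ≥ 2`). -/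
theorem not_mem_adjoin_pow {w : F} (hw : Transcendental K w) {p : ℕ} (hp : 2 ≤ p) :
    w ∉ K⟮w ^ p⟯ := by
  intro hmem
  rw [IntermediateField.mem_adjoin_simple_iff] at hmem
  obtain ⟨r, s, hrs⟩ := hmem
  have hw0 : w ≠ 0 := fun h => hw (h ▸ isAlgebraic_zero)
  have hs0 : aeval (w ^ p) s ≠ 0 := by
    intro h0
    rw [h0, div_zero] at hrs
    exact hw0 hrs
  have hsne : s ≠ 0 := by
    rintro rfl
    exact hs0 (by simp)
  have hp0 : 0 < p := by omega
  have hkey : aeval w (X * expand K p s - expand K p r) = 0 := by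
    rw [map_sub, map_mul, aeval_X, expand_aeval, expand_aeval]
    have h2 : w * aeval (w ^ p) s = aeval (w ^ p) r := (eq_div_iff hs0).mp hrs
    rw [h2, sub_self]
  have hpoly : X * expand K p s - expand K p r = 0 := by
    by_contra hne
    exact hw ⟨_, hne, hkey⟩
  obtain ⟨d, hd⟩ : ∃ d, s.coeff d ≠ 0 := by
    by_contra hall
    push Not at hall
    exact hsne (Polynomial.ext fun n => by simpa using hall n)
  have h1 := congrArg (fun f => f.coeff (p * d + 1)) hpoly
  simp only [coeff_sub, coeff_X_mul, coeff_zero] at h1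
  rw [coeff_expand hp0, coeff_expand hp0] at h1
  have hdvd : p ∣ p * d := dvd_mul_right p d
  have hndvd : ¬ p ∣ p * d + 1 := by
    intro h
    have : p ∣ 1 := (Nat.dvd_add_right hdvd).mp h
    have := Nat.le_of_dvd one_pos this
    omega
  rw [if_pos hdvd, if_neg hndvd, Nat.mul_div_cancel_left d hp0, sub_zero] at h1
  exact hd h1

/-- `[F : K(w ^ p)] = p [F : K(w)]` for a transcendental `w` in characteristic `p`. -/
theorem finrank_adjoin_pow (p : ℕ) [hp : Fact p.Prime] [CharP K p] {w : F}
    (hw : Transcendental K w) :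
    Module.finrank K⟮w ^ p⟯ F = p * Module.finrank K⟮w⟯ F := by
  have hCF : CharP F p := charP_of_injective_algebraMap (algebraMap K F).injective p
  have hle : K⟮w ^ p⟯ ≤ K⟮w⟯ := by
    rw [IntermediateField.adjoin_simple_le_iff]
    exact pow_mem (IntermediateField.mem_adjoin_simple_self K w) p
  rw [← IntermediateField.relfinrank_mul_finrank_top hle]
  congr 1
  rw [IntermediateField.relfinrank_eq_finrank_of_le hle]
  have hext : IntermediateField.extendScalars hle = (K⟮w ^ p⟯)⟮w⟯ := by
    apply le_antisymm
    · intro a ha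
      have ha' : a ∈ K⟮w⟯ := ha
      have hle2 : K⟮w⟯ ≤ ((K⟮w ^ p⟯)⟮w⟯).restrictScalars K := by
        rw [IntermediateField.adjoin_simple_le_iff]
        exact IntermediateField.mem_adjoin_simple_self _ w
      exact hle2 ha'
    · rw [IntermediateField.adjoin_simple_le_iff]
      exact IntermediateField.mem_adjoin_simple_self K w
  rw [hext]
  let c : K⟮w ^ p⟯ := ⟨w ^ p, IntermediateField.mem_adjoin_simple_self K (w ^ p)⟩
  have hirr : Irreducible (X ^ p - C c : (K⟮w ^ p⟯)[X]) := by
    apply X_pow_sub_C_irreducible_of_prime hp.out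
    intro b hb
    have hb' : (b : F) ^ p = w ^ p := by
      have := congrArg (Subtype.val) hb
      simpa using this
    have hbw : (b : F) = w := frobenius_inj F p hb'
    have hbmem : (b : F) ∈ K⟮w ^ p⟯ := b.2
    rw [hbw] at hbmem
    exact not_mem_adjoin_pow hw hp.out.two_le hbmem
  have hroot : aeval w (X ^ p - C c : (K⟮w ^ p⟯)[X]) = 0 := by
    simp [c]
  have hmonic : (X ^ p - C c : (K⟮w ^ p⟯)[X]).Monic := monic_X_pow_sub_C c hp.out.ne_zero
  have hmin := minpoly.eq_of_irreducible_of_monic hirr hroot hmonic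
  have hint : IsIntegral K⟮w ^ p⟯ w := ⟨_, hmonic, hroot⟩
  rw [IntermediateField.adjoin.finrank hint, ← hmin, natDegree_X_pow_sub_C]

/-- A separating element is not a `p`-th power. -/
theorem not_pow_of_sep (p : ℕ) [hp : Fact p.Prime] [CharP K p] {x : F} (hx : Transcendental K x)
    [Algebra.IsSeparable K⟮x⟯ F] (w : F) : w ^ p ≠ x := by
  intro hwx
  subst hwx
  have hw : Transcendental K w := fun hwalg => hx (hwalg.pow p)
  have hEK : ExpChar K p := ExpChar.prime hp.out
  have hE : ExpChar K⟮w ^ p⟯ p :=
    expChar_of_injective_algebraMap (algebraMap K K⟮w ^ p⟯).injective p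
  have h1 := IntermediateField.adjoin_simple_eq_adjoin_pow_expChar_of_isSeparable'
    (K⟮w ^ p⟯) F w p
  have h2 : w ∈ (K⟮w ^ p⟯)⟮w ^ p⟯ := h1 ▸ IntermediateField.mem_adjoin_simple_self _ w
  have h3 : (K⟮w ^ p⟯)⟮w ^ p⟯ = ⊥ := by
    rw [IntermediateField.adjoin_simple_eq_bot_iff, IntermediateField.mem_bot]
    exact ⟨⟨w ^ p, IntermediateField.mem_adjoin_simple_self K (w ^ p)⟩, rfl⟩
  rw [h3, IntermediateField.mem_bot] at h2
  obtain ⟨b, hb⟩ := h2
  have hbmem : (b : F) ∈ K⟮w ^ p⟯ := b.2
  have hbw : (b : F) = w := hb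
  rw [hbw] at hbmem
  exact not_mem_adjoin_pow hw hp.out.two_le hbmem

section WithFrob

variable (p : ℕ) [hp : Fact p.Prime] [CharP K p] {x : F} (hx : Transcendental K x)
  [Algebra.IsSeparable K⟮x⟯ F] (Fp : IntermediateField K F)
  (hFp : ∀ a : F, a ∈ Fp ↔ ∃ b : F, b ^ p = a)

include hx hFp in
/-- `[F : F^p] = p` for a function field of one variable with a separating element. -/
theorem finrank_frob : Module.finrank Fp F = p := by
  have hCF : CharP F p := charP_of_injective_algebraMap (algebraMap K F).injective p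
  have hxFp : x ∉ Fp := fun h => by
    obtain ⟨w, hw⟩ := (hFp x).mp h
    exact not_pow_of_sep p hx w hw
  let c : Fp := ⟨x ^ p, (hFp _).mpr ⟨x, rfl⟩⟩
  have hirr : Irreducible (X ^ p - C c : Fp[X]) := by
    apply X_pow_sub_C_irreducible_of_prime hp.out
    intro b hb
    have hb' : (b : F) ^ p = x ^ p := by
      have := congrArg (Subtype.val) hb
      simpa using this
    have hbx : (b : F) = x := frobenius_inj F p hb'
    have hbmem : (b : F) ∈ Fp := b.2
    rw [hbx] at hbmem
    exact hxFp hbmem
  have hroot : aeval x (X ^ p - C c : Fp[X]) = 0 := by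
    simp [c]
  have hmonic : (X ^ p - C c : Fp[X]).Monic := monic_X_pow_sub_C c hp.out.ne_zero
  have hmin := minpoly.eq_of_irreducible_of_monic hirr hroot hmonic
  have hint : IsIntegral Fp x := ⟨_, hmonic, hroot⟩
  have hEK : ExpChar K p := ExpChar.prime hp.out
  have hE : ExpChar K⟮x⟯ p :=
    expChar_of_injective_algebraMap (algebraMap K K⟮x⟯).injective p
  have htop : (Fp⟮x⟯ : IntermediateField Fp F) = ⊤ := by
    rw [eq_top_iff]
    intro a _
    have h1 := IntermediateField.adjoin_simple_eq_adjoin_pow_expChar_of_isSeparable'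
      (K⟮x⟯) F a p
    have h2 : a ∈ (K⟮x⟯)⟮a ^ p⟯ := h1 ▸ IntermediateField.mem_adjoin_simple_self _ a
    have h3 : ((K⟮x⟯)⟮a ^ p⟯).restrictScalars K ≤ (Fp⟮x⟯).restrictScalars K := by
      rw [IntermediateField.adjoin_adjoin_left, IntermediateField.adjoin_le_iff]
      rintro z (hz | hz)
      · rw [Set.mem_singleton_iff] at hz
        rw [hz]
        exact IntermediateField.mem_adjoin_simple_self Fp x
      · rw [Set.mem_singleton_iff] at hz
        rw [hz]
        exact (Fp⟮x⟯).algebraMap_mem ⟨a ^ p, (hFp _).mpr ⟨a, rfl⟩⟩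
    exact h3 h2
  have hfr := IntermediateField.adjoin.finrank hint
  rw [htop, IntermediateField.finrank_top', ← hmin, natDegree_X_pow_sub_C] at hfr
  exact hfr

include hx hFp in
/-- A proper subfield containing `F^p` is `F^p`. -/
theorem le_frob_of_ne_top (M : IntermediateField K F) (hM : Fp ≤ M) (hne : M ≠ ⊤) : M ≤ Fp := by
  have hfr := finrank_frob p hx Fp hFp
  have h1 : Fp.relfinrank M * M.relfinrank ⊤ = p := by
    rw [IntermediateField.relfinrank_mul_relfinrank hM (le_top : M ≤ ⊤),
      IntermediateField.relfinrank_top_right, hfr]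
  have h2 : M.relfinrank ⊤ ∣ p := Dvd.intro_left _ h1
  rcases (Nat.dvd_prime hp.out).mp h2 with h | h
  · exact absurd (top_le_iff.mp (IntermediateField.relfinrank_eq_one_iff.mp h)) hne
  · rw [h] at h1
    have h3 : Fp.relfinrank M = 1 := by
      have hp0 := hp.out.pos
      nlinarith
    exact IntermediateField.relfinrank_eq_one_iff.mp h3

include hx hFp in
/-- If `F/M` is finite purely inseparable and `M ≠ F`, then `M ⊆ F^p`. -/
theorem le_frob_of_pow_mem : ∀ (d : ℕ) (M : IntermediateField K F), M.relfinrank ⊤ = d → d ≠ 0 →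
    (∀ a : F, ∃ n : ℕ, a ^ p ^ n ∈ M) → M ≠ ⊤ → M ≤ Fp := by
  have hCF : CharP F p := charP_of_injective_algebraMap (algebraMap K F).injective p
  intro d
  induction d using Nat.strong_induction_on with
  | _ d ih =>
    intro M hd hd0 hpow hne
    obtain ⟨a, haM⟩ : ∃ a : F, a ∉ M := by
      by_contra hall
      push Not at hall
      exact hne (eq_top_iff.mpr fun a _ => hall a)
    classical
    have hn : a ^ p ^ (Nat.find (hpow a)) ∈ M := Nat.find_spec (hpow a)
    have hn0 : Nat.find (hpow a) ≠ 0 := by
      intro h0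
      rw [h0, pow_zero, pow_one] at hn
      exact haM hn
    obtain ⟨m, hm⟩ := Nat.exists_eq_succ_of_ne_zero hn0
    have hb : a ^ p ^ m ∉ M := Nat.find_min (hpow a) (by omega)
    have hbp : (a ^ p ^ m) ^ p ∈ M := by
      rw [← pow_mul, ← pow_succ, ← Nat.succ_eq_add_one, ← hm]
      exact hn
    generalize a ^ p ^ m = b at hb hbp
    let M₁ : IntermediateField K F := IntermediateField.adjoin K ((M : Set F) ∪ {b})
    have hMM₁ : M ≤ M₁ := fun z hz => IntermediateField.subset_adjoin K _ (Or.inl hz)
    have hbM₁ : b ∈ M₁ := IntermediateField.subset_adjoin K _ (Or.inr rfl)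
    have hpM₁ : ∀ z ∈ M₁, z ^ p ∈ M := by
      intro z hz
      induction hz using IntermediateField.adjoin_induction with
      | mem z hz =>
        rcases hz with hz | hz
        · exact pow_mem hz p
        · rw [Set.mem_singleton_iff] at hz
          rw [hz]
          exact hbp
      | algebraMap c =>
        rw [← map_pow]
        exact M.algebraMap_mem _
      | add z₁ z₂ _ _ h₁ h₂ =>
        rw [add_pow_char]
        exact add_mem h₁ h₂
      | inv z _ h =>
        rw [inv_pow]
        exact inv_mem h
      | mul z₁ z₂ _ _ h₁ h₂ =>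
        rw [mul_pow]
        exact mul_mem h₁ h₂
    by_cases htop : M₁ = ⊤
    · apply le_frob_of_ne_top p hx Fp hFp M _ hne
      intro z hz
      obtain ⟨c, rfl⟩ := (hFp z).mp hz
      exact hpM₁ c (htop ▸ IntermediateField.mem_top)
    · have hmul := IntermediateField.relfinrank_mul_relfinrank hMM₁ (le_top : M₁ ≤ ⊤)
      rw [hd] at hmul
      have h1 : M.relfinrank M₁ ≠ 1 := fun h =>
        hb (IntermediateField.relfinrank_eq_one_iff.mp h hbM₁)
      have h0 : M.relfinrank M₁ ≠ 0 := fun h => hd0 (by rw [← hmul, h, zero_mul])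
      have h0' : M₁.relfinrank ⊤ ≠ 0 := fun h => hd0 (by rw [← hmul, h, mul_zero])
      have hlt : M₁.relfinrank ⊤ < d := by
        have h2 : 2 ≤ M.relfinrank M₁ := by omega
        have h3 := Nat.pos_of_ne_zero h0'
        nlinarith
      exact hMM₁.trans
        (ih _ hlt M₁ rfl h0' (fun a => (hpow a).imp fun n hn => hMM₁ hn) htop)

include hx hFp in
/-- An element `y` with `F/K(y)` finite which is not a `p`-th power is separating. -/
theorem isSeparable_of_not_mem_frob {y : F}
    [FiniteDimensional K⟮y⟯ F] (hyFp : y ∉ Fp) : Algebra.IsSeparable K⟮y⟯ F := by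
  have hEK : ExpChar K p := ExpChar.prime hp.out
  have hE : ExpChar K⟮y⟯ p :=
    expChar_of_injective_algebraMap (algebraMap K K⟮y⟯).injective p
  have hES : ExpChar (separableClosure K⟮y⟯ F) p :=
    expChar_of_injective_algebraMap (algebraMap K⟮y⟯ (separableClosure K⟮y⟯ F)).injective p
  have hpi : IsPurelyInseparable (separableClosure K⟮y⟯ F) F :=
    separableClosure.isPurelyInseparable K⟮y⟯ F
  by_contra hns
  have hSne : separableClosure K⟮y⟯ F ≠ ⊤ := fun h => hns ((separableClosure.eq_top_iff K⟮y⟯ F).mp h)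
  have hMne : (separableClosure K⟮y⟯ F).restrictScalars K ≠ ⊤ := fun h =>
    hSne (IntermediateField.restrictScalars_eq_top_iff.mp h)
  have hpow : ∀ a : F, ∃ n : ℕ, a ^ p ^ n ∈ (separableClosure K⟮y⟯ F).restrictScalars K := by
    intro a
    obtain ⟨n, c, hc⟩ := IsPurelyInseparable.pow_mem (separableClosure K⟮y⟯ F) p a
    refine ⟨n, ?_⟩
    rw [← hc]
    exact c.2
  have hfin : ((separableClosure K⟮y⟯ F).restrictScalars K).relfinrank ⊤ ≠ 0 := by
    rw [IntermediateField.relfinrank_top_right]
    have hfd : FiniteDimensional (separableClosure K⟮y⟯ F) F :=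
      FiniteDimensional.right K⟮y⟯ (separableClosure K⟮y⟯ F) F
    have hpos : 0 < Module.finrank (separableClosure K⟮y⟯ F) F := Module.finrank_pos
    exact hpos.ne'
  have hle := le_frob_of_pow_mem p hx Fp hFp _ _ rfl hfin hpow hMne
  apply hyFp
  apply hle
  exact (separableClosure K⟮y⟯ F).algebraMap_mem ⟨y, IntermediateField.mem_adjoin_simple_self K y⟩

include hx hFp in
/-- Zeros of an arbitrary transcendental element: finiteness and the fundamental identity. -/
theorem places_pos_all [IsAlgClosed K]
    (hfd : ∀ y : F, Transcendental K y → FiniteDimensional K⟮y⟯ F) :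
    ∀ (d : ℕ) (y : F), Transcendental K y → Module.finrank K⟮y⟯ F = d →
      {v : Place K F | 0 < v.ord y}.Finite ∧
      ∑ᶠ v ∈ {v : Place K F | 0 < v.ord y}, v.ord y = (Module.finrank K⟮y⟯ F : ℤ) := by
  intro d
  induction d using Nat.strong_induction_on with
  | _ d ih =>
    intro y hy hd
    have := hfd y hy
    by_cases hyFp : y ∈ Fp
    · obtain ⟨w, rfl⟩ := (hFp y).mp hyFp
      have hw : Transcendental K w := fun hwalg => hy (hwalg.pow p)
      have := hfd w hw
      have hdeg := finrank_adjoin_pow (F := F) p hw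
      have hpos : 0 < Module.finrank K⟮w⟯ F := Module.finrank_pos
      have hlt : Module.finrank K⟮w⟯ F < d := by
        rw [← hd, hdeg]
        have := hp.out.two_le
        nlinarith
      obtain ⟨hfinw, hsumw⟩ := ih _ hlt w hw rfl
      have hp0 : (0 : ℤ) < p := by exact_mod_cast hp.out.pos
      have hset : {v : Place K F | 0 < v.ord (w ^ p)} = {v : Place K F | 0 < v.ord w} := by
        ext v
        simp only [Set.mem_ofPred_eq, Fermat.Agent.S24.ord_pow]
        constructor
        · intro h
          by_contra hn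
          push Not at hn
          nlinarith
        · intro h
          positivity
      refine ⟨hset ▸ hfinw, ?_⟩
      rw [hset, hdeg]
      simp only [Fermat.Agent.S24.ord_pow]
      rw [← mul_finsum_mem, hsumw]
      push_cast
      ring
    · have := isSeparable_of_not_mem_frob p hx Fp hFp hyFp
      exact ⟨finite_places_pos_sep y hy, sum_ord_eq_finrank_sep y hy⟩

end WithFrob

/-- **`PlaceFacts` in any characteristic**: a function field of one variable over an
algebraically closed field, with a separating element. -/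
theorem placeFacts_of_sep [IsAlgClosed K] (x : F) (hx : Transcendental K x)
    [FiniteDimensional K⟮x⟯ F] [Algebra.IsSeparable K⟮x⟯ F] : Fermat.Agent.RR.PlaceFacts K F := by
  have hn0 : 0 < Module.finrank K⟮x⟯ F := Module.finrank_pos
  have hFF : Fermat.Agent.S24.IsFF K F := Fermat.Agent.S24.isFF_of_finrank_pos hx hn0
  have hfinx : FiniteDimensional K⟮x⟯ F := inferInstance
  have hfd : ∀ y : F, Transcendental K y → FiniteDimensional K⟮y⟯ F :=
    fun y hy => hFF.finiteDimensional hy
  have hall : ∀ y : F, Transcendental K y → {v : Place K F | 0 < v.ord y}.Finite ∧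
      ∑ᶠ v ∈ {v : Place K F | 0 < v.ord y}, v.ord y = (Module.finrank K⟮y⟯ F : ℤ) := by
    obtain ⟨q, hq⟩ := ExpChar.exists K
    cases hq with
    | zero =>
      intro y hy
      exact ⟨Fermat.Agent.S24.finite_places_pos y (hfd y hy) hy,
        Fermat.Agent.S24.sum_ord_eq_finrank y (hfd y hy) hy⟩
    | prime hprime =>
      have : Fact q.Prime := ⟨hprime⟩
      have hCF : CharP F q := charP_of_injective_algebraMap (algebraMap K F).injective q
      let Fp : IntermediateField K F :=
        Subfield.toIntermediateField (frobenius F q).fieldRange (by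
          intro c
          obtain ⟨d, hd⟩ := IsAlgClosed.exists_pow_nat_eq c hprime.pos
          exact ⟨algebraMap K F d, by rw [frobenius_def, ← map_pow, hd]⟩)
      have hFp : ∀ a : F, a ∈ Fp ↔ ∃ b : F, b ^ q = a := fun a => Iff.rfl
      intro y hy
      exact places_pos_all q hx Fp hFp hfd _ y hy rfl
  exact
    { hres := fun v f hf => Fermat.Agent.S24.PlacesOver.place_exists_residue x hfinx hx v f hf
      hdeg := fun v => Fermat.Agent.S24.PlacesOver.place_deg_eq_one x hfinx hx v
      hfd := hfd
      hfin := fun y hy => (hall y hy).1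
      hsum := fun y hy => (hall y hy).2
      htr := ⟨x, hx⟩ }

end Frob

end Fermat.Agent.S18.PlaceFactsP
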