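/-
S18 / SepDelta: the derivation criterion for separability ("[DELTA]").

* `isSeparable_of_derivation`: `k` a perfect field, `E/k` a field, `D` a `k`-derivation of `E`
  with values in an `E`-vector space, `t : E` with `D t ≠ 0`.  Every `x : E` algebraic over
  `k(t)` is separable over `k(t)`.  (Characteristic `p`: a minimal polynomial with zero
  derivative has coefficients killed by `D`, hence in `k(t^p)`, hence `p`-th powers, so it is
  a `p`-th power.)
* `thetaFun k` = `q d/dq` on `k((q))` and its Leibniz rule; `thetaRestrict k F`.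
* `isSeparable_of_theta_ne_zero`, `algebra_isSeparable_of_theta_ne_zero`: the criterion for
  intermediate fields of `k((q))/k`.
* `transcendental_jqModC`, `jFullC`, `transcendental_jFullC`, `isSeparable_jFullC`,
  `algebra_isSeparable_jFullC`: the case `t = j̄` in `modularFunctionFieldFullC k N`.

Imports: Mathlib + Prelude only.
-/
import Mathlib
import Fermat.Prelude.Def_ModularCurve_X0ModL

set_option autoImplicit false

noncomputable section

namespace Fermat.Agent.S18.SepDelta

open Polynomial IntermediateField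

section Abstract

variable {k E M : Type*} [Field k] [Field E] [Algebra k E] [AddCommGroup M] [Module k M]
  [Module E M]

variable (D : Derivation k E M) (t : E)

/-- (F1) On `k(t)` the derivation `D` takes values in `k(t) • D t`. -/
theorem exists_smul_of_mem_adjoin {a : E} (ha : a ∈ k⟮t⟯) : ∃ a' ∈ k⟮t⟯, D a = a' • D t := by
  induction ha using IntermediateField.adjoin_induction with
  | mem x hx =>
    rw [Set.mem_singleton_iff] at hx
    subst hx
    exact ⟨1, one_mem _, (one_smul _ _).symm⟩
  | algebraMap c => exact ⟨0, zero_mem _, by rw [D.map_algebraMap, zero_smul]⟩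
  | add x y _ _ hx hy =>
    obtain ⟨x', hx', ex⟩ := hx
    obtain ⟨y', hy', ey⟩ := hy
    exact ⟨x' + y', add_mem hx' hy', by rw [map_add, ex, ey, add_smul]⟩
  | inv x hx ih =>
    obtain ⟨x', hx', ex⟩ := ih
    exact ⟨-x⁻¹ ^ 2 * x', mul_mem (neg_mem (pow_mem (inv_mem hx) 2)) hx', by
      rw [D.leibniz_inv, ex, smul_smul]⟩
  | mul x y hx hy ihx ihy =>
    obtain ⟨x', hx', ex⟩ := ihx
    obtain ⟨y', hy', ey⟩ := ihy
    exact ⟨x * y' + y * x', add_mem (mul_mem hx hy') (mul_mem hy hx'), by
      rw [D.leibniz, ex, ey, smul_smul, smul_smul, add_smul]⟩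

variable (p : ℕ) [Fact p.Prime] [CharP k p]

omit [Fact p.Prime] in
/-- (F2) `D` vanishes on `k(t ^ p)`. -/
theorem D_eq_zero_of_mem_adjoin_pow {c : E} (hc : c ∈ k⟮t ^ p⟯) : D c = 0 := by
  induction hc using IntermediateField.adjoin_induction with
  | mem x hx =>
    rw [Set.mem_singleton_iff] at hx
    subst hx
    rw [D.leibniz_pow, ← Nat.cast_smul_eq_nsmul k, CharP.cast_eq_zero k p, zero_smul]
  | algebraMap c => exact D.map_algebraMap c
  | add x y _ _ hx hy => rw [map_add, hx, hy, add_zero]
  | inv x hx ih => rw [D.leibniz_inv, ih, smul_zero]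
  | mul x y hx hy ihx ihy => rw [D.leibniz, ihx, ihy, smul_zero, smul_zero, add_zero]

/-- (F3) for `k` perfect, every element of `k(t ^ p)` is a `p`-th power in `k(t)`. -/
theorem exists_pow_eq_of_mem_adjoin_pow [PerfectField k] {c : E} (hc : c ∈ k⟮t ^ p⟯) :
    ∃ b ∈ k⟮t⟯, b ^ p = c := by
  have : CharP E p := charP_of_injective_algebraMap (algebraMap k E).injective p
  have : ExpChar k p := ExpChar.prime Fact.out
  induction hc using IntermediateField.adjoin_induction with
  | mem x hx =>
    rw [Set.mem_singleton_iff] at hx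
    subst hx
    exact ⟨t, mem_adjoin_simple_self k t, rfl⟩
  | algebraMap c =>
    obtain ⟨b, hb⟩ := surjective_frobenius k p c
    exact ⟨algebraMap k E b, IntermediateField.algebraMap_mem _ b, by
      rw [← map_pow, ← hb, frobenius_def]⟩
  | add x y _ _ hx hy =>
    obtain ⟨x', hx', ex⟩ := hx
    obtain ⟨y', hy', ey⟩ := hy
    exact ⟨x' + y', add_mem hx' hy', by rw [add_pow_char, ex, ey]⟩
  | inv x hx ih =>
    obtain ⟨x', hx', ex⟩ := ih
    exact ⟨x'⁻¹, inv_mem hx', by rw [inv_pow, ex]⟩
  | mul x y hx hy ihx ihy =>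
    obtain ⟨x', hx', ex⟩ := ihx
    obtain ⟨y', hy', ey⟩ := ihy
    exact ⟨x' * y', mul_mem hx' hy', by rw [mul_pow, ex, ey]⟩

omit [Fact p.Prime] [CharP k p] in
/-- Leibniz rule for polynomial expressions with coefficients in an intermediate field. -/
theorem D_aeval (S : IntermediateField k E) (r : S[X]) (x : E) :
    D (aeval x r) = aeval x (derivative r) • D x + r.sum (fun i c => x ^ i • D (c : E)) := by
  induction r using Polynomial.induction_on' with
  | add f g hf hg =>
    rw [map_add, map_add, hf, hg, derivative_add, map_add, add_smul,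
      Polynomial.sum_add_index f g _ (fun i => by simp) (fun i a b => by simp [smul_add])]
    abel
  | monomial n c =>
    rw [aeval_monomial, derivative_monomial, aeval_monomial,
      Polynomial.sum_monomial_index _ _ (by simp), D.leibniz, D.leibniz_pow]
    have h1 : (algebraMap S E) c = (c : E) := rfl
    have h2 : (algebraMap S E) (c * (n : S)) = (c : E) * (n : E) := by
      rw [map_mul, map_natCast]; rfl
    rw [h1, h2]
    congr 1
    rw [← Nat.cast_smul_eq_nsmul E n (x ^ (n - 1) • D x), smul_smul, smul_smul, mul_assoc]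

/-- (F5) an element of `k(t)` killed by `D` lies in `k(t ^ p)` (if `D t ≠ 0`). -/
theorem mem_adjoin_pow_of_D_eq_zero (hD : D t ≠ 0) {a : E} (ha : a ∈ k⟮t⟯) (h0 : D a = 0) :
    a ∈ k⟮t ^ p⟯ := by
  have hp : p.Prime := Fact.out
  have hcE : CharP E p := charP_of_injective_algebraMap (algebraMap k E).injective p
  have hcKp : CharP ↥k⟮t ^ p⟯ p :=
    charP_of_injective_algebraMap (algebraMap k ↥k⟮t ^ p⟯).injective p
  -- `t ∉ k(t^p)`
  have htn : t ∉ k⟮t ^ p⟯ := fun h => hD (D_eq_zero_of_mem_adjoin_pow D t p h)
  set tp : ↥k⟮t ^ p⟯ := ⟨t ^ p, mem_adjoin_simple_self k (t ^ p)⟩ with htp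
  set f0 : (↥k⟮t ^ p⟯)[X] := X ^ p - C tp with hf0
  have hmonic : f0.Monic := monic_X_pow_sub_C tp hp.ne_zero
  have hirr : Irreducible f0 := by
    refine X_pow_sub_C_irreducible_of_prime hp (fun b hb => htn ?_)
    have h1 : (b : E) ^ p = t ^ p := by
      have := congrArg (fun z : ↥k⟮t ^ p⟯ => (z : E)) hb
      simpa using this
    have h2 : (b : E) = t := frobenius_inj E p h1
    have h3 : (b : E) ∈ k⟮t ^ p⟯ := b.2
    rwa [h2] at h3
  have hroot : aeval t f0 = 0 := by
    rw [hf0, map_sub, map_pow, aeval_X, aeval_C]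
    show t ^ p - (tp : E) = 0
    rw [htp]
    exact sub_self _
  have hmin : f0 = minpoly ↥k⟮t ^ p⟯ t := minpoly.eq_of_irreducible_of_monic hirr hroot hmonic
  have hint : IsIntegral ↥k⟮t ^ p⟯ t := ⟨f0, hmonic, hroot⟩
  -- `a` is a polynomial in `t` over `k(t^p)`
  have hle : k⟮t⟯ ≤ ((↥k⟮t ^ p⟯)⟮t⟯).restrictScalars k := by
    rw [adjoin_simple_le_iff]
    exact mem_adjoin_simple_self (↥k⟮t ^ p⟯) t
  have ha' : a ∈ (↥k⟮t ^ p⟯)⟮t⟯ := hle ha
  have ha'' : a ∈ (aeval (R := ↥k⟮t ^ p⟯) t).range := by
    rw [← Algebra.adjoin_singleton_eq_range_aeval,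
      ← IntermediateField.adjoin_simple_toSubalgebra_of_isAlgebraic hint.isAlgebraic]
    exact ha'
  obtain ⟨f, hf⟩ := ha''
  set r := f %ₘ f0 with hr
  have hra : aeval t r = a := by
    have h := congrArg (aeval t) (Polynomial.modByMonic_add_div f f0)
    rw [map_add, map_mul, hroot, zero_mul, add_zero] at h
    rw [hr, h]
    exact hf
  have hdeg : r.natDegree < p := by
    have h := Polynomial.natDegree_modByMonic_lt f hmonic (by
      intro h1
      have := congrArg natDegree h1
      rw [hf0, natDegree_X_pow_sub_C, natDegree_one] at this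
      exact hp.ne_zero this)
    rwa [hf0, natDegree_X_pow_sub_C] at h
  -- differentiate
  have hDa : aeval t (derivative r) • D t = 0 := by
    have h := D_aeval D (k⟮t ^ p⟯) r t
    rw [hra, h0] at h
    have hz : r.sum (fun i c => t ^ i • D (c : E)) = 0 := by
      rw [Polynomial.sum_def]
      refine Finset.sum_eq_zero (fun i _ => ?_)
      rw [D_eq_zero_of_mem_adjoin_pow D t p (r.coeff i).2, smul_zero]
    rw [hz, add_zero] at h
    exact h.symm
  have hder0 : aeval t (derivative r) = 0 := (smul_eq_zero.mp hDa).resolve_right hD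
  have hder : derivative r = 0 := by
    by_contra hne
    have h1 : f0 ∣ derivative r := by
      rw [hmin]
      exact minpoly.dvd _ _ hder0
    have h2 := Polynomial.natDegree_le_of_dvd h1 hne
    rw [hf0, natDegree_X_pow_sub_C] at h2
    have h3 := natDegree_derivative_le r
    omega
  -- so `r` is constant
  have hconst : r = C (r.coeff 0) := by
    refine Polynomial.ext (fun i => ?_)
    rcases Nat.eq_zero_or_pos i with rfl | hi
    · rw [coeff_C_zero]
    · rw [coeff_C, if_neg (Nat.pos_iff_ne_zero.mp hi)]
      by_cases hip : i < p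
      · have h := congrArg (fun q => q.coeff (i - 1)) hder
        simp only [coeff_derivative, coeff_zero] at h
        have hi1 : i - 1 + 1 = i := Nat.sub_add_cancel hi
        rw [hi1] at h
        have hne : ((i - 1 : ℕ) : ↥k⟮t ^ p⟯) + 1 ≠ 0 := by
          have : (((i - 1 : ℕ) : ↥k⟮t ^ p⟯) + 1) = ((i : ℕ) : ↥k⟮t ^ p⟯) := by
            rw [← Nat.cast_succ, Nat.succ_eq_add_one, hi1]
          rw [this, Ne, CharP.cast_eq_zero_iff ↥k⟮t ^ p⟯ p]
          exact Nat.not_dvd_of_pos_of_lt hi hip
        exact (mul_eq_zero.mp h).resolve_right hne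
      · exact coeff_eq_zero_of_natDegree_lt (by omega)
  rw [← hra, hconst, aeval_C]
  exact (r.coeff 0).2

include p in
/-- (F6) the derivation criterion, characteristic `p`. -/
theorem isSeparable_of_derivation_charP [PerfectField k] (hD : D t ≠ 0) (x : E)
    (hx : IsAlgebraic ↥k⟮t⟯ x) : IsSeparable ↥k⟮t⟯ x := by
  have hp : p.Prime := Fact.out
  have hcK : CharP ↥k⟮t⟯ p := charP_of_injective_algebraMap (algebraMap k ↥k⟮t⟯).injective p
  have hint : IsIntegral ↥k⟮t⟯ x := hx.isIntegral
  set m := minpoly ↥k⟮t⟯ x with hm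
  have hirr : Irreducible m := minpoly.irreducible hint
  show m.Separable
  rw [separable_iff_derivative_ne_zero hirr]
  intro hder
  -- `D` kills all coefficients
  have hsum : m.sum (fun i c => x ^ i • D (c : E)) = 0 := by
    have h := D_aeval D (k⟮t⟯) m x
    rw [hm, minpoly.aeval, map_zero, ← hm, hder, map_zero, zero_smul, zero_add] at h
    exact h.symm
  choose g hgmem hg using fun i : ℕ => exists_smul_of_mem_adjoin D t (m.coeff i).2
  set n := m.natDegree with hn
  have hlead : m.coeff n = 1 := (minpoly.monic hint).coeff_natDegree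
  set m₁ : (↥k⟮t⟯)[X] := ∑ i ∈ Finset.range n, monomial i (⟨g i, hgmem i⟩ : ↥k⟮t⟯) with hm₁
  have hm₁x : aeval x m₁ = 0 := by
    have h1 : m.sum (fun i c => x ^ i • D (c : E))
        = (∑ i ∈ Finset.range n, x ^ i * g i) • D t := by
      rw [Polynomial.sum_over_range _ (fun i => by simp), Finset.sum_range_succ, Finset.sum_smul,
        ← hn, hlead]
      have h1 : D ((1 : ↥k⟮t⟯) : E) = 0 := D.map_one_eq_zero
      rw [h1, smul_zero, add_zero]
      refine Finset.sum_congr rfl (fun i _ => ?_)
      rw [hg i, smul_smul]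
    rw [hsum] at h1
    have h2 := (smul_eq_zero.mp h1.symm).resolve_right hD
    rw [hm₁, map_sum, ← h2]
    refine Finset.sum_congr rfl (fun i _ => ?_)
    rw [aeval_monomial, mul_comm]
    rfl
  have hm₁0 : m₁ = 0 := by
    by_contra hne
    have h1 := minpoly.degree_le_of_ne_zero ↥k⟮t⟯ x hne hm₁x
    have h2 : m₁.degree < n := by
      rw [hm₁]
      refine (degree_sum_le _ _).trans_lt ?_
      refine (Finset.sup_lt_iff (WithBot.bot_lt_coe n)).mpr ?_
      intro i hi
      exact (degree_monomial_le i _).trans_lt (WithBot.coe_lt_coe.mpr (Finset.mem_range.mp hi))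
    have h3 : m.degree = n := degree_eq_natDegree hirr.ne_zero
    rw [← hm, h3] at h1
    exact absurd (h1.trans_lt h2) (lt_irrefl _)
  have hDc : ∀ i, D ((m.coeff i : ↥k⟮t⟯) : E) = 0 := by
    intro i
    rcases lt_trichotomy i n with hi | hi | hi
    · have h := congrArg (fun q => q.coeff i) hm₁0
      simp only [hm₁, finsetSum_coeff, coeff_monomial, coeff_zero] at h
      rw [Finset.sum_ite_eq', if_pos (Finset.mem_range.mpr hi)] at h
      have h' : g i = 0 := congrArg Subtype.val h
      rw [hg i, h', zero_smul]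
    · rw [hi, hlead]
      exact D.map_one_eq_zero
    · rw [coeff_eq_zero_of_natDegree_lt hi]
      exact map_zero D
  -- so the coefficients are `p`-th powers
  have hpow : ∀ i, ∃ b : ↥k⟮t⟯, b ^ p = m.coeff i := by
    intro i
    obtain ⟨b, hb, hbp⟩ := exists_pow_eq_of_mem_adjoin_pow (k := k) t p
      (mem_adjoin_pow_of_D_eq_zero D t p hD (m.coeff i).2 (hDc i))
    exact ⟨⟨b, hb⟩, Subtype.ext hbp⟩
  -- hence `m` is a `p`-th power
  have hlift : contract p m ∈ Polynomial.lifts (frobenius ↥k⟮t⟯ p) := by
    rw [Polynomial.lifts_iff_coeff_lifts]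
    intro i
    rw [coeff_contract hp.ne_zero]
    obtain ⟨b, hb⟩ := hpow (i * p)
    exact ⟨b, by rw [frobenius_def]; exact hb⟩
  obtain ⟨h, hh⟩ := (Polynomial.mem_lifts _).mp hlift
  have hexp : ExpChar ↥k⟮t⟯ p := ExpChar.prime hp
  have hmh : m = h ^ p := by
    rw [← map_frobenius_expand p h, map_expand, hh, expand_contract p hder hp.ne_zero]
  exact not_irreducible_pow hp.ne_one (hmh ▸ hirr)

omit p [Fact p.Prime] [CharP k p] in
/-- **[DELTA]** (derivation criterion for separability).  `k` a perfect field, `E/k` a field,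
`D` a `k`-derivation of `E` with values in an `E`-vector space, `t : E` with `D t ≠ 0`.
Then every `x : E` algebraic over `k(t)` is separable over `k(t)`. -/
theorem isSeparable_of_derivation [PerfectField k] (hD : D t ≠ 0) (x : E)
    (hx : IsAlgebraic ↥k⟮t⟯ x) : IsSeparable ↥k⟮t⟯ x := by
  obtain ⟨p, hp⟩ := CharP.exists k
  rcases CharP.char_is_prime_or_zero k p with h | h
  · have : Fact p.Prime := ⟨h⟩
    exact isSeparable_of_derivation_charP D t p hD x hx
  · subst h
    have h0 : CharZero k := CharP.charP_to_charZero k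
    have h1 : CharZero ↥k⟮t⟯ := charZero_of_injective_algebraMap (algebraMap k ↥k⟮t⟯).injective
    exact (minpoly.irreducible hx.isIntegral).separable

omit p [Fact p.Prime] [CharP k p] in
/-- Algebra version of `isSeparable_of_derivation`. -/
theorem algebra_isSeparable_of_derivation [PerfectField k] (hD : D t ≠ 0)
    [Algebra.IsAlgebraic ↥k⟮t⟯ E] : Algebra.IsSeparable ↥k⟮t⟯ E :=
  ⟨fun x => isSeparable_of_derivation D t hD x (Algebra.IsAlgebraic.isAlgebraic x)⟩

end Abstract

section Theta

variable (k : Type*) [Field k]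

/-- `q d/dq` on Laurent series, as a function: the `n`-th coefficient is multiplied by `n`. -/
def thetaFun (f : LaurentSeries k) : LaurentSeries k where
  coeff n := (n : k) * f.coeff n
  isPWO_support' := f.isPWO_support.mono (fun _ hn => right_ne_zero_of_mul hn)

theorem thetaFun_coeff (f : LaurentSeries k) (n : ℤ) :
    (thetaFun k f).coeff n = (n : k) * f.coeff n := rfl

theorem support_thetaFun_subset (f : LaurentSeries k) : (thetaFun k f).support ⊆ f.support :=
  fun _ hn => right_ne_zero_of_mul hn

theorem thetaFun_mul (f g : LaurentSeries k) :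
    thetaFun k (f * g) = f * thetaFun k g + g * thetaFun k f := by
  ext n
  rw [HahnSeries.coeff_add, thetaFun_coeff, HahnSeries.coeff_mul,
    HahnSeries.coeff_mul_right' g.isPWO_support (support_thetaFun_subset k g),
    mul_comm g (thetaFun k f),
    HahnSeries.coeff_mul_left' f.isPWO_support (support_thetaFun_subset k f),
    Finset.mul_sum, ← Finset.sum_add_distrib]
  refine Finset.sum_congr rfl (fun ij hij => ?_)
  have h := (Finset.mem_antidiagonal.mp hij).2.2
  rw [thetaFun_coeff, thetaFun_coeff, ← h]
  push_cast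
  ring

theorem thetaFun_add (f g : LaurentSeries k) :
    thetaFun k (f + g) = thetaFun k f + thetaFun k g := by
  ext n
  rw [HahnSeries.coeff_add, thetaFun_coeff, thetaFun_coeff, thetaFun_coeff, HahnSeries.coeff_add,
    mul_add]

theorem coeff_algebraMap_mul (c : k) (f : LaurentSeries k) (n : ℤ) :
    (algebraMap k (LaurentSeries k) c * f).coeff n = c * f.coeff n := by
  rw [ModularCurve.algebraMap_laurentSeries_eq_single, HahnSeries.coeff_single_mul, sub_zero]

theorem thetaFun_algebraMap_mul (c : k) (f : LaurentSeries k) :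
    thetaFun k (algebraMap k (LaurentSeries k) c * f)
      = algebraMap k (LaurentSeries k) c * thetaFun k f := by
  ext n
  rw [thetaFun_coeff, coeff_algebraMap_mul, coeff_algebraMap_mul, thetaFun_coeff, mul_left_comm]

theorem thetaFun_one : thetaFun k 1 = 0 := by
  have h := thetaFun_mul k 1 1
  rw [one_mul, one_mul] at h
  exact left_eq_add.mp h

theorem algebraMap_mul_eq_smul (c : k) (f : LaurentSeries k) :
    algebraMap k (LaurentSeries k) c * f = c • f := by
  ext n
  rw [coeff_algebraMap_mul, HahnSeries.coeff_smul, smul_eq_mul]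

/-- `q d/dq` restricted to an intermediate field `F` of `k((q))/k`, as a `k`-derivation
`F → k((q))`. -/
def thetaRestrict (F : IntermediateField k (LaurentSeries k)) :
    Derivation k ↥F (LaurentSeries k) where
  toFun a := thetaFun k (a : LaurentSeries k)
  map_add' a b := by
    rw [IntermediateField.coe_add]
    exact thetaFun_add k _ _
  map_smul' c a := by
    rw [RingHom.id_apply, IntermediateField.coe_smul, Algebra.smul_def, thetaFun_algebraMap_mul,
      algebraMap_mul_eq_smul]
  map_one_eq_zero' := by
    show thetaFun k ((1 : ↥F) : LaurentSeries k) = 0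
    rw [IntermediateField.coe_one]
    exact thetaFun_one k
  leibniz' a b := by
    show thetaFun k ((a * b : ↥F) : LaurentSeries k)
      = (a : LaurentSeries k) * thetaFun k (b : LaurentSeries k)
        + (b : LaurentSeries k) * thetaFun k (a : LaurentSeries k)
    rw [IntermediateField.coe_mul]
    exact thetaFun_mul k _ _

theorem thetaRestrict_apply (F : IntermediateField k (LaurentSeries k)) (a : F) :
    thetaRestrict k F a = thetaFun k (a : LaurentSeries k) := rfl

theorem thetaFun_jqModC_ne_zero : thetaFun k (ModularCurve.jqModC k) ≠ 0 := by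
  intro h
  have h1 := congrArg (fun f : LaurentSeries k => f.coeff (-1)) h
  simp only [thetaFun_coeff, HahnSeries.coeff_zero, ModularCurve.coeff_jqModC_neg_one] at h1
  simp at h1

/-- `j̄` is transcendental over `k`. -/
theorem transcendental_jqModC : Transcendental k (ModularCurve.jqModC k) := by
  rw [transcendental_iff_injective, injective_iff_map_eq_zero]
  intro f hf
  by_contra hne
  have h1 := congrArg (fun g : LaurentSeries k => g.coeff (-(f.natDegree : ℤ))) hf
  simp only [HahnSeries.coeff_zero] at h1
  rw [aeval_eq_sum_range, HahnSeries.coeff_sum, Finset.sum_range_succ, Finset.sum_eq_zero,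
    zero_add, Algebra.smul_def, coeff_algebraMap_mul, ModularCurve.coeff_jqModC_pow_self, mul_one]
    at h1
  · exact hne (leadingCoeff_eq_zero.mp h1)
  · intro i hi
    rw [Algebra.smul_def, coeff_algebraMap_mul, ModularCurve.coeff_jqModC_pow_of_lt k (by
      have := Finset.mem_range.mp hi
      omega), mul_zero]

variable {k}

/-- **[DELTA] for Laurent series.**  `k` perfect, `F` an intermediate field of `k((q))/k`,
`t : F` with `q dt/dq ≠ 0`: every `x : F` algebraic over `k(t)` is separable over `k(t)`. -/
theorem isSeparable_of_theta_ne_zero [PerfectField k] (F : IntermediateField k (LaurentSeries k))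
    (t : F) (ht : thetaFun k (t : LaurentSeries k) ≠ 0) (x : F) (hx : IsAlgebraic ↥k⟮t⟯ x) :
    IsSeparable ↥k⟮t⟯ x :=
  isSeparable_of_derivation (thetaRestrict k F) t ht x hx

/-- Algebra version: an intermediate field of `k((q))/k` algebraic over `k(t)`, `q dt/dq ≠ 0`,
is separable over `k(t)`. -/
theorem algebra_isSeparable_of_theta_ne_zero [PerfectField k]
    (F : IntermediateField k (LaurentSeries k)) (t : F)
    (ht : thetaFun k (t : LaurentSeries k) ≠ 0) [Algebra.IsAlgebraic ↥k⟮t⟯ ↥F] :
    Algebra.IsSeparable ↥k⟮t⟯ ↥F :=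
  ⟨fun x => isSeparable_of_theta_ne_zero F t ht x (Algebra.IsAlgebraic.isAlgebraic x)⟩

/-- Transcendence of an element of an intermediate field from transcendence in `k((q))`. -/
theorem transcendental_of_coe (F : IntermediateField k (LaurentSeries k)) (t : F)
    (ht : Transcendental k (t : LaurentSeries k)) : Transcendental k t := by
  intro h
  exact ht (h.algebraMap (A := LaurentSeries k))

end Theta

section FullC

open ModularCurve

variable (k : Type*) [Field k] (N : ℕ)

/-- `j̄` as an element of the full modular function field over `k`. -/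
def jFullC : modularFunctionFieldFullC k N := ⟨jqModC k, jqModC_mem_full k N⟩

theorem coe_jFullC : ((jFullC k N : modularFunctionFieldFullC k N) : LaurentSeries k) = jqModC k :=
  rfl

theorem transcendental_jFullC : Transcendental k (jFullC k N) :=
  transcendental_of_coe _ _ (transcendental_jqModC k)

/-- every element of `k(j̄(q^d) : d ∣ N)` algebraic over `k(j̄)` is separable over `k(j̄)`
(`k` perfect, any characteristic). -/
theorem isSeparable_jFullC [PerfectField k] (x : modularFunctionFieldFullC k N)
    (hx : IsAlgebraic ↥k⟮jFullC k N⟯ x) : IsSeparable ↥k⟮jFullC k N⟯ x :=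
  isSeparable_of_theta_ne_zero _ _ (thetaFun_jqModC_ne_zero k) x hx

/-- `k(j̄(q^d) : d ∣ N) / k(j̄)` is separable as soon as it is algebraic (`k` perfect). -/
theorem algebra_isSeparable_jFullC [PerfectField k]
    [Algebra.IsAlgebraic ↥k⟮jFullC k N⟯ ↥(modularFunctionFieldFullC k N)] :
    Algebra.IsSeparable ↥k⟮jFullC k N⟯ ↥(modularFunctionFieldFullC k N) :=
  algebra_isSeparable_of_theta_ne_zero _ _ (thetaFun_jqModC_ne_zero k)

end FullC

end Fermat.Agent.S18.SepDelta
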