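/-
S18 / SepPF: `PlaceFacts` / `RiemannFacts` for intermediate fields of `k((q))` that contain `j̄`
and are finite over `k(j̄)` (any characteristic, `k` algebraically closed), obtained from
`SepDelta` (separability by the derivation criterion) and `PlaceFactsP.placeFacts_of_sep`.
Also: `q dt/dq ≠ 0` for every `t` with `j̄ ∈ k(t)` (e.g. a Hauptmodul of a genus-0 level).
-/
import Fermat.Agent.S18.SepDelta
import Fermat.Agent.S18.PlaceFactsP
import Fermat.Agent.S18.DiffSep
import Fermat.Agent.RR.RiemannFacts

set_option autoImplicit false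

namespace Fermat.Agent.S18.SepPF

open IntermediateField AlgebraicCurve Fermat.Agent.S18.SepDelta

variable {k : Type*} [Field k]

/-- Separability over `k(t)` of an intermediate field of `k((q))` finite over `k(t)`,
`q dt/dq ≠ 0`.  (`FiniteDimensional` version of
`SepDelta.algebra_isSeparable_of_theta_ne_zero`.) -/
theorem algebra_isSeparable_of_finite [PerfectField k] (F : IntermediateField k (LaurentSeries k))
    (t : F) (ht : thetaFun k (t : LaurentSeries k) ≠ 0) [FiniteDimensional ↥k⟮t⟯ ↥F] :
    Algebra.IsSeparable ↥k⟮t⟯ ↥F := by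
  have halg : Algebra.IsAlgebraic ↥k⟮t⟯ ↥F := Algebra.IsAlgebraic.of_finite _ _
  exact algebra_isSeparable_of_theta_ne_zero F t ht

/-- An element of an intermediate field whose underlying series is `j̄` is transcendental. -/
theorem transcendental_of_coe_eq (F : IntermediateField k (LaurentSeries k)) (jb : F)
    (hjb : (jb : LaurentSeries k) = ModularCurve.jqModC k) : Transcendental k jb :=
  transcendental_of_coe F jb (by rw [hjb]; exact transcendental_jqModC k)

theorem thetaFun_coe_ne_zero (F : IntermediateField k (LaurentSeries k)) (jb : F)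
    (hjb : (jb : LaurentSeries k) = ModularCurve.jqModC k) :
    thetaFun k (jb : LaurentSeries k) ≠ 0 := by
  rw [hjb]
  exact thetaFun_jqModC_ne_zero k

/-- `F / k(j̄)` is separable when finite (`k` perfect). -/
theorem algebra_isSeparable_jb [PerfectField k] (F : IntermediateField k (LaurentSeries k))
    (jb : F) (hjb : (jb : LaurentSeries k) = ModularCurve.jqModC k)
    [FiniteDimensional ↥k⟮jb⟯ ↥F] : Algebra.IsSeparable ↥k⟮jb⟯ ↥F :=
  algebra_isSeparable_of_finite F jb (thetaFun_coe_ne_zero F jb hjb)

/-- **`PlaceFacts` for residue function fields**: an intermediate field of `k((q))/k`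
containing `j̄` and finite over `k(j̄)`, `k` algebraically closed of any characteristic. -/
theorem placeFacts_of_finite [IsAlgClosed k] (F : IntermediateField k (LaurentSeries k))
    (jb : F) (hjb : (jb : LaurentSeries k) = ModularCurve.jqModC k)
    [FiniteDimensional ↥k⟮jb⟯ ↥F] : Fermat.Agent.RR.PlaceFacts k ↥F := by
  have hsep : Algebra.IsSeparable ↥k⟮jb⟯ ↥F := algebra_isSeparable_jb F jb hjb
  exact Fermat.Agent.S18.PlaceFactsP.placeFacts_of_sep jb (transcendental_of_coe_eq F jb hjb)

/-- `RiemannFacts` for the same fields. -/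
theorem riemannFacts_of_finite [IsAlgClosed k] (F : IntermediateField k (LaurentSeries k))
    (jb : F) (hjb : (jb : LaurentSeries k) = ModularCurve.jqModC k)
    [FiniteDimensional ↥k⟮jb⟯ ↥F] : Fermat.Agent.RR.RiemannFacts k ↥F :=
  Fermat.Agent.RR.riemannFacts_of_placeFacts (placeFacts_of_finite F jb hjb)

/-- If `j̄ ∈ k(t)` then `q dt/dq ≠ 0`. -/
theorem thetaFun_ne_zero_of_mem_adjoin (F : IntermediateField k (LaurentSeries k)) (jb t : F)
    (hjb : (jb : LaurentSeries k) = ModularCurve.jqModC k) (hmem : jb ∈ k⟮t⟯) :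
    thetaFun k (t : LaurentSeries k) ≠ 0 := by
  intro h0
  have h1 : thetaRestrict k F jb = 0 :=
    Fermat.Agent.S18.DiffSep.derivation_adjoin_eq_zero (thetaRestrict k F) t h0 jb hmem
  exact thetaFun_coe_ne_zero F jb hjb h1

/-- `F / k(t)` is separable when finite, for every `t` with `j̄ ∈ k(t)` (`k` perfect). -/
theorem algebra_isSeparable_of_mem_adjoin [PerfectField k]
    (F : IntermediateField k (LaurentSeries k)) (jb t : F)
    (hjb : (jb : LaurentSeries k) = ModularCurve.jqModC k) (hmem : jb ∈ k⟮t⟯)
    [FiniteDimensional ↥k⟮t⟯ ↥F] : Algebra.IsSeparable ↥k⟮t⟯ ↥F :=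
  algebra_isSeparable_of_finite F t (thetaFun_ne_zero_of_mem_adjoin F jb t hjb hmem)

end Fermat.Agent.S18.SepPF
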