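import Fermat.Agent.S18.Defs
import Fermat.Agent.S18.ResField
import Fermat.Agent.S18.ConstPF
import Fermat.Agent.S18.SepPF
import Fermat.Agent.S18.ConstBAlg

/-!
# S18 / ConstB: constants of `Fb_N = modularFunctionFieldFullC k N` in characteristic `ℓ`

`ConstB.main : ConstStmt A N` - a nonzero element of `Fb_N` without zeros and poles is a constant.
`Fb_N/k(j)` is finite (`ConstBAlg.finiteDimensional_full`) and separable (`SepPF`), so
`RR.PlaceFacts k Fb_N` holds (`PlaceFactsP`), and `ConstPF.exists_const` applies.
-/

set_option autoImplicit false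
set_option synthInstance.maxHeartbeats 400000

namespace Fermat.Agent.S18.ConstB

open AlgebraicCurve ModularCurve

/-- `PlaceFacts` for the prelude field `Fb_N` over the residue field `k` of `A`. -/
theorem placeFacts_full (A : ValuationSubring (AlgebraicClosure ℚ)) (N : ℕ) [NeZero N] :
    Fermat.Agent.RR.PlaceFacts (IsLocalRing.ResidueField A)
      (modularFunctionFieldFullC (IsLocalRing.ResidueField A) N) := by
  have hac : IsAlgClosed (IsLocalRing.ResidueField A) := ResField.isAlgClosed A
  have hfd := ConstBAlg.finiteDimensional_full (IsLocalRing.ResidueField A) N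
  exact SepPF.placeFacts_of_finite (modularFunctionFieldFullC (IsLocalRing.ResidueField A) N)
    (ConstBAlg.xC (IsLocalRing.ResidueField A) N) rfl

/-- **Constants at level `N` in characteristic `ℓ`.** -/
theorem main {ℓ N : ℕ} [NeZero N] (_hℓ : ℓ.Prime) (_hℓN : ¬ ℓ ∣ N)
    (A : ValuationSubring (AlgebraicClosure ℚ)) (_hA : A.LiesOverPrime ℓ) : ConstStmt A N := by
  intro f hf h
  exact ConstPF.exists_const (placeFacts_full A N) f hf h

end Fermat.Agent.S18.ConstB
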