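/-
S18 / Pivot (helper21): orthonormal bases of finite-dimensional subspaces with respect to a
"max norm" over an ARBITRARY valuation ring (no discreteness, no completeness).

`exists_basis_of_coords` : if `V` is a finite-dimensional `K`-vector space, `A` a valuation
subring of `K` and `φ : V →ₗ[K] (ι → K)` is injective (`ι` finite), then `V` has a basis `b` such
that `∑ c i • b i` has all `φ`-coordinates in `A` iff all `c i` are in `A`.
Proof: Gaussian elimination with a pivot of maximal absolute value.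
-/
import Mathlib

set_option autoImplicit false

namespace Fermat.Agent.S18.Pivot

open Module

universe u v

variable {K : Type u} [Field K] (A : ValuationSubring K)

/-- A nonzero vector of `ι → K` (`ι` finite) has a coordinate of maximal absolute value. -/
theorem exists_pivot {ι : Type v} [Finite ι] (x : ι → K) (hx : x ≠ 0) :
    ∃ k₀, x k₀ ≠ 0 ∧ ∀ k, x k / x k₀ ∈ A := by
  classical
  have hne : ∃ k, x k ≠ 0 := by
    by_contra hcon
    exact hx (funext fun k => by_contra fun hk => hcon ⟨k, hk⟩)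
  obtain ⟨k1, hk1⟩ := hne
  have : Nonempty ι := ⟨k1⟩
  obtain ⟨k₀, hk₀⟩ := Finite.exists_max (fun k => A.valuation (x k))
  have h0 : x k₀ ≠ 0 := by
    intro h0
    have h1 := hk₀ k1
    rw [h0, map_zero] at h1
    exact hk1 ((map_eq_zero _).mp (le_antisymm h1 zero_le))
  refine ⟨k₀, h0, fun k => ?_⟩
  rw [← A.valuation_le_one_iff, map_div₀]
  exact div_le_one_of_le₀ (hk₀ k) zero_le

/-- Main induction. -/
theorem exists_basis_aux (n : ℕ) :
    ∀ (V : Type v) [AddCommGroup V] [Module K V] [FiniteDimensional K V]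
      (_ : finrank K V = n) (ι : Type v) [Finite ι] (φ : V →ₗ[K] (ι → K))
      (_ : Function.Injective φ),
      ∃ b : Basis (Fin n) K V,
        ∀ c : Fin n → K, (∀ k, φ (∑ i, c i • b i) k ∈ A) ↔ ∀ i, c i ∈ A := by
  induction n with
  | zero =>
    intro V _ _ _ hV ι _ φ hφ
    have : Subsingleton V := Module.finrank_zero_iff.mp hV
    refine ⟨Basis.empty V, fun c => ?_⟩
    constructor
    · intro _ i; exact i.elim0
    · intro _ k
      simp
  | succ n ih =>
    intro V _ _ _ hV ι _ φ hφ
    classical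
    -- a nonzero vector
    have hnt : Nontrivial V := Module.nontrivial_of_finrank_pos (R := K) (by omega)
    obtain ⟨v₀, hv₀⟩ := exists_ne (0 : V)
    have hφv₀ : φ v₀ ≠ 0 := fun h => hv₀ (hφ (by rw [h, map_zero]))
    obtain ⟨k₀, hk₀, hmax⟩ := exists_pivot A (φ v₀) hφv₀
    set v₁ : V := (φ v₀ k₀)⁻¹ • v₀ with hv₁
    have hv₁k : ∀ k, φ v₁ k = φ v₀ k / φ v₀ k₀ := by
      intro k
      rw [hv₁, map_smul, Pi.smul_apply, smul_eq_mul, div_eq_inv_mul]
    have hv₁k₀ : φ v₁ k₀ = 1 := by rw [hv₁k, div_self hk₀]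
    have hv₁A : ∀ k, φ v₁ k ∈ A := fun k => by rw [hv₁k]; exact hmax k
    -- the coordinate functional and its kernel
    set pr : V →ₗ[K] K := (LinearMap.proj k₀ : (ι → K) →ₗ[K] K).comp φ with hpr
    have hprv : ∀ v, pr v = φ v k₀ := fun v => rfl
    set V' : Submodule K V := LinearMap.ker pr with hV'
    have hmemV' : ∀ v, v ∈ V' ↔ φ v k₀ = 0 := fun v => by rw [hV', LinearMap.mem_ker, hprv]
    have hsurj : Function.Surjective pr := by
      intro a
      refine ⟨a • v₁, ?_⟩
      rw [map_smul, hprv, hv₁k₀, smul_eq_mul, mul_one]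
    have hrank : finrank K V' = n := by
      have h1 := LinearMap.finrank_range_add_finrank_ker pr
      rw [LinearMap.range_eq_top.mpr hsurj, finrank_top, Module.finrank_self, hV] at h1
      rw [hV']
      omega
    set φ' : V' →ₗ[K] (ι → K) := φ.comp V'.subtype with hφ'
    have hφ'inj : Function.Injective φ' := by
      intro a b hab
      exact Subtype.ext (hφ hab)
    obtain ⟨b', hb'⟩ := ih V' hrank ι φ' hφ'inj
    have hli : ∀ (c : K), ∀ x ∈ V', c • v₁ + x = 0 → c = 0 := by
      intro c x hx h0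
      have h1 : φ (c • v₁ + x) k₀ = 0 := by rw [h0, map_zero]; rfl
      rw [map_add, Pi.add_apply, map_smul, Pi.smul_apply, hv₁k₀, (hmemV' x).mp hx, add_zero,
        smul_eq_mul, mul_one] at h1
      exact h1
    have hsp : ∀ z : V, ∃ c : K, z + c • v₁ ∈ V' := by
      intro z
      refine ⟨-(φ z k₀), ?_⟩
      rw [hmemV', map_add, Pi.add_apply, map_smul, Pi.smul_apply, hv₁k₀, smul_eq_mul, mul_one,
        add_neg_cancel]
    refine ⟨Basis.mkFinCons v₁ b' hli hsp, fun c => ?_⟩
    have hsum : ∑ i, c i • (Basis.mkFinCons v₁ b' hli hsp) i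
        = c 0 • v₁ + ((∑ i, c (Fin.succ i) • b' i : V') : V) := by
      rw [Fin.sum_univ_succ, Basis.coe_mkFinCons]
      simp only [Fin.cons_zero, Fin.cons_succ, Function.comp_apply]
      rw [Submodule.coe_sum]
      simp only [Submodule.coe_smul]
    have hφ'w : ∀ k, φ' (∑ i, c (Fin.succ i) • b' i) k
        = φ ((∑ i, c (Fin.succ i) • b' i : V') : V) k := fun k => rfl
    have hw0 : φ ((∑ i, c (Fin.succ i) • b' i : V') : V) k₀ = 0 :=
      (hmemV' _).mp (Submodule.coe_mem _)
    rw [hsum]
    constructor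
    · intro hall
      have hc0 : c 0 ∈ A := by
        have h1 := hall k₀
        rw [map_add, Pi.add_apply, map_smul, Pi.smul_apply, hv₁k₀, hw0, add_zero, smul_eq_mul,
          mul_one] at h1
        exact h1
      have hrest : ∀ i, c (Fin.succ i) ∈ A := by
        apply (hb' (fun i => c (Fin.succ i))).mp
        intro k
        rw [hφ'w]
        have h1 := hall k
        rw [map_add, Pi.add_apply, map_smul, Pi.smul_apply, smul_eq_mul] at h1
        have h2 : φ ((∑ i, c (Fin.succ i) • b' i : V') : V) k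
            = (c 0 * φ v₁ k + φ ((∑ i, c (Fin.succ i) • b' i : V') : V) k) - c 0 * φ v₁ k := by
          ring
        rw [h2]
        exact sub_mem h1 (A.mul_mem _ _ hc0 (hv₁A k))
      intro i
      refine Fin.cases hc0 hrest i
    · intro hall k
      rw [map_add, Pi.add_apply, map_smul, Pi.smul_apply, smul_eq_mul]
      refine A.add_mem _ _ (A.mul_mem _ _ (hall 0) (hv₁A k)) ?_
      rw [← hφ'w]
      exact (hb' (fun i => c (Fin.succ i))).mpr (fun i => hall (Fin.succ i)) k

/-- **Orthonormal basis (coordinate form).** -/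
theorem exists_basis_of_coords {V : Type v} [AddCommGroup V] [Module K V] [FiniteDimensional K V]
    {ι : Type v} [Finite ι] (φ : V →ₗ[K] (ι → K)) (hφ : Function.Injective φ) :
    ∃ b : Basis (Fin (finrank K V)) K V,
      (∀ c : Fin (finrank K V) → K, (∀ k, φ (∑ i, c i • b i) k ∈ A) ↔ ∀ i, c i ∈ A) ∧
      (∀ v : V, (∀ k, φ v k ∈ A) ↔ ∀ i, b.repr v i ∈ A) := by
  obtain ⟨b, hb⟩ := exists_basis_aux A (finrank K V) V rfl ι φ hφ
  refine ⟨b, hb, fun v => ?_⟩
  have h1 := hb (fun i => b.repr v i)
  rw [b.sum_repr v] at h1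
  exact h1

end Fermat.Agent.S18.Pivot
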