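/-
S18 / ChartInt (helper21): the integrality transfer (INT) of route M, abstractly from `RedFacts`.

Main exports (`k = IsLocalRing.ResidueField A`):
* `ChartInt.hint0`, `ChartInt.hint1` : the two Gauss-layer hypotheses of `Charts.chartFacts_of`,
  from `RedFacts A Red`, `Red j jb`, transcendence of `j`, `jb`, and a lifted family
  `Red (b i) (bb i)` with `bb` linearly independent over `k(jb)` and `[F : K(j)] ≤ #b`.
* `ChartInt.hint0_of_surj`, `ChartInt.hint1_of_surj` : the same from surjectivity of `Red` and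
  `[F : K(j)] ≤ [κ : k(jb)]`.
* by-products: `Ow` (the valuation ring of `Red`), `gauss` (Gauss lemma), `red_mem_adjoin`,
  `ortho_key`, `exists_repr`, `isIntegral_OE`, `int_core`.
-/
import Mathlib
import Fermat.Agent.S18.CoreDefs
import Fermat.Agent.S18.Pivot
import Fermat.Agent.S24.PlacesOver
import Fermat.Agent.S24.Principal

set_option autoImplicit false

noncomputable section

namespace Fermat.Agent.S18.ChartInt

open AlgebraicCurve IntermediateField Polynomial

variable {K F κ : Type*} [Field K] [Field F] [Algebra K F] {A : ValuationSubring K}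
    [Field κ] [Algebra (IsLocalRing.ResidueField A) κ] {Red : F → κ → Prop}

/-! ### Basic calculus -/

theorem red_zero (hR : RedFacts A Red) : Red (0 : F) (0 : κ) := by
  have h := hR.const 0
  simpa using h

theorem red_neg_one (hR : RedFacts A Red) : Red (-1 : F) (-1 : κ) := by
  have h := hR.const (-1)
  simpa using h

theorem red_neg (hR : RedFacts A Red) {f : F} {x : κ} (h : Red f x) : Red (-f) (-x) := by
  have h1 := hR.mul _ _ _ _ (red_neg_one hR) h
  simpa using h1

theorem red_sub (hR : RedFacts A Red) {f g : F} {x y : κ} (h : Red f x) (h' : Red g y) :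
    Red (f - g) (x - y) := by
  have h1 := hR.add _ _ _ _ h (red_neg hR h')
  simpa [sub_eq_add_neg] using h1

theorem red_pow (hR : RedFacts A Red) {f : F} {x : κ} (h : Red f x) (n : ℕ) :
    Red (f ^ n) (x ^ n) := by
  induction n with
  | zero => simpa using hR.one
  | succ n ih =>
    rw [pow_succ, pow_succ]
    exact hR.mul _ _ _ _ ih h

theorem red_sum (hR : RedFacts A Red) {ι : Type*} (s : Finset ι) (f : ι → F) (x : ι → κ)
    (h : ∀ i ∈ s, Red (f i) (x i)) : Red (∑ i ∈ s, f i) (∑ i ∈ s, x i) := by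
  classical
  induction s using Finset.induction_on with
  | empty => simpa using red_zero hR
  | insert a s ha ih =>
    rw [Finset.sum_insert ha, Finset.sum_insert ha]
    exact hR.add _ _ _ _ (h a (Finset.mem_insert_self a s))
      (ih fun i hi => h i (Finset.mem_insert_of_mem hi))

theorem red_eq_zero (hR : RedFacts A Red) {x : κ} (h : Red (0 : F) x) : x = 0 :=
  hR.unique _ _ _ h (red_zero hR)

/-- The residue of a non-unit element. -/
theorem residue_inv_eq_zero {c : K} (hc : c ∉ A) :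
    ∃ h : c⁻¹ ∈ A, IsLocalRing.residue A ⟨c⁻¹, h⟩ = 0 := by
  have h : c⁻¹ ∈ A := (A.mem_or_inv_mem c).resolve_left hc
  refine ⟨h, ?_⟩
  rw [IsLocalRing.residue_eq_zero_iff]
  intro hu
  apply hc
  obtain ⟨b, hb⟩ := hu.exists_right_inv
  have hb' : c⁻¹ * (b : K) = 1 := by
    have := congrArg (Subtype.val) hb
    simpa using this
  have hc0 : c ≠ 0 := by
    rintro rfl
    simp at hb'
  have : (b : K) = c := by
    field_simp at hb'
    exact hb'
  rw [← this]
  exact b.2

theorem const_mem (hR : RedFacts A Red) {c : K} {z : κ} (h : Red (algebraMap K F c) z) :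
    c ∈ A := by
  by_contra hc
  obtain ⟨hinv, hres⟩ := residue_inv_eq_zero hc
  have h1 := hR.const ⟨c⁻¹, hinv⟩
  rw [hres, map_zero] at h1
  have h2 := hR.mul _ _ _ _ h1 h
  have hc0 : c ≠ 0 := by
    rintro rfl
    exact hc A.zero_mem
  rw [zero_mul, ← map_mul] at h2
  have h3 : (((⟨c⁻¹, hinv⟩ : A) : K)) * c = 1 := inv_mul_cancel₀ hc0
  rw [h3, map_one] at h2
  exact one_ne_zero (hR.unique _ _ _ hR.one h2)

theorem const_red (hR : RedFacts A Red) {c : K} {z : κ} (h : Red (algebraMap K F c) z) :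
    ∃ hc : c ∈ A, z = algebraMap (IsLocalRing.ResidueField A) κ (IsLocalRing.residue A ⟨c, hc⟩) :=
  ⟨const_mem hR h, hR.unique _ _ _ h (hR.const ⟨c, const_mem hR h⟩)⟩

theorem ne_zero_of_red (hR : RedFacts A Red) {f : F} {x : κ} (h : Red f x) (hx : x ≠ 0) :
    f ≠ 0 := by
  rintro rfl
  exact hx (red_eq_zero hR h)

theorem red_inv (hR : RedFacts A Red) {f : F} {x : κ} (h : Red f x) (hx : x ≠ 0) :
    Red f⁻¹ x⁻¹ := by
  have hf : f ≠ 0 := ne_zero_of_red hR h hx
  obtain ⟨c, hc0, y, hy0, hcy⟩ := hR.normalize f⁻¹ (inv_ne_zero hf)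
  have h1 := hR.mul _ _ _ _ hcy h
  rw [mul_assoc, inv_mul_cancel₀ hf, mul_one] at h1
  obtain ⟨hcA, hz⟩ := const_red hR h1
  have hyx : y * x ≠ 0 := mul_ne_zero hy0 hx
  have hres : IsLocalRing.residue A ⟨c, hcA⟩ ≠ 0 := by
    intro h0
    rw [h0, map_zero] at hz
    exact hyx hz
  have hunit : IsUnit (⟨c, hcA⟩ : A) := by
    by_contra hnu
    exact hres ((IsLocalRing.residue_eq_zero_iff _).mpr hnu)
  obtain ⟨d, hd⟩ := hunit.exists_right_inv
  have hd' : c * (d : K) = 1 := by
    have := congrArg (Subtype.val) hd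
    simpa using this
  have h2 := hR.mul _ _ _ _ (hR.const d) hcy
  have h3 : algebraMap K F (d : K) * (algebraMap K F c * f⁻¹) = f⁻¹ := by
    rw [← mul_assoc, ← map_mul, mul_comm (d : K) c, hd', map_one, one_mul]
  rw [h3] at h2
  have h4 : algebraMap (IsLocalRing.ResidueField A) κ (IsLocalRing.residue A d) * y = x⁻¹ := by
    apply eq_inv_of_mul_eq_one_left
    rw [mul_assoc, hz, ← map_mul, ← map_mul]
    have : d * (⟨c, hcA⟩ : A) = 1 := by rw [mul_comm]; exact hd
    rw [this, map_one, map_one]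
  rw [h4] at h2
  exact h2

theorem mem_or_inv_mem (hR : RedFacts A Red) (f : F) : (∃ x, Red f x) ∨ ∃ x, Red f⁻¹ x := by
  rcases eq_or_ne f 0 with rfl | hf
  · exact Or.inl ⟨0, red_zero hR⟩
  obtain ⟨c, hc0, x, hx0, hcx⟩ := hR.normalize f hf
  rcases A.mem_or_inv_mem c with hc | hc
  · right
    have h1 := red_inv hR hcx hx0
    have h2 := hR.mul _ _ _ _ (hR.const ⟨c, hc⟩) h1
    have h3 : algebraMap K F c * (algebraMap K F c * f)⁻¹ = f⁻¹ := by
      have : algebraMap K F c ≠ 0 := by simpa using hc0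
      field_simp
    rw [show (((⟨c, hc⟩ : A) : K)) = c from rfl, h3] at h2
    exact ⟨_, h2⟩
  · left
    have h2 := hR.mul _ _ _ _ (hR.const ⟨c⁻¹, hc⟩) hcx
    have h3 : algebraMap K F c⁻¹ * (algebraMap K F c * f) = f := by
      rw [← mul_assoc, ← map_mul, inv_mul_cancel₀ hc0, map_one, one_mul]
    rw [show (((⟨c⁻¹, hc⟩ : A) : K)) = c⁻¹ from rfl, h3] at h2
    exact ⟨_, h2⟩

/-- The valuation ring of the reduction relation. -/
def Ow (hR : RedFacts A Red) : ValuationSubring F where
  carrier := {f | ∃ x, Red f x}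
  mul_mem' := by
    rintro f g ⟨x, hx⟩ ⟨y, hy⟩
    exact ⟨_, hR.mul _ _ _ _ hx hy⟩
  one_mem' := ⟨1, hR.one⟩
  add_mem' := by
    rintro f g ⟨x, hx⟩ ⟨y, hy⟩
    exact ⟨_, hR.add _ _ _ _ hx hy⟩
  zero_mem' := ⟨0, red_zero hR⟩
  neg_mem' := by
    rintro f ⟨x, hx⟩
    exact ⟨_, red_neg hR hx⟩
  mem_or_inv_mem' := mem_or_inv_mem hR

theorem mem_Ow (hR : RedFacts A Red) {f : F} : f ∈ Ow hR ↔ ∃ x, Red f x := Iff.rfl

/-- If `f⁻¹` is not integral then `f` reduces to `0`. -/
theorem red_eq_zero_of_inv_not_mem (hR : RedFacts A Red) {f : F} {x : κ} (h : Red f x)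
    (hinv : f⁻¹ ∉ Ow hR) : x = 0 := by
  by_contra hx
  exact hinv ⟨_, red_inv hR h hx⟩

/-! ### Polynomials in `j` -/

theorem red_aeval (hR : RedFacts A Red) {j : F} {jb : κ} (hj : Red j jb) (q : Polynomial A) :
    Red (aeval j (q.map (algebraMap A K))) (aeval jb (q.map (IsLocalRing.residue A))) := by
  induction q using Polynomial.induction_on' with
  | add p q hp hq =>
    simp only [Polynomial.map_add, map_add]
    exact hR.add _ _ _ _ hp hq
  | monomial n a =>
    simp only [Polynomial.map_monomial, aeval_monomial]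
    exact hR.mul _ _ _ _ (hR.const a) (red_pow hR hj n)

theorem exists_primitive (p : K[X]) (hp : p ≠ 0) :
    ∃ (c : K) (q : Polynomial A), c ≠ 0 ∧ p = C c * q.map (algebraMap A K) ∧
      q.map (IsLocalRing.residue A) ≠ 0 := by
  classical
  have hsupp : p.support.Nonempty := Polynomial.support_nonempty.mpr hp
  obtain ⟨m, hm, hmax⟩ :=
    Finset.exists_max_image p.support (fun i => A.valuation (p.coeff i)) hsupp
  have hc0 : p.coeff m ≠ 0 := Polynomial.mem_support_iff.mp hm
  have hcoef : ∀ i, (p.coeff m)⁻¹ * p.coeff i ∈ A := by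
    intro i
    by_cases hi : i ∈ p.support
    · rw [← A.valuation_le_one_iff, map_mul, map_inv₀, mul_comm, ← div_eq_mul_inv]
      exact div_le_one_of_le₀ (hmax i hi) zero_le
    · rw [Polynomial.notMem_support_iff.mp hi, mul_zero]
      exact A.zero_mem
  have hlift : (C (p.coeff m)⁻¹ * p) ∈ Polynomial.lifts (algebraMap A K) := by
    rw [Polynomial.lifts_iff_coeff_lifts]
    intro i
    rw [Polynomial.coeff_C_mul]
    exact ⟨⟨_, hcoef i⟩, rfl⟩
  obtain ⟨q, hq⟩ := hlift
  replace hq : q.map (algebraMap A K) = C (p.coeff m)⁻¹ * p := hq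
  refine ⟨p.coeff m, q, hc0, ?_, ?_⟩
  · rw [hq, ← mul_assoc, ← C_mul, mul_inv_cancel₀ hc0, C_1, one_mul]
  · intro h0
    have h1 : (q.map (IsLocalRing.residue A)).coeff m = 0 := by rw [h0, coeff_zero]
    rw [Polynomial.coeff_map] at h1
    have h2 : ((q.coeff m : A) : K) = 1 := by
      have := congrArg (fun r => r.coeff m) hq
      simp only [coeff_map, coeff_C_mul] at this
      rw [inv_mul_cancel₀ hc0] at this
      exact this
    have h3 : q.coeff m = 1 := Subtype.ext h2
    rw [h3, map_one] at h1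
    exact one_ne_zero h1

/-- **Gauss lemma**: a polynomial in `j` over `K` which is Gauss-integral has coefficients in `A`. -/
theorem gauss (hR : RedFacts A Red) {j : F} {jb : κ} (hj : Red j jb)
    (hjb : Transcendental (IsLocalRing.ResidueField A) jb) (p : K[X]) {x : κ}
    (h : Red (aeval j p) x) : ∃ q : Polynomial A, q.map (algebraMap A K) = p := by
  rcases eq_or_ne p 0 with rfl | hp
  · exact ⟨0, by simp⟩
  obtain ⟨c, q, hc0, hpq, hq⟩ := exists_primitive (A := A) p hp
  by_cases hc : c ∈ A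
  · refine ⟨C ⟨c, hc⟩ * q, ?_⟩
    rw [Polynomial.map_mul, Polynomial.map_C, hpq]
    rfl
  · exfalso
    obtain ⟨hinv, hres⟩ := residue_inv_eq_zero hc
    have h1 := hR.const ⟨c⁻¹, hinv⟩
    rw [hres, map_zero] at h1
    have h2 := hR.mul _ _ _ _ h1 h
    rw [zero_mul] at h2
    have h3 : algebraMap K F c⁻¹ * aeval j p = aeval j (q.map (algebraMap A K)) := by
      rw [hpq, map_mul, aeval_C, ← mul_assoc, ← map_mul, inv_mul_cancel₀ hc0, map_one, one_mul]
    rw [show ((⟨c⁻¹, hinv⟩ : A) : K) = c⁻¹ from rfl, h3] at h2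
    have h4 := hR.unique _ _ _ h2 (red_aeval hR hj q)
    exact hq ((transcendental_iff.mp hjb) _ h4.symm)

/-- The reduction of a Gauss-integral element of `K(j)` lies in `k(jb)`. -/
theorem red_mem_adjoin (hR : RedFacts A Red) {j : F} {jb : κ} (hj : Red j jb)
    (hjb : Transcendental (IsLocalRing.ResidueField A) jb) {g : F} (hg : g ∈ K⟮j⟯) {y : κ}
    (h : Red g y) : y ∈ (IsLocalRing.ResidueField A)⟮jb⟯ := by
  obtain ⟨r, s, rfl⟩ := (mem_adjoin_simple_iff K g).mp hg
  by_cases hs : aeval j s = 0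
  · rw [hs, div_zero] at h
    rw [red_eq_zero hR h]
    exact zero_mem _
  have hs0 : s ≠ 0 := by
    rintro rfl
    simp at hs
  obtain ⟨c, q, hc0, hsq, hq⟩ := exists_primitive (A := A) s hs0
  have hqj := red_aeval hR hj q
  have hsj : aeval j s = algebraMap K F c * aeval j (q.map (algebraMap A K)) := by
    rw [hsq, map_mul, aeval_C]
  have hc' : algebraMap K F c ≠ 0 := by simpa using hc0
  have hq' : aeval j (q.map (algebraMap A K)) ≠ 0 := by
    intro h0
    rw [hsj, h0, mul_zero] at hs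
    exact hs rfl
  have h1 : aeval j (C c⁻¹ * r)
      = (aeval j r / aeval j s) * aeval j (q.map (algebraMap A K)) := by
    rw [hsj, map_mul, aeval_C, map_inv₀]
    field_simp
  have h2 := hR.mul _ _ _ _ h hqj
  rw [← h1] at h2
  obtain ⟨q', hq'eq⟩ := gauss hR hj hjb _ h2
  have h3 := red_aeval hR hj q'
  rw [hq'eq] at h3
  have h4 := hR.unique _ _ _ h2 h3
  have hne : aeval jb (q.map (IsLocalRing.residue A)) ≠ 0 :=
    fun h0 => hq (transcendental_iff.mp hjb _ h0)
  rw [mem_adjoin_simple_iff]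
  refine ⟨q'.map (IsLocalRing.residue A), q.map (IsLocalRing.residue A), ?_⟩
  rw [← h4]
  field_simp

/-- Orthonormality of a lifted independent family (key lemma). -/
theorem ortho_key (hR : RedFacts A Red) {j : F} {jb : κ} (hj : Red j jb)
    (hjb : Transcendental (IsLocalRing.ResidueField A) jb) {n : ℕ} {b : Fin n → F}
    {bb : Fin n → κ} (hb : ∀ i, Red (b i) (bb i))
    (hbb : LinearIndependent (IsLocalRing.ResidueField A)⟮jb⟯ bb)
    (c : Fin n → F) (hc : ∀ i, c i ∈ K⟮j⟯) {x : κ} (h : Red (∑ i, c i * b i) x) :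
    (∀ i, c i ∈ Ow hR) ∧ ((∑ i, c i * b i = 0) → ∀ i, c i = 0) := by
  by_cases hc0 : c = 0
  · subst hc0
    exact ⟨fun i => (Ow hR).zero_mem, fun _ i => rfl⟩
  obtain ⟨i0, hi0, hpiv⟩ := Pivot.exists_pivot (Ow hR) c hc0
  choose y hy using hpiv
  have hyE : ∀ i, y i ∈ (IsLocalRing.ResidueField A)⟮jb⟯ := fun i =>
    red_mem_adjoin hR hj hjb (div_mem (hc i) (hc i0)) (hy i)
  have hy0 : y i0 = 1 := by
    have h1 := hy i0
    rw [div_self hi0] at h1
    exact hR.unique _ _ _ h1 hR.one
  have hsum : Red (∑ i, (c i / c i0) * b i) (∑ i, y i * bb i) :=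
    red_sum hR _ _ _ (fun i _ => hR.mul _ _ _ _ (hy i) (hb i))
  have hsum' : ∑ i, (c i / c i0) * b i = (c i0)⁻¹ * ∑ i, c i * b i := by
    rw [Finset.mul_sum]
    refine Finset.sum_congr rfl (fun i _ => ?_)
    ring
  have hcontra : (∑ i, y i * bb i = 0) → False := by
    intro h0
    have h1 := Fintype.linearIndependent_iff.mp hbb (fun i => ⟨y i, hyE i⟩) (by
      rw [← h0]
      refine Finset.sum_congr rfl (fun i _ => ?_)
      rfl) i0
    have h2 : y i0 = 0 := congrArg Subtype.val h1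
    rw [hy0] at h2
    exact one_ne_zero h2
  constructor
  · by_cases hmem : c i0 ∈ Ow hR
    · intro i
      have h1 : c i = (c i / c i0) * c i0 := by field_simp
      rw [h1]
      exact (Ow hR).mul_mem _ _ ⟨_, hy i⟩ hmem
    · exfalso
      have hinv : (c i0)⁻¹ ∈ Ow hR := ((Ow hR).mem_or_inv_mem (c i0)).resolve_left hmem
      obtain ⟨z, hz⟩ := hinv
      have hz0 : z = 0 := red_eq_zero_of_inv_not_mem hR hz (by rwa [inv_inv])
      subst hz0
      have h1 := hR.mul _ _ _ _ hz h
      rw [zero_mul, ← hsum'] at h1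
      exact hcontra (hR.unique _ _ _ hsum h1)
  · intro hzero i
    exfalso
    rw [hzero, mul_zero] at hsum'
    rw [hsum'] at hsum
    exact hcontra (red_eq_zero hR hsum)

/-- The lifted family is linearly independent over `K(j)`. -/
theorem linearIndependent_lift (hR : RedFacts A Red) {j : F} {jb : κ} (hj : Red j jb)
    (hjb : Transcendental (IsLocalRing.ResidueField A) jb) {n : ℕ} {b : Fin n → F}
    {bb : Fin n → κ} (hb : ∀ i, Red (b i) (bb i))
    (hbb : LinearIndependent (IsLocalRing.ResidueField A)⟮jb⟯ bb) :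
    LinearIndependent K⟮j⟯ b := by
  rw [Fintype.linearIndependent_iff]
  intro g hg i
  have h0 : ∑ i, (g i : F) * b i = 0 := by
    rw [← hg]
    exact Finset.sum_congr rfl (fun i _ => rfl)
  have h1 := (ortho_key hR hj hjb hb hbb (fun i => (g i : F)) (fun i => (g i).2) (x := 0)
    (by rw [h0]; exact red_zero hR)).2 h0 i
  exact Subtype.ext h1

/-- Coordinates of a Gauss-integral element in the lifted family are Gauss-integral. -/
theorem exists_repr (hR : RedFacts A Red) {j : F} {jb : κ} (hj : Red j jb)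
    (hjb : Transcendental (IsLocalRing.ResidueField A) jb) [FiniteDimensional K⟮j⟯ F] {n : ℕ}
    {b : Fin n → F} {bb : Fin n → κ} (hb : ∀ i, Red (b i) (bb i))
    (hbb : LinearIndependent (IsLocalRing.ResidueField A)⟮jb⟯ bb)
    (hn : Module.finrank K⟮j⟯ F ≤ n) {f : F} {x : κ} (hf : Red f x) :
    ∃ c : Fin n → F, (∀ i, c i ∈ K⟮j⟯) ∧ (∀ i, c i ∈ Ow hR) ∧ ∑ i, c i * b i = f := by
  have hli := linearIndependent_lift hR hj hjb hb hbb
  have hcard : Fintype.card (Fin n) = Module.finrank K⟮j⟯ F := by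
    have := hli.fintype_card_le_finrank
    rw [Fintype.card_fin] at this ⊢
    omega
  have hspan := hli.span_eq_top_of_card_eq_finrank' hcard
  have hmem : f ∈ Submodule.span K⟮j⟯ (Set.range b) := by
    rw [hspan]
    trivial
  obtain ⟨g, hg⟩ := (Submodule.mem_span_range_iff_exists_fun K⟮j⟯).mp hmem
  have h0 : ∑ i, (g i : F) * b i = f := by
    rw [← hg]
    exact Finset.sum_congr rfl (fun i _ => rfl)
  refine ⟨fun i => (g i : F), fun i => (g i).2, ?_, h0⟩
  exact (ortho_key hR hj hjb hb hbb _ (fun i => (g i).2) (x := x) (by rw [h0]; exact hf)).1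

/-- The Gauss ring of `K(j)`. -/
def OE (hR : RedFacts A Red) (j : F) : ValuationSubring K⟮j⟯ :=
  (Ow hR).comap (algebraMap K⟮j⟯ F)

theorem mem_OE (hR : RedFacts A Red) (j : F) (g : K⟮j⟯) : g ∈ OE hR j ↔ (g : F) ∈ Ow hR :=
  Iff.rfl

/-- Gauss-integral elements are integral over the Gauss ring of `K(j)`. -/
theorem isIntegral_OE (hR : RedFacts A Red) {j : F} {jb : κ} (hj : Red j jb)
    (hjb : Transcendental (IsLocalRing.ResidueField A) jb) [FiniteDimensional K⟮j⟯ F] {n : ℕ}
    {b : Fin n → F} {bb : Fin n → κ} (hb : ∀ i, Red (b i) (bb i))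
    (hbb : LinearIndependent (IsLocalRing.ResidueField A)⟮jb⟯ bb)
    (hn : Module.finrank K⟮j⟯ F ≤ n) {f : F} {x : κ} (hf : Red f x) :
    IsIntegral (OE hR j) f := by
  have hnpos : 0 < n := lt_of_lt_of_le Module.finrank_pos hn
  have hli := linearIndependent_lift hR hj hjb hb hbb
  refine isIntegral_of_smul_mem_submodule (R := OE hR j) (A := F) (M := F)
    (Submodule.span (OE hR j) (Set.range b)) ?_ ?_ f ?_
  · intro h0
    have h1 : b ⟨0, hnpos⟩ ∈ Submodule.span (OE hR j) (Set.range b) :=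
      Submodule.subset_span ⟨_, rfl⟩
    rw [h0, Submodule.mem_bot] at h1
    exact hli.ne_zero _ h1
  · exact Submodule.fg_span (Set.finite_range b)
  · intro m hm
    induction hm using Submodule.span_induction with
    | mem m hm =>
      obtain ⟨i, rfl⟩ := hm
      obtain ⟨c, hcE, hcO, hsum⟩ := exists_repr hR hj hjb hb hbb hn (hR.mul _ _ _ _ hf (hb i))
      rw [smul_eq_mul, ← hsum]
      refine Submodule.sum_mem _ (fun k _ => ?_)
      have h1 : c k * b k = (⟨⟨c k, hcE k⟩, hcO k⟩ : OE hR j) • b k := rfl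
      rw [h1]
      exact Submodule.smul_mem _ _ (Submodule.subset_span ⟨_, rfl⟩)
    | zero => rw [smul_zero]; exact Submodule.zero_mem _
    | add u v _ _ hu hv => rw [smul_add]; exact Submodule.add_mem _ hu hv
    | smul r u _ hu =>
      rw [smul_comm]
      exact Submodule.smul_mem _ _ hu

open scoped IntermediateField.algebraAdjoinAdjoin in
/-- **INT**: the reduction of a Gauss-integral element which is integral over `K[j]` is integral
over `k[jb]`. -/
theorem int_core (hR : RedFacts A Red) {j : F} {jb : κ} (hj : Red j jb)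
    (hjK : Transcendental K j)
    (hjb : Transcendental (IsLocalRing.ResidueField A) jb) [FiniteDimensional K⟮j⟯ F] {n : ℕ}
    {b : Fin n → F} {bb : Fin n → κ} (hb : ∀ i, Red (b i) (bb i))
    (hbb : LinearIndependent (IsLocalRing.ResidueField A)⟮jb⟯ bb)
    (hn : Module.finrank K⟮j⟯ F ≤ n) {f : F} {x : κ} (hf : Red f x)
    (hint : IsIntegral (Algebra.adjoin K {j}) f) :
    IsIntegral (Algebra.adjoin (IsLocalRing.ResidueField A) {jb}) x := by
  classical
  have hPID : IsPrincipalIdealRing (Algebra.adjoin K {j}) :=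
    Fermat.Agent.S24.PlacesOver.isPrincipalIdealRing_adjoin j hjK
  have hintO := isIntegral_OE hR hj hjb hb hbb hn hf
  have e1 := minpoly.isIntegrallyClosed_eq_field_fractions' K⟮j⟯ hint
  have e2 := minpoly.isIntegrallyClosed_eq_field_fractions' K⟮j⟯ hintO
  set P := minpoly K⟮j⟯ f with hP
  have hmonic : P.Monic := minpoly.monic (IsIntegral.of_finite K⟮j⟯ f)
  -- the coefficients of `P` reduce into `k[jb]`
  have hcoef : ∀ i, ∃ q : Polynomial A,
      Red ((P.coeff i : K⟮j⟯) : F) (aeval jb (q.map (IsLocalRing.residue A))) := by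
    intro i
    have h1 : ((P.coeff i : K⟮j⟯) : F) ∈ Algebra.adjoin K {j} := by
      rw [e1, coeff_map]
      exact ((minpoly (Algebra.adjoin K {j}) f).coeff i).2
    have h2 : ((P.coeff i : K⟮j⟯) : F) ∈ Ow hR := by
      rw [e2, coeff_map]
      exact ((minpoly (OE hR j) f).coeff i).2
    rw [Algebra.adjoin_singleton_eq_range_aeval] at h1
    obtain ⟨p, hp⟩ := h1
    obtain ⟨y, hy⟩ := h2
    have hp' : aeval j p = ((P.coeff i : K⟮j⟯) : F) := hp
    rw [← hp'] at hy ⊢
    obtain ⟨q, hq⟩ := gauss hR hj hjb p hy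
    refine ⟨q, ?_⟩
    rw [← hq]
    exact red_aeval hR hj q
  choose q hq using hcoef
  set d := P.natDegree with hd
  -- the relation satisfied by `f`
  have hrel : f ^ d + ∑ i ∈ Finset.range d, ((P.coeff i : K⟮j⟯) : F) * f ^ i = 0 := by
    have h1 : aeval f P = 0 := minpoly.aeval K⟮j⟯ f
    rw [hmonic.as_sum, map_add, map_pow, aeval_X, map_sum] at h1
    rw [← h1]
    congr 1
    refine Finset.sum_congr rfl (fun i _ => ?_)
    rw [map_mul, aeval_C, map_pow, aeval_X]
    rfl
  have hred : Red (f ^ d + ∑ i ∈ Finset.range d, ((P.coeff i : K⟮j⟯) : F) * f ^ i)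
      (x ^ d + ∑ i ∈ Finset.range d, aeval jb ((q i).map (IsLocalRing.residue A)) * x ^ i) :=
    hR.add _ _ _ _ (red_pow hR hf d)
      (red_sum hR _ _ _ (fun i _ => hR.mul _ _ _ _ (hq i) (red_pow hR hf i)))
  rw [hrel] at hred
  have hx := red_eq_zero hR hred
  -- the monic polynomial over `k[jb]`
  have hmem : ∀ i, aeval jb ((q i).map (IsLocalRing.residue A))
      ∈ Algebra.adjoin (IsLocalRing.ResidueField A) {jb} := by
    intro i
    rw [Algebra.adjoin_singleton_eq_range_aeval]
    exact ⟨_, rfl⟩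
  set Q : Polynomial (Algebra.adjoin (IsLocalRing.ResidueField A) {jb}) :=
    X ^ d + ∑ i ∈ Finset.range d, C (⟨_, hmem i⟩ : Algebra.adjoin (IsLocalRing.ResidueField A) {jb}) * X ^ i
    with hQ
  have hQmonic : Q.Monic := by
    apply monic_X_pow_add
    rw [degree_lt_iff_coeff_zero]
    intro m hm
    rw [finsetSum_coeff]
    refine Finset.sum_eq_zero (fun i hi => ?_)
    rw [coeff_C_mul_X_pow, if_neg]
    have := Finset.mem_range.mp hi
    omega
  refine ⟨Q, hQmonic, ?_⟩
  rw [hQ, eval₂_add, eval₂_pow, eval₂_X, eval₂_finsetSum, ← hx]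
  congr 1
  refine Finset.sum_congr rfl (fun i _ => ?_)
  rw [eval₂_mul, eval₂_C, eval₂_pow, eval₂_X]
  rfl

/-- **hint0** of `Charts.chartFacts_of`, from an orthonormal lifted family. -/
theorem hint0 (hR : RedFacts A Red) {j : F} {jb : κ} (hj : Red j jb) (hjK : Transcendental K j)
    (hjb : Transcendental (IsLocalRing.ResidueField A) jb) [FiniteDimensional K⟮j⟯ F] {n : ℕ}
    {b : Fin n → F} {bb : Fin n → κ} (hb : ∀ i, Red (b i) (bb i))
    (hbb : LinearIndependent (IsLocalRing.ResidueField A)⟮jb⟯ bb)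
    (hn : Module.finrank K⟮j⟯ F ≤ n) :
    ∀ (f : F) (x : κ), Red f x → IsIntegral (Algebra.adjoin K {j}) f →
      IsIntegral (Algebra.adjoin (IsLocalRing.ResidueField A) {jb}) x :=
  fun _ _ hf hint => int_core hR hj hjK hjb hb hbb hn hf hint

theorem finrank_le_of_eq {E E' : IntermediateField K F} (h : E' = E) {n : ℕ}
    (hn : Module.finrank E F ≤ n) : Module.finrank E' F ≤ n := by
  subst h
  exact hn

theorem finiteDimensional_of_eq {E E' : IntermediateField K F} (h : E' = E)
    [hfd : FiniteDimensional E F] : FiniteDimensional E' F := by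
  subst h
  exact hfd

theorem linearIndependent_of_eq {k' V : Type*} [Field k'] [Field V] [Algebra k' V]
    {E E' : IntermediateField k' V} (h : E' = E) {ι : Type*} {v : ι → V}
    (hv : LinearIndependent E v) : LinearIndependent E' v := by
  subst h
  exact hv

/-- **hint1** of `Charts.chartFacts_of`, from an orthonormal lifted family. -/
theorem hint1 (hR : RedFacts A Red) {j : F} {jb : κ} (hj : Red j jb) (hjK : Transcendental K j)
    (hjb : Transcendental (IsLocalRing.ResidueField A) jb) [FiniteDimensional K⟮j⟯ F] {n : ℕ}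
    {b : Fin n → F} {bb : Fin n → κ} (hb : ∀ i, Red (b i) (bb i))
    (hbb : LinearIndependent (IsLocalRing.ResidueField A)⟮jb⟯ bb)
    (hn : Module.finrank K⟮j⟯ F ≤ n) :
    ∀ (f : F) (x : κ), Red f x → IsIntegral (Algebra.adjoin K {j⁻¹}) f →
      IsIntegral (Algebra.adjoin (IsLocalRing.ResidueField A) {jb⁻¹}) x := by
  have hjb0 : jb ≠ 0 := fun h => hjb (h ▸ isAlgebraic_zero)
  have hj' : Red j⁻¹ jb⁻¹ := red_inv hR hj hjb0
  have hjK' : Transcendental K j⁻¹ := Fermat.Agent.S24.Principal.transcendental_inv hjK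
  have hjb' : Transcendental (IsLocalRing.ResidueField A) jb⁻¹ :=
    Fermat.Agent.S24.Principal.transcendental_inv hjb
  have e1 : K⟮j⁻¹⟯ = K⟮j⟯ := Fermat.Agent.S24.Principal.adjoin_inv_eq j
  have e2 : (IsLocalRing.ResidueField A)⟮jb⁻¹⟯ = (IsLocalRing.ResidueField A)⟮jb⟯ :=
    Fermat.Agent.S24.Principal.adjoin_inv_eq jb
  have hfd : FiniteDimensional K⟮j⁻¹⟯ F := finiteDimensional_of_eq e1
  have hbb' : LinearIndependent (IsLocalRing.ResidueField A)⟮jb⁻¹⟯ bb :=
    linearIndependent_of_eq e2 hbb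
  have hn' : Module.finrank K⟮j⁻¹⟯ F ≤ n := finrank_le_of_eq e1 hn
  exact fun _ _ hf hint => int_core hR hj' hjK' hjb' hb hbb' hn' hf hint

omit [Field F] [Algebra K F] in
/-- A lifted basis, from surjectivity of the reduction. -/
theorem exists_family_of_surj {jb : κ} (hsurj : ∀ x : κ, ∃ f : F, Red f x)
    [FiniteDimensional (IsLocalRing.ResidueField A)⟮jb⟯ κ] :
    ∃ (b : Fin (Module.finrank (IsLocalRing.ResidueField A)⟮jb⟯ κ) → F)
      (bb : Fin (Module.finrank (IsLocalRing.ResidueField A)⟮jb⟯ κ) → κ),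
      (∀ i, Red (b i) (bb i)) ∧ LinearIndependent (IsLocalRing.ResidueField A)⟮jb⟯ bb := by
  choose lift hlift using hsurj
  exact ⟨fun i => lift (Module.finBasis (IsLocalRing.ResidueField A)⟮jb⟯ κ i),
    fun i => Module.finBasis (IsLocalRing.ResidueField A)⟮jb⟯ κ i, fun i => hlift _,
    (Module.finBasis (IsLocalRing.ResidueField A)⟮jb⟯ κ).linearIndependent⟩

/-- **hint0**, from surjectivity of the reduction and the degree inequality. -/
theorem hint0_of_surj (hR : RedFacts A Red) {j : F} {jb : κ} (hj : Red j jb)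
    (hjK : Transcendental K j) (hjb : Transcendental (IsLocalRing.ResidueField A) jb)
    [FiniteDimensional K⟮j⟯ F] [FiniteDimensional (IsLocalRing.ResidueField A)⟮jb⟯ κ]
    (hsurj : ∀ x : κ, ∃ f : F, Red f x)
    (hdeg : Module.finrank K⟮j⟯ F ≤ Module.finrank (IsLocalRing.ResidueField A)⟮jb⟯ κ) :
    ∀ (f : F) (x : κ), Red f x → IsIntegral (Algebra.adjoin K {j}) f →
      IsIntegral (Algebra.adjoin (IsLocalRing.ResidueField A) {jb}) x := by
  obtain ⟨b, bb, hb, hbb⟩ := exists_family_of_surj (A := A) (Red := Red) (jb := jb) hsurj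
  exact hint0 hR hj hjK hjb hb hbb hdeg

/-- **hint1**, from surjectivity of the reduction and the degree inequality. -/
theorem hint1_of_surj (hR : RedFacts A Red) {j : F} {jb : κ} (hj : Red j jb)
    (hjK : Transcendental K j) (hjb : Transcendental (IsLocalRing.ResidueField A) jb)
    [FiniteDimensional K⟮j⟯ F] [FiniteDimensional (IsLocalRing.ResidueField A)⟮jb⟯ κ]
    (hsurj : ∀ x : κ, ∃ f : F, Red f x)
    (hdeg : Module.finrank K⟮j⟯ F ≤ Module.finrank (IsLocalRing.ResidueField A)⟮jb⟯ κ) :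
    ∀ (f : F) (x : κ), Red f x → IsIntegral (Algebra.adjoin K {j⁻¹}) f →
      IsIntegral (Algebra.adjoin (IsLocalRing.ResidueField A) {jb⁻¹}) x := by
  obtain ⟨b, bb, hb, hbb⟩ := exists_family_of_surj (A := A) (Red := Red) (jb := jb) hsurj
  exact hint1 hR hj hjK hjb hb hbb hdeg

end Fermat.Agent.S18.ChartInt

end
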