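import Mathlib
import Fermat.Agent.S18.CoreDefs
import Fermat.Agent.S24.PlacesOver

/-!
# S18 / Charts: the chart data of the two-chart core, without the genus bound

For a function field `F / K` with `RR.PlaceFacts` and a transcendental `x`:

* `IsPoleDiv x Z`, `IsZeroDiv x Z` : `Z` is the pole / zero divisor of `x`;
  `exists_zeroDiv`, `exists_poleDiv` : existence, with degree `[F : K(x)]`;
* `isIntegral_of_regular` : a function which is regular wherever `x` is regular is integral over
  `K[x]` (for `F / K(x)` finite separable);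
* `red_inv`, `red_pow`, `red_zero` : consequences of `RedFacts`;
* `compat_of` : the `compat` field of `ChartFacts` from the two integrality transfer hypotheses
  (`hint0`, `hint1`) of the Gauss layer;
* `chartFacts_of` : `ChartFacts` from all of the above and the genus bound.
-/

set_option autoImplicit false

noncomputable section

namespace Fermat.Agent.S18.Charts

open AlgebraicCurve IsDedekindDomain Fermat.Agent.RR Fermat.Agent.S24
open scoped IntermediateField

section Divisors

variable {K F : Type*} [Field K] [Field F] [Algebra K F]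

/-- `Z` is the divisor of zeros of `x`. -/
def IsZeroDiv (x : F) (Z : Divisor K F) : Prop := ∀ v : Place K F, Z v = max (v.ord x) 0

/-- `Z` is the divisor of poles of `x`. -/
def IsPoleDiv (x : F) (Z : Divisor K F) : Prop := ∀ v : Place K F, Z v = max (-(v.ord x)) 0

theorem IsZeroDiv.nonneg {x : F} {Z : Divisor K F} (h : IsZeroDiv x Z) (v : Place K F) :
    0 ≤ Z v := by
  rw [h v]; exact le_max_right _ _

theorem IsPoleDiv.nonneg {x : F} {Z : Divisor K F} (h : IsPoleDiv x Z) (v : Place K F) :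
    0 ≤ Z v := by
  rw [h v]; exact le_max_right _ _

theorem disjoint_pole_zero {x : F} {Z0 Z1 : Divisor K F} (h0 : IsPoleDiv x Z0)
    (h1 : IsZeroDiv x Z1) (v : Place K F) : Z0 v = 0 ∨ Z1 v = 0 := by
  rw [h0 v, h1 v]
  rcases le_total (v.ord x) 0 with h | h
  · right; exact max_eq_right h
  · left; exact max_eq_right (by omega)

theorem IsPoleDiv.eq_zero_of_nonneg {x : F} {Z : Divisor K F} (h : IsPoleDiv x Z) {v : Place K F}
    (hv : 0 ≤ v.ord x) : Z v = 0 := by
  rw [h v]; exact max_eq_right (by omega)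

theorem IsPoleDiv.eq_neg_of_nonpos {x : F} {Z : Divisor K F} (h : IsPoleDiv x Z) {v : Place K F}
    (hv : v.ord x ≤ 0) : Z v = -(v.ord x) := by
  rw [h v]; exact max_eq_left (by omega)

theorem IsZeroDiv.eq_zero_of_nonpos {x : F} {Z : Divisor K F} (h : IsZeroDiv x Z) {v : Place K F}
    (hv : v.ord x ≤ 0) : Z v = 0 := by
  rw [h v]; exact max_eq_right hv

theorem IsZeroDiv.eq_of_nonneg {x : F} {Z : Divisor K F} (h : IsZeroDiv x Z) {v : Place K F}
    (hv : 0 ≤ v.ord x) : Z v = v.ord x := by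
  rw [h v]; exact max_eq_left hv

/-- the pole divisor of `x` is the zero divisor of `x⁻¹` -/
theorem isPoleDiv_iff_isZeroDiv_inv {x : F} {Z : Divisor K F} :
    IsPoleDiv x Z ↔ IsZeroDiv x⁻¹ Z := by
  unfold IsPoleDiv IsZeroDiv
  refine forall_congr' fun v => ?_
  rw [v.ord_inv]

theorem transcendental_inv {x : F} (hx : Transcendental K x) : Transcendental K x⁻¹ := by
  intro h
  apply hx
  have := h.inv
  rwa [inv_inv] at this

theorem adjoin_inv_eq (x : F) : K⟮x⁻¹⟯ = K⟮x⟯ := by
  apply le_antisymm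
  · rw [IntermediateField.adjoin_simple_le_iff]
    exact inv_mem (IntermediateField.mem_adjoin_simple_self K x)
  · rw [IntermediateField.adjoin_simple_le_iff]
    have := inv_mem (IntermediateField.mem_adjoin_simple_self K x⁻¹)
    rwa [inv_inv] at this

/-- The zero divisor of a transcendental `x` exists and has degree `[F : K(x)]`. -/
theorem exists_zeroDiv (hP : PlaceFacts K F) (x : F) (hx : Transcendental K x) :
    ∃ Z : Divisor K F, IsZeroDiv x Z ∧ Divisor.degree Z = (Module.finrank K⟮x⟯ F : ℤ) := by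
  classical
  have hfin := hP.hfin x hx
  have hsupp : (Function.support fun v : Place K F => max (v.ord x) 0) ⊆
      {v : Place K F | 0 < v.ord x} := by
    intro v hv
    rw [Function.mem_support] at hv
    show 0 < v.ord x
    by_contra h
    exact hv (max_eq_right (not_lt.mp h))
  refine ⟨Finsupp.ofSupportFinite (fun v => max (v.ord x) 0) (hfin.subset hsupp),
    fun v => rfl, ?_⟩
  set Z : Divisor K F := Finsupp.ofSupportFinite (fun v => max (v.ord x) 0) (hfin.subset hsupp)
    with hZ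
  have hZv : ∀ v, Z v = max (v.ord x) 0 := fun v => rfl
  have hdegZ : Divisor.degree Z = ∑ v ∈ Z.support, Z v := by
    unfold Divisor.degree
    rw [Finsupp.liftAddHom_apply, Finsupp.sum]
    refine Finset.sum_congr rfl fun v _ => ?_
    rw [AddMonoidHom.coe_mulRight, hP.hdeg v, Nat.cast_one]
    exact mul_one _
  have hsuppeq : Z.support = hfin.toFinset := by
    ext v
    rw [Finsupp.mem_support_iff, Set.Finite.mem_toFinset, hZv]
    show max (v.ord x) 0 ≠ 0 ↔ 0 < v.ord x
    constructor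
    · intro h
      by_contra h'
      exact h (max_eq_right (not_lt.mp h'))
    · intro h h'
      rw [max_eq_left h.le] at h'
      omega
  rw [hdegZ, ← hP.hsum x hx, finsum_mem_eq_finite_toFinset_sum _ hfin, hsuppeq]
  refine Finset.sum_congr rfl fun v hv => ?_
  rw [Set.Finite.mem_toFinset] at hv
  rw [hZv]
  exact max_eq_left (le_of_lt hv)

/-- The pole divisor of a transcendental `x` exists and has degree `[F : K(x)]`. -/
theorem exists_poleDiv (hP : PlaceFacts K F) (x : F) (hx : Transcendental K x) :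
    ∃ Z : Divisor K F, IsPoleDiv x Z ∧ Divisor.degree Z = (Module.finrank K⟮x⟯ F : ℤ) := by
  obtain ⟨Z, hZ, hdeg⟩ := exists_zeroDiv hP x⁻¹ (transcendental_inv hx)
  refine ⟨Z, isPoleDiv_iff_isZeroDiv_inv.mpr hZ, ?_⟩
  rw [hdeg, adjoin_inv_eq]

/-- Two zero divisors of the same function agree. -/
theorem IsZeroDiv.unique {x : F} {Z Z' : Divisor K F} (h : IsZeroDiv x Z) (h' : IsZeroDiv x Z') :
    Z = Z' := by
  ext v; rw [h v, h' v]

theorem IsPoleDiv.unique {x : F} {Z Z' : Divisor K F} (h : IsPoleDiv x Z) (h' : IsPoleDiv x Z') :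
    Z = Z' := by
  ext v; rw [h v, h' v]

/-- degree of any zero divisor of a transcendental `x` -/
theorem IsZeroDiv.degree_eq (hP : PlaceFacts K F) {x : F} (hx : Transcendental K x)
    {Z : Divisor K F} (h : IsZeroDiv x Z) :
    Divisor.degree Z = (Module.finrank K⟮x⟯ F : ℤ) := by
  obtain ⟨Z', hZ', hdeg⟩ := exists_zeroDiv hP x hx
  rw [h.unique hZ', hdeg]

/-- degree of any pole divisor of a transcendental `x` -/
theorem IsPoleDiv.degree_eq (hP : PlaceFacts K F) {x : F} (hx : Transcendental K x)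
    {Z : Divisor K F} (h : IsPoleDiv x Z) :
    Divisor.degree Z = (Module.finrank K⟮x⟯ F : ℤ) := by
  obtain ⟨Z', hZ', hdeg⟩ := exists_poleDiv hP x hx
  rw [h.unique hZ', hdeg]

end Divisors

section Integral

open scoped IntermediateField.algebraAdjoinAdjoin

universe u v

variable {K : Type u} {F : Type v} [Field K] [Field F] [Algebra K F]

/-- A function which is regular at every place where `x` is regular is integral over `K[x]`
(`F / K(x)` finite separable). -/
theorem isIntegral_of_regular (x : F) (hx : Transcendental K x)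
    [FiniteDimensional K⟮x⟯ F] [Algebra.IsSeparable K⟮x⟯ F] (f : F)
    (hf : ∀ v : Place K F, 0 ≤ v.ord x → 0 ≤ v.ord f) :
    IsIntegral (Algebra.adjoin K {x}) f := by
  have := PlacesOver.isPrincipalIdealRing_adjoin x hx
  have : IsDedekindDomain (integralClosure (Algebra.adjoin K {x}) F) :=
    integralClosure.isDedekindDomain (Algebra.adjoin K {x}) K⟮x⟯ F
  have : IsFractionRing (integralClosure (Algebra.adjoin K {x}) F) F :=
    integralClosure.isFractionRing_of_finite_extension K⟮x⟯ F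
  have hmem : f ∈ (algebraMap (integralClosure (Algebra.adjoin K {x}) F) F).range := by
    apply HeightOneSpectrum.mem_integers_of_valuation_le_one F f
    intro w
    have hxB : x ∈ integralClosure (Algebra.adjoin K {x}) F :=
      isIntegral_algebraMap (R := Algebra.adjoin K {x}) (A := F)
        (x := ⟨x, Algebra.self_mem_adjoin_singleton K x⟩)
    have hxw : x ∈ (Place.ofHeightOneSpectrum (K := K) w).toValuationSubring := by
      rw [Place.ofHeightOneSpectrum_toValuationSubring, Valuation.mem_valuationSubring_iff]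
      exact w.valuation_le_one (⟨x, hxB⟩ : integralClosure (Algebra.adjoin K {x}) F)
    have h1 := hf _ (PlacesOver.ord_nonneg_of_mem _ hxw)
    have h2 := PlacesOver.mem_of_ord_nonneg _ h1
    rw [Place.ofHeightOneSpectrum_toValuationSubring, Valuation.mem_valuationSubring_iff] at h2
    exact h2
  obtain ⟨b, rfl⟩ := hmem
  exact b.2

/-- characteristic zero version -/
theorem isIntegral_of_regular_charZero [CharZero K] (x : F) (hx : Transcendental K x)
    [FiniteDimensional K⟮x⟯ F] (f : F)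
    (hf : ∀ v : Place K F, 0 ≤ v.ord x → 0 ≤ v.ord f) :
    IsIntegral (Algebra.adjoin K {x}) f := by
  have : CharZero F := charZero_of_injective_algebraMap (algebraMap K F).injective
  have : Algebra.IsSeparable K⟮x⟯ F := inferInstance
  exact isIntegral_of_regular x hx f hf

/-- Conversely, an element integral over `K[x]` is regular wherever `x` is. -/
theorem regular_of_isIntegral (x : F) (f : F) (hf : IsIntegral (Algebra.adjoin K {x}) f)
    (v : Place K F) (hv : 0 ≤ v.ord x) : 0 ≤ v.ord f :=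
  PlacesOver.ord_nonneg_of_mem v
    (PlacesOver.integralClosure_mem_of_mem v x (PlacesOver.mem_of_ord_nonneg v hv) ⟨f, hf⟩)

end Integral

section Red

variable {K F κ : Type*} [Field K] [Field F] [Algebra K F] {A : ValuationSubring K}
  [Field κ] [Algebra (IsLocalRing.ResidueField A) κ] {Red : F → κ → Prop}

theorem red_zero (hR : RedFacts A Red) : Red 0 0 := by
  have h := hR.const 0
  simpa using h

theorem red_pow (hR : RedFacts A Red) {f : F} {x : κ} (h : Red f x) (n : ℕ) :
    Red (f ^ n) (x ^ n) := by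
  induction n with
  | zero => simpa using hR.one
  | succ n ih =>
    rw [pow_succ, pow_succ]
    exact hR.mul _ _ _ _ ih h

theorem ne_zero_of_red (hR : RedFacts A Red) {f : F} {x : κ} (h : Red f x) (hx : x ≠ 0) :
    f ≠ 0 := by
  rintro rfl
  exact hx (hR.unique 0 x 0 h (red_zero hR))

/-- A function with nonzero reduction is a Gauss unit: its inverse reduces to the inverse. -/
theorem red_inv (hR : RedFacts A Red) {f : F} {x : κ} (h : Red f x) (hx : x ≠ 0) :
    Red f⁻¹ x⁻¹ := by
  have hf0 : f ≠ 0 := ne_zero_of_red hR h hx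
  obtain ⟨c, hc0, y, hy0, hcy⟩ := hR.normalize f⁻¹ (inv_ne_zero hf0)
  have h1 : Red (algebraMap K F c) (y * x) := by
    have := hR.mul _ _ _ _ hcy h
    rwa [mul_assoc, inv_mul_cancel₀ hf0, mul_one] at this
  have hyx : y * x ≠ 0 := mul_ne_zero hy0 hx
  have hcinv : c⁻¹ ∈ A := by
    by_contra hnot
    have hcA : c ∈ A := (A.mem_or_inv_mem c).resolve_right hnot
    have hnu : ¬ IsUnit (⟨c, hcA⟩ : A) := by
      rintro ⟨u, hu⟩
      apply hnot
      have h2 : ((u⁻¹ : Aˣ) : A) * ⟨c, hcA⟩ = 1 := by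
        rw [← hu]; exact u.inv_mul
      have h3 : (((u⁻¹ : Aˣ) : A) : K) * c = 1 := by
        have := congrArg Subtype.val h2
        simpa using this
      have h4 : (((u⁻¹ : Aˣ) : A) : K) = c⁻¹ := eq_inv_of_mul_eq_one_left h3
      rw [← h4]
      exact ((u⁻¹ : Aˣ) : A).2
    have hres : IsLocalRing.residue A ⟨c, hcA⟩ = 0 := by
      rw [IsLocalRing.residue_eq_zero_iff]
      exact (IsLocalRing.mem_maximalIdeal _).mpr hnu
    have h5 := hR.const ⟨c, hcA⟩
    rw [hres, map_zero] at h5
    exact hyx (hR.unique _ _ _ h1 h5)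
  have h6 := hR.const ⟨c⁻¹, hcinv⟩
  have h7 := hR.mul _ _ _ _ h6 hcy
  have e : algebraMap K F ((⟨c⁻¹, hcinv⟩ : A) : K) * (algebraMap K F c * f⁻¹) = f⁻¹ := by
    show algebraMap K F c⁻¹ * (algebraMap K F c * f⁻¹) = f⁻¹
    rw [← mul_assoc, ← map_mul, inv_mul_cancel₀ hc0, map_one, one_mul]
  rw [e] at h7
  have h8 := hR.mul _ _ _ _ h7 h
  rw [inv_mul_cancel₀ hf0] at h8
  have h9 := hR.unique _ _ _ h8 hR.one
  have h10 : algebraMap (IsLocalRing.ResidueField A) κ (IsLocalRing.residue A ⟨c⁻¹, hcinv⟩) * y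
      = x⁻¹ := eq_inv_of_mul_eq_one_left h9
  rw [← h10]
  exact h7

end Red

section Compat

universe u v w

variable {K : Type u} {F : Type v} {κ : Type w} [Field K] [Field F] [Algebra K F]
  {A : ValuationSubring K} [Field κ] [Algebra (IsLocalRing.ResidueField A) κ]
  {Red : F → κ → Prop}

theorem ord_pow' {K' F' : Type*} [Field K'] [Field F'] [Algebra K' F'] (v : Place K' F')
    (f : F') (n : ℕ) : v.ord (f ^ n) = (n : ℤ) * v.ord f := by
  rw [← zpow_natCast, v.ord_zpow]

/-- The `compat` field of `ChartFacts`: reduction maps `L(a (j)_∞ + b (j)_0)` into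
`L(a (jb)_∞ + b (jb)_0)`, given that reduction preserves integrality over `K[j]` and over
`K[j⁻¹]`. -/
theorem compat_of (hR : RedFacts A Red) {j : F} {jb : κ} (hj : Red j jb) (hjb0 : jb ≠ 0)
    (hreg0 : ∀ f : F, (∀ v : Place K F, 0 ≤ v.ord j → 0 ≤ v.ord f) →
      IsIntegral (Algebra.adjoin K {j}) f)
    (hreg1 : ∀ f : F, (∀ v : Place K F, 0 ≤ v.ord j⁻¹ → 0 ≤ v.ord f) →
      IsIntegral (Algebra.adjoin K {j⁻¹}) f)
    (hint0 : ∀ (f : F) (x : κ), Red f x → IsIntegral (Algebra.adjoin K {j}) f →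
      IsIntegral (Algebra.adjoin (IsLocalRing.ResidueField A) {jb}) x)
    (hint1 : ∀ (f : F) (x : κ), Red f x → IsIntegral (Algebra.adjoin K {j⁻¹}) f →
      IsIntegral (Algebra.adjoin (IsLocalRing.ResidueField A) {jb⁻¹}) x)
    {Z0 Z1 : Divisor K F} {Zb0 Zb1 : Divisor (IsLocalRing.ResidueField A) κ}
    (hZ0 : IsPoleDiv j Z0) (hZ1 : IsZeroDiv j Z1) (hZb0 : IsPoleDiv jb Zb0)
    (hZb1 : IsZeroDiv jb Zb1)
    (a b : ℕ) (f : F) (x : κ) (hf : f ∈ riemannRochSpace (a • Z0 + b • Z1)) (hfx : Red f x) :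
    x ∈ riemannRochSpace (a • Zb0 + b • Zb1) := by
  rw [mem_riemannRochSpace_iff] at hf ⊢
  intro Q
  by_cases hx0 : x = 0
  · left; exact hx0
  right
  have hf0 : f ≠ 0 := ne_zero_of_red hR hfx hx0
  have hj0 : j ≠ 0 := ne_zero_of_red hR hj hjb0
  have hfv : ∀ v : Place K F, -((a : ℤ) * Z0 v + (b : ℤ) * Z1 v) ≤ v.ord f := by
    intro v
    have := (hf v).resolve_left hf0
    rwa [Finsupp.add_apply, Finsupp.smul_apply, Finsupp.smul_apply, nsmul_eq_mul,
      nsmul_eq_mul] at this
  rw [Finsupp.add_apply, Finsupp.smul_apply, Finsupp.smul_apply, nsmul_eq_mul, nsmul_eq_mul]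
  rcases le_or_gt 0 (Q.ord jb) with hQ | hQ
  · -- `Q` is not a pole of `jb`
    have hg : IsIntegral (Algebra.adjoin K {j}) (f * j ^ b) := by
      apply hreg0
      intro v hv
      rw [v.ord_mul hf0 (pow_ne_zero b hj0), ord_pow']
      have h1 := hfv v
      rw [hZ0.eq_zero_of_nonneg hv, hZ1.eq_of_nonneg hv] at h1
      linarith
    have hgx : Red (f * j ^ b) (x * jb ^ b) := hR.mul _ _ _ _ hfx (red_pow hR hj b)
    have hxi := hint0 _ _ hgx hg
    have h2 := regular_of_isIntegral jb (x * jb ^ b) hxi Q hQ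
    rw [Q.ord_mul hx0 (pow_ne_zero b hjb0), ord_pow'] at h2
    rw [hZb0.eq_zero_of_nonneg hQ, hZb1.eq_of_nonneg hQ]
    linarith
  · -- `Q` is a pole of `jb`
    have hQ' : 0 ≤ Q.ord jb⁻¹ := by rw [Q.ord_inv]; omega
    have hg : IsIntegral (Algebra.adjoin K {j⁻¹}) (f * j⁻¹ ^ a) := by
      apply hreg1
      intro v hv
      rw [v.ord_inv] at hv
      rw [v.ord_mul hf0 (pow_ne_zero a (inv_ne_zero hj0)), ord_pow', v.ord_inv]
      have h1 := hfv v
      rw [hZ0.eq_neg_of_nonpos (by omega), hZ1.eq_zero_of_nonpos (by omega)] at h1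
      have e : (a : ℤ) * -(v.ord j) = -((a : ℤ) * v.ord j) := by ring
      rw [e] at h1 ⊢
      linarith
    have hgx : Red (f * j⁻¹ ^ a) (x * jb⁻¹ ^ a) :=
      hR.mul _ _ _ _ hfx (red_pow hR (red_inv hR hj hjb0) a)
    have hxi := hint1 _ _ hgx hg
    have h2 := regular_of_isIntegral jb⁻¹ (x * jb⁻¹ ^ a) hxi Q hQ'
    rw [Q.ord_mul hx0 (pow_ne_zero a (inv_ne_zero hjb0)), ord_pow', Q.ord_inv] at h2
    rw [hZb0.eq_neg_of_nonpos hQ.le, hZb1.eq_zero_of_nonpos hQ.le]
    have e : (a : ℤ) * -(Q.ord jb) = -((a : ℤ) * Q.ord jb) := by ring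
    rw [e] at h2 ⊢
    linarith

/-- `ChartFacts` for the charts `Z0 = (j)_∞`, `Z1 = (j)_0` (characteristic zero on the `F` side),
from the Gauss-layer facts `hj`, `hint0`, `hint1` and the genus bound. -/
theorem chartFacts_of [CharZero K] (hR : RedFacts A Red) (hP : PlaceFacts K F)
    {j : F} {jb : κ} (hjt : Transcendental K j) (hj : Red j jb) (hjb0 : jb ≠ 0)
    (hint0 : ∀ (f : F) (x : κ), Red f x → IsIntegral (Algebra.adjoin K {j}) f →
      IsIntegral (Algebra.adjoin (IsLocalRing.ResidueField A) {jb}) x)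
    (hint1 : ∀ (f : F) (x : κ), Red f x → IsIntegral (Algebra.adjoin K {j⁻¹}) f →
      IsIntegral (Algebra.adjoin (IsLocalRing.ResidueField A) {jb⁻¹}) x)
    {Z0 Z1 : Divisor K F} {Zb0 Zb1 : Divisor (IsLocalRing.ResidueField A) κ}
    (hZ0 : IsPoleDiv j Z0) (hZ1 : IsZeroDiv j Z1) (hZb0 : IsPoleDiv jb Zb0)
    (hZb1 : IsZeroDiv jb Zb1) (g : ℤ)
    (hbound : ∃ n : ℕ, 0 < n ∧
      (Module.finrank (IsLocalRing.ResidueField A) (riemannRochSpace (n • Zb0)) : ℤ)
          ≤ n * Divisor.degree Z0 + 1 - g ∧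
      (Module.finrank (IsLocalRing.ResidueField A) (riemannRochSpace (n • Zb1)) : ℤ)
          ≤ n * Divisor.degree Z0 + 1 - g) :
    ChartFacts A Red g Z0 Z1 Zb0 Zb1 where
  Z0_nonneg := hZ0.nonneg
  Z1_nonneg := hZ1.nonneg
  disj := disjoint_pole_zero hZ0 hZ1
  Zb0_nonneg := hZb0.nonneg
  Zb1_nonneg := hZb1.nonneg
  disjb := disjoint_pole_zero hZb0 hZb1
  deg_eq := by rw [hZ1.degree_eq hP hjt, hZ0.degree_eq hP hjt]
  compat := by
    have h1 : FiniteDimensional K⟮j⟯ F := hP.hfd j hjt
    have h2 : FiniteDimensional K⟮j⁻¹⟯ F := hP.hfd j⁻¹ (transcendental_inv hjt)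
    exact compat_of hR hj hjb0
      (fun f hf => isIntegral_of_regular_charZero j hjt f hf)
      (fun f hf => isIntegral_of_regular_charZero j⁻¹ (transcendental_inv hjt) f hf)
      hint0 hint1 hZ0 hZ1 hZb0 hZb1
  bound := hbound

end Compat

end Fermat.Agent.S18.Charts
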