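import Mathlib
import Fermat.Agent.S18.CoreDefs

/-!
# S18 core, part 1: consequences of `RedFacts` (orthonormal families)
-/

set_option autoImplicit false

noncomputable section

namespace Fermat.Agent.S18.CoreRed

open AlgebraicCurve Fermat.Agent.S18

variable {K F κ : Type*} [Field K] [Field F] [Algebra K F] {A : ValuationSubring K}
  [Field κ] [Algebra (IsLocalRing.ResidueField A) κ] {Red : F → κ → Prop}

local notation "kk" => IsLocalRing.ResidueField A
local notation "res" => IsLocalRing.residue A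

theorem red_zero (h : RedFacts A Red) : Red 0 0 := by
  have := h.const 0
  simpa using this

theorem red_smul (h : RedFacts A Red) (c : A) {f : F} {x : κ} (hf : Red f x) :
    Red (algebraMap K F (c : K) * f) (algebraMap kk κ (res c) * x) :=
  h.mul _ _ _ _ (h.const c) hf

theorem red_neg (h : RedFacts A Red) {f : F} {x : κ} (hf : Red f x) : Red (-f) (-x) := by
  have := red_smul h (-1 : A) hf
  simpa using this

theorem red_sub (h : RedFacts A Red) {f g : F} {x y : κ} (hf : Red f x) (hg : Red g y) :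
    Red (f - g) (x - y) := by
  rw [sub_eq_add_neg, sub_eq_add_neg]
  exact h.add _ _ _ _ hf (red_neg h hg)

theorem red_pow (h : RedFacts A Red) {f : F} {x : κ} (hf : Red f x) (n : ℕ) :
    Red (f ^ n) (x ^ n) := by
  induction n with
  | zero => simpa using h.one
  | succ n ih => rw [pow_succ, pow_succ]; exact h.mul _ _ _ _ ih hf

theorem red_natCast (h : RedFacts A Red) (n : ℕ) : Red (n : F) (n : κ) := by
  have := h.const (n : A)
  simpa using this

theorem red_sum (h : RedFacts A Red) {ι : Type*} (s : Finset ι) (f : ι → F) (x : ι → κ)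
    (hf : ∀ i ∈ s, Red (f i) (x i)) : Red (∑ i ∈ s, f i) (∑ i ∈ s, x i) := by
  classical
  induction s using Finset.induction_on with
  | empty => simpa using red_zero h
  | insert a s ha ih =>
    rw [Finset.sum_insert ha, Finset.sum_insert ha]
    exact h.add _ _ _ _ (hf a (Finset.mem_insert_self a s))
      (ih fun i hi => hf i (Finset.mem_insert_of_mem hi))

/-- a non-unit of `A` reduces to zero -/
theorem res_eq_zero_of_inv_notMem {c : K} (hc : c ∈ A) (hinv : c⁻¹ ∉ A) :
    res (⟨c, hc⟩ : A) = 0 := by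
  rw [IsLocalRing.residue_eq_zero_iff, IsLocalRing.mem_maximalIdeal, mem_nonunits_iff]
  intro hu
  obtain ⟨u, hu⟩ := hu
  apply hinv
  have h1 : ((u⁻¹ : Aˣ) : A) * u = 1 := by simp
  have h2 : (((u⁻¹ : Aˣ) : A) : K) * c = 1 := by
    have := congrArg (fun a : A => (a : K)) h1
    simpa [hu] using this
  have h3 : c⁻¹ = (((u⁻¹ : Aˣ) : A) : K) := by
    have hc0 : c ≠ 0 := by
      rintro rfl
      simp at h2
    field_simp
    rw [mul_comm]; exact h2.symm
  rw [h3]
  exact Subtype.mem _

/-- Normalising a finite family of scalars. -/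
theorem exists_pivot {ι : Type*} [Fintype ι] (c : ι → K) (i₁ : ι) (h₁ : c i₁ ≠ 0) :
    ∃ i₀, c i₀ ≠ 0 ∧ ∀ i, c i / c i₀ ∈ A := by
  classical
  obtain ⟨i₀, -, hmax⟩ := Finset.exists_max_image Finset.univ (fun i => A.valuation (c i))
    ⟨i₁, Finset.mem_univ _⟩
  have h0 : c i₀ ≠ 0 := by
    intro h0
    have := hmax i₁ (Finset.mem_univ _)
    rw [h0, map_zero] at this
    exact h₁ ((map_eq_zero _).mp (le_antisymm this zero_le))
  refine ⟨i₀, h0, fun i => ?_⟩
  rw [← ValuationSubring.valuation_le_one_iff, map_div₀]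
  have hpos : 0 < A.valuation (c i₀) := by
    rw [zero_lt_iff]; exact (map_ne_zero _).mpr h0
  exact (div_le_one₀ hpos).mpr (hmax i (Finset.mem_univ _))

/-- Core of the orthonormality lemma. -/
theorem not_red_zero_of_pivot (h : RedFacts A Red) {ι : Type*} [Fintype ι]
    (e : ι → F) (eb : ι → κ) (he : ∀ i, Red (e i) (eb i)) (hli : LinearIndependent kk eb)
    (b : ι → A) (i₀ : ι) (hb : b i₀ = 1) :
    ¬ Red (∑ i, algebraMap K F (b i : K) * e i) 0 := by
  intro h0
  have h1 : Red (∑ i, algebraMap K F (b i : K) * e i) (∑ i, algebraMap kk κ (res (b i)) * eb i) :=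
    red_sum h _ _ _ fun i _ => red_smul h (b i) (he i)
  have h2 := h.unique _ _ _ h1 h0
  have h3 : ∑ i, (res (b i)) • eb i = 0 := by
    simpa [Algebra.smul_def] using h2
  have h4 := (Fintype.linearIndependent_iff.mp hli) _ h3 i₀
  rw [hb, map_one] at h4
  exact one_ne_zero h4

/-- **Orthonormal families**: an integral combination has integral coefficients. -/
theorem coeff_mem_of_red (h : RedFacts A Red) {ι : Type*} [Fintype ι]
    (e : ι → F) (eb : ι → κ) (he : ∀ i, Red (e i) (eb i)) (hli : LinearIndependent kk eb)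
    (c : ι → K) (x : κ) (hx : Red (∑ i, algebraMap K F (c i) * e i) x) (i : ι) : c i ∈ A := by
  by_contra hi
  have hi0 : c i ≠ 0 := by
    rintro h0; rw [h0] at hi; exact hi (zero_mem _)
  obtain ⟨i₀, h0, hdiv⟩ := exists_pivot (A := A) c i hi0
  have hc0 : c i₀ ∉ A := by
    intro hmem
    apply hi
    have : c i = c i / c i₀ * c i₀ := by field_simp
    rw [this]
    exact mul_mem (hdiv i) hmem
  have hinv : (c i₀)⁻¹ ∈ A := (A.mem_or_inv_mem (c i₀)).resolve_left hc0
  have hres : res (⟨(c i₀)⁻¹, hinv⟩ : A) = 0 :=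
    res_eq_zero_of_inv_notMem hinv (by rwa [inv_inv])
  have hred := red_smul h (⟨(c i₀)⁻¹, hinv⟩ : A) hx
  rw [hres, map_zero, zero_mul] at hred
  refine not_red_zero_of_pivot h e eb he hli (fun j => ⟨c j / c i₀, hdiv j⟩) i₀
    (by ext; simp [h0]) ?_
  convert hred using 1
  rw [Finset.mul_sum]
  refine Finset.sum_congr rfl fun j _ => ?_
  simp only
  rw [← mul_assoc, ← map_mul]
  congr 2
  field_simp

/-- An orthonormal family is `K`-linearly independent. -/
theorem linearIndependent_of_red (h : RedFacts A Red) {ι : Type*} [Fintype ι]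
    (e : ι → F) (eb : ι → κ) (he : ∀ i, Red (e i) (eb i)) (hli : LinearIndependent kk eb) :
    LinearIndependent K e := by
  rw [Fintype.linearIndependent_iff]
  intro c hc i
  by_contra hi
  obtain ⟨i₀, h0, hdiv⟩ := exists_pivot (A := A) c i hi
  refine not_red_zero_of_pivot h e eb he hli (fun j => ⟨c j / c i₀, hdiv j⟩) i₀
    (by ext; simp [h0]) ?_
  have : ∑ j, algebraMap K F (c j / c i₀) * e j = 0 := by
    have h1 : ∑ j, algebraMap K F (c j / c i₀) * e j
        = algebraMap K F (c i₀)⁻¹ * ∑ j, c j • e j := by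
      rw [Finset.mul_sum]
      refine Finset.sum_congr rfl fun j _ => ?_
      rw [Algebra.smul_def, ← mul_assoc, ← map_mul]
      congr 2
      field_simp
    rw [h1, hc, mul_zero]
  simp only
  rw [this]
  exact red_zero h

/-- Reduction of an integral combination. -/
theorem red_combination (h : RedFacts A Red) {ι : Type*} [Fintype ι]
    (e : ι → F) (eb : ι → κ) (he : ∀ i, Red (e i) (eb i)) (c : ι → K) (hc : ∀ i, c i ∈ A) :
    Red (∑ i, algebraMap K F (c i) * e i)
      (∑ i, algebraMap kk κ (res (⟨c i, hc i⟩ : A)) * eb i) :=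
  red_sum h _ _ _ fun i _ => red_smul h (⟨c i, hc i⟩ : A) (he i)

/-- If `c • f` is integral with nonzero reduction and `f` is not integral, then `c` is a
non-unit of `A`. -/
theorem scalar_mem_of_not_red (h : RedFacts A Red) {f : F} {c : K} {x : κ}
    (hcf : Red (algebraMap K F c * f) x) (hf : ¬ ∃ y, Red f y) (hc0 : c ≠ 0) :
    ∃ hc : c ∈ A, res (⟨c, hc⟩ : A) = 0 := by
  have hinv : c⁻¹ ∉ A := by
    intro hinv
    apply hf
    have := red_smul h (⟨c⁻¹, hinv⟩ : A) hcf
    rw [← mul_assoc, ← map_mul] at this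
    simp only [inv_mul_cancel₀ hc0, map_one, one_mul] at this
    exact ⟨_, this⟩
  have hc : c ∈ A := (A.mem_or_inv_mem c).resolve_right hinv
  exact ⟨hc, res_eq_zero_of_inv_notMem hc hinv⟩

end Fermat.Agent.S18.CoreRed

end
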