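import Mathlib
import Fermat.Agent.S18.CoreRed

/-!
# S18 core, part 2: expansion in an orthonormal basis and the saturation lemma
-/

set_option autoImplicit false

noncomputable section

namespace Fermat.Agent.S18.CoreSat

open AlgebraicCurve Fermat.Agent.S18 Fermat.Agent.S18.CoreRed

variable {K F κ : Type*} [Field K] [Field F] [Algebra K F] {A : ValuationSubring K}
  [Field κ] [Algebra (IsLocalRing.ResidueField A) κ] {Red : F → κ → Prop}

local notation "kk" => IsLocalRing.ResidueField A
local notation "res" => IsLocalRing.residue A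

/-- An orthonormal family of the right size spans. -/
theorem exists_coeff (h : RedFacts A Red) (V : Submodule K F) [FiniteDimensional K V]
    (e : Fin (Module.finrank K V) → F) (eb : Fin (Module.finrank K V) → κ)
    (heV : ∀ i, e i ∈ V) (heR : ∀ i, Red (e i) (eb i)) (hli : LinearIndependent kk eb)
    (f : F) (hf : f ∈ V) : ∃ c : Fin (Module.finrank K V) → K,
      f = ∑ i, algebraMap K F (c i) * e i := by
  have hliK := linearIndependent_of_red h e eb heR hli
  let e' : Fin (Module.finrank K V) → V := fun i => ⟨e i, heV i⟩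
  have hli' : LinearIndependent K e' := by
    apply LinearIndependent.of_comp V.subtype
    exact hliK
  have hspan := hli'.span_eq_top_of_card_eq_finrank' (by simp)
  have hmem : (⟨f, hf⟩ : V) ∈ Submodule.span K (Set.range e') := by rw [hspan]; trivial
  obtain ⟨c, hc⟩ := (Submodule.mem_span_range_iff_exists_fun K).mp hmem
  refine ⟨c, ?_⟩
  have := congrArg (fun x : V => (x : F)) hc
  simp only [Submodule.coe_sum, Submodule.coe_smul] at this
  rw [← this]
  refine Finset.sum_congr rfl fun i _ => ?_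
  rw [Algebra.smul_def]

/-- **Saturation**: if `y₀ - y₁` is integral with `y_i ∈ W_i`, `1 ∈ W₀ ∩ W₁`, and the reductions
of `W₀`, `W₁` meet only in constants, then `y₀`, `y₁` can be made integral by subtracting a
common constant. -/
theorem saturation (h : RedFacts A Red) (W₀ W₁ : Submodule K F) [FiniteDimensional K W₀]
    (h1 : (1 : F) ∈ W₀) (h1' : (1 : F) ∈ W₁) (R₀ R₁ : Submodule kk κ)
    (hR : ∀ x, x ∈ R₀ → x ∈ R₁ → ∃ lam : kk, x = algebraMap kk κ lam)
    (h0r : ∀ f x, f ∈ W₀ → Red f x → x ∈ R₀) (h1r : ∀ f x, f ∈ W₁ → Red f x → x ∈ R₁)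
    (y₀ y₁ : F) (hy₀ : y₀ ∈ W₀) (hy₁ : y₁ ∈ W₁) (x : κ) (hx : Red (y₀ - y₁) x) :
    ∃ t : K, (∃ x₀, Red (y₀ - algebraMap K F t) x₀) ∧ (∃ x₁, Red (y₁ - algebraMap K F t) x₁) := by
  classical
  obtain ⟨e, eb, heV, heR, hli⟩ := h.lattice W₀ inferInstance
  -- expansion of 1
  obtain ⟨c1, hc1⟩ := exists_coeff h W₀ e eb heV heR hli 1 h1
  have hc1A : ∀ i, c1 i ∈ A := fun i =>
    coeff_mem_of_red h e eb heR hli c1 1 (by rw [← hc1]; exact h.one) i
  have hone : (1 : κ) = ∑ i, algebraMap kk κ (res (⟨c1 i, hc1A i⟩ : A)) * eb i := by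
    refine h.unique 1 _ _ h.one ?_
    have := red_combination h e eb heR c1 hc1A
    rwa [← hc1] at this
  obtain ⟨i₀, hi₀⟩ : ∃ i₀, res (⟨c1 i₀, hc1A i₀⟩ : A) ≠ 0 := by
    by_contra hall
    push Not at hall
    rw [Finset.sum_eq_zero (fun i _ => by rw [hall i, map_zero, zero_mul])] at hone
    exact one_ne_zero hone
  have hc10 : c1 i₀ ≠ 0 := by
    intro h0
    apply hi₀
    have : (⟨c1 i₀, hc1A i₀⟩ : A) = 0 := by ext; exact h0
    rw [this, map_zero]
  -- expansion of y₀
  obtain ⟨a, ha⟩ := exists_coeff h W₀ e eb heV heR hli y₀ hy₀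
  refine ⟨a i₀ / c1 i₀, ?_⟩
  set t : K := a i₀ / c1 i₀ with ht
  set a' : Fin (Module.finrank K W₀) → K := fun i => a i - t * c1 i with ha'
  have hy₀' : y₀ - algebraMap K F t = ∑ i, algebraMap K F (a' i) * e i := by
    have : ∑ i, algebraMap K F (a' i) * e i
        = ∑ i, algebraMap K F (a i) * e i - algebraMap K F t * ∑ i, algebraMap K F (c1 i) * e i := by
      rw [Finset.mul_sum, ← Finset.sum_sub_distrib]
      refine Finset.sum_congr rfl fun i _ => ?_
      simp only [ha', map_sub, map_mul]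
      ring
    rw [this, ← ha, ← hc1, mul_one]
  have ha'0 : a' i₀ = 0 := by
    simp only [ha', ht]
    field_simp
    ring
  have key : ∃ x₀, Red (y₀ - algebraMap K F t) x₀ := by
    by_contra hno
    have hex : ∃ i, a' i ∉ A := by
      by_contra hall
      push Not at hall
      apply hno
      rw [hy₀']
      exact ⟨_, red_combination h e eb heR a' hall⟩
    obtain ⟨i, hi⟩ := hex
    have hi0 : a' i ≠ 0 := by
      rintro h0; rw [h0] at hi; exact hi (zero_mem _)
    obtain ⟨i₁, h10, hdiv⟩ := exists_pivot (A := A) a' i hi0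
    have hnot : a' i₁ ∉ A := by
      intro hmem
      apply hi
      have : a' i = a' i / a' i₁ * a' i₁ := by field_simp
      rw [this]
      exact mul_mem (hdiv i) hmem
    have hinv : (a' i₁)⁻¹ ∈ A := (A.mem_or_inv_mem (a' i₁)).resolve_left hnot
    have hresγ : res (⟨(a' i₁)⁻¹, hinv⟩ : A) = 0 :=
      res_eq_zero_of_inv_notMem hinv (by rwa [inv_inv])
    set γ : K := (a' i₁)⁻¹ with hγ
    -- γ y₀' is an integral combination
    have hγy : algebraMap K F γ * (y₀ - algebraMap K F t)
        = ∑ j, algebraMap K F (a' j / a' i₁) * e j := by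
      rw [hy₀', Finset.mul_sum]
      refine Finset.sum_congr rfl fun j _ => ?_
      rw [← mul_assoc, ← map_mul]
      congr 2
      rw [hγ]; field_simp
    have hred0 : Red (algebraMap K F γ * (y₀ - algebraMap K F t))
        (∑ j, algebraMap kk κ (res (⟨a' j / a' i₁, hdiv j⟩ : A)) * eb j) := by
      rw [hγy]
      exact red_combination h e eb heR (fun j => a' j / a' i₁) hdiv
    set ρ : κ := ∑ j, algebraMap kk κ (res (⟨a' j / a' i₁, hdiv j⟩ : A)) * eb j with hρ
    have hred1 : Red (algebraMap K F γ * (y₁ - algebraMap K F t)) ρ := by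
      have e1 : algebraMap K F γ * (y₁ - algebraMap K F t)
          = algebraMap K F γ * (y₀ - algebraMap K F t) - algebraMap K F γ * (y₀ - y₁) := by ring
      have := red_sub h hred0 (red_smul h (⟨γ, hinv⟩ : A) hx)
      rw [hresγ, map_zero, zero_mul, sub_zero] at this
      rw [e1]; exact this
    have hmem0 : algebraMap K F γ * (y₀ - algebraMap K F t) ∈ W₀ := by
      rw [← Algebra.smul_def]
      refine W₀.smul_mem _ (W₀.sub_mem hy₀ ?_)
      rw [Algebra.algebraMap_eq_smul_one]; exact W₀.smul_mem _ h1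
    have hmem1 : algebraMap K F γ * (y₁ - algebraMap K F t) ∈ W₁ := by
      rw [← Algebra.smul_def]
      refine W₁.smul_mem _ (W₁.sub_mem hy₁ ?_)
      rw [Algebra.algebraMap_eq_smul_one]; exact W₁.smul_mem _ h1'
    obtain ⟨lam, hlam⟩ := hR ρ (h0r _ _ hmem0 hred0) (h1r _ _ hmem1 hred1)
    -- compare coefficients
    have hzero : ∑ j, (res (⟨a' j / a' i₁, hdiv j⟩ : A) - lam * res (⟨c1 j, hc1A j⟩ : A)) • eb j
        = 0 := by
      have e2 : algebraMap kk κ lam = ∑ j, (lam * res (⟨c1 j, hc1A j⟩ : A)) • eb j := by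
        have : algebraMap kk κ lam = algebraMap kk κ lam * 1 := by rw [mul_one]
        rw [this, hone, Finset.mul_sum]
        refine Finset.sum_congr rfl fun j _ => ?_
        rw [Algebra.smul_def, map_mul, mul_assoc]
      have e3 : ρ = ∑ j, (res (⟨a' j / a' i₁, hdiv j⟩ : A)) • eb j := by
        rw [hρ]
        refine Finset.sum_congr rfl fun j _ => ?_
        rw [Algebra.smul_def]
      simp only [sub_smul, Finset.sum_sub_distrib]
      rw [← e3, ← e2, hlam, sub_self]
    have hcoef := Fintype.linearIndependent_iff.mp hli _ hzero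
    have hA0 : (⟨a' i₀ / a' i₁, hdiv i₀⟩ : A) = 0 := by ext; simp [ha'0]
    have hA1 : (⟨a' i₁ / a' i₁, hdiv i₁⟩ : A) = 1 := by ext; simp [h10]
    have hl0 := hcoef i₀
    rw [hA0, map_zero, zero_sub, neg_eq_zero] at hl0
    have hlam0 : lam = 0 := by
      rcases mul_eq_zero.mp hl0 with h' | h'
      · exact h'
      · exact absurd h' hi₀
    have hl1 := hcoef i₁
    rw [hA1, map_one, hlam0, zero_mul, sub_zero] at hl1
    exact one_ne_zero hl1
  refine ⟨key, ?_⟩
  obtain ⟨x₀, hx₀⟩ := key
  refine ⟨x₀ - x, ?_⟩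
  have e1 : y₁ - algebraMap K F t = (y₀ - algebraMap K F t) - (y₀ - y₁) := by ring
  rw [e1]
  exact red_sub h hx₀ hx

end Fermat.Agent.S18.CoreSat

end
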