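import Mathlib
import Fermat.Agent.S18.CoreSat
import Fermat.Agent.RR.Riemann
import Fermat.Agent.RR.RiemannFacts

/-!
# S18 core: the two-chart argument

`core : RedFacts A Red → ChartFacts A Red g Z0 Z1 Zb0 Zb1 → PlaceFacts K F → RiemannFacts K F →
  RiemannFacts k κ → CoreStmt A Red`.
-/

set_option autoImplicit false

noncomputable section

namespace Fermat.Agent.S18.Core

open AlgebraicCurve Fermat.Agent.S18 Fermat.Agent.S18.CoreRed Fermat.Agent.S18.CoreSat

section RRlemmas

variable {K F : Type*} [Field K] [Field F] [Algebra K F]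

theorem one_mem_L (E : Divisor K F) (hE : ∀ v, 0 ≤ E v) : (1 : F) ∈ riemannRochSpace E := by
  rw [mem_riemannRochSpace_iff]
  intro v
  right
  rw [Place.ord_one]
  linarith [hE v]

theorem L_inf_le (E₁ E₂ E₃ : Divisor K F) (h : ∀ v, E₁ v ≤ E₃ v ∨ E₂ v ≤ E₃ v) :
    riemannRochSpace E₁ ⊓ riemannRochSpace E₂ ≤ riemannRochSpace E₃ := by
  rintro f ⟨h1, h2⟩
  have h1' := mem_riemannRochSpace_iff.mp h1
  have h2' := mem_riemannRochSpace_iff.mp h2
  rw [mem_riemannRochSpace_iff]
  intro v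
  by_cases hf : f = 0
  · left; exact hf
  right
  rcases h v with h' | h'
  · have := (h1' v).resolve_left hf; linarith
  · have := (h2' v).resolve_left hf; linarith

theorem L_mono (E₁ E₂ : Divisor K F) (h : ∀ v, E₁ v ≤ E₂ v) :
    riemannRochSpace E₁ ≤ riemannRochSpace E₂ := by
  intro f h1
  have h1' := mem_riemannRochSpace_iff.mp h1
  rw [mem_riemannRochSpace_iff]
  intro v
  rcases h1' v with hf | hf
  · left; exact hf
  · right; linarith [h v]

theorem ord_npow (v : Place K F) (f : F) (d : ℕ) : v.ord (f ^ d) = d * v.ord f := by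
  rw [← zpow_natCast, Place.ord_zpow]

theorem mem_L_of_pow_mem (E : Divisor K F) (d : ℕ) (hd : 0 < d) (x : F)
    (hx : x ^ d ∈ riemannRochSpace (d • E)) : x ∈ riemannRochSpace E := by
  have hx' := mem_riemannRochSpace_iff.mp hx
  rw [mem_riemannRochSpace_iff]
  intro v
  by_cases hx0 : x = 0
  · left; exact hx0
  right
  have := (hx' v).resolve_left (pow_ne_zero d hx0)
  rw [ord_npow, Finsupp.smul_apply, nsmul_eq_mul] at this
  have hd' : (0 : ℤ) < d := by exact_mod_cast hd
  nlinarith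

theorem twist_mem (D' E : Divisor K F) (d : ℕ) (hd : 0 < d) (u : F) (hu : u ≠ 0)
    (hdiv : ∀ v : Place K F, (d : ℤ) * D' v = v.ord u) (f : F)
    (hf : f ∈ riemannRochSpace (D' + E)) : f ^ d * u ∈ riemannRochSpace (d • E) := by
  have hf' := mem_riemannRochSpace_iff.mp hf
  rw [mem_riemannRochSpace_iff]
  intro v
  by_cases hf0 : f = 0
  · left; rw [hf0, zero_pow hd.ne', zero_mul]
  right
  have := (hf' v).resolve_left hf0
  rw [v.ord_mul (pow_ne_zero d hf0) hu, ord_npow, ← hdiv v, Finsupp.smul_apply, nsmul_eq_mul]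
  rw [Finsupp.add_apply] at this
  have hd' : (0 : ℤ) < d := by exact_mod_cast hd
  nlinarith

theorem eq_zero_of_nonneg_of_degree_eq_zero (hdeg : ∀ v : Place K F, v.deg = 1)
    (E : Divisor K F) (hE : ∀ v, 0 ≤ E v) (h0 : Divisor.degree E = 0) : E = 0 := by
  by_contra hne
  obtain ⟨v, hv⟩ : ∃ v, E v ≠ 0 := by
    by_contra hall
    push Not at hall
    exact hne (Finsupp.ext hall)
  have hpos : 1 ≤ E v := by
    have := hE v
    omega
  have hle : (Finsupp.single v 1 : Divisor K F) ≤ E := by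
    intro w
    by_cases hwv : w = v
    · subst hwv
      rw [Finsupp.single_eq_same]; exact hpos
    · rw [Finsupp.single_eq_of_ne hwv]; exact hE w
  have := Fermat.Agent.RR.Riemann.degree_mono hdeg hle
  rw [h0, Divisor.degree_single, hdeg v] at this
  simp at this

end RRlemmas

section Main

variable {K F κ : Type*} [Field K] [Field F] [Algebra K F] {A : ValuationSubring K}
  [Field κ] [Algebra (IsLocalRing.ResidueField A) κ] {Red : F → κ → Prop}

local notation "kk" => IsLocalRing.ResidueField A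
local notation "res" => IsLocalRing.residue A

/-- `L(0) = k` on the residue side. -/
theorem exists_const_of_mem_zero (hRb : Fermat.Agent.RR.RiemannFacts kk κ) (x : κ)
    (hx : x ∈ riemannRochSpace (0 : Divisor kk κ)) : ∃ lam : kk, x = algebraMap kk κ lam := by
  have h1 : (1 : κ) ∈ riemannRochSpace (0 : Divisor kk κ) := one_mem_L 0 (fun v => by simp)
  have hne : (⟨1, h1⟩ : riemannRochSpace (0 : Divisor kk κ)) ≠ 0 := by
    intro h0
    have := congrArg Subtype.val h0
    simp at this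
  obtain ⟨c, hc⟩ := (finrank_eq_one_iff_of_nonzero' _ hne).mp hRb.finrank_L_zero ⟨x, hx⟩
  refine ⟨c, ?_⟩
  have := congrArg Subtype.val hc
  simp only [Submodule.coe_smul] at this
  rw [← this, Algebra.algebraMap_eq_smul_one]

/-- **The two-chart core.** -/
theorem core (h : RedFacts A Red) (Z0 Z1 : Divisor K F) (Zb0 Zb1 : Divisor kk κ)
    (hC : ChartFacts A Red (Module.finrank K (H1 (0 : Divisor K F)) : ℤ) Z0 Z1 Zb0 Zb1)
    (hP : Fermat.Agent.RR.PlaceFacts K F) (hR : Fermat.Agent.RR.RiemannFacts K F)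
    (hRb : Fermat.Agent.RR.RiemannFacts kk κ) : CoreStmt A Red := by
  classical
  intro d hd D' u hu hdiv hredu
  by_contra hD
  have hprinc : HasPrincipalDivisors K F :=
    Fermat.Agent.S24.hasPrincipalDivisors_of hP.hdeg hP.hfin hP.hsum
  have hdeg := hP.hdeg
  have hd0 : 0 < d := by
    rcases Nat.eq_zero_or_pos d with h0 | h0
    · exfalso; apply hd; rw [h0]; simp
    · exact h0
  have hdZ : (0 : ℤ) < d := by exact_mod_cast hd0
  -- deg D' = 0
  have hdegD : Divisor.degree D' = 0 := by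
    obtain ⟨W, hW, hW0⟩ := hprinc.exists_divisor u hu
    have hWe : d • D' = W := by
      ext v; rw [Finsupp.smul_apply, nsmul_eq_mul, hdiv v, hW v]
    have h2 := congrArg Divisor.degree hWe
    rw [map_nsmul, hW0, nsmul_eq_mul] at h2
    rcases mul_eq_zero.mp h2 with h' | h'
    · exfalso; omega
    · exact h'
  obtain ⟨n, hn, hb0, hb1⟩ := hC.bound
  have hnZ : (0 : ℤ) < n := by exact_mod_cast hn
  -- twisted compatibility
  have hTW : ∀ (a b : ℕ) (f : F) (x : κ), f ∈ riemannRochSpace (D' + (a • Z0 + b • Z1)) →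
      Red f x → x ∈ riemannRochSpace (a • Zb0 + b • Zb1) := by
    intro a b f x hf hx
    have h1 : f ^ d * u ∈ riemannRochSpace (d • (a • Z0 + b • Z1)) :=
      twist_mem D' _ d hd0 u hu hdiv f hf
    have h2 : Red (f ^ d * u) (x ^ d) := by
      have := h.mul _ _ _ _ (red_pow h hx d) hredu
      rwa [mul_one] at this
    have h3 : d • (a • Z0 + b • Z1) = (d * a) • Z0 + (d * b) • Z1 := by
      rw [smul_add, smul_smul, smul_smul]
    rw [h3] at h1
    have h4 := hC.compat (d * a) (d * b) _ _ h1 h2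
    have h5 : (d * a) • Zb0 + (d * b) • Zb1 = d • (a • Zb0 + b • Zb1) := by
      rw [smul_add, smul_smul, smul_smul]
    rw [h5] at h4
    exact mem_L_of_pow_mem _ d hd0 x h4
  -- the spaces
  set V₀ : Submodule K F := riemannRochSpace (D' + (n • Z0 + 0 • Z1)) with hV₀
  set V₁ : Submodule K F := riemannRochSpace (D' + (0 • Z0 + n • Z1)) with hV₁
  set S₀ : Submodule kk κ := riemannRochSpace (n • Zb0 + 0 • Zb1) with hS₀
  set S₁ : Submodule kk κ := riemannRochSpace (0 • Zb0 + n • Zb1) with hS₁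
  haveI : FiniteDimensional K V₀ := hR.finite_L _
  haveI : FiniteDimensional K V₁ := hR.finite_L _
  haveI : FiniteDimensional kk S₀ := hRb.finite_L _
  haveI : FiniteDimensional kk S₁ := hRb.finite_L _
  -- V₀ ⊓ V₁ = ⊥
  have hinf : V₀ ⊓ V₁ = ⊥ := by
    rw [eq_bot_iff]
    rintro f ⟨hf0, hf1⟩
    rw [Submodule.mem_bot]
    by_contra hne
    have hf0' := mem_riemannRochSpace_iff.mp hf0
    have hf1' := mem_riemannRochSpace_iff.mp hf1
    have hord : ∀ v : Place K F, -D' v ≤ v.ord f := by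
      intro v
      rcases hC.disj v with h' | h'
      · have := (hf0' v).resolve_left hne
        simp only [Finsupp.add_apply, Finsupp.smul_apply, h', smul_zero, add_zero, zero_smul,
          Finsupp.zero_apply] at this
        linarith
      · have := (hf1' v).resolve_left hne
        simp only [Finsupp.add_apply, Finsupp.smul_apply, h', smul_zero, add_zero, zero_smul,
          Finsupp.zero_apply, zero_add] at this
        linarith
    obtain ⟨W, hW, hW0⟩ := hprinc.exists_divisor f hne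
    have hWD : W + D' = 0 := eq_zero_of_nonneg_of_degree_eq_zero hdeg (W + D')
      (fun v => by rw [Finsupp.add_apply, hW v]; linarith [hord v])
      (by rw [map_add, hW0, hdegD, add_zero])
    apply hD
    refine ⟨f⁻¹, inv_ne_zero hne, fun v => ?_⟩
    rw [Place.ord_inv, ← hW v]
    have := congrArg (fun E : Divisor K F => E v) hWD
    simp only [Finsupp.add_apply, Finsupp.zero_apply] at this
    linarith
  -- dimension counts
  set g : ℤ := (Module.finrank K (H1 (0 : Divisor K F)) : ℤ) with hg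
  set ψ : ℤ := Divisor.degree Z0 with hψ
  have hdim : ∀ E : Divisor K F,
      Divisor.degree E + 1 - g ≤ (Module.finrank K (riemannRochSpace E) : ℤ) := by
    intro E
    have h1 := hR.riemann E
    have h2 : (0 : ℤ) ≤ (Module.finrank K (H1 E) : ℤ) := Nat.cast_nonneg _
    linarith
  have hdV₀ : (n : ℤ) * ψ + 1 - g ≤ (Module.finrank K V₀ : ℤ) := by
    have := hdim (D' + (n • Z0 + 0 • Z1))
    rw [map_add, map_add, map_nsmul, map_nsmul, hdegD] at this
    simpa using this
  have hdV₁ : (n : ℤ) * ψ + 1 - g ≤ (Module.finrank K V₁ : ℤ) := by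
    have := hdim (D' + (0 • Z0 + n • Z1))
    rw [map_add, map_add, map_nsmul, map_nsmul, hdegD, hC.deg_eq] at this
    simpa using this
  have hU : (Module.finrank K ↥(V₀ ⊔ V₁) : ℤ)
      = (Module.finrank K V₀ : ℤ) + (Module.finrank K V₁ : ℤ) := by
    have := Submodule.finrank_sup_add_finrank_inf_eq V₀ V₁
    rw [hinf, finrank_bot, add_zero] at this
    exact_mod_cast this
  have hS₀n : S₀ = riemannRochSpace (n • Zb0) := by rw [hS₀, zero_smul, add_zero]
  have hS₁n : S₁ = riemannRochSpace (n • Zb1) := by rw [hS₁, zero_smul, zero_add]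
  have hdS₀ : (Module.finrank kk S₀ : ℤ) ≤ (n : ℤ) * ψ + 1 - g := by rw [hS₀n]; exact hb0
  have hdS₁ : (Module.finrank kk S₁ : ℤ) ≤ (n : ℤ) * ψ + 1 - g := by rw [hS₁n]; exact hb1
  have hone_inf : (1 : κ) ∈ S₀ ⊓ S₁ :=
    ⟨one_mem_L _ (fun v => by
        simp only [Finsupp.add_apply, Finsupp.smul_apply, zero_smul, Finsupp.zero_apply, add_zero]
        exact smul_nonneg (Nat.zero_le _) (hC.Zb0_nonneg v)),
     one_mem_L _ (fun v => by
        simp only [Finsupp.add_apply, Finsupp.smul_apply, zero_smul, Finsupp.zero_apply, zero_add]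
        exact smul_nonneg (Nat.zero_le _) (hC.Zb1_nonneg v))⟩
  have hinfpos : 1 ≤ Module.finrank kk ↥(S₀ ⊓ S₁) := by
    rw [Nat.succ_le_iff, Module.finrank_pos_iff_exists_ne_zero]
    refine ⟨⟨1, hone_inf⟩, fun h0 => ?_⟩
    have := congrArg Subtype.val h0
    simp at this
  have hS : (Module.finrank kk ↥(S₀ ⊔ S₁) : ℤ) + (Module.finrank kk ↥(S₀ ⊓ S₁) : ℤ)
      = (Module.finrank kk S₀ : ℤ) + (Module.finrank kk S₁ : ℤ) := by
    exact_mod_cast Submodule.finrank_sup_add_finrank_inf_eq S₀ S₁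
  have hlt : Module.finrank kk ↥(S₀ ⊔ S₁) < Module.finrank K ↥(V₀ ⊔ V₁) := by
    have h1 : (1 : ℤ) ≤ (Module.finrank kk ↥(S₀ ⊓ S₁) : ℤ) := by exact_mod_cast hinfpos
    have : (Module.finrank kk ↥(S₀ ⊔ S₁) : ℤ) < (Module.finrank K ↥(V₀ ⊔ V₁) : ℤ) := by
      linarith
    exact_mod_cast this
  -- the element τ
  obtain ⟨e, eb, heU, heR, hli⟩ := h.lattice (V₀ ⊔ V₁) inferInstance
  obtain ⟨i, hi⟩ : ∃ i, eb i ∉ S₀ ⊔ S₁ := by
    by_contra hall
    push Not at hall
    let eb' : Fin (Module.finrank K ↥(V₀ ⊔ V₁)) → ↥(S₀ ⊔ S₁) := fun i => ⟨eb i, hall i⟩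
    have hli' : LinearIndependent kk eb' := LinearIndependent.of_comp (S₀ ⊔ S₁).subtype hli
    have := hli'.fintype_card_le_finrank
    rw [Fintype.card_fin] at this
    omega
  set τ : F := e i with hτ
  set τb : κ := eb i with hτb
  have hτR : Red τ τb := heR i
  obtain ⟨a, ha, b', hb', hab⟩ := Submodule.mem_sup.mp (heU i)
  set b : F := -b' with hb
  have hbV : b ∈ V₁ := V₁.neg_mem hb'
  have hτab : τ = a - b := by rw [hb, sub_neg_eq_add, hτ, hab]
  -- a is not integral
  have hna : ¬ ∃ x, Red a x := by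
    rintro ⟨ab, hab'⟩
    have hbR : Red b (ab - τb) := by
      have e1 : b = a - τ := by rw [hτab]; ring
      rw [e1]; exact red_sub h hab' hτR
    have h1 : ab ∈ S₀ := hTW n 0 a ab ha hab'
    have h2 : ab - τb ∈ S₁ := hTW 0 n b _ hbV hbR
    apply hi
    have e2 : τb = ab - (ab - τb) := by ring
    rw [e2]
    exact Submodule.sub_mem _ (Submodule.mem_sup_left h1) (Submodule.mem_sup_right h2)
  have ha0 : a ≠ 0 := by
    rintro rfl
    exact hna ⟨0, red_zero h⟩
  obtain ⟨c, hc0, x, hx0, hcx⟩ := h.normalize a ha0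
  obtain ⟨hcA, hcres⟩ := scalar_mem_of_not_red h hcx hna hc0
  have hcτ : Red (algebraMap K F c * τ) 0 := by
    have := red_smul h (⟨c, hcA⟩ : A) hτR
    rwa [hcres, map_zero, zero_mul] at this
  have hcb : Red (algebraMap K F c * b) x := by
    have e1 : algebraMap K F c * b = algebraMap K F c * a - algebraMap K F c * τ := by
      rw [hτab]; ring
    have := red_sub h hcx hcτ
    rw [sub_zero] at this
    rw [e1]; exact this
  have hcaV : algebraMap K F c * a ∈ V₀ := by
    rw [← Algebra.smul_def]; exact V₀.smul_mem _ ha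
  have hcbV : algebraMap K F c * b ∈ V₁ := by
    rw [← Algebra.smul_def]; exact V₁.smul_mem _ hbV
  have hxS₀ : x ∈ S₀ := hTW n 0 _ x hcaV hcx
  have hxS₁ : x ∈ S₁ := hTW 0 n _ x hcbV hcb
  have hinf0 : ∀ (m : ℕ), riemannRochSpace (m • Zb0 + 0 • Zb1) ⊓ riemannRochSpace (0 • Zb0 + m • Zb1)
      ≤ riemannRochSpace (0 : Divisor kk κ) := by
    intro m
    apply L_inf_le
    intro v
    rcases hC.disjb v with h' | h'
    · left; simp [h']
    · right; simp [h']
  obtain ⟨lam, hlam⟩ := exists_const_of_mem_zero hRb x (hinf0 n ⟨hxS₀, hxS₁⟩)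
  have hlam0 : lam ≠ 0 := by
    rintro rfl
    rw [map_zero] at hlam
    exact hx0 hlam
  obtain ⟨α, hα⟩ := Ideal.Quotient.mk_surjective lam
  have hαu : IsUnit α := by
    rw [← IsLocalRing.notMem_maximalIdeal, ← IsLocalRing.residue_eq_zero_iff]
    intro h0
    apply hlam0
    rw [← hα]; exact h0
  obtain ⟨αu, rfl⟩ := hαu
  set αi : A := ((αu⁻¹ : Aˣ) : A) with hαi
  have hαres : res αi * lam = 1 := by
    have h1 : αi * (αu : A) = 1 := by simp [hαi]
    have h2 := congrArg res h1
    rw [map_mul, map_one] at h2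
    rw [← hα]; exact h2
  set β : K := (αi : K) * c with hβ
  have hβ0 : β ≠ 0 := by
    rw [hβ]
    refine mul_ne_zero ?_ hc0
    intro h0
    have : αi = 0 := by ext; exact h0
    rw [this, map_zero, zero_mul] at hαres
    exact zero_ne_one hαres
  set H₀ : F := algebraMap K F β * a with hH₀
  set H₁ : F := algebraMap K F β * b with hH₁
  have hH₀R : Red H₀ 1 := by
    have := red_smul h αi hcx
    rw [hlam, ← map_mul, hαres, map_one, ← mul_assoc, ← map_mul] at this
    exact this
  have hH₁R : Red H₁ 1 := by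
    have := red_smul h αi hcb
    rw [hlam, ← map_mul, hαres, map_one, ← mul_assoc, ← map_mul] at this
    exact this
  have hH₀V : H₀ ∈ V₀ := by
    rw [hH₀, ← Algebra.smul_def]; exact V₀.smul_mem _ ha
  have hH₁V : H₁ ∈ V₁ := by
    rw [hH₁, ← Algebra.smul_def]; exact V₁.smul_mem _ hbV
  have hHdiff : H₀ - H₁ = algebraMap K F β * τ := by rw [hH₀, hH₁, hτab]; ring
  -- the twisted functions
  set W₀ : Submodule K F := riemannRochSpace ((d * n) • Z0 + 0 • Z1) with hW₀
  set W₁ : Submodule K F := riemannRochSpace (0 • Z0 + (d * n) • Z1) with hW₁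
  set R₀ : Submodule kk κ := riemannRochSpace ((d * n) • Zb0 + 0 • Zb1) with hR₀
  set R₁ : Submodule kk κ := riemannRochSpace (0 • Zb0 + (d * n) • Zb1) with hR₁
  haveI : FiniteDimensional K W₀ := hR.finite_L _
  set g₀ : F := H₀ ^ d * u with hg₀
  set g₁ : F := H₁ ^ d * u with hg₁
  have hg₀W : g₀ ∈ W₀ := by
    have := twist_mem D' _ d hd0 u hu hdiv H₀ hH₀V
    rw [smul_add, smul_smul, smul_smul, mul_zero] at this
    exact this
  have hg₁W : g₁ ∈ W₁ := by
    have := twist_mem D' _ d hd0 u hu hdiv H₁ hH₁V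
    rw [smul_add, smul_smul, smul_smul, mul_zero] at this
    exact this
  set G : F := ∑ j ∈ Finset.range d, H₀ ^ j * H₁ ^ (d - 1 - j) with hG
  have hGR : Red G (d : κ) := by
    have := red_sum h (Finset.range d) (fun j => H₀ ^ j * H₁ ^ (d - 1 - j)) (fun _ => (1 : κ))
      (fun j _ => by
        have := h.mul _ _ _ _ (red_pow h hH₀R j) (red_pow h hH₁R (d - 1 - j))
        simpa using this)
    simpa using this
  set Y : F := G * τ * u with hY
  have hYR : Red Y ((d : κ) * τb) := by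
    have := h.mul _ _ _ _ (h.mul _ _ _ _ hGR hτR) hredu
    rwa [mul_one] at this
  have hgdiff : g₀ - g₁ = algebraMap K F β * Y := by
    have := geom_sum₂_mul H₀ H₁ d
    rw [hg₀, hg₁, ← sub_mul, ← this, hHdiff, hY, hG]
    ring
  set y₀ : F := algebraMap K F β⁻¹ * g₀ with hy₀
  set y₁ : F := algebraMap K F β⁻¹ * g₁ with hy₁
  have hy₀W : y₀ ∈ W₀ := by
    rw [hy₀, ← Algebra.smul_def]; exact W₀.smul_mem _ hg₀W
  have hy₁W : y₁ ∈ W₁ := by
    rw [hy₁, ← Algebra.smul_def]; exact W₁.smul_mem _ hg₁W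
  have hydiff : y₀ - y₁ = Y := by
    rw [hy₀, hy₁, ← mul_sub, hgdiff, ← mul_assoc, ← map_mul, inv_mul_cancel₀ hβ0, map_one,
      one_mul]
  have h1W₀ : (1 : F) ∈ W₀ := one_mem_L _ (fun v => by
    simp only [Finsupp.add_apply, Finsupp.smul_apply, zero_smul, Finsupp.zero_apply, add_zero]
    exact smul_nonneg (Nat.zero_le _) (hC.Z0_nonneg v))
  have h1W₁ : (1 : F) ∈ W₁ := one_mem_L _ (fun v => by
    simp only [Finsupp.add_apply, Finsupp.smul_apply, zero_smul, Finsupp.zero_apply, zero_add]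
    exact smul_nonneg (Nat.zero_le _) (hC.Z1_nonneg v))
  obtain ⟨t, ⟨x₀, hx₀⟩, ⟨x₁, hx₁⟩⟩ := saturation h W₀ W₁ h1W₀ h1W₁ R₀ R₁
    (fun z hz0 hz1 => exists_const_of_mem_zero hRb z (hinf0 (d * n) ⟨hz0, hz1⟩))
    (fun f z hf hz => hC.compat (d * n) 0 f z hf hz)
    (fun f z hf hz => hC.compat 0 (d * n) f z hf hz)
    y₀ y₁ hy₀W hy₁W _ (by rw [hydiff]; exact hYR)
  have htW₀ : y₀ - algebraMap K F t ∈ W₀ := by
    refine W₀.sub_mem hy₀W ?_
    rw [Algebra.algebraMap_eq_smul_one]; exact W₀.smul_mem _ h1W₀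
  have htW₁ : y₁ - algebraMap K F t ∈ W₁ := by
    refine W₁.sub_mem hy₁W ?_
    rw [Algebra.algebraMap_eq_smul_one]; exact W₁.smul_mem _ h1W₁
  have hx₀R : x₀ ∈ R₀ := hC.compat (d * n) 0 _ x₀ htW₀ hx₀
  have hx₁R : x₁ ∈ R₁ := hC.compat 0 (d * n) _ x₁ htW₁ hx₁
  have hxdiff : x₀ - x₁ = (d : κ) * τb := by
    refine h.unique Y _ _ ?_ hYR
    have := red_sub h hx₀ hx₁
    have e1 : (y₀ - algebraMap K F t) - (y₁ - algebraMap K F t) = Y := by
      rw [← hydiff]; ring
    rwa [e1] at this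
  -- pole orders of τb
  have hτU : τ ∈ riemannRochSpace (D' + (n • Z0 + n • Z1)) := by
    have hle : V₀ ⊔ V₁ ≤ riemannRochSpace (D' + (n • Z0 + n • Z1)) := by
      refine sup_le (L_mono _ _ fun v => ?_) (L_mono _ _ fun v => ?_)
      · simp only [Finsupp.add_apply, Finsupp.smul_apply, zero_smul, Finsupp.zero_apply, add_zero]
        have := smul_nonneg (Nat.zero_le n) (hC.Z1_nonneg v)
        linarith
      · simp only [Finsupp.add_apply, Finsupp.smul_apply, zero_smul, Finsupp.zero_apply, zero_add]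
        have := smul_nonneg (Nat.zero_le n) (hC.Z0_nonneg v)
        linarith
    exact hle (heU i)
  have hτT : τb ∈ riemannRochSpace (n • Zb0 + n • Zb1) := hTW n n τ τb hτU hτR
  have hdτT : (d : κ) * τb ∈ riemannRochSpace (n • Zb0 + n • Zb1) := by
    rw [← nsmul_eq_mul]; exact nsmul_mem hτT d
  have hnd : (n : ℤ) ≤ ((d * n : ℕ) : ℤ) := by
    have : n ≤ d * n := Nat.le_mul_of_pos_left n hd0
    exact_mod_cast this
  have hx₀S : x₀ ∈ S₀ := by
    have hx₀M : x₀ ∈ riemannRochSpace (n • Zb0 + (d * n) • Zb1) := by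
      have e1 : x₀ = (d : κ) * τb + x₁ := by rw [← hxdiff]; ring
      rw [e1]
      refine Submodule.add_mem _ (L_mono _ _ (fun v => ?_) hdτT) (L_mono _ _ (fun v => ?_) hx₁R)
      · simp only [Finsupp.add_apply, Finsupp.smul_apply, nsmul_eq_mul]
        have := mul_le_mul_of_nonneg_right hnd (hC.Zb1_nonneg v)
        linarith
      · simp only [Finsupp.add_apply, Finsupp.smul_apply, nsmul_eq_mul, zero_smul,
          Finsupp.zero_apply, zero_add]
        have := mul_nonneg hnZ.le (hC.Zb0_nonneg v)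
        linarith
    refine L_inf_le _ _ _ (fun v => ?_) ⟨hx₀M, hx₀R⟩
    rcases hC.disjb v with h' | h'
    · right; simp [h']
    · left; simp [h']
  have hx₁S : x₁ ∈ S₁ := by
    have hx₁M : x₁ ∈ riemannRochSpace ((d * n) • Zb0 + n • Zb1) := by
      have e1 : x₁ = x₀ - (d : κ) * τb := by rw [← hxdiff]; ring
      rw [e1]
      refine Submodule.sub_mem _ (L_mono _ _ (fun v => ?_) hx₀R) (L_mono _ _ (fun v => ?_) hdτT)
      · simp only [Finsupp.add_apply, Finsupp.smul_apply, nsmul_eq_mul, zero_smul,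
          Finsupp.zero_apply, add_zero]
        have := mul_nonneg hnZ.le (hC.Zb1_nonneg v)
        linarith
      · simp only [Finsupp.add_apply, Finsupp.smul_apply, nsmul_eq_mul]
        have := mul_le_mul_of_nonneg_right hnd (hC.Zb0_nonneg v)
        linarith
    refine L_inf_le _ _ _ (fun v => ?_) ⟨hx₁M, hx₁R⟩
    rcases hC.disjb v with h' | h'
    · left; simp [h']
    · right; simp [h']
  -- conclusion
  apply hi
  have hdκ : (d : κ) = algebraMap kk κ (d : kk) := by rw [map_natCast]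
  have hmem : (d : κ) * τb ∈ S₀ ⊔ S₁ := by
    rw [← hxdiff]
    exact Submodule.sub_mem _ (Submodule.mem_sup_left hx₀S) (Submodule.mem_sup_right hx₁S)
  have e2 : τb = ((d : kk))⁻¹ • ((d : κ) * τb) := by
    rw [hdκ, ← Algebra.smul_def, inv_smul_smul₀ hd]
  rw [e2]
  exact Submodule.smul_mem _ _ hmem

end Main

end Fermat.Agent.S18.Core

end
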