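import Mathlib
import Fermat.Agent.S18.CoreDefs
import Fermat.Agent.RR.Duality

/-!
# S18 / GenusLe: vanishing of `H¹` in large degree, semicontinuity of the genus, the `bound` field

Everything here is generic (any characteristic) and stated for function fields with the place
facts `RR.PlaceFacts` and Riemann's theorem `RR.RiemannFacts`.

* `exists_H1_bound` : `H¹(D) = 0` as soon as `deg D ≥ c`.
* `finrank_L_of_large` : `dim L(D) = deg D + 1 - dim H¹(0)` for `deg D ≥ c`.
* `le_finrank_L` : Riemann's inequality `deg D + 1 - dim H¹(0) ≤ dim L(D)`.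
* `genus_le` : for a reduction relation `Red` (`RedFacts`) between `F/K` and `κ/k` and one chart
  `Z0`, `Zb0` of equal positive degree compatible with `Red`: `dim H¹(0)_κ ≤ dim H¹(0)_F`.
* `bound_of_le` : the `bound` field of `ChartFacts` from `g ≤ dim H¹(0)_κ`.
-/

set_option autoImplicit false

noncomputable section

namespace Fermat.Agent.S18.GenusLe

open AlgebraicCurve Fermat.Agent.RR

section Generic

variable {K F : Type*} [Field K] [Field F] [Algebra K F]

/-- `H¹(D)` vanishes in large degree. -/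
theorem exists_H1_bound (hP : PlaceFacts K F) (hR : RiemannFacts K F) :
    ∃ c : ℤ, ∀ D : Divisor K F, c ≤ Divisor.degree D → Module.finrank K (H1 D) = 0 := by
  have hpd : HasPrincipalDivisors K F :=
    Fermat.Agent.S24.hasPrincipalDivisors_of hP.hdeg hP.hfin hP.hsum
  have hax := DualityInst.axioms_of hP hR hpd
  obtain ⟨c, hc⟩ := hax.exists_bound
  refine ⟨c, fun D hD => ?_⟩
  have h := hc D hD
  rw [DualityInst.range_diagRep] at h
  have hsub : Subsingleton (H1 D) := Submodule.Quotient.subsingleton_iff.mpr h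
  exact Module.finrank_zero_of_subsingleton

/-- Riemann's inequality. -/
theorem le_finrank_L (hR : RiemannFacts K F) (D : Divisor K F) :
    Divisor.degree D + 1 - (Module.finrank K (H1 (0 : Divisor K F)) : ℤ)
      ≤ (Module.finrank K (riemannRochSpace D) : ℤ) := by
  have h := hR.riemann D
  have h0 : (0 : ℤ) ≤ (Module.finrank K (H1 D) : ℤ) := Int.natCast_nonneg _
  omega

/-- Riemann's theorem in large degree. -/
theorem finrank_L_of_large (hR : RiemannFacts K F) {c : ℤ}
    (hc : ∀ D : Divisor K F, c ≤ Divisor.degree D → Module.finrank K (H1 D) = 0)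
    (D : Divisor K F) (hD : c ≤ Divisor.degree D) :
    (Module.finrank K (riemannRochSpace D) : ℤ)
      = Divisor.degree D + 1 - (Module.finrank K (H1 (0 : Divisor K F)) : ℤ) := by
  have h := hR.riemann D
  rw [hc D hD] at h
  push_cast at h
  omega

/-- `deg (n • Z) = n * deg Z`. -/
theorem degree_nsmul (n : ℕ) (Z : Divisor K F) :
    Divisor.degree (n • Z) = (n : ℤ) * Divisor.degree Z := by
  rw [map_nsmul, nsmul_eq_mul]

/-- For a divisor of positive degree some positive multiple has degree `≥ c`. -/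
theorem exists_nsmul_degree_ge (Z : Divisor K F) (hZ : 0 < Divisor.degree Z) (c : ℤ) :
    ∃ n : ℕ, 0 < n ∧ c ≤ Divisor.degree (n • Z) := by
  refine ⟨c.toNat + 1, Nat.succ_pos _, ?_⟩
  rw [degree_nsmul]
  have h1 : c ≤ (c.toNat : ℤ) := Int.self_le_toNat c
  have h2 : ((c.toNat + 1 : ℕ) : ℤ) * 1 ≤ ((c.toNat + 1 : ℕ) : ℤ) * Divisor.degree Z :=
    mul_le_mul_of_nonneg_left (by omega) (Int.natCast_nonneg _)
  push_cast at h2 ⊢
  omega

end Generic

section Reduction

variable {K F κ : Type*} [Field K] [Field F] [Algebra K F] (A : ValuationSubring K)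
  [Field κ] [Algebra (IsLocalRing.ResidueField A) κ] (Red : F → κ → Prop)

/-- The lattice count: reduction embeds an orthonormal basis of `L(n Z0)` into `L(n Zb0)`. -/
theorem finrank_L_le (hRed : RedFacts A Red) (hR : RiemannFacts K F)
    (hRb : RiemannFacts (IsLocalRing.ResidueField A) κ)
    (Z0 : Divisor K F) (Zb0 : Divisor (IsLocalRing.ResidueField A) κ)
    (compat0 : ∀ (a : ℕ) (f : F) (x : κ), f ∈ riemannRochSpace (a • Z0) → Red f x →
      x ∈ riemannRochSpace (a • Zb0)) (n : ℕ) :
    Module.finrank K (riemannRochSpace (n • Z0))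
      ≤ Module.finrank (IsLocalRing.ResidueField A) (riemannRochSpace (n • Zb0)) := by
  have hfin : FiniteDimensional K (riemannRochSpace (n • Z0)) := hR.finite_L _
  have hfinb : FiniteDimensional (IsLocalRing.ResidueField A) (riemannRochSpace (n • Zb0)) :=
    hRb.finite_L _
  obtain ⟨e, eb, he, hred, hli⟩ := hRed.lattice (riemannRochSpace (n • Z0)) hfin
  have hmem : ∀ i, eb i ∈ riemannRochSpace (n • Zb0) := fun i =>
    compat0 n (e i) (eb i) (he i) (hred i)
  let eb' : Fin (Module.finrank K (riemannRochSpace (n • Z0))) →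
      riemannRochSpace (n • Zb0) := fun i => ⟨eb i, hmem i⟩
  have hli' : LinearIndependent (IsLocalRing.ResidueField A) eb' :=
    LinearIndependent.of_comp (riemannRochSpace (n • Zb0)).subtype hli
  have hcard := hli'.fintype_card_le_finrank
  rwa [Fintype.card_fin] at hcard

/-- Semicontinuity of the genus: `ḡ ≤ g`. -/
theorem genus_le (hRed : RedFacts A Red) (hR : RiemannFacts K F)
    (hPb : PlaceFacts (IsLocalRing.ResidueField A) κ)
    (hRb : RiemannFacts (IsLocalRing.ResidueField A) κ)
    (Z0 : Divisor K F) (Zb0 : Divisor (IsLocalRing.ResidueField A) κ)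
    (hpos : 0 < Divisor.degree Z0) (hdeg : Divisor.degree Zb0 = Divisor.degree Z0)
    (compat0 : ∀ (a : ℕ) (f : F) (x : κ), f ∈ riemannRochSpace (a • Z0) → Red f x →
      x ∈ riemannRochSpace (a • Zb0)) :
    Module.finrank (IsLocalRing.ResidueField A) (H1 (0 : Divisor (IsLocalRing.ResidueField A) κ))
      ≤ Module.finrank K (H1 (0 : Divisor K F)) := by
  obtain ⟨cb, hcb⟩ := exists_H1_bound hPb hRb
  obtain ⟨n, -, hn⟩ := exists_nsmul_degree_ge Zb0 (hdeg ▸ hpos) cb
  have h1 := le_finrank_L hR (n • Z0)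
  have h2 := finrank_L_of_large hRb hcb (n • Zb0) hn
  have h3 := finrank_L_le A Red hRed hR hRb Z0 Zb0 compat0 n
  rw [degree_nsmul] at h1 h2
  rw [hdeg] at h2
  have h3' : (Module.finrank K (riemannRochSpace (n • Z0)) : ℤ)
      ≤ (Module.finrank (IsLocalRing.ResidueField A) (riemannRochSpace (n • Zb0)) : ℤ) := by
    exact_mod_cast h3
  have : (Module.finrank (IsLocalRing.ResidueField A)
      (H1 (0 : Divisor (IsLocalRing.ResidueField A) κ)) : ℤ)
      ≤ (Module.finrank K (H1 (0 : Divisor K F)) : ℤ) := by omega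
  exact_mod_cast this

/-- `genus_le` with the two-chart compatibility (the `compat` field of `ChartFacts`) as input. -/
theorem genus_le_of_compat (hRed : RedFacts A Red) (hR : RiemannFacts K F)
    (hPb : PlaceFacts (IsLocalRing.ResidueField A) κ)
    (hRb : RiemannFacts (IsLocalRing.ResidueField A) κ)
    (Z0 Z1 : Divisor K F) (Zb0 Zb1 : Divisor (IsLocalRing.ResidueField A) κ)
    (hpos : 0 < Divisor.degree Z0) (hdeg : Divisor.degree Zb0 = Divisor.degree Z0)
    (compat : ∀ (a b : ℕ) (f : F) (x : κ), f ∈ riemannRochSpace (a • Z0 + b • Z1) → Red f x →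
      x ∈ riemannRochSpace (a • Zb0 + b • Zb1)) :
    Module.finrank (IsLocalRing.ResidueField A) (H1 (0 : Divisor (IsLocalRing.ResidueField A) κ))
      ≤ Module.finrank K (H1 (0 : Divisor K F)) := by
  refine genus_le A Red hRed hR hPb hRb Z0 Zb0 hpos hdeg fun a f x hf hred => ?_
  have h := compat a 0 f x (by rwa [zero_smul, add_zero]) hred
  rwa [zero_smul, add_zero] at h

/-- The `bound` field of `ChartFacts` from the genus inequality `g ≤ ḡ`. -/
theorem bound_of_le (hPb : PlaceFacts (IsLocalRing.ResidueField A) κ)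
    (hRb : RiemannFacts (IsLocalRing.ResidueField A) κ) (g : ℤ)
    (hg : g ≤ (Module.finrank (IsLocalRing.ResidueField A)
      (H1 (0 : Divisor (IsLocalRing.ResidueField A) κ)) : ℤ))
    (Z0 : Divisor K F) (Zb0 Zb1 : Divisor (IsLocalRing.ResidueField A) κ)
    (hpos : 0 < Divisor.degree Z0) (hdeg0 : Divisor.degree Zb0 = Divisor.degree Z0)
    (hdeg1 : Divisor.degree Zb1 = Divisor.degree Z0) :
    ∃ n : ℕ, 0 < n ∧
      (Module.finrank (IsLocalRing.ResidueField A) (riemannRochSpace (n • Zb0)) : ℤ)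
          ≤ n * Divisor.degree Z0 + 1 - g ∧
      (Module.finrank (IsLocalRing.ResidueField A) (riemannRochSpace (n • Zb1)) : ℤ)
          ≤ n * Divisor.degree Z0 + 1 - g := by
  obtain ⟨cb, hcb⟩ := exists_H1_bound hPb hRb
  obtain ⟨n, hn0, hn⟩ := exists_nsmul_degree_ge Zb0 (hdeg0 ▸ hpos) cb
  have hn1 : cb ≤ Divisor.degree (n • Zb1) := by
    rw [degree_nsmul, hdeg1, ← hdeg0, ← degree_nsmul]
    exact hn
  have h0 := finrank_L_of_large hRb hcb (n • Zb0) hn
  have h1 := finrank_L_of_large hRb hcb (n • Zb1) hn1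
  rw [degree_nsmul, hdeg0] at h0
  rw [degree_nsmul, hdeg1] at h1
  refine ⟨n, hn0, ?_, ?_⟩
  · rw [h0]
    omega
  · rw [h1]
    omega

end Reduction

end Fermat.Agent.S18.GenusLe

end
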