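import Mathlib
import Fermat.Agent.S18.Core
import Fermat.Agent.S18.Charts
import Fermat.Agent.S18.GenusLe

/-!
# S18 / CoreAsm: the two-chart core from the Gauss-layer facts and the genus inequality

Abstract assembly (no modular input): for a function field `F / K` (characteristic zero) with a
Gauss reduction `Red : F → κ → Prop` onto a function field `κ / k`, a coordinate `j` with
reduction `jb`, the integrality transfers `hint0`, `hint1`, equality of the degrees
`[κ : k(jb)] = [F : K(j)]` and the genus inequality `g ≤ gbar`, the statement `CoreStmt A Red`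
holds.  (`Core.core` + `Charts.chartFacts_of` + `GenusLe.bound_of_le`.)
-/

set_option autoImplicit false
set_option synthInstance.maxHeartbeats 400000

noncomputable section

namespace Fermat.Agent.S18.CoreAsm

open AlgebraicCurve Fermat.Agent.RR
open scoped IntermediateField

variable {K F κ : Type*} [Field K] [Field F] [Algebra K F] {A : ValuationSubring K}
  [Field κ] [Algebra (IsLocalRing.ResidueField A) κ] {Red : F → κ → Prop}

/-- **Assembly of the core.** -/
theorem of_inputs [CharZero K] (hR : RedFacts A Red)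
    (hP : PlaceFacts K F) (hRR : RiemannFacts K F)
    (hPb : PlaceFacts (IsLocalRing.ResidueField A) κ)
    (hRb : RiemannFacts (IsLocalRing.ResidueField A) κ)
    {j : F} {jb : κ} (hjt : Transcendental K j)
    (hjbt : Transcendental (IsLocalRing.ResidueField A) jb) (hj : Red j jb)
    (hint0 : ∀ (f : F) (x : κ), Red f x → IsIntegral (Algebra.adjoin K {j}) f →
      IsIntegral (Algebra.adjoin (IsLocalRing.ResidueField A) {jb}) x)
    (hint1 : ∀ (f : F) (x : κ), Red f x → IsIntegral (Algebra.adjoin K {j⁻¹}) f →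
      IsIntegral (Algebra.adjoin (IsLocalRing.ResidueField A) {jb⁻¹}) x)
    (hdeg : Module.finrank (IsLocalRing.ResidueField A)⟮jb⟯ κ = Module.finrank K⟮j⟯ F)
    (hg : (Module.finrank K (H1 (0 : Divisor K F)) : ℤ)
      ≤ (Module.finrank (IsLocalRing.ResidueField A)
          (H1 (0 : Divisor (IsLocalRing.ResidueField A) κ)) : ℤ)) :
    CoreStmt A Red := by
  obtain ⟨Z0, hZ0, hZ0deg⟩ := Charts.exists_poleDiv hP j hjt
  obtain ⟨Z1, hZ1, -⟩ := Charts.exists_zeroDiv hP j hjt
  obtain ⟨Zb0, hZb0, hZb0deg⟩ := Charts.exists_poleDiv hPb jb hjbt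
  obtain ⟨Zb1, hZb1, hZb1deg⟩ := Charts.exists_zeroDiv hPb jb hjbt
  have hjb0 : jb ≠ 0 := by
    rintro rfl
    exact hjbt isAlgebraic_zero
  have hfd : FiniteDimensional K⟮j⟯ F := hP.hfd j hjt
  have hpos : 0 < Divisor.degree Z0 := by
    rw [hZ0deg]
    exact_mod_cast Module.finrank_pos
  have hdeg0 : Divisor.degree Zb0 = Divisor.degree Z0 := by
    rw [hZb0deg, hZ0deg, hdeg]
  have hdeg1 : Divisor.degree Zb1 = Divisor.degree Z0 := by
    rw [hZb1deg, hZ0deg, hdeg]
  have hbound := GenusLe.bound_of_le A hPb hRb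
    (Module.finrank K (H1 (0 : Divisor K F)) : ℤ) hg Z0 Zb0 Zb1 hpos hdeg0 hdeg1
  have hC := Charts.chartFacts_of hR hP hjt hj hjb0 hint0 hint1 hZ0 hZ1 hZb0 hZb1
    (Module.finrank K (H1 (0 : Divisor K F)) : ℤ) hbound
  exact Core.core hR Z0 Z1 Zb0 Zb1 hC hP hRR hRb

end Fermat.Agent.S18.CoreAsm

end
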