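import Mathlib
import Fermat.Prelude.Def_ModularCurve_GenusNumerics

/-!
# S18, route M: the auxiliary level and its numerics

`M0 ℓ = 4` (`ℓ` odd) or `9` (`ℓ = 2`), `levelM ℓ N = lcm (M0 ℓ) N`.  The level `levelM ℓ N` is
prime to `ℓ`, divisible by `N` and `M0 ℓ`, has no elliptic points (`nuTwo = nuThree = 0`), and
`X₀(M0 ℓ)` has genus `0`.
-/

set_option autoImplicit false
open ModularCurve

namespace Fermat.Agent.S18.LevelNum

/-- The auxiliary level: `4` for odd `ℓ`, `9` for `ℓ = 2`. -/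
def M0 (ℓ : ℕ) : ℕ := if ℓ = 2 then 9 else 4

/-- The working level `lcm(M0, N)`. -/
def levelM (ℓ N : ℕ) : ℕ := Nat.lcm (M0 ℓ) N

theorem M0_cases (ℓ : ℕ) : M0 ℓ = 4 ∨ M0 ℓ = 9 := by
  unfold M0; split_ifs <;> simp

theorem M0_pos (ℓ : ℕ) : 0 < M0 ℓ := by
  rcases M0_cases ℓ with h | h <;> omega

theorem M0_dvd_levelM (ℓ N : ℕ) : M0 ℓ ∣ levelM ℓ N := Nat.dvd_lcm_left _ _

theorem dvd_levelM (ℓ N : ℕ) : N ∣ levelM ℓ N := Nat.dvd_lcm_right _ _

theorem levelM_ne_zero (ℓ N : ℕ) (hN : N ≠ 0) : levelM ℓ N ≠ 0 :=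
  Nat.lcm_ne_zero (M0_pos ℓ).ne' hN

instance instNeZeroM0 (ℓ : ℕ) : NeZero (M0 ℓ) := ⟨(M0_pos ℓ).ne'⟩

instance instNeZeroLevelM (ℓ N : ℕ) [NeZero N] : NeZero (levelM ℓ N) :=
  ⟨levelM_ne_zero ℓ N (NeZero.ne N)⟩

theorem not_dvd_M0 {ℓ : ℕ} (hℓ : ℓ.Prime) : ¬ ℓ ∣ M0 ℓ := by
  unfold M0
  split_ifs with h
  · subst h; decide
  · intro hd
    have h4 : (4 : ℕ) = 2 ^ 2 := by norm_num
    rw [h4] at hd
    have := (Nat.prime_dvd_prime_iff_eq hℓ Nat.prime_two).1 (hℓ.dvd_of_dvd_pow hd)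
    exact h this

theorem not_dvd_levelM {ℓ N : ℕ} (hℓ : ℓ.Prime) (hN : ¬ ℓ ∣ N) : ¬ ℓ ∣ levelM ℓ N := by
  intro hd
  have h1 : levelM ℓ N ∣ M0 ℓ * N := Nat.lcm_dvd_mul _ _
  rcases (hℓ.dvd_mul).1 (hd.trans h1) with h | h
  · exact not_dvd_M0 hℓ h
  · exact hN h

/-! ### Values at `4` and `9` -/

theorem not_squarefree_four : ¬ Squarefree 4 := by
  intro h
  have := h 2 ⟨1, by norm_num⟩
  simp at this

theorem not_squarefree_nine : ¬ Squarefree 9 := by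
  intro h
  have := h 3 ⟨1, by norm_num⟩
  simp at this

theorem dedekindPsi_four : dedekindPsi 4 = 6 := by
  have h4 : Nat.divisors 4 = {1, 2, 4} := by decide
  rw [dedekindPsi, h4, Finset.sum_filter]
  simp [not_squarefree_four, Nat.squarefree_two]

theorem dedekindPsi_nine : dedekindPsi 9 = 12 := by
  have h9 : Nat.divisors 9 = {1, 3, 9} := by decide
  rw [dedekindPsi, h9, Finset.sum_filter]
  simp [not_squarefree_nine, Nat.prime_three.squarefree]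

theorem cuspCount_four : cuspCount 4 = 3 := by decide

theorem cuspCount_nine : cuspCount 9 = 4 := by decide

/-! ### No elliptic points -/

theorem nuTwo_eq_zero_of_dvd {d M : ℕ} (hd : d ∣ M) (h : ∀ x : ZMod d, x ^ 2 + 1 ≠ 0) :
    nuTwo M = 0 := by
  unfold nuTwo
  have : IsEmpty {x : ZMod M // x ^ 2 + 1 = 0} := by
    constructor
    rintro ⟨x, hx⟩
    apply h (ZMod.castHom hd (ZMod d) x)
    rw [← map_pow, ← map_one (ZMod.castHom hd (ZMod d)), ← map_add, hx, map_zero]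
  exact Nat.card_of_isEmpty

theorem nuThree_eq_zero_of_dvd {d M : ℕ} (hd : d ∣ M) (h : ∀ x : ZMod d, x ^ 2 + x + 1 ≠ 0) :
    nuThree M = 0 := by
  unfold nuThree
  have : IsEmpty {x : ZMod M // x ^ 2 + x + 1 = 0} := by
    constructor
    rintro ⟨x, hx⟩
    apply h (ZMod.castHom hd (ZMod d) x)
    rw [← map_pow, ← map_one (ZMod.castHom hd (ZMod d)), ← map_add, ← map_add, hx, map_zero]
  exact Nat.card_of_isEmpty

theorem no_root_two_four : ∀ x : ZMod 4, x ^ 2 + 1 ≠ 0 := by decide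
theorem no_root_two_nine : ∀ x : ZMod 9, x ^ 2 + 1 ≠ 0 := by decide
theorem no_root_three_four : ∀ x : ZMod 4, x ^ 2 + x + 1 ≠ 0 := by decide
theorem no_root_three_nine : ∀ x : ZMod 9, x ^ 2 + x + 1 ≠ 0 := by decide

/-- `X₀(M)` has no elliptic points of order 2 when `4 ∣ M` or `9 ∣ M`. -/
theorem nuTwo_eq_zero {M : ℕ} (h : 4 ∣ M ∨ 9 ∣ M) : nuTwo M = 0 := by
  rcases h with h | h
  · exact nuTwo_eq_zero_of_dvd h no_root_two_four
  · exact nuTwo_eq_zero_of_dvd h no_root_two_nine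

/-- `X₀(M)` has no elliptic points of order 3 when `4 ∣ M` or `9 ∣ M`. -/
theorem nuThree_eq_zero {M : ℕ} (h : 4 ∣ M ∨ 9 ∣ M) : nuThree M = 0 := by
  rcases h with h | h
  · exact nuThree_eq_zero_of_dvd h no_root_three_four
  · exact nuThree_eq_zero_of_dvd h no_root_three_nine

theorem four_or_nine_dvd_of_M0_dvd {ℓ M : ℕ} (h : M0 ℓ ∣ M) : 4 ∣ M ∨ 9 ∣ M := by
  rcases M0_cases ℓ with h4 | h9
  · exact Or.inl (h4 ▸ h)
  · exact Or.inr (h9 ▸ h)

/-- The genus formula at a level divisible by `4` or `9`: only `ψ` and the cusps contribute. -/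
theorem genusFormula_eq {M : ℕ} (h : 4 ∣ M ∨ 9 ∣ M) :
    genusFormula M = 1 + (dedekindPsi M : ℚ) / 12 - (cuspCount M : ℚ) / 2 := by
  rw [genusFormula, nuTwo_eq_zero h, nuThree_eq_zero h]
  simp

theorem genusFormula_four : genusFormula 4 = 0 := by
  rw [genusFormula_eq (Or.inl dvd_rfl), dedekindPsi_four, cuspCount_four]
  norm_num

theorem genusFormula_nine : genusFormula 9 = 0 := by
  rw [genusFormula_eq (Or.inr dvd_rfl), dedekindPsi_nine, cuspCount_nine]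
  norm_num

theorem genusFormula_M0 (ℓ : ℕ) : genusFormula (M0 ℓ) = 0 := by
  rcases M0_cases ℓ with h | h <;> rw [h]
  · exact genusFormula_four
  · exact genusFormula_nine

/-- `6 * (cuspCount M0 - 2) = ψ(M0)` for `M0 = 4, 9`. -/
theorem six_mul_cuspCount_M0 (ℓ : ℕ) : 6 * cuspCount (M0 ℓ) = dedekindPsi (M0 ℓ) + 12 := by
  rcases M0_cases ℓ with h | h <;> rw [h]
  · rw [cuspCount_four, dedekindPsi_four]
  · rw [cuspCount_nine, dedekindPsi_nine]

theorem dedekindPsi_M0_pos (ℓ : ℕ) : 0 < dedekindPsi (M0 ℓ) := by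
  rcases M0_cases ℓ with h | h <;> rw [h]
  · rw [dedekindPsi_four]; norm_num
  · rw [dedekindPsi_nine]; norm_num

/-- The Riemann–Hurwitz count at level `M` over level `M0` (`n = ψ(M)/ψ(M0)` the degree):
`n * c(M0) - c(M) - 2 n = 2 g(M) - 2`. -/
theorem rh_count (ℓ : ℕ) {M : ℕ} (hM : M0 ℓ ∣ M) (n : ℕ)
    (hn : n * dedekindPsi (M0 ℓ) = dedekindPsi M) :
    (n : ℚ) * cuspCount (M0 ℓ) - cuspCount M - 2 * n = 2 * genusFormula M - 2 := by
  rw [genusFormula_eq (four_or_nine_dvd_of_M0_dvd hM)]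
  have h6 : (6 : ℚ) * cuspCount (M0 ℓ) = dedekindPsi (M0 ℓ) + 12 := by
    exact_mod_cast six_mul_cuspCount_M0 ℓ
  have hn' : (n : ℚ) * dedekindPsi (M0 ℓ) = dedekindPsi M := by exact_mod_cast hn
  have hc : (cuspCount (M0 ℓ) : ℚ) = (dedekindPsi (M0 ℓ) + 12) / 6 := by
    rw [← h6]; ring
  rw [hc, ← hn']
  ring

end Fermat.Agent.S18.LevelNum
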