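/-
S18 / GenusBar: the characteristic-zero level facts in the shape the S18 core uses
(`K = AlgebraicClosure ℚ`, `F_L = modularFunctionFieldBar L`; everything is read off main:
S24 side A/B and the Riemann–Roch packages).

* `finrank_H1_zero_bar L`   : `dim_K H¹(0) = genusFormula L` (the Riemann genus of `F_L`);
* `finrank_H1_zero_M0 ℓ`    : `dim_K H¹(0) = 0` at the auxiliary level `M0 ℓ ∈ {4, 9}`;
* `riemannFacts_bar L`      : `RR.RiemannFacts K F_L`;
* `finrank_xgen_bar L`      : `[F_L : K(j)] = dedekindPsi L`;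
* `card_cusps_bar L`        : the number of poles of `j` on `F_L` is `cuspCount L`.
-/
import Mathlib
import Fermat.Agent.RR.RRFinal
import Fermat.Agent.S24.CosetsCusps
import Fermat.Agent.S18.ConstPF
import Fermat.Agent.S18.LevelNum

set_option autoImplicit false

namespace Fermat.Agent.S18.GenusBar

open AlgebraicCurve ModularCurve IntermediateField

/-- Riemann's theorem and its companions for `F_L / ℚ̄`. -/
theorem riemannFacts_bar (L : ℕ) [NeZero L] :
    Fermat.Agent.RR.RiemannFacts (AlgebraicClosure ℚ) (modularFunctionFieldBar L) :=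
  Fermat.Agent.RR.riemannFacts_of_placeFacts (ConstPF.placeFacts_bar L)

/-- The Riemann genus `dim H¹(0)` of `F_L / ℚ̄` is `genusFormula L`. -/
theorem finrank_H1_zero_bar (L : ℕ) [NeZero L] :
    (Module.finrank (AlgebraicClosure ℚ)
      (H1 (0 : Divisor (AlgebraicClosure ℚ) (modularFunctionFieldBar L))) : ℚ)
      = genusFormula L := by
  obtain ⟨hω, W, hW⟩ :=
    Fermat.Agent.RR.exists_divisor_D_xgen (AlgebraicClosure ℚ) Fermat.Agent.S24.kEmb L
  have h1 := Fermat.Agent.RR.finrank_riemannRochSpace_FK (AlgebraicClosure ℚ)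
    Fermat.Agent.S24.kEmb L _ hω W hW
  have h2 := Fermat.Agent.RR.finrank_H1_zero_eq (ConstPF.placeFacts_bar L) _ hω W hW
  rw [← h1]
  exact_mod_cast h2

/-- At a level of genus formula `0` the Riemann genus vanishes. -/
theorem finrank_H1_zero_bar_eq_zero (L : ℕ) [NeZero L] (h : genusFormula L = 0) :
    Module.finrank (AlgebraicClosure ℚ)
      (H1 (0 : Divisor (AlgebraicClosure ℚ) (modularFunctionFieldBar L))) = 0 := by
  have h1 := finrank_H1_zero_bar L
  rw [h] at h1
  exact_mod_cast h1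

/-- The auxiliary level `M0 ℓ ∈ {4, 9}` has genus `0`. -/
theorem finrank_H1_zero_M0 (ℓ : ℕ) :
    Module.finrank (AlgebraicClosure ℚ)
      (H1 (0 : Divisor (AlgebraicClosure ℚ) (modularFunctionFieldBar (LevelNum.M0 ℓ)))) = 0 :=
  finrank_H1_zero_bar_eq_zero (LevelNum.M0 ℓ) (LevelNum.genusFormula_M0 ℓ)

/-- The Riemann genus at a level divisible by `4` or `9`, as an integer identity:
`12 * (2 g - 2) = 2 ψ(M) - 12 c(M)`. -/
theorem genus_identity_bar (M : ℕ) [NeZero M] (h : 4 ∣ M ∨ 9 ∣ M) :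
    12 * (2 * (Module.finrank (AlgebraicClosure ℚ)
      (H1 (0 : Divisor (AlgebraicClosure ℚ) (modularFunctionFieldBar M))) : ℤ) - 2)
      = 2 * (dedekindPsi M : ℤ) - 12 * (cuspCount M : ℤ) := by
  have h1 := finrank_H1_zero_bar M
  rw [LevelNum.genusFormula_eq h] at h1
  have h2 : (12 * (2 * (Module.finrank (AlgebraicClosure ℚ)
      (H1 (0 : Divisor (AlgebraicClosure ℚ) (modularFunctionFieldBar M))) : ℚ) - 2))
      = 2 * (dedekindPsi M : ℚ) - 12 * (cuspCount M : ℚ) := by
    rw [h1]
    ring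
  exact_mod_cast h2

/-- `[F_L : ℚ̄(j)] = ψ(L)`. -/
theorem finrank_xgen_bar (L : ℕ) [NeZero L] :
    Module.finrank (AlgebraicClosure ℚ)⟮Fermat.Agent.S24.xgen (AlgebraicClosure ℚ) L⟯
      (modularFunctionFieldBar L) = dedekindPsi L := by
  have hdeg := Fermat.Agent.S24.finrank_FK (AlgebraicClosure ℚ) Fermat.Agent.S24.kEmb L
  rw [Fermat.Agent.S24.card_X0 L] at hdeg
  exact hdeg

/-- `j` is transcendental in `F_L`. -/
theorem transcendental_xgen_bar (L : ℕ) [NeZero L] :
    Transcendental (AlgebraicClosure ℚ)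
      (Fermat.Agent.S24.xgen (AlgebraicClosure ℚ) L : modularFunctionFieldBar L) :=
  Fermat.Agent.S24.transcendental_xgen (AlgebraicClosure ℚ) L

/-- The number of poles of `j` on `F_L` is `cuspCount L`. -/
theorem card_cusps_bar (L : ℕ) [NeZero L] :
    Nat.card {v : Place (AlgebraicClosure ℚ) (modularFunctionFieldBar L) //
        v.ord (Fermat.Agent.S24.xgen (AlgebraicClosure ℚ) L : modularFunctionFieldBar L) < 0}
      = cuspCount L := by
  have hx := Fermat.Agent.S24.transcendental_xgen (AlgebraicClosure ℚ) L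
  have hdeg := Fermat.Agent.S24.finrank_FK (AlgebraicClosure ℚ) Fermat.Agent.S24.kEmb L
  have h := Fermat.Agent.S24.card_places_cusp (AlgebraicClosure ℚ) Fermat.Agent.S24.kEmb L hx hdeg
  rw [Fermat.Agent.S24.orbCount_cosetPerm_T] at h
  rw [← h]
  refine Nat.card_congr (Equiv.subtypeEquivRight fun v => ?_)
  rw [v.ord_inv]
  constructor <;> intro hv <;> omega

end Fermat.Agent.S18.GenusBar
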