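import Mathlib
import Fermat.Agent.S18.CoreAsm
import Fermat.Agent.S18.ChartInt
import Fermat.Agent.S18.SepPF
import Fermat.Agent.S18.ResField
import Fermat.Agent.S18.GenusBar
import Fermat.Agent.S18.ConstPF

/-!
# S18 / CoreLvl: the two-chart core at a level `M`, from a Gauss layer and the genus inequality

`CoreLvl.of_gauss`: for a level `M`, an intermediate field `κ` of `k((q))` containing `j̄`, of
degree `ψ(M)` over `k(j̄)`, and a reduction relation `Red : F_M → κ → Prop` with `RedFacts`,
`Red j j̄`, surjective onto `κ`, the genus inequality `g_M ≤ ḡ` implies `CoreStmt A Red`.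
All characteristic-zero inputs (`PlaceFacts`, `RiemannFacts`, `[F_M : K(j)] = ψ(M)`) and all
residue-side inputs (`PlaceFacts`, `RiemannFacts` for `κ`, the integrality transfers) are
discharged here from files on main.
-/

set_option autoImplicit false
set_option synthInstance.maxHeartbeats 400000

noncomputable section

namespace Fermat.Agent.S18.CoreLvl

open AlgebraicCurve ModularCurve Fermat.Agent.RR
open scoped IntermediateField

/-- **The core at level `M`** from a Gauss layer `(κ, Red)` and the genus inequality. -/
theorem of_gauss (A : ValuationSubring (AlgebraicClosure ℚ)) (M : ℕ) [NeZero M]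
    (κ : IntermediateField (IsLocalRing.ResidueField A)
      (LaurentSeries (IsLocalRing.ResidueField A)))
    (jb : κ) (hjb : (jb : LaurentSeries (IsLocalRing.ResidueField A))
      = ModularCurve.jqModC (IsLocalRing.ResidueField A))
    (hfd : FiniteDimensional (IsLocalRing.ResidueField A)⟮jb⟯ κ)
    (hfr : Module.finrank (IsLocalRing.ResidueField A)⟮jb⟯ κ = dedekindPsi M)
    (Red : modularFunctionFieldBar M → κ → Prop) (hR : RedFacts A Red)
    (hj : Red (Fermat.Agent.S24.xgen (AlgebraicClosure ℚ) M : modularFunctionFieldBar M) jb)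
    (hsurj : ∀ x : κ, ∃ f : modularFunctionFieldBar M, Red f x)
    (hg : (Module.finrank (AlgebraicClosure ℚ)
        (H1 (0 : Divisor (AlgebraicClosure ℚ) (modularFunctionFieldBar M))) : ℤ)
      ≤ (Module.finrank (IsLocalRing.ResidueField A)
          (H1 (0 : Divisor (IsLocalRing.ResidueField A) κ)) : ℤ)) :
    CoreStmt A Red := by
  have hk : IsAlgClosed (IsLocalRing.ResidueField A) := ResField.isAlgClosed A
  have hP : PlaceFacts (AlgebraicClosure ℚ) (modularFunctionFieldBar M) :=
    ConstPF.placeFacts_bar M
  have hRR : RiemannFacts (AlgebraicClosure ℚ) (modularFunctionFieldBar M) :=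
    GenusBar.riemannFacts_bar M
  have hPb : PlaceFacts (IsLocalRing.ResidueField A) κ := SepPF.placeFacts_of_finite κ jb hjb
  have hRb : RiemannFacts (IsLocalRing.ResidueField A) κ := SepPF.riemannFacts_of_finite κ jb hjb
  have hjt := GenusBar.transcendental_xgen_bar M
  have hjbt : Transcendental (IsLocalRing.ResidueField A) jb :=
    SepPF.transcendental_of_coe_eq κ jb hjb
  have hdegK := GenusBar.finrank_xgen_bar M
  have hfdK : FiniteDimensional
      (AlgebraicClosure ℚ)⟮(Fermat.Agent.S24.xgen (AlgebraicClosure ℚ) M :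
        modularFunctionFieldBar M)⟯ (modularFunctionFieldBar M) := hP.hfd _ hjt
  have hdeg : Module.finrank (IsLocalRing.ResidueField A)⟮jb⟯ κ
      = Module.finrank (AlgebraicClosure ℚ)⟮(Fermat.Agent.S24.xgen (AlgebraicClosure ℚ) M :
        modularFunctionFieldBar M)⟯ (modularFunctionFieldBar M) := by
    rw [hfr, hdegK]
  exact CoreAsm.of_inputs hR hP hRR hPb hRb hjt hjbt hj
    (ChartInt.hint0_of_surj hR hj hjt hjbt hsurj hdeg.ge)
    (ChartInt.hint1_of_surj hR hj hjt hjbt hsurj hdeg.ge) hdeg hg

end Fermat.Agent.S18.CoreLvl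

end
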