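import Mathlib
import Fermat.Prelude.Def_ModularCurve_ReductionModL

/-!
# S18: top-level definitions (Prop interfaces)

Notation used throughout `Fermat/Agent/S18/`:
* `K = AlgebraicClosure ℚ`, `A` a valuation subring of `K` over the prime `ℓ`,
  `k = IsLocalRing.ResidueField A`;
* `F_L = modularFunctionFieldBar L ⊆ K((q))` (function field of `X₀(L)` over `K`);
* `Fb_L = modularFunctionFieldFullC k L ⊆ k((q))`;
* for `V : LaurentSeries A`: `genS A V : K((q))` (coefficientwise inclusion) and
  `redS A V : k((q))` (coefficientwise reduction).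

The statement S18 is reduced (file `Top.lean`) to the *Kummer statement* `KummerStmt ℓ A N`:
a quotient `u = V₁ / V₂` of two integral series of `F_N` with the same nonzero reduction whose
order at every place is divisible by a prime `d ≠ ℓ` is a `d`-th power in `F_N`.
-/

set_option autoImplicit false
set_option synthInstance.maxHeartbeats 400000

noncomputable section

namespace Fermat.Agent.S18

open AlgebraicCurve ModularCurve

/-- Coefficientwise inclusion `A((q)) → K((q))`. -/
abbrev genS (A : ValuationSubring (AlgebraicClosure ℚ)) :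
    LaurentSeries A →+* LaurentSeries (AlgebraicClosure ℚ) :=
  coeffMap A.subtype

/-- Coefficientwise reduction `A((q)) → k((q))`. -/
abbrev redS (A : ValuationSubring (AlgebraicClosure ℚ)) :
    LaurentSeries A →+* LaurentSeries (IsLocalRing.ResidueField A) :=
  coeffMap (IsLocalRing.residue A)

/-- **Kummer statement at level `L`.**  If `V₁, V₂ ∈ A((q))` lie in the function field `F_L`,
have the same nonzero coefficientwise reduction, and the order of `u = V₁ / V₂` at every place
of `F_L` is divisible by the prime `d ≠ ℓ`, then `u` is a `d`-th power in `F_L`. -/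
def KummerStmt (ℓ : ℕ) (A : ValuationSubring (AlgebraicClosure ℚ)) (L : ℕ) : Prop :=
  ∀ d : ℕ, d.Prime → d ≠ ℓ →
    ∀ (V₁ V₂ : LaurentSeries A) (h₁ : genS A V₁ ∈ modularFunctionFieldBar L)
      (h₂ : genS A V₂ ∈ modularFunctionFieldBar L),
      redS A V₁ = redS A V₂ → redS A V₁ ≠ 0 →
      (∀ P : Place (AlgebraicClosure ℚ) (modularFunctionFieldBar L),
        (d : ℤ) ∣ P.ord ((⟨genS A V₁, h₁⟩ : modularFunctionFieldBar L) / ⟨genS A V₂, h₂⟩)) →
      ∃ w : modularFunctionFieldBar L,
        w ^ d = (⟨genS A V₁, h₁⟩ : modularFunctionFieldBar L) / ⟨genS A V₂, h₂⟩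

/-- **Constants at level `N` in characteristic `ℓ`.**  A nonzero element of `Fb_N` without zeros
and poles is a constant. -/
def ConstStmt (A : ValuationSubring (AlgebraicClosure ℚ)) (N : ℕ) : Prop :=
  ∀ f : modularFunctionFieldFullC (IsLocalRing.ResidueField A) N, f ≠ 0 →
    (∀ Q : Place (IsLocalRing.ResidueField A)
      (modularFunctionFieldFullC (IsLocalRing.ResidueField A) N), Q.ord f = 0) →
    ∃ c : IsLocalRing.ResidueField A,
      f = algebraMap (IsLocalRing.ResidueField A)
        (modularFunctionFieldFullC (IsLocalRing.ResidueField A) N) c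

/-- **Lifting.**  Every element of `Fb_N` is a quotient of reductions of two integral series of
`F_N` whose reductions lie in `Fb_N`. -/
def LiftStmt (A : ValuationSubring (AlgebraicClosure ℚ)) (N : ℕ) : Prop :=
  ∀ x : LaurentSeries (IsLocalRing.ResidueField A),
    x ∈ modularFunctionFieldFullC (IsLocalRing.ResidueField A) N →
    ∃ G₁ G₂ : LaurentSeries A,
      genS A G₁ ∈ modularFunctionFieldBar N ∧ genS A G₂ ∈ modularFunctionFieldBar N ∧
      redS A G₁ ∈ modularFunctionFieldFullC (IsLocalRing.ResidueField A) N ∧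
      redS A G₂ ∈ modularFunctionFieldFullC (IsLocalRing.ResidueField A) N ∧
      redS A G₂ ≠ 0 ∧ x * redS A G₂ = redS A G₁

/-- **Restriction of places** along `F_N ⊆ F_M`: every place of `F_M` restricts to a place of
`F_N`, with a ramification index. -/
def RestrictStmt (N M : ℕ) : Prop :=
  ∀ P' : Place (AlgebraicClosure ℚ) (modularFunctionFieldBar M),
    ∃ (P : Place (AlgebraicClosure ℚ) (modularFunctionFieldBar N)) (e : ℤ),
      ∀ (x : LaurentSeries (AlgebraicClosure ℚ)) (hN : x ∈ modularFunctionFieldBar N)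
        (hM : x ∈ modularFunctionFieldBar M),
        P'.ord (⟨x, hM⟩ : modularFunctionFieldBar M)
          = e * P.ord (⟨x, hN⟩ : modularFunctionFieldBar N)

/-- **Descent of roots** from level `M` to level `N`: if `u = V₁ / V₂` (integral series of `F_N`
with the same nonzero reduction) is a `d`-th power in `F_M`, `d ≠ ℓ` prime, then it is a `d`-th
power in `F_N`. -/
def RootDescentStmt (ℓ : ℕ) (A : ValuationSubring (AlgebraicClosure ℚ)) (N M : ℕ) : Prop :=
  ∀ d : ℕ, d.Prime → d ≠ ℓ →
    ∀ (V₁ V₂ : LaurentSeries A), genS A V₁ ∈ modularFunctionFieldBar N →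
      genS A V₂ ∈ modularFunctionFieldBar N →
      redS A V₁ = redS A V₂ → redS A V₁ ≠ 0 →
      (∃ x : LaurentSeries (AlgebraicClosure ℚ), x ∈ modularFunctionFieldBar M ∧
        x ^ d * genS A V₂ = genS A V₁) →
      ∃ w : LaurentSeries (AlgebraicClosure ℚ), w ∈ modularFunctionFieldBar N ∧
        w ^ d * genS A V₂ = genS A V₁

/-- The statement S18 for a fixed `ℓ`, `A`, `N`. -/
def MainStmt (ℓ : ℕ) (A : ValuationSubring (AlgebraicClosure ℚ)) (N : ℕ) : Prop :=
  ∀ (_ : ModularCurve.ReductionInputsModL A N) (m : ℕ), ¬ ℓ ∣ m →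
    ∀ z : ModularCurve.JZero N, m • z = 0 → ModularCurve.reductionModL A N z = 0 → z = 0

/-- The auxiliary level `M₀`: `4` for odd `ℓ`, `9` for `ℓ = 2`. -/
def auxLevel (ℓ : ℕ) : ℕ := if ℓ = 2 then 9 else 4

theorem auxLevel_pos (ℓ : ℕ) : 0 < auxLevel ℓ := by
  unfold auxLevel; split_ifs <;> norm_num

theorem not_dvd_auxLevel {ℓ : ℕ} (hℓ : ℓ.Prime) : ¬ ℓ ∣ auxLevel ℓ := by
  unfold auxLevel
  split_ifs with h
  · subst h; norm_num
  · intro hd
    have h4 : ℓ ∣ 2 ^ 2 := by simpa using hd
    have := (Nat.prime_dvd_prime_iff_eq hℓ Nat.prime_two).mp (hℓ.dvd_of_dvd_pow h4)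
    exact h this

end Fermat.Agent.S18

end
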