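import Mathlib
import Fermat.Agent.S18.CoreLvl
import Fermat.Agent.S18.Defs
import Fermat.Agent.S28.FormalU

/-!
# S18 / CoreHint: the core at level `M` from `RedFacts` and the reduction of integral series

* `surj_of_generators` : for `κ = k(S)`, a reduction relation with `RedFacts` which reaches the
  generators `S` is surjective onto `κ`.
* `genS_jq`, `redS_jq`, `genS_uA`, `redS_uA` : the integral series `j`, `u_M` and their images.
* `of_hint` : for the literal residue field `κ = k(j̄, ū_M)`, any `Red` with `RedFacts` and the
  Bridge-shaped `hint` (every integral series of `F_M` reduces into `κ` compatibly with `Red`),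
  together with `u_M ∈ F_M`, `[κ : k(j̄)] = ψ(M)` and the genus inequality, gives `CoreStmt A Red`.
-/

set_option autoImplicit false
set_option synthInstance.maxHeartbeats 400000

noncomputable section

namespace Fermat.Agent.S18.CoreHint

open AlgebraicCurve ModularCurve Fermat.Agent.RR
open scoped IntermediateField

section Surj

variable {K F E : Type*} [Field K] [Field F] [Algebra K F] {A : ValuationSubring K}
  [Field E] [Algebra (IsLocalRing.ResidueField A) E]

/-- A reduction relation with `RedFacts` whose image contains the generators of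
`κ = k(S)` is surjective onto `κ`. -/
theorem surj_of_generators (S : Set E)
    (Red : F → IntermediateField.adjoin (IsLocalRing.ResidueField A) S → Prop)
    (hR : RedFacts A Red)
    (hS : ∀ (s : E) (hs : s ∈ S), ∃ f : F,
      Red f ⟨s, IntermediateField.subset_adjoin (IsLocalRing.ResidueField A) S hs⟩) :
    ∀ x : IntermediateField.adjoin (IsLocalRing.ResidueField A) S, ∃ f : F, Red f x := by
  rintro ⟨x, hx⟩
  induction hx using IntermediateField.adjoin_induction with
  | mem y hy => exact hS y hy
  | algebraMap c =>
    obtain ⟨a, rfl⟩ := IsLocalRing.residue_surjective c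
    exact ⟨algebraMap K F (a : K), hR.const a⟩
  | add a b ha hb iha ihb =>
    obtain ⟨f, hf⟩ := iha
    obtain ⟨g, hg⟩ := ihb
    exact ⟨f + g, hR.add f g _ _ hf hg⟩
  | inv a ha iha =>
    obtain ⟨f, hf⟩ := iha
    by_cases h0 : (⟨a, ha⟩ : IntermediateField.adjoin (IsLocalRing.ResidueField A) S) = 0
    · refine ⟨0, ?_⟩
      have ha0 : a = 0 := congrArg Subtype.val h0
      have : (⟨a⁻¹, inv_mem ha⟩ : IntermediateField.adjoin (IsLocalRing.ResidueField A) S) = 0 := by
        apply Subtype.ext
        simp [ha0]
      rw [this]
      exact Charts.red_zero hR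
    · exact ⟨f⁻¹, Charts.red_inv hR hf h0⟩
  | mul a b ha hb iha ihb =>
    obtain ⟨f, hf⟩ := iha
    obtain ⟨g, hg⟩ := ihb
    exact ⟨f * g, hR.mul f g _ _ hf hg⟩

end Surj

section Series

variable (A : ValuationSubring (AlgebraicClosure ℚ))

/-- The integral series `j`. -/
theorem genS_jq : genS A (jqModC A) = jqModC (AlgebraicClosure ℚ) :=
  coeffMap_jqModC _

theorem redS_jq : redS A (jqModC A) = jqModC (IsLocalRing.ResidueField A) :=
  coeffMap_jqModC _

/-- The integral series `u_L`. -/
theorem genS_uA (L : ℕ) :
    genS A (coeffMap (Int.castRingHom A) (Fermat.Agent.S28.FormalU.uZ L))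
      = coeffMap (Int.castRingHom (AlgebraicClosure ℚ)) (Fermat.Agent.S28.FormalU.uZ L) := by
  rw [genS, coeffMap_coeffMap]
  exact coeffMap_congr (RingHom.ext_int _ _) _

theorem redS_uA (L : ℕ) :
    redS A (coeffMap (Int.castRingHom A) (Fermat.Agent.S28.FormalU.uZ L))
      = coeffMap (Int.castRingHom (IsLocalRing.ResidueField A))
          (Fermat.Agent.S28.FormalU.uZ L) := by
  rw [redS, coeffMap_coeffMap]
  exact coeffMap_congr (RingHom.ext_int _ _) _

/-- The coordinate `xgen` of `F_M` is the series `j`. -/
theorem coe_xgen (M : ℕ) [NeZero M] :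
    ((Fermat.Agent.S24.xgen (AlgebraicClosure ℚ) M : modularFunctionFieldBar M) :
      LaurentSeries (AlgebraicClosure ℚ)) = jqModC (AlgebraicClosure ℚ) := by
  rw [Fermat.Agent.S24.coe_xgen, Fermat.Agent.S24.Jser_eq, coeffEmb, qExpand_one_apply,
    ← jqModC_rat, coeffMap_jqModC]

end Series

/-- **The core at level `M`** for the literal residue field `κ = k(j̄, ū_M)` and any reduction
relation `Red` with `RedFacts` and the Bridge-shaped `hint`. -/
theorem of_hint (A : ValuationSubring (AlgebraicClosure ℚ)) (M : ℕ) [NeZero M]
    (Red : modularFunctionFieldBar M →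
      IntermediateField.adjoin (IsLocalRing.ResidueField A)
        ({jqModC (IsLocalRing.ResidueField A),
          coeffMap (Int.castRingHom (IsLocalRing.ResidueField A))
            (Fermat.Agent.S28.FormalU.uZ M)} : Set (LaurentSeries (IsLocalRing.ResidueField A)))
        → Prop)
    (hR : RedFacts A Red)
    (hint : ∀ (V : LaurentSeries A) (hV : genS A V ∈ modularFunctionFieldBar M),
      ∃ hx : redS A V ∈ IntermediateField.adjoin (IsLocalRing.ResidueField A)
        ({jqModC (IsLocalRing.ResidueField A),
          coeffMap (Int.castRingHom (IsLocalRing.ResidueField A))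
            (Fermat.Agent.S28.FormalU.uZ M)} : Set (LaurentSeries (IsLocalRing.ResidueField A))),
        Red ⟨genS A V, hV⟩ ⟨redS A V, hx⟩)
    (huK : coeffMap (Int.castRingHom (AlgebraicClosure ℚ)) (Fermat.Agent.S28.FormalU.uZ M)
      ∈ modularFunctionFieldBar M)
    (hfd : FiniteDimensional
      (IsLocalRing.ResidueField A)⟮(⟨jqModC (IsLocalRing.ResidueField A),
        IntermediateField.subset_adjoin _ _ (Set.mem_insert _ _)⟩ :
        IntermediateField.adjoin (IsLocalRing.ResidueField A)
        ({jqModC (IsLocalRing.ResidueField A),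
          coeffMap (Int.castRingHom (IsLocalRing.ResidueField A))
            (Fermat.Agent.S28.FormalU.uZ M)} : Set (LaurentSeries (IsLocalRing.ResidueField A))))⟯
      (IntermediateField.adjoin (IsLocalRing.ResidueField A)
        ({jqModC (IsLocalRing.ResidueField A),
          coeffMap (Int.castRingHom (IsLocalRing.ResidueField A))
            (Fermat.Agent.S28.FormalU.uZ M)} : Set (LaurentSeries (IsLocalRing.ResidueField A)))))
    (hfr : Module.finrank
      (IsLocalRing.ResidueField A)⟮(⟨jqModC (IsLocalRing.ResidueField A),
        IntermediateField.subset_adjoin _ _ (Set.mem_insert _ _)⟩ :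
        IntermediateField.adjoin (IsLocalRing.ResidueField A)
        ({jqModC (IsLocalRing.ResidueField A),
          coeffMap (Int.castRingHom (IsLocalRing.ResidueField A))
            (Fermat.Agent.S28.FormalU.uZ M)} : Set (LaurentSeries (IsLocalRing.ResidueField A))))⟯
      (IntermediateField.adjoin (IsLocalRing.ResidueField A)
        ({jqModC (IsLocalRing.ResidueField A),
          coeffMap (Int.castRingHom (IsLocalRing.ResidueField A))
            (Fermat.Agent.S28.FormalU.uZ M)} : Set (LaurentSeries (IsLocalRing.ResidueField A))))
      = dedekindPsi M)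
    (hg : (Module.finrank (AlgebraicClosure ℚ)
        (H1 (0 : Divisor (AlgebraicClosure ℚ) (modularFunctionFieldBar M))) : ℤ)
      ≤ (Module.finrank (IsLocalRing.ResidueField A)
          (H1 (0 : Divisor (IsLocalRing.ResidueField A)
            (IntermediateField.adjoin (IsLocalRing.ResidueField A)
              ({jqModC (IsLocalRing.ResidueField A),
                coeffMap (Int.castRingHom (IsLocalRing.ResidueField A))
                  (Fermat.Agent.S28.FormalU.uZ M)} :
                Set (LaurentSeries (IsLocalRing.ResidueField A)))))) : ℤ)) :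
    CoreStmt A Red := by
  -- `Red j j̄`
  have hjmem : genS A (jqModC A) ∈ modularFunctionFieldBar M := by
    rw [genS_jq, ← coe_xgen M]
    exact (Fermat.Agent.S24.xgen (AlgebraicClosure ℚ) M).2
  obtain ⟨hjx, hjR⟩ := hint (jqModC A) hjmem
  have hj : Red (Fermat.Agent.S24.xgen (AlgebraicClosure ℚ) M : modularFunctionFieldBar M)
      ⟨jqModC (IsLocalRing.ResidueField A),
        IntermediateField.subset_adjoin _ _ (Set.mem_insert _ _)⟩ := by
    have e1 : (⟨genS A (jqModC A), hjmem⟩ : modularFunctionFieldBar M)
        = Fermat.Agent.S24.xgen (AlgebraicClosure ℚ) M := by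
      apply Subtype.ext
      change genS A (jqModC A) = _
      rw [genS_jq, coe_xgen]
    have e2 : (⟨redS A (jqModC A), hjx⟩ : IntermediateField.adjoin (IsLocalRing.ResidueField A)
        ({jqModC (IsLocalRing.ResidueField A),
          coeffMap (Int.castRingHom (IsLocalRing.ResidueField A))
            (Fermat.Agent.S28.FormalU.uZ M)} : Set (LaurentSeries (IsLocalRing.ResidueField A))))
        = ⟨jqModC (IsLocalRing.ResidueField A),
          IntermediateField.subset_adjoin _ _ (Set.mem_insert _ _)⟩ :=
      Subtype.ext (redS_jq A)
    rw [← e1, ← e2]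
    exact hjR
  -- surjectivity
  have humem : genS A (coeffMap (Int.castRingHom A) (Fermat.Agent.S28.FormalU.uZ M))
      ∈ modularFunctionFieldBar M := by
    rw [genS_uA]
    exact huK
  obtain ⟨hux, huR⟩ := hint _ humem
  have hsurj := surj_of_generators (A := A)
    ({jqModC (IsLocalRing.ResidueField A),
      coeffMap (Int.castRingHom (IsLocalRing.ResidueField A))
        (Fermat.Agent.S28.FormalU.uZ M)} : Set (LaurentSeries (IsLocalRing.ResidueField A)))
    Red hR (by
      intro s hs
      rcases hs with rfl | hs
      · exact ⟨_, hj⟩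
      · rw [Set.mem_singleton_iff] at hs
        subst hs
        refine ⟨⟨genS A (coeffMap (Int.castRingHom A) (Fermat.Agent.S28.FormalU.uZ M)), humem⟩,
          ?_⟩
        have e : (⟨redS A (coeffMap (Int.castRingHom A) (Fermat.Agent.S28.FormalU.uZ M)), hux⟩ :
            IntermediateField.adjoin (IsLocalRing.ResidueField A)
            ({jqModC (IsLocalRing.ResidueField A),
              coeffMap (Int.castRingHom (IsLocalRing.ResidueField A))
                (Fermat.Agent.S28.FormalU.uZ M)} :
                Set (LaurentSeries (IsLocalRing.ResidueField A))))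
            = ⟨coeffMap (Int.castRingHom (IsLocalRing.ResidueField A))
                (Fermat.Agent.S28.FormalU.uZ M),
              IntermediateField.subset_adjoin _ _
                (Set.mem_insert_of_mem _ (Set.mem_singleton _))⟩ :=
          Subtype.ext (redS_uA A M)
        rw [← e]
        exact huR)
  exact CoreLvl.of_gauss A M _ _ rfl hfd hfr Red hR hj hsurj hg

end Fermat.Agent.S18.CoreHint

end
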