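import Mathlib
import Fermat.Agent.RR.Defs
import Fermat.Agent.S24.PlacesEmb
import Fermat.Agent.S24.LsTwist
import Fermat.Agent.S24.Principal
import Fermat.Agent.S24.OrbDefs
import Fermat.Prelude.Def_ModularCurve_X0

/-!
# S18: cusps from Puiseux roots (abstract, any characteristic)

Let `F / k` be a function field over an algebraically closed field `k`, generated by `x`
(transcendental) and `u`, where `u` is a root of a polynomial `P ∈ k[T][X]`, monic in `X` of
degree `n = [F : k(x)]`.  Let `X0 ∈ k((s))` be a Laurent series of order `-L < 0` all of whose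
exponents are divisible by `L` (think `X0 = jb(s^L)`), and let `ρ i`, `i : X`, be `n` distinct
roots of `P(X0, ·)` in `k((s))`, permuted by `π` compatibly with the twist `s ↦ ζ s`
(`ζ` a primitive `L`-th root of unity).

Then the poles of `x` correspond to the orbits of `π`, and every pole order divides `L`.

This is the algebraic half of the cusp count modulo `ℓ`: the embeddings
`F → k((s))`, `x ↦ X0`, `u ↦ ρ i` are constructed here and fed to
`Fermat.Agent.S24.card_places_eq_card_orbits`.
-/

set_option autoImplicit false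

noncomputable section

namespace Fermat.Agent.S18.CuspEmb

open AlgebraicCurve IntermediateField Polynomial Fermat.Agent.S24

variable {k F : Type*} [Field k] [Field F] [Algebra k F]

/-- Two ring homomorphisms from `F = k(x, u)` into a field which agree on `k`, `x` and `u` are
equal. -/
theorem ringHom_ext_of_adjoin {R : Type*} [Field R] (x u : F)
    (hgen : IntermediateField.adjoin k {x, u} = ⊤) (f g : F →+* R)
    (hk : ∀ a : k, f (algebraMap k F a) = g (algebraMap k F a))
    (hx : f x = g x) (hu : f u = g u) : f = g := by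
  let E : IntermediateField k F :=
    { RingHom.eqLocusField f g with
      algebraMap_mem' := fun a => hk a }
  have hle : IntermediateField.adjoin k {x, u} ≤ E := by
    rw [IntermediateField.adjoin_le_iff]
    rintro y (rfl | rfl)
    · exact hx
    · exact hu
  ext y
  have hy : y ∈ E := hle (hgen ▸ IntermediateField.mem_top)
  exact hy

/-- A Laurent series of nonzero order over an algebraically closed field is transcendental. -/
theorem transcendental_of_order_ne_zero [IsAlgClosed k] (X0 : LaurentSeries k)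
    (h : X0.order ≠ 0) : Transcendental k X0 := by
  intro halg
  have hint : IsIntegral k X0 := halg.isIntegral
  have hdeg : (minpoly k X0).degree = 1 :=
    IsAlgClosed.degree_eq_one_of_irreducible k (minpoly.irreducible hint)
  obtain ⟨a, ha⟩ := minpoly.mem_range_of_degree_eq_one k X0 hdeg
  apply h
  rw [← ha, LaurentSeries.algebraMap_apply]
  exact HahnSeries.order_C

/-- **The embedding attached to a root.**  `F = k(x, u)`, `P(x, u) = 0` with `P` monic in `X` of
degree `[F : k(x)]`; `X0 ∈ k((s))` transcendental over `k` and `r ∈ k((s))` a root of `P(X0, ·)`.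
Then there is a ring embedding `F → k((s))` which is the identity on `k` and sends `x ↦ X0`,
`u ↦ r`. -/
theorem exists_embedding (x u : F) (hx : Transcendental k x)
    (hgen : IntermediateField.adjoin k {x, u} = ⊤)
    (P : (k[X])[X]) (hPm : P.Monic)
    (hPu : P.eval₂ ((aeval x : k[X] →ₐ[k] F) : k[X] →+* F) u = 0)
    (hPn : P.natDegree = Module.finrank k⟮x⟯ F)
    (X0 : LaurentSeries k) (hX0 : Transcendental k X0) (r : LaurentSeries k)
    (hr : P.eval₂ ((aeval X0 : k[X] →ₐ[k] LaurentSeries k) : k[X] →+* LaurentSeries k) r = 0) :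
    ∃ ι : F →+* LaurentSeries k,
      (∀ a : k, ι (algebraMap k F a) = HahnSeries.C a) ∧ ι x = X0 ∧ ι u = r := by
  classical
  have hinj : Function.Injective (aeval X0 : k[X] →ₐ[k] LaurentSeries k) :=
    transcendental_iff_injective.mp hX0
  have hnz : nonZeroDivisors k[X] ≤
      (nonZeroDivisors (LaurentSeries k)).comap (aeval X0 : k[X] →ₐ[k] LaurentSeries k) :=
    nonZeroDivisors_le_comap_nonZeroDivisors_of_injective _ hinj
  -- the base embedding `k(x) → k((s))`
  let φ0 : k⟮x⟯ →ₐ[k] LaurentSeries k :=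
    (RatFunc.liftAlgHom (aeval X0 : k[X] →ₐ[k] LaurentSeries k) hnz).comp
      ((RatFunc.algEquivOfTranscendental x hx).symm : k⟮x⟯ →ₐ[k] RatFunc k)
  have hφ0gen : φ0 (AdjoinSimple.gen k x) = X0 := by
    show RatFunc.liftAlgHom (aeval X0 : k[X] →ₐ[k] LaurentSeries k) hnz
      ((RatFunc.algEquivOfTranscendental x hx).symm (AdjoinSimple.gen k x)) = X0
    rw [RatFunc.algEquivOfTranscendental_symm_gen, RatFunc.liftAlgHom_apply, RatFunc.num_X,
      RatFunc.denom_X, aeval_X, map_one, div_one]
  let _ : Algebra k⟮x⟯ (LaurentSeries k) := φ0.toRingHom.toAlgebra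
  have halgLS : ∀ e : k⟮x⟯, algebraMap k⟮x⟯ (LaurentSeries k) e = φ0 e := fun e => rfl
  -- the polynomial over `k(x)`
  set g : k[X] →+* k⟮x⟯ := ((aeval (AdjoinSimple.gen k x) : k[X] →ₐ[k] k⟮x⟯) : k[X] →+* k⟮x⟯)
    with hg
  set P' : (k⟮x⟯)[X] := P.map g with hP'
  have hP'm : P'.Monic := hPm.map g
  have hcompF : (algebraMap k⟮x⟯ F).comp g = ((aeval x : k[X] →ₐ[k] F) : k[X] →+* F) := by
    apply Polynomial.ringHom_ext
    · intro a
      simp only [hg, RingHom.comp_apply, AlgHom.coe_toRingHom, aeval_C]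
      rw [← IsScalarTower.algebraMap_apply]
    · simp only [hg, RingHom.comp_apply, AlgHom.coe_toRingHom, aeval_X]
      exact AdjoinSimple.algebraMap_gen k x
  have hcompLS : (algebraMap k⟮x⟯ (LaurentSeries k)).comp g =
      ((aeval X0 : k[X] →ₐ[k] LaurentSeries k) : k[X] →+* LaurentSeries k) := by
    apply Polynomial.ringHom_ext
    · intro a
      simp only [hg, RingHom.comp_apply, AlgHom.coe_toRingHom, aeval_C]
      rw [halgLS, AlgHom.commutes]
    · simp only [hg, RingHom.comp_apply, AlgHom.coe_toRingHom, aeval_X]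
      rw [halgLS, hφ0gen]
  have hP'u : aeval u P' = 0 := by
    rw [aeval_def, hP', eval₂_map, hcompF]
    exact hPu
  have hint : IsIntegral k⟮x⟯ u := ⟨P', hP'm, hP'u⟩
  -- `u` generates `F` over `k(x)`
  have htop : (k⟮x⟯)⟮u⟯ = ⊤ := by
    apply IntermediateField.restrictScalars_injective k
    rw [IntermediateField.adjoin_adjoin_left, IntermediateField.restrictScalars_top,
      Set.singleton_union]
    exact hgen
  -- `P'` is the minimal polynomial of `u`
  have hmin : minpoly k⟮x⟯ u = P' := by
    have hdvd : minpoly k⟮x⟯ u ∣ P' := minpoly.dvd _ _ hP'u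
    have h1 : P'.natDegree = P.natDegree := hPm.natDegree_map g
    have h2 : (minpoly k⟮x⟯ u).natDegree = Module.finrank k⟮x⟯ F := by
      rw [← IntermediateField.adjoin.finrank hint, htop, IntermediateField.finrank_top']
    have hdeg : P'.natDegree ≤ (minpoly k⟮x⟯ u).natDegree := by
      rw [h1, h2, hPn]
    exact (Polynomial.eq_of_monic_of_dvd_of_natDegree_le (minpoly.monic hint) hP'm hdvd hdeg).symm
  have hroot : r ∈ (minpoly k⟮x⟯ u).aroots (LaurentSeries k) := by
    rw [Polynomial.mem_aroots']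
    refine ⟨((minpoly.monic hint).map _).ne_zero, ?_⟩
    rw [hmin, aeval_def, hP', eval₂_map, hcompLS]
    exact hr
  let ψ : (k⟮x⟯)⟮u⟯ →ₐ[k⟮x⟯] LaurentSeries k :=
    (IntermediateField.algHomAdjoinIntegralEquiv k⟮x⟯ hint).symm ⟨r, hroot⟩
  have hψgen : ψ (AdjoinSimple.gen k⟮x⟯ u) = r :=
    IntermediateField.algHomAdjoinIntegralEquiv_symm_apply_gen k⟮x⟯ hint ⟨r, hroot⟩
  let e : F ≃ₐ[k⟮x⟯] (k⟮x⟯)⟮u⟯ :=
    (IntermediateField.topEquiv (F := k⟮x⟯) (E := F)).symm.trans
      (IntermediateField.equivOfEq htop.symm)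
  have he : ∀ y : F, ((e y : (k⟮x⟯)⟮u⟯) : F) = y := fun y => rfl
  let ι : F →+* LaurentSeries k := (ψ : (k⟮x⟯)⟮u⟯ →+* LaurentSeries k).comp (e : F →+* (k⟮x⟯)⟮u⟯)
  have hιE : ∀ c : k⟮x⟯, ι (algebraMap k⟮x⟯ F c) = φ0 c := by
    intro c
    show ψ (e (algebraMap k⟮x⟯ F c)) = φ0 c
    rw [AlgEquiv.commutes, AlgHom.commutes, halgLS]
  refine ⟨ι, ?_, ?_, ?_⟩
  · intro a
    rw [IsScalarTower.algebraMap_apply k k⟮x⟯ F, hιE, AlgHom.commutes,
      LaurentSeries.algebraMap_apply]
  · rw [← AdjoinSimple.algebraMap_gen k x, hιE, hφ0gen]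
  · show ψ (e u) = r
    have : e u = AdjoinSimple.gen k⟮x⟯ u := Subtype.ext (he u)
    rw [this, hψgen]

/-- **Cusps from Puiseux roots.**  `F = k(x, u)` a function field over the algebraically closed
field `k`, `P(x, u) = 0` with `P ∈ k[T][X]` monic in `X` of degree `[F : k(x)]`.  Let
`X0 ∈ k((s))` have order `-L < 0` and be invariant under the twist `s ↦ ζ s` (`ζ` a primitive
`L`-th root of unity), and let `ρ i`, `i : X`, be `[F : k(x)]` distinct roots of `P(X0, ·)` in
`k((s))` such that `ρ (π i)` is the twist of `ρ i`.  Then the poles of `x` correspond to the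
orbits of `π` on `X`, and every pole order of `x` divides `L`. -/
theorem card_poles_eq_card_orbits [IsAlgClosed k] (hP : RR.PlaceFacts k F)
    (x u : F) (hx : Transcendental k x) (hgen : IntermediateField.adjoin k {x, u} = ⊤)
    (P : (k[X])[X]) (hPm : P.Monic)
    (hPu : P.eval₂ ((aeval x : k[X] →ₐ[k] F) : k[X] →+* F) u = 0)
    (hPn : P.natDegree = Module.finrank k⟮x⟯ F)
    (X0 : LaurentSeries k) (L : ℕ) (hL : 0 < L) (hX0 : X0.order = -(L : ℤ))
    (ζ : k) (hζ : IsPrimitiveRoot ζ L)
    (hX0tw : ∀ m : ℤ, ζ ^ m * X0.coeff m = X0.coeff m)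
    {X : Type*} [Fintype X] (hcard : Fintype.card X = Module.finrank k⟮x⟯ F)
    (ρ : X → LaurentSeries k) (hρ : Function.Injective ρ)
    (hroot : ∀ i, P.eval₂
      ((aeval X0 : k[X] →ₐ[k] LaurentSeries k) : k[X] →+* LaurentSeries k) (ρ i) = 0)
    (π : Equiv.Perm X) (hπ : ∀ i (m : ℤ), (ρ (π i)).coeff m = ζ ^ m * (ρ i).coeff m) :
    Nat.card {v : Place k F // v.ord x < 0} =
        Nat.card (MulAction.orbitRel.Quotient (Subgroup.zpowers π) X) ∧
      ∀ v : Place k F, v.ord x < 0 → (-(v.ord x)) ∣ (L : ℤ) := by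
  classical
  have hX0t : Transcendental k X0 :=
    transcendental_of_order_ne_zero X0 (by rw [hX0]; simp only [ne_eq, neg_eq_zero]; omega)
  choose ι hιK hιx hιu using
    fun i => exists_embedding x u hx hgen P hPm hPu hPn X0 hX0t (ρ i) (hroot i)
  have hζ0 : ζ ≠ 0 := hζ.ne_zero hL.ne'
  have hιinj : Function.Injective ι := by
    intro i i' h
    apply hρ
    rw [← hιu i, ← hιu i', h]
  have htw : ∀ i, ι (π i) = (lsTwist ζ hζ0).comp (ι i) := by
    intro i
    apply ringHom_ext_of_adjoin (k := k) x u hgen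
    · intro a
      rw [RingHom.comp_apply, hιK, hιK, lsTwist_C]
    · rw [RingHom.comp_apply, hιx, hιx]
      ext m
      rw [coeff_lsTwist, hX0tw]
    · rw [RingHom.comp_apply, hιu, hιu]
      ext m
      rw [coeff_lsTwist, hπ]
  have hπ' : ∀ i (f : F) (m : ℤ), (ι (π i) f).coeff m = ζ ^ m * (ι i f).coeff m := by
    intro i f m
    rw [htw i, RingHom.comp_apply, coeff_lsTwist]
  have hord : ∀ i, (ι i x⁻¹).order = (L : ℤ) := by
    intro i
    have h1 := PlacesEmb.ordE_inv (ι i) x
    unfold PlacesEmb.ordE at h1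
    rw [h1, hιx, hX0, neg_neg]
  have hy : ∀ i i', ι i x⁻¹ = ι i' x⁻¹ := by
    intro i i'
    rw [map_inv₀, map_inv₀, hιx, hιx]
  have hK : ∀ i i' (a : k), ι i (algebraMap k F a) = ι i' (algebraMap k F a) := by
    intro i i' a
    rw [hιK, hιK]
  have hxinv : Transcendental k x⁻¹ := Principal.transcendental_inv hx
  have hfin := hP.hfin x⁻¹ hxinv
  have hsum := hP.hsum x⁻¹ hxinv
  rw [Principal.adjoin_inv_eq] at hsum
  have key := card_places_eq_card_orbits (K := k) (F := F) (C := k) x⁻¹ hP.hres hfin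
    (Module.finrank k⟮x⟯ F) hsum hcard ι hιinj hK hy L hL hord ζ hζ π hπ'
  constructor
  · rw [← key.1]
    apply Nat.card_congr
    exact Equiv.subtypeEquivRight (fun v => by rw [v.ord_inv]; omega)
  · intro v hv
    have h := key.2 v (by rw [v.ord_inv]; omega)
    rwa [v.ord_inv] at h

/-- Order of a Laurent series from its coefficients. -/
theorem order_eq_of_coeff' {R : Type*} [Semiring R] {y : LaurentSeries R} {g : ℤ}
    (h1 : y.coeff g ≠ 0) (h2 : ∀ m : ℤ, m < g → y.coeff m = 0) : y.order = g := by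
  have hy : y ≠ 0 := HahnSeries.ne_zero_of_coeff_ne_zero h1
  refine le_antisymm (HahnSeries.order_le_of_coeff_ne_zero h1) ?_
  by_contra hlt
  exact hy (HahnSeries.coeff_order_eq_zero.mp (h2 _ (not_le.mp hlt)))

/-- `ord (f(s^L)) = L * ord f`, in the case `ord f = -1`. -/
theorem order_qExpand_of_order {R : Type*} [CommRing R] (L : ℕ) [NeZero L] (jb : LaurentSeries R)
    (hj : jb.order = -1) : (ModularCurve.qExpand R L jb).order = -(L : ℤ) := by
  have hjb0 : jb ≠ 0 := by
    rintro rfl
    rw [HahnSeries.order_zero] at hj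
    omega
  have hL : (0 : ℤ) < (L : ℤ) := by exact_mod_cast Nat.pos_of_ne_zero (NeZero.ne L)
  apply order_eq_of_coeff'
  · have h := ModularCurve.qExpand_coeff_mul (R := R) L jb (-1)
    rw [mul_neg_one] at h
    rw [h, ← hj]
    exact fun h0 => hjb0 (HahnSeries.coeff_order_eq_zero.mp h0)
  · intro m hm
    by_cases hdvd : (L : ℤ) ∣ m
    · obtain ⟨m', rfl⟩ := hdvd
      rw [ModularCurve.qExpand_coeff_mul]
      apply HahnSeries.coeff_eq_zero_of_lt_order
      rw [hj]
      nlinarith
    · exact ModularCurve.qExpand_coeff_of_not_dvd L jb hdvd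

/-- **Cusps from Puiseux roots, in the shape used by `CuspsModL`.**  `kappa = k(jb, ub)` inside
`k((q))`, `jb` of order `-1`, `P(jb, ub) = 0` with `P` monic of degree `[kappa : k(jb)]`, and
`P(jb(s^L), X) = ∏ (X - rho x)` with pairwise distinct `rho x ∈ k((s))`, permuted by `pi`
compatibly with the twist by a primitive `L`-th root of unity.  Then the poles of `jb` on `kappa`
correspond to the orbits of `pi`, and all pole orders divide `L`. -/
theorem main [IsAlgClosed k] (L : ℕ) [NeZero L] (jb ub : LaurentSeries k) (hj : jb.order = -1)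
    (kappa : IntermediateField k (LaurentSeries k))
    (hkappa : kappa = IntermediateField.adjoin k {jb, ub})
    (jk : kappa) (hjk : (jk : LaurentSeries k) = jb)
    (hP : RR.PlaceFacts k kappa)
    (P : (k[X])[X]) (hmonic : P.Monic)
    (hdeg : Module.finrank k⟮jk⟯ kappa = P.natDegree)
    (hroot : P.eval₂ ((aeval jb : k[X] →ₐ[k] LaurentSeries k) : k[X] →+* LaurentSeries k) ub = 0)
    {X : Type*} [Fintype X] (hcard : Fintype.card X = P.natDegree)
    (rho : X → LaurentSeries k) (hinj : Function.Injective rho)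
    (hprod : P.map ((aeval (ModularCurve.qExpand k L jb) : k[X] →ₐ[k] LaurentSeries k) :
        k[X] →+* LaurentSeries k) = ∏ x : X, (Polynomial.X - Polynomial.C (rho x)))
    (zeta : k) (hzeta : IsPrimitiveRoot zeta L)
    (pi : Equiv.Perm X)
    (htw : ∀ x (m : ℤ), (rho (pi x)).coeff m = zeta ^ m * (rho x).coeff m) :
    Nat.card {v : Place k kappa // v.ord jk < 0} = Fermat.Agent.S24.orbCount pi ∧
      ∀ v : Place k kappa, v.ord jk < 0 → v.ord jk ∣ (L : ℤ) := by
  classical
  have hLpos : 0 < L := Nat.pos_of_ne_zero (NeZero.ne L)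
  have hubmem : ub ∈ kappa := by
    rw [hkappa]
    exact IntermediateField.subset_adjoin k _ (by simp)
  set uk : kappa := ⟨ub, hubmem⟩ with huk
  -- `jk` is transcendental
  have hX0ord := order_qExpand_of_order L jb hj
  have hjbt : Transcendental k jb :=
    transcendental_of_order_ne_zero jb (by rw [hj]; norm_num)
  have hjkt : Transcendental k jk := by
    intro h
    apply hjbt
    have h2 := h.algHom kappa.val
    rwa [IntermediateField.coe_val, hjk] at h2
  -- generation
  have hgen : IntermediateField.adjoin k {jk, uk} = ⊤ := by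
    apply IntermediateField.lift_injective kappa
    rw [IntermediateField.lift_adjoin, IntermediateField.lift_top, Set.image_pair, hjk]
    exact hkappa.symm
  -- the relation inside `kappa`
  have hcomp : (kappa.val : kappa →+* LaurentSeries k).comp
      ((aeval jk : k[X] →ₐ[k] kappa) : k[X] →+* kappa) =
      ((aeval jb : k[X] →ₐ[k] LaurentSeries k) : k[X] →+* LaurentSeries k) := by
    apply Polynomial.ringHom_ext
    · intro a
      simp only [RingHom.comp_apply, AlgHom.coe_toRingHom, aeval_C]
      rfl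
    · simp only [RingHom.comp_apply, AlgHom.coe_toRingHom, aeval_X]
      exact hjk
  have hPu : P.eval₂ ((aeval jk : k[X] →ₐ[k] kappa) : k[X] →+* kappa) uk = 0 := by
    apply kappa.val.injective
    rw [map_zero]
    have h := Polynomial.hom_eval₂ P ((aeval jk : k[X] →ₐ[k] kappa) : k[X] →+* kappa)
      (kappa.val : kappa →+* LaurentSeries k) uk
    rw [hcomp] at h
    exact h.trans hroot
  -- the roots
  have hrootρ : ∀ i, P.eval₂ ((aeval (ModularCurve.qExpand k L jb) :
      k[X] →ₐ[k] LaurentSeries k) : k[X] →+* LaurentSeries k) (rho i) = 0 := by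
    intro i
    rw [← Polynomial.eval_map, hprod, Polynomial.eval_prod]
    apply Finset.prod_eq_zero (Finset.mem_univ i)
    rw [Polynomial.eval_sub, Polynomial.eval_X, Polynomial.eval_C, sub_self]
  -- the twist fixes `jb(s^L)`
  have hX0tw : ∀ m : ℤ, zeta ^ m * (ModularCurve.qExpand k L jb).coeff m
      = (ModularCurve.qExpand k L jb).coeff m := by
    intro m
    by_cases hdvd : (L : ℤ) ∣ m
    · obtain ⟨m', rfl⟩ := hdvd
      rw [zpow_mul, zpow_natCast, hzeta.pow_eq_one, one_zpow, one_mul]
    · rw [ModularCurve.qExpand_coeff_of_not_dvd L jb hdvd, mul_zero]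
  have key := card_poles_eq_card_orbits hP jk uk hjkt hgen P hmonic hPu hdeg.symm
    (ModularCurve.qExpand k L jb) L hLpos hX0ord zeta hzeta hX0tw (hcard.trans hdeg.symm)
    rho hinj hrootρ pi htw
  refine ⟨key.1, fun v hv => ?_⟩
  exact (neg_dvd).mp (key.2 v hv)

end Fermat.Agent.S18.CuspEmb

end
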