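import Mathlib
import Fermat.Prelude.Def_ModularCurve_X0ModL
import Fermat.Agent.S28.Newton

/-!
# S18, package CuspSep: the roots of the reduced norm relation at the cusp are distinct

Let `P ∈ k[T][X]` be a relation of Newton shape (monic of degree `ψ`, `deg (coeff P i) ≤ (ψ - i) φ`,
nonzero constant constant term) with a root `(jb, ub)` in `k((q))`, `ord jb = -1`,
`ord ub ≥ φ (ψ - 1)`.  Then, in every characteristic:

* `coeff_one_ne_zero`: the coefficient of `X` in `P` is nonzero;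
* `separable_map`: `P` is separable over `k(T)`;
* `injective`: if `P(jb(q^L), X) = ∏ (X - ρ x)` in `k((q))[X]`, the roots `ρ x` are pairwise distinct.
-/

set_option autoImplicit false

open Polynomial

namespace Fermat.Agent.S18.CuspSep

open Fermat.Agent.S05 Fermat.Agent.S28 ModularCurve

section Generic

variable {k L : Type*} [Field k] [Field L] [Algebra k L] {v : RatVal L}

/-- Valuation form: under the Newton-shape hypotheses the coefficient of `X` is nonzero. -/
theorem coeff_one_ne_zero_of_val (hvk : ∀ c : k, c ≠ 0 → v.w (algebraMap k L c) = 0) {j u : L}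
    (hj : v.Is j (-1)) {φ ψ : ℕ} (hφ : 0 < φ) {P : k[X][X]} (hP : P.Monic)
    (hdeg : P.natDegree = ψ)
    (hbound : ∀ i ≤ ψ, (P.coeff i).natDegree ≤ (ψ - i) * φ)
    (hc : ∃ c : k, c ≠ 0 ∧ P.coeff 0 = C c)
    (hu : v.Ge u ((φ : ℚ) * ((ψ : ℚ) - 1)))
    (hroot : P.eval₂ ((aeval j : k[X] →ₐ[k] L) : k[X] →+* L) u = 0) :
    P.coeff 1 ≠ 0 := by
  intro h1
  obtain ⟨c, hc0, hPc⟩ := hc
  have hψ : 0 < ψ := by
    rcases Nat.eq_zero_or_pos ψ with h0 | h0
    · exfalso
      rw [h0] at hdeg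
      have hP1 : P = 1 := hP.natDegree_eq_zero.mp hdeg
      rw [hP1, eval₂_one] at hroot
      exact one_ne_zero hroot
    · exact h0
  rw [eval₂_eq_sum_range, hdeg, Finset.sum_range_succ'] at hroot
  have hS : v.Ge (∑ i ∈ Finset.range ψ,
      ((aeval j : k[X] →ₐ[k] L) : k[X] →+* L) (P.coeff (i + 1)) * u ^ (i + 1))
      ((φ : ℚ) * ψ) := by
    apply Newton.ge_sum
    intro i hi
    rw [Finset.mem_range] at hi
    rcases Nat.eq_zero_or_pos i with rfl | hi0
    · rw [zero_add, h1, map_zero, zero_mul]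
      exact RatVal.ge_zero _
    · have ha := Newton.ge_aeval hvk hj (P.coeff (i + 1)) ((ψ - (i + 1)) * φ)
        (hbound (i + 1) (by omega))
      have hu' := Newton.ge_pow v hu (i + 1)
      refine (ha.mul hu').mono ?_
      have hφ' : (0 : ℚ) < φ := by exact_mod_cast hφ
      have hψ' : (0 : ℚ) < ψ := by exact_mod_cast hψ
      have hi' : (1 : ℚ) ≤ i := by exact_mod_cast hi0
      push_cast [Nat.cast_sub (show i + 1 ≤ ψ by omega)]
      have e : -(((ψ : ℚ) - ((i : ℚ) + 1)) * φ) + ((i : ℚ) + 1) * ((φ : ℚ) * ((ψ : ℚ) - 1))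
          = (φ : ℚ) * ψ * i := by ring
      rw [e]
      nlinarith [mul_pos hφ' hψ']
  have hc' : v.Is (algebraMap k L c) 0 := ⟨(_root_.map_ne_zero _).mpr hc0, hvk c hc0⟩
  rw [hPc, pow_zero, mul_one] at hroot
  have e0 : ((aeval j : k[X] →ₐ[k] L) : k[X] →+* L) (C c) = algebraMap k L c := by
    show aeval j (C c) = _
    rw [aeval_C]
  rw [e0] at hroot
  have hSeq := eq_neg_of_add_eq_zero_left hroot
  rw [hSeq] at hS
  have h2 := hS.le_of_is hc'.neg
  have hφ' : (0 : ℚ) < φ := by exact_mod_cast hφ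
  have hψ' : (0 : ℚ) < ψ := by exact_mod_cast hψ
  nlinarith [mul_pos hφ' hψ']

end Generic

section Laurent

variable {k : Type*} [Field k] {φ ψ : ℕ} {P : k[X][X]} {jb ub : LaurentSeries k}

/-- Under the Newton-shape hypotheses, the coefficient of `X` in `P` is nonzero. -/
theorem coeff_one_ne_zero (hφ : 0 < φ) (hP : P.Monic) (hdeg : P.natDegree = ψ)
    (hbound : ∀ i ≤ ψ, (P.coeff i).natDegree ≤ (ψ - i) * φ)
    (hc : ∃ c : k, c ≠ 0 ∧ P.coeff 0 = C c)
    (hj0 : jb ≠ 0) (hj : jb.order = -1)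
    (hu : ∀ n : ℤ, n < (φ : ℤ) * ((ψ : ℤ) - 1) → ub.coeff n = 0)
    (hroot : P.eval₂ ((aeval jb : k[X] →ₐ[k] LaurentSeries k) : k[X] →+* LaurentSeries k) ub
      = 0) : P.coeff 1 ≠ 0 := by
  have hjIs : (Newton.laurentVal k).Is jb (-1) :=
    ⟨hj0, by rw [Newton.laurentVal_w, hj]; norm_num⟩
  have huGe : (Newton.laurentVal k).Ge ub ((φ : ℚ) * ((ψ : ℚ) - 1)) := by
    have := Newton.laurentVal_ge_of_coeff hu
    push_cast at this
    exact this
  exact coeff_one_ne_zero_of_val (Newton.laurentVal_algebraMap k) hjIs hφ hP hdeg hbound hc huGe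
    hroot

/-- Under the Newton-shape hypotheses, `P` is separable over `k(T)` (any characteristic). -/
theorem separable_map (hφ : 0 < φ) (hP : P.Monic) (hdeg : P.natDegree = ψ)
    (hbound : ∀ i ≤ ψ, (P.coeff i).natDegree ≤ (ψ - i) * φ)
    (hc : ∃ c : k, c ≠ 0 ∧ P.coeff 0 = C c)
    (hj0 : jb ≠ 0) (hj : jb.order = -1)
    (hu : ∀ n : ℤ, n < (φ : ℤ) * ((ψ : ℤ) - 1) → ub.coeff n = 0)
    (hroot : P.eval₂ ((aeval jb : k[X] →ₐ[k] LaurentSeries k) : k[X] →+* LaurentSeries k) ub
      = 0) : (P.map (algebraMap k[X] (RatFunc k))).Separable := by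
  have hirr := Newton.irreducible_map_of_order hφ hP hdeg hbound hc hj0 hj hu hroot
  rw [Polynomial.separable_iff_derivative_ne_zero hirr]
  intro h0
  have h1 := congrArg (fun q : (RatFunc k)[X] => q.coeff 0) h0
  simp only [coeff_derivative, coeff_map, coeff_zero, zero_add, Nat.cast_zero, mul_one] at h1
  exact coeff_one_ne_zero hφ hP hdeg hbound hc hj0 hj hu hroot
    ((IsFractionRing.injective k[X] (RatFunc k)) (h1.trans (map_zero _).symm))

/-- Evaluation at the dilated series `jb(q^L)` is injective on `k[T]`. -/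
theorem aeval_qExpand_injective (hj0 : jb ≠ 0) (hj : jb.order = -1) (L : ℕ) [NeZero L] :
    Function.Injective (aeval (qExpand k L jb) : k[X] →ₐ[k] LaurentSeries k) := by
  have e : (aeval (qExpand k L jb) : k[X] →ₐ[k] LaurentSeries k) =
      (qExpandAlgHomC k L).comp (aeval jb) := by
    rw [← Polynomial.aeval_algHom]
    rfl
  rw [e]
  exact (qExpand_injective (R := k) (N := L)).comp (Newton.aeval_injective_of_order hj0 hj)

end Laurent

/-- **Distinctness of the roots at the cusp.**  If `P(jb(q^L), X)` splits as `∏ (X - ρ x)` in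
`k((q))[X]`, the `ρ x` are pairwise distinct. -/
theorem injective {k : Type*} [Field k] {φ ψ : ℕ} (hφ : 0 < φ) (P : k[X][X]) (hP : P.Monic)
    (hdeg : P.natDegree = ψ)
    (hbound : ∀ i ≤ ψ, (P.coeff i).natDegree ≤ (ψ - i) * φ)
    (hc : ∃ c : k, c ≠ 0 ∧ P.coeff 0 = C c)
    (jb ub : LaurentSeries k) (hj0 : jb ≠ 0) (hj : jb.order = -1)
    (hu : ∀ n : ℤ, n < (φ : ℤ) * ((ψ : ℤ) - 1) → ub.coeff n = 0)
    (hroot : P.eval₂ ((aeval jb : k[X] →ₐ[k] LaurentSeries k) : k[X] →+* LaurentSeries k) ub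
      = 0) (L : ℕ) [NeZero L] {X : Type*} [Fintype X] (rho : X → LaurentSeries k)
    (hprod : P.map ((aeval (qExpand k L jb) : k[X] →ₐ[k] LaurentSeries k) :
        k[X] →+* LaurentSeries k) = ∏ x : X, (Polynomial.X - Polynomial.C (rho x))) :
    Function.Injective rho := by
  have hsep := separable_map hφ hP hdeg hbound hc hj0 hj hu hroot
  have hinj : Function.Injective
      ((aeval (qExpand k L jb) : k[X] →ₐ[k] LaurentSeries k) : k[X] →+* LaurentSeries k) :=
    aeval_qExpand_injective hj0 hj L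
  set θ : RatFunc k →+* LaurentSeries k := IsFractionRing.lift hinj with hθ
  have hcomp : θ.comp (algebraMap k[X] (RatFunc k)) =
      ((aeval (qExpand k L jb) : k[X] →ₐ[k] LaurentSeries k) : k[X] →+* LaurentSeries k) := by
    refine RingHom.ext fun p => ?_
    rw [RingHom.comp_apply, hθ, IsFractionRing.lift_algebraMap]
  have h2 := hsep.map (f := θ)
  rw [Polynomial.map_map, hcomp, hprod] at h2
  exact Polynomial.separable_prod_X_sub_C_iff.mp h2

end Fermat.Agent.S18.CuspSep
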