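import Mathlib
import Fermat.Agent.S28.AFinal
import Fermat.Agent.S28.RedHyp
import Fermat.Agent.S24.FibreCusp

/-!
# S18, package (D), part 1: the expansions of the translates of the unit at the cusps (over `ℂ`)

For `g ∈ SL(2, ℤ)` let `uC L g` be the expansion in `exp (2 π i τ / L)` of `z ↦ U_L(g z)`,
where `U_L = Ufun L` is the eta-quotient unit of S28, and `jC L = j(q_L ^ L)`.

* `coeff_uC_mem`: the coefficients lie in every subring of `ℂ` containing the `L`-th roots of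
  unity and `1 / L`;
* `uC_one`, `uC_Gamma0_mul`, `coeff_uC_mul_T`: the expansion at `∞`, invariance under `Γ₀(L)` on
  the left and the twist by `exp (2 π i / L)` for `g ↦ g T`;
* `eval₂_uC_eq_zero`: every relation `p(j, u) = 0` between the expansions at `∞` holds for
  `(jC, uC g)`;
* `exists_normPoly`: the norm polynomial `p` (monic of degree `ψ(L)` over `ℂ[j]`) with
  `p(jC, X) = ∏ (X - uC (k.out)⁻¹)`;
* `map_eq_of_relation`: every polynomial over `ℚ[j]` with the shape of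
  `S28.AFinal.exists_relation` maps to that norm polynomial.
-/

set_option autoImplicit false

open Polynomial

namespace Fermat.Agent.S18.CuspSeries

open UpperHalfPlane ModularCurve
open Fermat.Agent.S23 Fermat.Agent.S24 Fermat.Agent.S28
open scoped MatrixGroups

attribute [local instance] Fermat.Agent.S24.NormPoly.fintypeX0

variable (L : ℕ) [NeZero L]

/-- The expansion in `exp (2 π i τ / L)` of the translate `z ↦ U(g z)` of the unit. -/
noncomputable def uC (g : SL(2, ℤ)) : LaurentSeries ℂ :=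
  qLaurent (L : ℝ) (NormGen.tr (Ufun L) g)

/-- `j` as a series in `exp (2 π i τ / L)`. -/
noncomputable def jC : LaurentSeries ℂ := qExpand ℂ L (jqModC ℂ)

theorem isWH_tr (g : SL(2, ℤ)) : IsWH (L : ℝ) (NormGen.tr (Ufun L) g) :=
  UGood.isWH_Ufun_smul L g

theorem jC_eq : jC L = qLaurent (L : ℝ) jFun := (Integral.qLaurent_jFun_natCast L).symm

/-- The coefficients of the cusp expansions lie in every subring of `ℂ` containing the `L`-th
roots of unity and `1 / L`. -/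
theorem coeff_uC_mem (A : Subring ℂ) (hζ : ∀ ζ : ℂ, ζ ^ L = 1 → ζ ∈ A)
    (hLinv : ((L : ℂ))⁻¹ ∈ A) (g : SL(2, ℤ)) (k : ℤ) : (uC L g).coeff k ∈ A :=
  UGood.coeff_qLaurent_Ufun_smul_mem L A hζ hLinv g k

/-- At the cusp `∞` the expansion is the dilation of the integral `q`-expansion. -/
theorem uC_one : uC L 1 = qExpand ℂ L (coeffMap (Int.castRingHom ℂ) (FormalU.uZ L)) := by
  rw [uC, NormGen.tr_one, Integral.qLaurent_natCast L (FormalU.isWH_Ufun L),
    FormalU.qLaurent_Ufun]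

omit [NeZero L] in
theorem uC_Gamma0_mul {δ : SL(2, ℤ)} (hδ : δ ∈ CongruenceSubgroup.Gamma0 L) (g : SL(2, ℤ)) :
    uC L (δ * g) = uC L g := by
  rw [uC, uC, NormGen.tr_Gamma0_mul (fun δ hδ z => Ufun_Gamma0_smul L hδ z) hδ g]

omit [NeZero L] in
theorem tr_mul_T (g : SL(2, ℤ)) :
    NormGen.tr (Ufun L) (g * ModularGroup.T) = shiftOne (NormGen.tr (Ufun L) g) := by
  funext z
  rw [NormGen.tr_mul, shiftOne, UpperHalfPlane.modular_T_smul]

/-- **Twist**: passing from `g` to `g T` multiplies the `m`-th coefficient by `ζ ^ m`,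
`ζ = exp (2 π i / L)`. -/
theorem coeff_uC_mul_T (g : SL(2, ℤ)) (m : ℤ) :
    (uC L (g * ModularGroup.T)).coeff m = cuspZeta L ^ m * (uC L g).coeff m := by
  rw [uC, tr_mul_T, coeff_qLaurent_shiftOne L (isWH_tr L g) m, uC]

/-! ### Transfer of relations -/

/-- A relation over `ℂ[j]` holds for a weakly holomorphic function of period `h` iff it holds
for the expansions. -/
theorem transferAt {h : ℝ} (hh : 0 < h) (hj : IsWH h jFun) {F : ℍ → ℂ} (hF : IsWH h F)
    (p : ℂ[X][X]) :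
    p.eval₂ (aeval jFun : ℂ[X] →ₐ[ℂ] (ℍ → ℂ)).toRingHom F = 0 ↔
      p.eval₂ ((aeval (qLaurent h jFun) : ℂ[X] →ₐ[ℂ] LaurentSeries ℂ) : ℂ[X] →+* LaurentSeries ℂ)
        (qLaurent h F) = 0 := by
  set A := WH h hh with hA
  set jA : A := ⟨jFun, hj⟩ with hjA
  set FA : A := ⟨F, hF⟩ with hFA
  have e0 : A.val.toRingHom (p.eval₂ (aeval jA : ℂ[X] →ₐ[ℂ] A).toRingHom FA) =
      p.eval₂ (aeval jFun : ℂ[X] →ₐ[ℂ] (ℍ → ℂ)).toRingHom F := by
    have e1 := Polynomial.hom_eval₂ p (aeval jA : ℂ[X] →ₐ[ℂ] A).toRingHom A.val.toRingHom FA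
    have e2 : A.val.toRingHom.comp (aeval jA : ℂ[X] →ₐ[ℂ] A).toRingHom =
        (aeval jFun : ℂ[X] →ₐ[ℂ] (ℍ → ℂ)).toRingHom := by
      have e3 : (aeval jFun : ℂ[X] →ₐ[ℂ] (ℍ → ℂ)) = A.val.comp (aeval jA) := by
        rw [← Polynomial.aeval_algHom]
        rfl
      rw [e3]
      rfl
    rw [e2] at e1
    exact e1
  have e4 : (qL h hh).toRingHom (p.eval₂ (aeval jA : ℂ[X] →ₐ[ℂ] A).toRingHom FA) =
      p.eval₂ ((aeval (qLaurent h jFun) : ℂ[X] →ₐ[ℂ] LaurentSeries ℂ) :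
        ℂ[X] →+* LaurentSeries ℂ) (qLaurent h F) := by
    have e1 := Polynomial.hom_eval₂ p (aeval jA : ℂ[X] →ₐ[ℂ] A).toRingHom
      (qL h hh).toRingHom FA
    have e2 : (qL h hh).toRingHom.comp (aeval jA : ℂ[X] →ₐ[ℂ] A).toRingHom =
        ((aeval (qLaurent h jFun) : ℂ[X] →ₐ[ℂ] LaurentSeries ℂ) : ℂ[X] →+* LaurentSeries ℂ) := by
      have e3 : (aeval (qLaurent h jFun) : ℂ[X] →ₐ[ℂ] LaurentSeries ℂ) =
          (qL h hh).comp (aeval jA) := by
        rw [← Polynomial.aeval_algHom]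
        rfl
      rw [e3]
      rfl
    rw [e2] at e1
    exact e1
  constructor
  · intro hz
    rw [← e4]
    have : p.eval₂ (aeval jA : ℂ[X] →ₐ[ℂ] A).toRingHom FA = 0 := by
      apply Subtype.val_injective
      exact e0.trans hz
    rw [this, map_zero]
  · intro hz
    rw [← e0]
    have : p.eval₂ (aeval jA : ℂ[X] →ₐ[ℂ] A).toRingHom FA = 0 := by
      apply qL_injective h hh
      rw [map_zero]
      exact e4.trans hz
    rw [this, map_zero]

/-- The value at `z` of `p(j, F)` only depends on `(j z, F z)`. -/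
theorem eval₂_apply (p : ℂ[X][X]) (F : ℍ → ℂ) (z : ℍ) :
    (p.eval₂ (aeval jFun : ℂ[X] →ₐ[ℂ] (ℍ → ℂ)).toRingHom F) z =
      p.eval₂ (Polynomial.evalRingHom (jFun z)) (F z) := by
  have e1 := Polynomial.hom_eval₂ p (aeval jFun : ℂ[X] →ₐ[ℂ] (ℍ → ℂ)).toRingHom
    (Pi.evalRingHom (fun _ : ℍ => ℂ) z) F
  have e2 : (Pi.evalRingHom (fun _ : ℍ => ℂ) z).comp
      (aeval jFun : ℂ[X] →ₐ[ℂ] (ℍ → ℂ)).toRingHom = Polynomial.evalRingHom (jFun z) := by
    refine Polynomial.ringHom_ext (fun a => ?_) ?_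
    · simp
    · simp
  rw [e2] at e1
  exact e1

/-- A relation over `ℂ[j]` satisfied by `F` is satisfied by all its translates. -/
theorem eval₂_tr_eq_zero (p : ℂ[X][X]) (F : ℍ → ℂ)
    (h : p.eval₂ (aeval jFun : ℂ[X] →ₐ[ℂ] (ℍ → ℂ)).toRingHom F = 0) (g : SL(2, ℤ)) :
    p.eval₂ (aeval jFun : ℂ[X] →ₐ[ℂ] (ℍ → ℂ)).toRingHom (NormGen.tr F g) = 0 := by
  funext z
  rw [eval₂_apply, NormGen.tr_apply, ← jFun_smul g z, ← eval₂_apply, h]
  rfl

/-- **Transfer to the cusps**: a relation `p(j, u) = 0` between the `q`-expansions at `∞` holds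
for the expansions at every cusp. -/
theorem eval₂_uC_eq_zero (p : ℂ[X][X])
    (h : p.eval₂ ((aeval (jqModC ℂ) : ℂ[X] →ₐ[ℂ] LaurentSeries ℂ) : ℂ[X] →+* LaurentSeries ℂ)
      (qLaurent 1 (Ufun L)) = 0) (g : SL(2, ℤ)) :
    p.eval₂ ((aeval (jC L) : ℂ[X] →ₐ[ℂ] LaurentSeries ℂ) : ℂ[X] →+* LaurentSeries ℂ)
      (uC L g) = 0 := by
  have h1 : p.eval₂ (aeval jFun : ℂ[X] →ₐ[ℂ] (ℍ → ℂ)).toRingHom (Ufun L) = 0 := by
    rw [transferAt one_pos Bridge.isWH_jFun (FormalU.isWH_Ufun L), Bridge.qLaurent_jFun]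
    exact h
  have h2 := eval₂_tr_eq_zero p (Ufun L) h1 g
  rw [transferAt (natCast_pos_real L) (isWH_jFun L) (isWH_tr L g), ← jC_eq] at h2
  exact h2

/-! ### The norm polynomial -/

/-- **The norm polynomial of the unit** over `ℂ[j]`: monic of degree `ψ(L)`, with the degree
bounds of S28, vanishing at the expansions at `∞`, and splitting into the linear factors
`X - uC (k.out)⁻¹` over the expansions at the cusps. -/
theorem exists_normPoly :
    ∃ p : ℂ[X][X], p.Monic ∧ p.natDegree = dedekindPsi L ∧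
      (∀ i ≤ dedekindPsi L, (p.coeff i).natDegree ≤ (dedekindPsi L - i) * L.totient) ∧
      (∃ c : ℂ, c ≠ 0 ∧ p.coeff 0 = C c) ∧
      p.eval₂ ((aeval (jqModC ℂ) : ℂ[X] →ₐ[ℂ] LaurentSeries ℂ) : ℂ[X] →+* LaurentSeries ℂ)
        (qLaurent 1 (Ufun L)) = 0 ∧
      (∀ A : Subring ℂ, (∀ ζ : ℂ, ζ ^ L = 1 → ζ ∈ A) → ((L : ℂ))⁻¹ ∈ A →
        (∀ i j, (p.coeff i).coeff j ∈ A) ∧ ∀ c : ℂ, p.coeff 0 = C c → c⁻¹ ∈ A) ∧
      p.map ((aeval (jC L) : ℂ[X] →ₐ[ℂ] LaurentSeries ℂ) : ℂ[X] →+* LaurentSeries ℂ) =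
        ∏ k : X0 L, (X - C (uC L (k.out)⁻¹)) := by
  classical
  obtain ⟨p, hp, hdeg, hbound, hc, hmap, hroot⟩ :=
    NormGen.exists_monic_poly_of_bounds L (Ufun L) (Ufun_mdiff L)
      (fun δ hδ z => Ufun_Gamma0_smul L hδ z) (Nat.totient L)
      (Nat.totient L * (dedekindPsi L - 1)) (by rw [card_X0])
      (UnitGrowth.Ufun_hgrow L) (UnitGrowth.Ufun_hdecay L) (Ufun_ne_zero L)
  rw [card_X0] at hdeg
  refine ⟨p, hp, hdeg, fun i _ => ?_, hc, ?_, ?_, ?_⟩
  · have := hbound i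
    rwa [card_X0] at this
  · have h1 := (transferAt one_pos Bridge.isWH_jFun (FormalU.isWH_Ufun L) p).mp hroot
    rw [Bridge.qLaurent_jFun] at h1
    exact h1
  · intro A hζ hLinv
    refine ⟨fun i j => ?_, fun c hc => ?_⟩
    · exact Integral.coeff_coeff_mem L A (Ufun L) (UGood.isWH_Ufun_smul L)
        (fun g k => UGood.coeff_qLaurent_Ufun_smul_mem L A hζ hLinv g k) p hmap i j
    · exact Integral.const_inv_mem L A (Ufun L) (UGood.isWH_inv_Ufun_smul L)
        (fun g k => UGood.coeff_qLaurent_inv_Ufun_smul_mem L A hζ hLinv g k) p hmap hc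
  · have hh := natCast_pos_real L
    set W := WH (L : ℝ) hh with hW
    set jW : W := ⟨jFun, isWH_jFun L⟩ with hjW
    set cW : X0 L → W := fun k => ⟨NormGen.tr (Ufun L) (k.out)⁻¹, isWH_tr L _⟩ with hcW
    -- the identity over `W`
    have e2 : W.val.toRingHom.comp (aeval jW : ℂ[X] →ₐ[ℂ] W).toRingHom =
        (aeval jFun : ℂ[X] →ₐ[ℂ] (ℍ → ℂ)).toRingHom := by
      have e3 : (aeval jFun : ℂ[X] →ₐ[ℂ] (ℍ → ℂ)) = W.val.comp (aeval jW) := by
        rw [← Polynomial.aeval_algHom]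
        rfl
      rw [e3]
      rfl
    have hWid : p.map (aeval jW : ℂ[X] →ₐ[ℂ] W).toRingHom = Coset.NP cW := by
      apply Polynomial.map_injective W.val.toRingHom Subtype.val_injective
      rw [Polynomial.map_map, e2, hmap, Coset.NP_map, NormGen.normPolyOf_def]
      rfl
    have e4 : (qL (L : ℝ) hh).toRingHom.comp (aeval jW : ℂ[X] →ₐ[ℂ] W).toRingHom =
        ((aeval (jC L) : ℂ[X] →ₐ[ℂ] LaurentSeries ℂ) : ℂ[X] →+* LaurentSeries ℂ) := by
      have e3 : (aeval (jC L) : ℂ[X] →ₐ[ℂ] LaurentSeries ℂ) =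
          (qL (L : ℝ) hh).comp (aeval jW) := by
        rw [← Polynomial.aeval_algHom, jC_eq]
        rfl
      rw [e3]
      rfl
    have h5 := congrArg (Polynomial.map (qL (L : ℝ) hh).toRingHom) hWid
    rw [Polynomial.map_map, e4, Coset.NP_map] at h5
    rw [h5]
    rfl

/-- **Uniqueness of the relation.** Every polynomial over `ℚ[j]` with the shape of
`S28.AFinal.exists_relation` maps to the norm polynomial of `exists_normPoly`. -/
theorem map_eq_of_relation (p : ℂ[X][X]) (hp : p.Monic) (hpdeg : p.natDegree = dedekindPsi L)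
    (hproot : p.eval₂
      ((aeval (jqModC ℂ) : ℂ[X] →ₐ[ℂ] LaurentSeries ℂ) : ℂ[X] →+* LaurentSeries ℂ)
      (qLaurent 1 (Ufun L)) = 0)
    (P : ℚ[X][X]) (hP : P.Monic) (hdeg : P.natDegree = dedekindPsi L)
    (hbound : ∀ i ≤ dedekindPsi L, (P.coeff i).natDegree ≤ (dedekindPsi L - i) * L.totient)
    (hc : ∃ c : ℚ, c ≠ 0 ∧ P.coeff 0 = C c)
    (hroot : P.eval₂ ((aeval jq : ℚ[X] →ₐ[ℚ] LaurentSeries ℚ) : ℚ[X] →+* LaurentSeries ℚ)
      (coeffMap (Int.castRingHom ℚ) (FormalU.uZ L)) = 0) :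
    P.map (mapRingHom (algebraMap ℚ ℂ)) = p := by
  set P' : ℂ[X][X] := P.map (mapRingHom (algebraMap ℚ ℂ)) with hP'
  have hφ : 0 < L.totient := Nat.totient_pos.mpr (NeZero.pos L)
  have hinj : Function.Injective (mapRingHom (algebraMap ℚ ℂ)) :=
    Polynomial.map_injective _ (algebraMap ℚ ℂ).injective
  have hP'monic : P'.Monic := hP.map _
  have hP'deg : P'.natDegree = dedekindPsi L := by
    rw [hP', hP.natDegree_map, hdeg]
  have hP'bound : ∀ i ≤ dedekindPsi L,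
      (P'.coeff i).natDegree ≤ (dedekindPsi L - i) * L.totient := by
    intro i hi
    rw [hP', Polynomial.coeff_map, coe_mapRingHom]
    exact (Polynomial.natDegree_map_le).trans (hbound i hi)
  have hP'c : ∃ c : ℂ, c ≠ 0 ∧ P'.coeff 0 = C c := by
    obtain ⟨c, hc0, hPc⟩ := hc
    refine ⟨algebraMap ℚ ℂ c, (_root_.map_ne_zero _).mpr hc0, ?_⟩
    rw [hP', Polynomial.coeff_map, hPc, coe_mapRingHom, Polynomial.map_C]
  have hj := AFinal.jqModC_ne_zero_and_order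
  have hu : ∀ n : ℤ, n < (L.totient : ℤ) * ((dedekindPsi L : ℤ) - 1) →
      (qLaurent 1 (Ufun L)).coeff n = 0 := by
    intro n hn
    rw [FormalU.coeff_qLaurent_Ufun, FormalU.uZ_coeff_of_lt L hn, Int.cast_zero]
  have hP'root : P'.eval₂
      ((aeval (jqModC ℂ) : ℂ[X] →ₐ[ℂ] LaurentSeries ℂ) : ℂ[X] →+* LaurentSeries ℂ)
      (qLaurent 1 (Ufun L)) = 0 := by
    have h1 := congrArg (coeffMap (algebraMap ℚ ℂ)) hroot
    rw [map_zero, RedHyp.eval₂_aeval_eq_ev2, RedHyp.coeffMap_ev2, AFinal.coeffMap_jq,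
      ← FormalU.qLaurent_Ufun_rat] at h1
    rw [RedHyp.eval₂_aeval_eq_ev2]
    exact h1
  have hdvd : P' ∣ p :=
    Newton.dvd_of_eval₂_eq_zero hφ hP'monic hP'deg hP'bound hP'c hj.1 hj.2 hu hP'root hproot
  exact (Polynomial.eq_of_monic_of_dvd_of_natDegree_le hP'monic hp hdvd
    (by rw [hpdeg, hP'deg])).symm

end Fermat.Agent.S18.CuspSeries
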