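import Mathlib
import Fermat.Agent.S18.CuspSeriesC
import Fermat.Agent.S18.ResField
import Fermat.Prelude.Thm_ModularCurve_coeffMap_qExpand

/-!
# S18, package (D), part 2: the expansions at the cusps over the residue field

Transport of `S18/CuspSeriesC` along `ℂ ← A → k`, where `A` is a valuation subring of
`AlgebraicClosure ℚ` over a prime `ℓ ∤ L` and `k` its residue field: the norm polynomial, the
expansions of the translates of the unit and the twisting root of unity all have coefficients in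
(the image of) `A`, and all identities between them reduce to `k`.

Main statement: `exists_cuspData`.
-/

set_option autoImplicit false
set_option synthInstance.maxHeartbeats 400000

open Polynomial

namespace Fermat.Agent.S18.CuspSeriesRed

open ModularCurve
open Fermat.Agent.S24 Fermat.Agent.S28 Fermat.Agent.S28.Chart
open scoped MatrixGroups

attribute [local instance] Fermat.Agent.S24.NormPoly.fintypeX0

section Generic

variable {R S : Type*} [CommRing R] [CommRing S]

/-- A Laurent series all of whose coefficients lie in the range of `f` is a coefficientwise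
image. -/
theorem exists_coeffMap_eq (f : R →+* S) (x : LaurentSeries S)
    (hx : ∀ n, x.coeff n ∈ Set.range f) : ∃ y : LaurentSeries R, coeffMap f y = x := by
  classical
  choose c hc using hx
  let c' : ℤ → R := fun n => if x.coeff n = 0 then 0 else c n
  have hbdd : BddBelow (Function.support c') := by
    refine ⟨x.order, fun n hn => ?_⟩
    by_contra hlt
    exact hn (if_pos (HahnSeries.coeff_eq_zero_of_lt_order (not_le.mp hlt)))
  refine ⟨HahnSeries.ofSuppBddBelow c' hbdd, ?_⟩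
  ext n
  rw [coeffMap_coeff, HahnSeries.coeff_ofSuppBddBelow]
  by_cases h : x.coeff n = 0
  · simp [c', h]
  · simp [c', h, hc n]

/-- A monic two-variable polynomial all of whose coefficients lie in the range of `f` lifts to a
monic polynomial of the same degree. -/
theorem exists_map_map_eq (f : R →+* S) (p : S[X][X]) (hp : p.Monic)
    (hx : ∀ i j, (p.coeff i).coeff j ∈ Set.range f) :
    ∃ P : R[X][X], P.map (mapRingHom f) = p ∧ P.natDegree = p.natDegree ∧ P.Monic := by
  have h1 : p ∈ lifts (mapRingHom f) := by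
    rw [lifts_iff_coeff_lifts]
    intro i
    have h2 : p.coeff i ∈ lifts f := by
      rw [lifts_iff_coeff_lifts]
      exact fun j => hx i j
    obtain ⟨q, hq⟩ := (mem_lifts _).mp h2
    exact ⟨q, by rw [coe_mapRingHom]; exact hq⟩
  exact lifts_and_natDegree_eq_and_monic h1 hp

end Generic

/-- `x ^ m = x ^ (m mod L)` for an `L`-th root of unity. -/
theorem zpow_eq_pow_emod {F : Type*} [Field F] {x : F} {L : ℕ} (hL : 0 < L) (hx : x ^ L = 1)
    (m : ℤ) : x ^ m = x ^ (m % (L : ℤ)).toNat := by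
  have hx0 : x ≠ 0 := by
    rintro rfl
    rw [zero_pow hL.ne'] at hx
    exact zero_ne_one hx
  have hLz : (L : ℤ) ≠ 0 := by exact_mod_cast hL.ne'
  have h1 : ((m % (L : ℤ)).toNat : ℤ) = m % (L : ℤ) := Int.toNat_of_nonneg (Int.emod_nonneg _ hLz)
  conv_lhs => rw [← Int.mul_ediv_add_emod m (L : ℤ)]
  rw [zpow_add₀ hx0, zpow_mul, zpow_natCast, hx, one_zpow, one_mul, ← h1, zpow_natCast, h1]

section Emb

/-- An embedding of `AlgebraicClosure ℚ` in `ℂ`. -/
noncomputable def emb : AlgebraicClosure ℚ →+* ℂ :=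
  haveI : Algebra.IsAlgebraic ℚ (AlgebraicClosure ℚ) := AlgebraicClosure.isAlgebraic ℚ
  (IsAlgClosed.lift : AlgebraicClosure ℚ →ₐ[ℚ] ℂ).toRingHom

variable (A : ValuationSubring (AlgebraicClosure ℚ))

/-- The embedding of the valuation ring in `ℂ`. -/
noncomputable def embA : A →+* ℂ := emb.comp A.subtype

theorem embA_apply (a : A) : embA A a = emb (a : AlgebraicClosure ℚ) := rfl

theorem embA_injective : Function.Injective (embA A) :=
  emb.injective.comp Subtype.val_injective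

theorem mem_of_pow_eq_one {x : AlgebraicClosure ℚ} {L : ℕ} (hL : 0 < L) (hx : x ^ L = 1) :
    x ∈ A := by
  refine ResField.mem_of_monic_root A (X ^ L - C 1) (monic_X_pow_sub_C 1 hL.ne') x ?_
  simp [hx]

theorem rootsOfUnity_mem_range {L : ℕ} [NeZero L] (ζ : ℂ) (hζ : ζ ^ L = 1) :
    ζ ∈ (embA A).range := by
  obtain ⟨ζ₀, hζ₀⟩ := HasEnoughRootsOfUnity.exists_primitiveRoot (AlgebraicClosure ℚ) L
  have h1 : IsPrimitiveRoot (emb ζ₀) L := hζ₀.map_of_injective emb.injective
  obtain ⟨i, -, hi⟩ := h1.eq_pow_of_pow_eq_one hζ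
  have hmem : ζ₀ ^ i ∈ A :=
    mem_of_pow_eq_one A (NeZero.pos L) (by rw [← pow_mul, mul_comm, pow_mul, hζ₀.pow_eq_one, one_pow])
  exact RingHom.mem_range.mpr ⟨⟨ζ₀ ^ i, hmem⟩, by rw [embA_apply, map_pow, hi]⟩

theorem inv_natCast_mem_range {ℓ : ℕ} (hℓ : ℓ.Prime) (hA : A.LiesOverPrime ℓ) {L : ℕ}
    (hL : ¬ ℓ ∣ L) : ((L : ℂ))⁻¹ ∈ (embA A).range :=
  RingHom.mem_range.mpr ⟨⟨_, ResField.inv_natCast_mem A hℓ hA hL⟩, by
    rw [embA_apply, map_inv₀, map_natCast]⟩

local notation3 "𝕜" => IsLocalRing.ResidueField A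

/-- **Cusp data over the residue field.** For `ℓ ∤ L` the norm polynomial of the unit, the
expansions of its translates at the cusps and the twisting root of unity reduce to `k`. -/
theorem exists_cuspData {ℓ : ℕ} (hℓ : ℓ.Prime) (L : ℕ) [NeZero L] (hℓL : ¬ ℓ ∣ L)
    (hA : A.LiesOverPrime ℓ) :
    ∃ (Pb : 𝕜[X][X]) (ρ : X0 L → LaurentSeries 𝕜) (ζb : 𝕜),
      Pb.Monic ∧ Pb.natDegree = dedekindPsi L ∧
      (∀ i ≤ dedekindPsi L, (Pb.coeff i).natDegree ≤ (dedekindPsi L - i) * L.totient) ∧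
      (∃ c : 𝕜, c ≠ 0 ∧ Pb.coeff 0 = C c) ∧
      Pb.eval₂ ((aeval (jqModC 𝕜) : 𝕜[X] →ₐ[𝕜] LaurentSeries 𝕜) : 𝕜[X] →+* LaurentSeries 𝕜)
        (coeffMap (Int.castRingHom 𝕜) (FormalU.uZ L)) = 0 ∧
      Pb.map ((aeval (qExpand 𝕜 L (jqModC 𝕜)) : 𝕜[X] →ₐ[𝕜] LaurentSeries 𝕜) :
          𝕜[X] →+* LaurentSeries 𝕜) = ∏ x : X0 L, (X - C (ρ x)) ∧
      IsPrimitiveRoot ζb L ∧
      ∀ (x : X0 L) (m : ℤ),
        (ρ (cosetPerm L ModularGroup.T⁻¹ x)).coeff m = ζb ^ m * (ρ x).coeff m := by
  classical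
  set f : A →+* ℂ := embA A with hfdef
  have hf : Function.Injective f := embA_injective A
  set res : A →+* 𝕜 := IsLocalRing.residue A with hresdef
  have hζB : ∀ ζ : ℂ, ζ ^ L = 1 → ζ ∈ f.range := fun ζ hζ => rootsOfUnity_mem_range A ζ hζ
  have hLB : ((L : ℂ))⁻¹ ∈ f.range := inv_natCast_mem_range A hℓ hA hℓL
  obtain ⟨p, hpm, hpdeg, hpb, ⟨c, hc0, hc⟩, hproot, hint, hprod⟩ := CuspSeries.exists_normPoly L
  obtain ⟨hcoef, hcinv⟩ := hint f.range hζB hLB
  obtain ⟨PA, hPA, hPAdeg, hPAm⟩ :=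
    exists_map_map_eq f p hpm (fun i j => RingHom.mem_range.mp (hcoef i j))
  have huA : ∀ g : SL(2, ℤ), ∃ y : LaurentSeries A, coeffMap f y = CuspSeries.uC L g := fun g =>
    exists_coeffMap_eq f _
      (fun n => RingHom.mem_range.mp (CuspSeries.coeff_uC_mem L f.range hζB hLB g n))
  choose uA huA using huA
  have hcoeffPA : ∀ i, (PA.coeff i).map f = p.coeff i := fun i => by
    rw [← hPA, coeff_map, coe_mapRingHom]
  -- the root of unity
  have hζ1 : cuspZeta L ^ L = 1 := (isPrimitiveRoot_cuspZeta L).pow_eq_one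
  obtain ⟨ζA, hζAeq⟩ := RingHom.mem_range.mp (hζB (cuspZeta L) hζ1)
  have hζA : IsPrimitiveRoot ζA L :=
    IsPrimitiveRoot.of_map_of_injective (f := f) (by rw [hζAeq]; exact isPrimitiveRoot_cuspZeta L) hf
  have hζb : IsPrimitiveRoot (res ζA) L := by
    have : NeZero ((L : ℕ) : A) := ⟨(ResField.isUnit_natCast A hℓ hA hℓL).ne_zero⟩
    have : NeZero ((L : ℕ) : 𝕜) := ⟨ResField.natCast_ne_zero A hℓ hA hℓL⟩
    have h1 : (cyclotomic L A).IsRoot ζA := isRoot_cyclotomic_iff.mpr hζA
    have h2 : (cyclotomic L 𝕜).IsRoot (res ζA) := by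
      rw [← map_cyclotomic L res]
      exact h1.map
    exact isRoot_cyclotomic_iff.mp h2
  refine ⟨PA.map (mapRingHom res), fun x => coeffMap res (uA (x.out)⁻¹), res ζA, hPAm.map _, ?_,
    ?_, ?_, ?_, ?_, hζb, ?_⟩
  · rw [hPAm.natDegree_map, hPAdeg, hpdeg]
  · intro i hi
    calc ((PA.map (mapRingHom res)).coeff i).natDegree
        = ((PA.coeff i).map res).natDegree := by rw [coeff_map, coe_mapRingHom]
      _ ≤ (PA.coeff i).natDegree := natDegree_map_le
      _ = ((PA.coeff i).map f).natDegree := (natDegree_map_eq_of_injective hf _).symm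
      _ = (p.coeff i).natDegree := by rw [hcoeffPA]
      _ ≤ _ := hpb i hi
  · have hcB : c ∈ f.range := by
      have := hcoef 0 0
      rwa [hc, coeff_C_zero] at this
    obtain ⟨cA, hcA⟩ := RingHom.mem_range.mp hcB
    obtain ⟨dA, hdA⟩ := RingHom.mem_range.mp (hcinv c hc)
    have hcd : cA * dA = 1 := hf (by rw [map_mul, hcA, hdA, map_one, mul_inv_cancel₀ hc0])
    have hPA0 : PA.coeff 0 = C cA := map_injective f hf (by rw [hcoeffPA, hc, map_C, hcA])
    refine ⟨res cA, ?_, ?_⟩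
    · intro h0
      have := congrArg res hcd
      rw [map_mul, h0, zero_mul, map_one] at this
      exact zero_ne_one this
    · rw [coeff_map, hPA0, coe_mapRingHom, map_C]
  · have hrootA : ev2 HahnSeries.C (jqModC A) (coeffMap (Int.castRingHom A) (FormalU.uZ L)) PA
        = 0 := by
      apply RedHyp.coeffMap_injective f hf
      rw [RedHyp.coeffMap_ev2, RedHyp.coeffMap_jqModC, RedHyp.coeffMap_intCast_comp, hPA, map_zero,
        ← RedHyp.eval₂_aeval_eq_ev2, ← FormalU.qLaurent_Ufun]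
      exact hproot
    rw [RedHyp.eval₂_aeval_eq_ev2, ← RedHyp.coeffMap_jqModC res,
      ← RedHyp.coeffMap_intCast_comp res, ← RedHyp.coeffMap_ev2, hrootA, map_zero]
  · have hprodA : PA.map (ev1 HahnSeries.C (qExpand A L (jqModC A)))
        = ∏ x : X0 L, (X - C (uA (x.out)⁻¹)) := by
      apply map_injective (coeffMap f) (RedHyp.coeffMap_injective f hf)
      rw [map_map, RedHyp.coeffMap_comp_ev1, ← map_map, hPA, coeffMap_qExpand,
        RedHyp.coeffMap_jqModC, Polynomial.map_prod]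
      simp only [Polynomial.map_sub, map_X, map_C, huA]
      rw [← RedHyp.coe_aeval_eq_ev1]
      exact hprod
    rw [RedHyp.coe_aeval_eq_ev1, map_map, ← RedHyp.coeffMap_jqModC res, ← coeffMap_qExpand,
      ← RedHyp.coeffMap_comp_ev1, ← map_map, hprodA, Polynomial.map_prod]
    simp only [Polynomial.map_sub, map_X, map_C]
  · intro x m
    set π := cosetPerm L ModularGroup.T⁻¹ with hπdef
    have hcoset : ((π x).out : X0 L) = ((ModularGroup.T⁻¹ * x.out : SL(2, ℤ)) : X0 L) := by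
      rw [QuotientGroup.out_eq', hπdef, ← cosetPerm_mk, QuotientGroup.out_eq']
    have hmem : (ModularGroup.T⁻¹ * x.out)⁻¹ * (π x).out ∈ CongruenceSubgroup.Gamma0 L :=
      QuotientGroup.eq.mp hcoset.symm
    have e1 : ((π x).out)⁻¹ = ((ModularGroup.T⁻¹ * x.out)⁻¹ * (π x).out)⁻¹ *
        ((x.out)⁻¹ * ModularGroup.T) := by group
    have e2 : CuspSeries.uC L ((π x).out)⁻¹ = CuspSeries.uC L ((x.out)⁻¹ * ModularGroup.T) := by
      rw [e1]
      exact CuspSeries.uC_Gamma0_mul L (inv_mem hmem) _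
    have e3 : (CuspSeries.uC L ((π x).out)⁻¹).coeff m
        = cuspZeta L ^ m * (CuspSeries.uC L (x.out)⁻¹).coeff m := by
      rw [e2, CuspSeries.coeff_uC_mul_T]
    have e4 : (uA ((π x).out)⁻¹).coeff m
        = ζA ^ (m % (L : ℤ)).toNat * (uA (x.out)⁻¹).coeff m := by
      apply hf
      rw [map_mul, map_pow, hζAeq, ← coeffMap_coeff, ← coeffMap_coeff, huA, huA, e3,
        zpow_eq_pow_emod (NeZero.pos L) hζ1]
    rw [coeffMap_coeff, coeffMap_coeff, e4, map_mul, map_pow,
      zpow_eq_pow_emod (NeZero.pos L) hζb.pow_eq_one]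

end Emb

end Fermat.Agent.S18.CuspSeriesRed
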