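import Mathlib
import Fermat.Agent.S18.CuspSeriesRed
import Fermat.Agent.S18.CuspEmb
import Fermat.Agent.S18.CuspSep
import Fermat.Agent.S24.CosetsCusps
import Fermat.Agent.S24.CardX0
import Fermat.Agent.RR.Defs

/-!
# S18, package (D): the cusps of `X₀(L)` modulo `ℓ`

Let `A` be a valuation subring of `AlgebraicClosure ℚ` over a prime `ℓ ∤ L`, `k` its residue
field, and `κ = k(j̄, ū) ⊆ k((q))` the field generated by the reductions of `j` and of the
eta-quotient unit `U_L`.  Then `j̄` has exactly `cuspCount L` poles on `κ`, and all pole orders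
divide `L`.

The proof combines

* `CuspSeriesRed.exists_cuspData`: the reduced norm polynomial `P̄`, the reductions `ρ x` of the
  expansions of the translates of `U_L` at all cusps, with `P̄(j̄(s^L), X) = ∏ (X - ρ x)`, and the
  twist by a primitive `L`-th root of unity of `k`;
* `CuspSep.injective`: the `ρ x` are pairwise distinct (Newton shape of `P̄`);
* `CuspEmb.main`: the count of the poles as the number of orbits of the twist (Theorem A'' of
  S24);
* `S24.orbCount_cosetPerm_T`: the orbits of `T` on `SL(2, ℤ) / Γ₀(L)` are the cusps.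
-/

set_option autoImplicit false
set_option synthInstance.maxHeartbeats 400000

open Polynomial

namespace Fermat.Agent.S18.CuspsModL

open ModularCurve AlgebraicCurve
open Fermat.Agent.S24 Fermat.Agent.S28
open scoped MatrixGroups IntermediateField

attribute [local instance] Fermat.Agent.S24.NormPoly.fintypeX0

variable (A : ValuationSubring (AlgebraicClosure ℚ))

local notation3 "𝕜" => IsLocalRing.ResidueField A

/-- **Cusps modulo `ℓ`.** For `ℓ ∤ L`, the function `j̄` has exactly `cuspCount L` poles on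
`κ = k(j̄, ū_L)`, and every pole order divides `L`. -/
theorem card_poles_and_dvd {ℓ : ℕ} (hℓ : ℓ.Prime) (L : ℕ) [NeZero L] (hℓL : ¬ ℓ ∣ L)
    (hA : A.LiesOverPrime ℓ) (κ : IntermediateField 𝕜 (LaurentSeries 𝕜))
    (hκ : κ = IntermediateField.adjoin 𝕜
      {jqModC 𝕜, coeffMap (Int.castRingHom 𝕜) (FormalU.uZ L)})
    (jk : κ) (hjk : (jk : LaurentSeries 𝕜) = jqModC 𝕜)
    (hP : Fermat.Agent.RR.PlaceFacts 𝕜 κ) (hdeg : Module.finrank 𝕜⟮jk⟯ κ = dedekindPsi L) :
    Nat.card {v : Place 𝕜 κ // v.ord jk < 0} = ModularCurve.cuspCount L ∧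
      ∀ v : Place 𝕜 κ, v.ord jk < 0 → v.ord jk ∣ (L : ℤ) := by
  have := ResField.isAlgClosed A
  obtain ⟨Pb, ρ, ζb, hm, hd, hb, hc, hroot, hprod, hζ, htw⟩ :=
    CuspSeriesRed.exists_cuspData A hℓ L hℓL hA
  have hφ : 0 < L.totient := Nat.totient_pos.mpr (NeZero.pos L)
  have hu : ∀ n : ℤ, n < (L.totient : ℤ) * ((dedekindPsi L : ℤ) - 1) →
      (coeffMap (Int.castRingHom 𝕜) (FormalU.uZ L)).coeff n = 0 := fun n hn => by
    rw [coeffMap_coeff, FormalU.uZ_coeff_of_lt L hn, map_zero]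
  have hinj : Function.Injective ρ :=
    CuspSep.injective hφ Pb hm hd hb hc (jqModC 𝕜) _ (RedHyp.jqModC_ne_zero 𝕜)
      (RedHyp.order_jqModC 𝕜) hu hroot L ρ hprod
  have hcard : Fintype.card (X0 L) = Pb.natDegree := by
    rw [hd, ← card_X0 L, Nat.card_eq_fintype_card]
  have key := CuspEmb.main L (jqModC 𝕜) _ (RedHyp.order_jqModC 𝕜) κ hκ jk hjk hP Pb hm
    (hdeg.trans hd.symm) hroot hcard ρ hinj hprod ζb hζ (cosetPerm L ModularGroup.T⁻¹) htw
  refine ⟨?_, key.2⟩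
  rw [key.1, FibreCusp.cosetPerm_T_inv, orbCount_inv, orbCount_cosetPerm_T]

/-- The number of poles of `j̄` on `κ = k(j̄, ū_L)` is the number of cusps of `X₀(L)`. -/
theorem card_poles {ℓ : ℕ} (hℓ : ℓ.Prime) (L : ℕ) [NeZero L] (hℓL : ¬ ℓ ∣ L)
    (hA : A.LiesOverPrime ℓ) (κ : IntermediateField 𝕜 (LaurentSeries 𝕜))
    (hκ : κ = IntermediateField.adjoin 𝕜
      {jqModC 𝕜, coeffMap (Int.castRingHom 𝕜) (FormalU.uZ L)})
    (jk : κ) (hjk : (jk : LaurentSeries 𝕜) = jqModC 𝕜)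
    (hP : Fermat.Agent.RR.PlaceFacts 𝕜 κ) (hdeg : Module.finrank 𝕜⟮jk⟯ κ = dedekindPsi L) :
    Nat.card {v : Place 𝕜 κ // v.ord jk < 0} = ModularCurve.cuspCount L :=
  (card_poles_and_dvd A hℓ L hℓL hA κ hκ jk hjk hP hdeg).1

/-- The pole orders of `j̄` on `κ = k(j̄, ū_L)` divide `L`. -/
theorem ord_dvd {ℓ : ℕ} (hℓ : ℓ.Prime) (L : ℕ) [NeZero L] (hℓL : ¬ ℓ ∣ L)
    (hA : A.LiesOverPrime ℓ) (κ : IntermediateField 𝕜 (LaurentSeries 𝕜))
    (hκ : κ = IntermediateField.adjoin 𝕜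
      {jqModC 𝕜, coeffMap (Int.castRingHom 𝕜) (FormalU.uZ L)})
    (jk : κ) (hjk : (jk : LaurentSeries 𝕜) = jqModC 𝕜)
    (hP : Fermat.Agent.RR.PlaceFacts 𝕜 κ) (hdeg : Module.finrank 𝕜⟮jk⟯ κ = dedekindPsi L)
    (v : Place 𝕜 κ) (hv : v.ord jk < 0) : v.ord jk ∣ (L : ℤ) :=
  (card_poles_and_dvd A hℓ L hℓL hA κ hκ jk hjk hP hdeg).2 v hv

end Fermat.Agent.S18.CuspsModL
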