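import Mathlib

/-!
# S18 / GaussA: primitive scaling and the Gauss lemma over a valuation subring (Mathlib only)

`A` a valuation subring of a field `K`, `k` its residue field.  A nonzero polynomial over `K`
(in one or two variables) is a scalar times a polynomial over `A` with nonzero reduction, and
`g q ∈ A[X]`, `g ∈ A[X]` primitive implies `q ∈ A[X]`.
-/

set_option autoImplicit false

namespace Fermat.Agent.S18.GaussA

open Polynomial

variable {K : Type*} [Field K] (A : ValuationSubring K)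

/-- A finite family with a nonzero member has a member dividing all others in `A`. -/
theorem exists_pivot_finset {ι : Type*} (s : Finset ι) (x : ι → K) (h : ∃ i ∈ s, x i ≠ 0) :
    ∃ i₀ ∈ s, x i₀ ≠ 0 ∧ ∀ i ∈ s, x i / x i₀ ∈ A := by
  classical
  obtain ⟨i₁, hi₁, hx₁⟩ := h
  obtain ⟨i₀, hi₀, hmax⟩ := Finset.exists_max_image s (fun i => A.valuation (x i)) ⟨i₁, hi₁⟩
  have h0 : x i₀ ≠ 0 := by
    intro h0
    have h1 := hmax i₁ hi₁
    rw [h0, map_zero] at h1
    exact hx₁ ((_root_.map_eq_zero _).mp (le_antisymm h1 zero_le))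
  refine ⟨i₀, hi₀, h0, fun i hi => ?_⟩
  rw [← A.valuation_le_one_iff, map_div₀]
  have hpos : 0 < A.valuation (x i₀) := by
    rw [zero_lt_iff]
    exact (_root_.map_ne_zero _).mpr h0
  exact (div_le_one₀ hpos).mpr (hmax i hi)

/-- membership of a polynomial in the image of `A[X]`. -/
theorem mem_lifts_iff (q : K[X]) : q ∈ lifts A.subtype ↔ ∀ n, q.coeff n ∈ A := by
  rw [lifts_iff_coeff_lifts]
  constructor
  · intro h n
    obtain ⟨a, ha⟩ := h n
    rw [← ha]
    exact a.2
  · intro h n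
    exact ⟨⟨q.coeff n, h n⟩, rfl⟩

/-- membership of a two-variable polynomial in the image of `A[X][X]`. -/
theorem mem_lifts₂_iff (Q : K[X][X]) :
    Q ∈ lifts (mapRingHom A.subtype) ↔ ∀ i m, (Q.coeff i).coeff m ∈ A := by
  rw [lifts_iff_coeff_lifts]
  constructor
  · intro h i m
    obtain ⟨a, ha⟩ := h i
    rw [← ha, coe_mapRingHom, coeff_map]
    exact (a.coeff m).2
  · intro h i
    have h1 : Q.coeff i ∈ lifts A.subtype := (mem_lifts_iff A _).mpr (h i)
    obtain ⟨a, ha⟩ := (mem_lifts _).mp h1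
    exact ⟨a, ha⟩

/-- an element of `A` with nonzero residue is invertible in `A`. -/
theorem inv_mem_of_residue_ne_zero {a : A} (ha : IsLocalRing.residue A a ≠ 0) :
    ((a : K))⁻¹ ∈ A := by
  have hu : IsUnit a := by
    by_contra hnu
    exact ha ((IsLocalRing.residue_eq_zero_iff a).mpr ((IsLocalRing.mem_maximalIdeal a).mpr hnu))
  obtain ⟨b, hb⟩ := hu.exists_right_inv
  have h1 : (a : K) * (b : K) = 1 := by
    have := congrArg (fun z : A => (z : K)) hb
    simpa using this
  have h2 : ((a : K))⁻¹ = (b : K) := by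
    exact inv_eq_of_mul_eq_one_right h1
  rw [h2]
  exact b.2

/-- **Primitive scaling, one variable.** -/
theorem exists_prim (g : K[X]) (hg : g ≠ 0) :
    ∃ (c : K) (g₀ : A[X]), c ≠ 0 ∧ g = C c * g₀.map A.subtype ∧
      g₀.map (IsLocalRing.residue A) ≠ 0 := by
  classical
  have hne : ∃ i ∈ g.support, g.coeff i ≠ 0 := by
    obtain ⟨i, hi⟩ := Finset.nonempty_iff_ne_empty.mpr (fun h => hg (support_eq_empty.mp h))
    exact ⟨i, hi, mem_support_iff.mp hi⟩
  obtain ⟨i₀, -, h0, hdiv⟩ := exists_pivot_finset A g.support (fun i => g.coeff i) hne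
  set c := g.coeff i₀ with hc
  have hall : ∀ n, (C c⁻¹ * g).coeff n ∈ A := by
    intro n
    rw [coeff_C_mul]
    by_cases hn : n ∈ g.support
    · have := hdiv n hn
      rwa [div_eq_inv_mul] at this
    · rw [notMem_support_iff.mp hn, mul_zero]
      exact A.zero_mem
  obtain ⟨g₀, hg₀⟩ := (mem_lifts _).mp ((mem_lifts_iff A _).mpr hall)
  refine ⟨c, g₀, h0, ?_, ?_⟩
  · rw [hg₀, ← mul_assoc, ← C_mul, mul_inv_cancel₀ h0, C_1, one_mul]
  · intro hzero
    have h1 := congrArg (fun p : (IsLocalRing.ResidueField A)[X] => p.coeff i₀) hzero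
    simp only [coeff_map, coeff_zero] at h1
    have h2 : g₀.coeff i₀ = 1 := by
      apply Subtype.ext
      have h3 := congrArg (fun p : K[X] => p.coeff i₀) hg₀
      simp only [coeff_map, coeff_C_mul] at h3
      rw [show (A.subtype (g₀.coeff i₀) : K) = ((g₀.coeff i₀ : A) : K) from rfl] at h3
      rw [h3, ← hc, inv_mul_cancel₀ h0]
      rfl
    rw [h2, map_one] at h1
    exact one_ne_zero h1

/-- **Primitive scaling, two variables.** -/
theorem exists_prim₂ (Q : K[X][X]) (hQ : Q ≠ 0) :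
    ∃ (c : K) (Q₀ : A[X][X]), c ≠ 0 ∧ Q = C (C c) * Q₀.map (mapRingHom A.subtype) ∧
      Q₀.map (mapRingHom (IsLocalRing.residue A)) ≠ 0 := by
  classical
  set s : Finset (ℕ × ℕ) := Q.support.biUnion (fun i => (Q.coeff i).support.image (fun m => (i, m)))
    with hs
  have hmem : ∀ i m, (Q.coeff i).coeff m ≠ 0 → (i, m) ∈ s := by
    intro i m h
    rw [hs, Finset.mem_biUnion]
    refine ⟨i, mem_support_iff.mpr (fun h0 => h (by rw [h0, coeff_zero])), ?_⟩
    exact Finset.mem_image.mpr ⟨m, mem_support_iff.mpr h, rfl⟩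
  have hne : ∃ p ∈ s, (Q.coeff p.1).coeff p.2 ≠ 0 := by
    obtain ⟨i, hi⟩ := Finset.nonempty_iff_ne_empty.mpr (fun h => hQ (support_eq_empty.mp h))
    have hi' : Q.coeff i ≠ 0 := mem_support_iff.mp hi
    obtain ⟨m, hm⟩ := Finset.nonempty_iff_ne_empty.mpr (fun h => hi' (support_eq_empty.mp h))
    exact ⟨(i, m), hmem i m (mem_support_iff.mp hm), mem_support_iff.mp hm⟩
  obtain ⟨p₀, -, h0, hdiv⟩ := exists_pivot_finset A s (fun p => (Q.coeff p.1).coeff p.2) hne
  set c := (Q.coeff p₀.1).coeff p₀.2 with hc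
  have hcoef : ∀ i m, ((C (C c⁻¹) * Q).coeff i).coeff m = c⁻¹ * (Q.coeff i).coeff m := by
    intro i m
    rw [coeff_C_mul, coeff_C_mul]
  have hall : ∀ i m, ((C (C c⁻¹) * Q).coeff i).coeff m ∈ A := by
    intro i m
    rw [hcoef]
    by_cases hn : (Q.coeff i).coeff m = 0
    · rw [hn, mul_zero]
      exact A.zero_mem
    · have := hdiv (i, m) (hmem i m hn)
      rwa [div_eq_inv_mul] at this
  obtain ⟨Q₀, hQ₀⟩ := (mem_lifts _).mp ((mem_lifts₂_iff A _).mpr hall)
  refine ⟨c, Q₀, h0, ?_, ?_⟩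
  · rw [hQ₀, ← mul_assoc, ← C_mul, ← C_mul, mul_inv_cancel₀ h0, C_1, C_1, one_mul]
  · intro hzero
    have h1 := congrArg (fun p : (IsLocalRing.ResidueField A)[X][X] => (p.coeff p₀.1).coeff p₀.2)
      hzero
    simp only [coeff_map, coe_mapRingHom, coeff_zero] at h1
    have h2 : (Q₀.coeff p₀.1).coeff p₀.2 = 1 := by
      apply Subtype.ext
      have h3 := congrArg (fun p : K[X][X] => (p.coeff p₀.1).coeff p₀.2) hQ₀
      simp only [coeff_map, coe_mapRingHom] at h3
      rw [hcoef] at h3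
      rw [show (A.subtype ((Q₀.coeff p₀.1).coeff p₀.2) : K) =
        (((Q₀.coeff p₀.1).coeff p₀.2 : A) : K) from rfl] at h3
      rw [h3, ← hc, inv_mul_cancel₀ h0]
      rfl
    rw [h2, map_one] at h1
    exact one_ne_zero h1

/-- **Gauss lemma.** `g ∈ A[X]` primitive, `q ∈ K[X]`, `g q ∈ A[X]` ⟹ `q ∈ A[X]`. -/
theorem gauss (g : A[X]) (hg : g.map (IsLocalRing.residue A) ≠ 0) (q : K[X])
    (h : ∀ n, (g.map A.subtype * q).coeff n ∈ A) : ∀ n, q.coeff n ∈ A := by
  by_cases hq : q = 0
  · intro n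
    rw [hq, coeff_zero]
    exact A.zero_mem
  obtain ⟨c, q₀, hc0, hqc, hq₀⟩ := exists_prim A q hq
  have hprod : (g * q₀).map (IsLocalRing.residue A) ≠ 0 := by
    rw [Polynomial.map_mul]
    exact mul_ne_zero hg hq₀
  obtain ⟨n, hn⟩ : ∃ n, ((g * q₀).map (IsLocalRing.residue A)).coeff n ≠ 0 := by
    by_contra hcon
    push Not at hcon
    exact hprod (Polynomial.ext (fun n => by rw [hcon n, coeff_zero]))
  rw [coeff_map] at hn
  have hinv := inv_mem_of_residue_ne_zero A hn
  have hcn : c * (((g * q₀).coeff n : A) : K) ∈ A := by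
    have h1 := h n
    rw [hqc] at h1
    have h2 : g.map A.subtype * (C c * q₀.map A.subtype) = C c * (g * q₀).map A.subtype := by
      rw [Polynomial.map_mul]; ring
    rw [h2, coeff_C_mul, coeff_map] at h1
    exact h1
  have hcA : c ∈ A := by
    have hne : (((g * q₀).coeff n : A) : K) ≠ 0 := by
      intro h0
      apply hn
      have : (g * q₀).coeff n = 0 := Subtype.ext h0
      rw [this, map_zero]
    have h3 : c = c * (((g * q₀).coeff n : A) : K) * ((((g * q₀).coeff n : A) : K))⁻¹ := by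
      rw [mul_assoc, mul_inv_cancel₀ hne, mul_one]
    rw [h3]
    exact A.mul_mem _ _ hcn hinv
  intro m
  rw [hqc, coeff_C_mul, coeff_map]
  exact A.mul_mem _ _ hcA (q₀.coeff m).2

/-- A nonzero polynomial over `A` with zero reduction is `c` times a primitive one, `c ∈ 𝔪`. -/
theorem exists_prim_of_map_eq_zero (r : A[X][X]) (hr : r ≠ 0)
    (h : r.map (mapRingHom (IsLocalRing.residue A)) = 0) :
    ∃ (c : A) (r₀ : A[X][X]), c ≠ 0 ∧ c ∈ IsLocalRing.maximalIdeal A ∧ r = C (C c) * r₀ ∧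
      r₀.map (mapRingHom (IsLocalRing.residue A)) ≠ 0 := by
  have hinj : Function.Injective (mapRingHom (mapRingHom A.subtype)) :=
    Polynomial.map_injective _ (Polynomial.map_injective _ Subtype.val_injective)
  have hrK : r.map (mapRingHom A.subtype) ≠ 0 := by
    intro h0
    apply hr
    apply hinj
    rw [coe_mapRingHom, h0, Polynomial.map_zero]
  obtain ⟨c, r₀, hc0, hrc, hr₀⟩ := exists_prim₂ A _ hrK
  -- a unit coefficient of r₀
  obtain ⟨i, m, him⟩ : ∃ i m, IsLocalRing.residue A ((r₀.coeff i).coeff m) ≠ 0 := by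
    by_contra hcon
    push Not at hcon
    apply hr₀
    ext i m
    rw [coeff_map, coe_mapRingHom, coeff_map, hcon i m]
    simp
  have hcoef : ((r.coeff i).coeff m : K) = c * ((r₀.coeff i).coeff m : K) := by
    have h3 := congrArg (fun p : K[X][X] => (p.coeff i).coeff m) hrc
    simp only [coeff_map, coe_mapRingHom, coeff_C_mul] at h3
    exact h3
  have hinv := inv_mem_of_residue_ne_zero A him
  have hne : (((r₀.coeff i).coeff m : A) : K) ≠ 0 := by
    intro h0
    apply him
    have : (r₀.coeff i).coeff m = 0 := Subtype.ext h0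
    rw [this, map_zero]
  have hcA : c ∈ A := by
    have h3 : c = ((r.coeff i).coeff m : K) * ((((r₀.coeff i).coeff m : A) : K))⁻¹ := by
      rw [hcoef, mul_assoc, mul_inv_cancel₀ hne, mul_one]
    rw [h3]
    exact A.mul_mem _ _ ((r.coeff i).coeff m).2 hinv
  have hreq : r = C (C (⟨c, hcA⟩ : A)) * r₀ := by
    apply hinj
    rw [coe_mapRingHom, hrc, Polynomial.map_mul]
    congr 1
    rw [Polynomial.map_C, coe_mapRingHom, Polynomial.map_C]
    rfl
  refine ⟨⟨c, hcA⟩, r₀, fun h0 => hc0 (congrArg Subtype.val h0), ?_, hreq, hr₀⟩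
  -- c ∈ 𝔪: reduce the coefficient (i, m)
  rw [← IsLocalRing.residue_eq_zero_iff]
  have h4 := congrArg (fun p : (IsLocalRing.ResidueField A)[X][X] => (p.coeff i).coeff m) h
  simp only [coeff_map, coe_mapRingHom, coeff_zero] at h4
  rw [hreq, coeff_C_mul, coeff_C_mul, map_mul] at h4
  exact (mul_eq_zero.mp h4).resolve_right him

end Fermat.Agent.S18.GaussA
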