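import Mathlib
import Fermat.Prelude.Def_ModularCurve_LaurentCoeff
import Fermat.Agent.S28.ChartDefs
import Fermat.Agent.S28.RedHyp
import Fermat.Agent.S18.GaussAPrim

/-!
# S18 / GaussA: the Gauss reduction relation, generic core

`A` a valuation subring of `K` with residue field `k`; `j u : A((q))` integral series and
`P ∈ A[T][X]` monic with `P(j, u) = 0`, such that the reductions `jb`, `ub` satisfy: `jb` is
transcendental over `k` and `1, ub, …, ub^(deg P - 1)` are independent over `k[jb]`.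

`RedS A j u x y` : "`x ∈ K((q))` is of the form `r(j,u)/g(j)` with `r ∈ A[T][X]`, `g ∈ A[T]`
primitive, and `y = r̄(jb,ub)/ḡ(jb)`".
-/

set_option autoImplicit false

namespace Fermat.Agent.S18.GaussA

open Polynomial ModularCurve Fermat.Agent.S28.Chart Fermat.Agent.S28.RedHyp

variable {K : Type*} [Field K] (A : ValuationSubring K)

/-- The standing hypotheses of the Gauss layer. -/
structure GHyp (j u : LaurentSeries A) (P : A[X][X]) : Prop where
  monic : P.Monic
  root : ev2 HahnSeries.C j u P = 0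
  transcb : ∀ g : (IsLocalRing.ResidueField A)[X],
    ev1 HahnSeries.C (coeffMap (IsLocalRing.residue A) j) g = 0 → g = 0
  hmin : ∀ G : (IsLocalRing.ResidueField A)[X][X], G.natDegree < P.natDegree →
    ev2 HahnSeries.C (coeffMap (IsLocalRing.residue A) j) (coeffMap (IsLocalRing.residue A) u) G = 0 →
      G = 0

/-- The reduction relation on series. -/
def RedS (j u : LaurentSeries A) (x : LaurentSeries K) (y : LaurentSeries (IsLocalRing.ResidueField A)) :
    Prop :=
  ∃ (g : A[X]) (r : A[X][X]), g.map (IsLocalRing.residue A) ≠ 0 ∧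
    coeffMap A.subtype (ev1 HahnSeries.C j g) * x = coeffMap A.subtype (ev2 HahnSeries.C j u r) ∧
    coeffMap (IsLocalRing.residue A) (ev1 HahnSeries.C j g) * y =
      coeffMap (IsLocalRing.residue A) (ev2 HahnSeries.C j u r)

variable {A} {j u : LaurentSeries A} {P : A[X][X]}

theorem toK_injective : Function.Injective (coeffMap (A.subtype) : LaurentSeries A → LaurentSeries K) :=
  coeffMap_injective A.subtype Subtype.val_injective

theorem GHyp.tok_ev1_ne_zero (h : GHyp A j u P) {g : A[X]} (hg : g.map (IsLocalRing.residue A) ≠ 0) :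
    coeffMap (IsLocalRing.residue A) (ev1 HahnSeries.C j g) ≠ 0 := by
  rw [coeffMap_ev1]
  exact fun h0 => hg (h.transcb _ h0)

theorem GHyp.toK_ev1_ne_zero (h : GHyp A j u P) {g : A[X]} (hg : g.map (IsLocalRing.residue A) ≠ 0) :
    coeffMap A.subtype (ev1 HahnSeries.C j g) ≠ 0 := by
  intro h0
  have h1 : ev1 HahnSeries.C j g = 0 := toK_injective (by rw [h0, map_zero])
  exact h.tok_ev1_ne_zero hg (by rw [h1, map_zero])

theorem GHyp.P_ne_one (h : GHyp A j u P) : P ≠ 1 := by
  intro h1
  have h2 := h.root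
  rw [h1, map_one] at h2
  have h3 : coeffMap (IsLocalRing.residue A) (1 : LaurentSeries A) = 0 := by rw [h2, map_zero]
  rw [map_one] at h3
  exact one_ne_zero h3

theorem GHyp.ev2_modByMonic (h : GHyp A j u P) (r : A[X][X]) :
    ev2 HahnSeries.C j u (r %ₘ P) = ev2 HahnSeries.C j u r := by
  conv_rhs => rw [← modByMonic_add_div r P]
  rw [map_add, map_mul, h.root, zero_mul, add_zero]

theorem GHyp.natDegree_modByMonic_lt (h : GHyp A j u P) (r : A[X][X]) :
    (r %ₘ P).natDegree < P.natDegree :=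
  Polynomial.natDegree_modByMonic_lt r h.monic h.P_ne_one

/-- (N2) over `A`: a primitive polynomial of small degree has nonzero reduced value. -/
theorem GHyp.tok_ev2_ne_zero (h : GHyp A j u P) {G : A[X][X]} (hdeg : G.natDegree < P.natDegree)
    (hG : G.map (mapRingHom (IsLocalRing.residue A)) ≠ 0) :
    coeffMap (IsLocalRing.residue A) (ev2 HahnSeries.C j u G) ≠ 0 := by
  rw [coeffMap_ev2]
  intro h0
  exact hG (h.hmin _ (lt_of_le_of_lt natDegree_map_le hdeg) h0)

theorem ev2K_map (G : A[X][X]) :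
    ev2 HahnSeries.C (coeffMap A.subtype j) (coeffMap A.subtype u)
      (G.map (mapRingHom A.subtype)) = coeffMap A.subtype (ev2 HahnSeries.C j u G) :=
  (coeffMap_ev2 A.subtype j u G).symm

theorem ev1K_map (g : A[X]) :
    ev1 HahnSeries.C (coeffMap A.subtype j) (g.map A.subtype) =
      coeffMap A.subtype (ev1 HahnSeries.C j g) :=
  (coeffMap_ev1 A.subtype j g).symm

theorem ev2_C_C_mul {S : Type*} [Field S] (a b : LaurentSeries S) (c : S) (G : S[X][X]) :
    ev2 HahnSeries.C a b (C (C c) * G) = HahnSeries.C c * ev2 HahnSeries.C a b G := by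
  rw [map_mul, ev2_C, ev1_C]

theorem ev1_C_mul {S : Type*} [Field S] (a : LaurentSeries S) (c : S) (g : S[X]) :
    ev1 HahnSeries.C a (C c * g) = HahnSeries.C c * ev1 HahnSeries.C a g := by
  rw [map_mul, ev1_C]

theorem C_ne_zero' {S : Type*} [Field S] {c : S} (hc : c ≠ 0) :
    (HahnSeries.C c : LaurentSeries S) ≠ 0 := by
  intro h0
  apply hc
  have := congrArg (fun z : LaurentSeries S => z.coeff 0) h0
  simpa using this

/-- (N2) over `K`. -/
theorem GHyp.hminK (h : GHyp A j u P) (Q : K[X][X]) (hdeg : Q.natDegree < P.natDegree)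
    (hQ : ev2 HahnSeries.C (coeffMap A.subtype j) (coeffMap A.subtype u) Q = 0) : Q = 0 := by
  by_contra hQ0
  obtain ⟨c, Q₀, hc0, hQc, hQ₀⟩ := exists_prim₂ A Q hQ0
  have hinj : Function.Injective (mapRingHom (A.subtype)) :=
    Polynomial.map_injective _ Subtype.val_injective
  have hCC : (C (C c) : K[X][X]) ≠ 0 := by
    simpa using hc0
  have hdeg₀ : Q₀.natDegree < P.natDegree := by
    have h1 : Q.natDegree = (Q₀.map (mapRingHom A.subtype)).natDegree := by
      rw [hQc, natDegree_C_mul (by simpa using hc0)]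
    rw [natDegree_map_eq_of_injective hinj] at h1
    rw [← h1]; exact hdeg
  rw [hQc, ev2_C_C_mul, ev2K_map] at hQ
  have h1 : coeffMap A.subtype (ev2 HahnSeries.C j u Q₀) = 0 :=
    (mul_eq_zero.mp hQ).resolve_left (C_ne_zero' hc0)
  have h2 : ev2 HahnSeries.C j u Q₀ = 0 := toK_injective (by rw [h1, map_zero])
  exact h.tok_ev2_ne_zero hdeg₀ hQ₀ (by rw [h2, map_zero])

/-- transcendence of `j` over `K`. -/
theorem GHyp.ev1K_ne_zero (h : GHyp A j u P) {g : K[X]} (hg : g ≠ 0) :
    ev1 HahnSeries.C (coeffMap A.subtype j) g ≠ 0 := by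
  obtain ⟨c, g₀, hc0, hgc, hg₀⟩ := exists_prim A g hg
  rw [hgc, ev1_C_mul, ev1K_map]
  exact mul_ne_zero (C_ne_zero' hc0) (h.toK_ev1_ne_zero hg₀)

/-! ### The relation is a (partial) ring homomorphism -/

theorem GHyp.unique (h : GHyp A j u P) {x : LaurentSeries K}
    {y y' : LaurentSeries (IsLocalRing.ResidueField A)}
    (h1 : RedS A j u x y) (h2 : RedS A j u x y') : y = y' := by
  obtain ⟨g, r, hg, hx, hy⟩ := h1
  obtain ⟨g', r', hg', hx', hy'⟩ := h2
  -- g'(j) r(j,u) = g(j) r'(j,u)
  have hK : coeffMap A.subtype (ev2 HahnSeries.C j u (C g' * r)) =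
      coeffMap A.subtype (ev2 HahnSeries.C j u (C g * r')) := by
    rw [map_mul, map_mul, map_mul, map_mul, ev2_C, ev2_C, ← hx, ← hx']
    ring
  have hA : ev2 HahnSeries.C j u (C g' * r) = ev2 HahnSeries.C j u (C g * r') := toK_injective hK
  have hk := congrArg (coeffMap (IsLocalRing.residue A)) hA
  rw [map_mul, map_mul, map_mul, map_mul, ev2_C, ev2_C, ← hy, ← hy'] at hk
  have hne := h.tok_ev1_ne_zero hg
  have hne' := h.tok_ev1_ne_zero hg'
  have h3 : coeffMap (IsLocalRing.residue A) (ev1 HahnSeries.C j g') *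
      coeffMap (IsLocalRing.residue A) (ev1 HahnSeries.C j g) * (y - y') = 0 := by
    linear_combination hk
  have h4 := (mul_eq_zero.mp h3).resolve_left (mul_ne_zero hne' hne)
  exact sub_eq_zero.mp h4

theorem redS_of_rep (h : GHyp A j u P) {x : LaurentSeries K} {g : A[X]} {r : A[X][X]}
    (hg : g.map (IsLocalRing.residue A) ≠ 0)
    (hx : coeffMap A.subtype (ev1 HahnSeries.C j g) * x = coeffMap A.subtype (ev2 HahnSeries.C j u r)) :
    RedS A j u x (coeffMap (IsLocalRing.residue A) (ev2 HahnSeries.C j u r) /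
      coeffMap (IsLocalRing.residue A) (ev1 HahnSeries.C j g)) :=
  ⟨g, r, hg, hx, mul_div_cancel₀ _ (h.tok_ev1_ne_zero hg)⟩

theorem redS_one : RedS A j u (1 : LaurentSeries K) 1 :=
  ⟨1, 1, by simp, by simp, by simp⟩

theorem redS_zero : RedS A j u (0 : LaurentSeries K) 0 :=
  ⟨1, 0, by simp, by simp, by simp⟩

theorem redS_add {x x' : LaurentSeries K} {y y' : LaurentSeries (IsLocalRing.ResidueField A)}
    (h1 : RedS A j u x y) (h2 : RedS A j u x' y') : RedS A j u (x + x') (y + y') := by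
  obtain ⟨g, r, hg, hx, hy⟩ := h1
  obtain ⟨g', r', hg', hx', hy'⟩ := h2
  refine ⟨g * g', C g' * r + C g * r', ?_, ?_, ?_⟩
  · rw [Polynomial.map_mul]; exact mul_ne_zero hg hg'
  · simp only [map_mul, map_add, ev2_C]
    rw [← hx, ← hx']; ring
  · simp only [map_mul, map_add, ev2_C]
    rw [← hy, ← hy']; ring

theorem redS_mul {x x' : LaurentSeries K} {y y' : LaurentSeries (IsLocalRing.ResidueField A)}
    (h1 : RedS A j u x y) (h2 : RedS A j u x' y') : RedS A j u (x * x') (y * y') := by
  obtain ⟨g, r, hg, hx, hy⟩ := h1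
  obtain ⟨g', r', hg', hx', hy'⟩ := h2
  refine ⟨g * g', r * r', ?_, ?_, ?_⟩
  · rw [Polynomial.map_mul]; exact mul_ne_zero hg hg'
  · simp only [map_mul]
    rw [← hx, ← hx']; ring
  · simp only [map_mul]
    rw [← hy, ← hy']; ring

theorem redS_const (c : A) : RedS A j u (HahnSeries.C (c : K))
    (HahnSeries.C (IsLocalRing.residue A c)) := by
  refine ⟨1, C (C c), by simp, ?_, ?_⟩
  · simp only [map_one, one_mul, ev2_C, ev1_C]
    exact (coeffMap_C A.subtype c).symm
  · simp only [map_one, one_mul, ev2_C, ev1_C]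
    exact (coeffMap_C (IsLocalRing.residue A) c).symm

theorem redS_neg {x : LaurentSeries K} {y : LaurentSeries (IsLocalRing.ResidueField A)}
    (h1 : RedS A j u x y) : RedS A j u (-x) (-y) := by
  have h2 : RedS A j u (HahnSeries.C ((-1 : A) : K) * x)
      (HahnSeries.C (IsLocalRing.residue A (-1)) * y) := redS_mul (redS_const (-1)) h1
  simpa using h2

/-- the integral series themselves. -/
theorem redS_of_poly (G : A[X][X]) : RedS A j u (coeffMap A.subtype (ev2 HahnSeries.C j u G))
    (coeffMap (IsLocalRing.residue A) (ev2 HahnSeries.C j u G)) :=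
  ⟨1, G, by simp, by simp, by simp⟩

/-! ### The key lemma: integrality in coordinates -/

/-- **Key lemma.** If `g(j) x = Q(j,u)` with `g ∈ A[T]` primitive and `Q ∈ K[T][X]` of
`X`-degree `< deg P`, then `x` is Gauss-integral iff `Q` has coefficients in `A`. -/
theorem GHyp.coeff_mem_of_redS (h : GHyp A j u P) {x : LaurentSeries K}
    {y : LaurentSeries (IsLocalRing.ResidueField A)} (hxy : RedS A j u x y)
    {g : A[X]} (hg : g.map (IsLocalRing.residue A) ≠ 0) {Q : K[X][X]}
    (hdeg : Q.natDegree < P.natDegree)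
    (hx : coeffMap A.subtype (ev1 HahnSeries.C j g) * x =
      ev2 HahnSeries.C (coeffMap A.subtype j) (coeffMap A.subtype u) Q) :
    ∀ i m, (Q.coeff i).coeff m ∈ A := by
  obtain ⟨g', r', hg', hx', -⟩ := hxy
  set r'' := r' %ₘ P with hr''
  have hdeg'' : r''.natDegree < P.natDegree := h.natDegree_modByMonic_lt r'
  have hx'' : coeffMap A.subtype (ev1 HahnSeries.C j g') * x =
      coeffMap A.subtype (ev2 HahnSeries.C j u r'') := by
    rw [hx', hr'', h.ev2_modByMonic]
  -- the polynomial identity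
  have hpoly : C (g'.map A.subtype) * Q - C (g.map A.subtype) * r''.map (mapRingHom A.subtype) = 0 := by
    apply h.hminK
    · refine lt_of_le_of_lt (natDegree_sub_le _ _) (max_lt ?_ ?_)
      · exact lt_of_le_of_lt (natDegree_C_mul_le _ _) hdeg
      · refine lt_of_le_of_lt (natDegree_C_mul_le _ _) ?_
        exact lt_of_le_of_lt natDegree_map_le hdeg''
    · rw [map_sub, map_mul, map_mul, ev2_C, ev2_C, ev1K_map, ev1K_map, ev2K_map, ← hx, ← hx'']
      ring
  intro i m
  have hi : g'.map A.subtype * Q.coeff i = (g * r''.coeff i).map A.subtype := by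
    have h1 := congrArg (fun p : K[X][X] => p.coeff i) (sub_eq_zero.mp hpoly)
    simp only [coeff_C_mul, coeff_map, coe_mapRingHom] at h1
    rw [h1, Polynomial.map_mul]
  refine gauss A g' hg' (Q.coeff i) (fun n => ?_) m
  rw [hi, coeff_map]
  exact ((g * r''.coeff i).coeff n).2

/-- **Normalisation.** A nonzero series with a `K`-representation of small degree is a constant
times a Gauss unit. -/
theorem GHyp.normalize (h : GHyp A j u P) {x : LaurentSeries K} (hx0 : x ≠ 0)
    {g : K[X]} (hg : g ≠ 0) {Q : K[X][X]} (hdeg : Q.natDegree < P.natDegree)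
    (hx : ev1 HahnSeries.C (coeffMap A.subtype j) g * x =
      ev2 HahnSeries.C (coeffMap A.subtype j) (coeffMap A.subtype u) Q) :
    ∃ c : K, c ≠ 0 ∧ ∃ y : LaurentSeries (IsLocalRing.ResidueField A), y ≠ 0 ∧
      RedS A j u (HahnSeries.C c * x) y := by
  have hQ0 : Q ≠ 0 := by
    intro h0
    rw [h0, map_zero] at hx
    exact hx0 ((mul_eq_zero.mp hx).resolve_left (h.ev1K_ne_zero hg))
  obtain ⟨c₁, g₀, hc₁, hgc, hg₀⟩ := exists_prim A g hg
  obtain ⟨c₂, Q₀, hc₂, hQc, hQ₀⟩ := exists_prim₂ A Q hQ0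
  have hinj : Function.Injective (mapRingHom (A.subtype)) :=
    Polynomial.map_injective _ Subtype.val_injective
  have hdeg₀ : Q₀.natDegree < P.natDegree := by
    have h1 : Q.natDegree = (Q₀.map (mapRingHom A.subtype)).natDegree := by
      rw [hQc, natDegree_C_mul (by simpa using hc₂)]
    rw [natDegree_map_eq_of_injective hinj] at h1
    rw [← h1]; exact hdeg
  rw [hgc, hQc, ev1_C_mul, ev2_C_C_mul, ev1K_map, ev2K_map] at hx
  have hrep : coeffMap A.subtype (ev1 HahnSeries.C j g₀) * (HahnSeries.C (c₁ / c₂) * x) =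
      coeffMap A.subtype (ev2 HahnSeries.C j u Q₀) := by
    have hC : (HahnSeries.C (c₁ / c₂) : LaurentSeries K) = HahnSeries.C c₁ * (HahnSeries.C c₂)⁻¹ := by
      rw [div_eq_mul_inv, map_mul, map_inv₀]
    rw [hC]
    have hne := C_ne_zero' (S := K) hc₂
    field_simp
    linear_combination hx
  refine ⟨c₁ / c₂, div_ne_zero hc₁ hc₂, _, ?_, redS_of_rep h hg₀ hrep⟩
  exact div_ne_zero (h.tok_ev2_ne_zero hdeg₀ hQ₀) (h.tok_ev1_ne_zero hg₀)

/-- **Kernel of the reduction.** -/
theorem GHyp.exists_of_redS_zero (h : GHyp A j u P) {x : LaurentSeries K} (hx0 : x ≠ 0)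
    (hx : RedS A j u x 0) :
    ∃ c : A, c ≠ 0 ∧ c ∈ IsLocalRing.maximalIdeal A ∧
      ∃ y : LaurentSeries (IsLocalRing.ResidueField A),
        RedS A j u (HahnSeries.C ((c : K))⁻¹ * x) y := by
  obtain ⟨g, r, hg, hxr, hy⟩ := hx
  rw [mul_zero] at hy
  set r'' := r %ₘ P with hr''
  have hdeg'' : r''.natDegree < P.natDegree := h.natDegree_modByMonic_lt r
  have hev : ev2 HahnSeries.C j u r'' = ev2 HahnSeries.C j u r := h.ev2_modByMonic r
  have hr0 : r'' ≠ 0 := by
    intro h0
    rw [← hev, h0, map_zero, map_zero] at hxr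
    exact hx0 ((mul_eq_zero.mp hxr).resolve_left (h.toK_ev1_ne_zero hg))
  have hmap : r''.map (mapRingHom (IsLocalRing.residue A)) = 0 := by
    by_contra hne
    exact h.tok_ev2_ne_zero hdeg'' hne (by rw [hev, ← hy])
  obtain ⟨c, r₀, hc0, hcm, hrc, hr₀⟩ := exists_prim_of_map_eq_zero A r'' hr0 hmap
  have hcK : (c : K) ≠ 0 := fun h0 => hc0 (Subtype.ext h0)
  refine ⟨c, hc0, hcm, _, redS_of_rep h hg (r := r₀) ?_⟩
  have h1 : coeffMap A.subtype (ev2 HahnSeries.C j u r) =
      HahnSeries.C (c : K) * coeffMap A.subtype (ev2 HahnSeries.C j u r₀) := by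
    rw [← hev, hrc, map_mul, map_mul, ev2_C, ev1_C, coeffMap_C]
    rfl
  rw [h1] at hxr
  have hne := C_ne_zero' (S := K) hcK
  rw [map_inv₀]
  field_simp
  linear_combination hxr

/-! ### Values lie in `k(jb, ub)` -/

theorem ev1_mem_adjoin {S : Type*} [Field S] (a b : LaurentSeries S) (g : S[X]) :
    ev1 HahnSeries.C a g ∈ IntermediateField.adjoin S ({a, b} : Set (LaurentSeries S)) := by
  rw [ev1_apply, eval₂_eq_sum_range]
  refine sum_mem (fun i _ => mul_mem ?_ (pow_mem (IntermediateField.subset_adjoin S _ (by simp)) _))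
  rw [← algebraMap_eq_C]
  exact IntermediateField.algebraMap_mem _ _

theorem ev2_mem_adjoin {S : Type*} [Field S] (a b : LaurentSeries S) (G : S[X][X]) :
    ev2 HahnSeries.C a b G ∈ IntermediateField.adjoin S ({a, b} : Set (LaurentSeries S)) := by
  rw [ev2_apply, eval₂_eq_sum_range]
  refine sum_mem (fun i _ => mul_mem (ev1_mem_adjoin a b _)
    (pow_mem (IntermediateField.subset_adjoin S _ (by simp)) _))

theorem GHyp.redS_mem (h : GHyp A j u P) {x : LaurentSeries K}
    {y : LaurentSeries (IsLocalRing.ResidueField A)} (hxy : RedS A j u x y) :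
    y ∈ IntermediateField.adjoin (IsLocalRing.ResidueField A)
      ({coeffMap (IsLocalRing.residue A) j, coeffMap (IsLocalRing.residue A) u} :
        Set (LaurentSeries (IsLocalRing.ResidueField A))) := by
  obtain ⟨g, r, hg, -, hy⟩ := hxy
  have hne := h.tok_ev1_ne_zero hg
  have hy' : y = coeffMap (IsLocalRing.residue A) (ev2 HahnSeries.C j u r) /
      coeffMap (IsLocalRing.residue A) (ev1 HahnSeries.C j g) := by
    rw [eq_div_iff hne, mul_comm]; exact hy
  rw [hy', coeffMap_ev2, coeffMap_ev1]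
  exact div_mem (ev2_mem_adjoin _ _ _) (ev1_mem_adjoin _ _ _)

end Fermat.Agent.S18.GaussA
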