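import Mathlib
import Fermat.Prelude.Def_ModularCurve_ArithmeticGalois
import Fermat.Prelude.Def_ModularCurve_JqCoeff
import Fermat.Agent.S28.FormalU
import Fermat.Agent.S18.GaussACore

/-!
# S18 / GaussA: definitions of the Gauss layer at level `L`

`K = AlgebraicClosure ℚ`, `A` a valuation subring of `K`, `k = IsLocalRing.ResidueField A`.

* `ub k L : LaurentSeries k` : the `q`-expansion of the modular unit with coefficients in `k`
  (literally `coeffMap (Int.castRingHom k) (S28.FormalU.uZ L)`);
* `kappa k L = k(jb, ub)` : the residue function field at level `L`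
  (literally `IntermediateField.adjoin k {jqModC k, ub k L}`);
* `Red A L : F_L → kappa k L → Prop` : the Gauss reduction relation,
  `Red f x ↔ ∃ g ∈ A[T], r ∈ A[T][X], ḡ ≠ 0, g(j) f = r(j,u), ḡ(jb) x = r̄(jb,ub)`
  (`RedS` of `GaussACore` for the integral series `jqModC A`, `uA A L`).
-/

set_option autoImplicit false

noncomputable section

namespace Fermat.Agent.S18.GaussA

open ModularCurve

/-- The `q`-expansion of the modular unit of level `L` with coefficients in a ring `R`. -/
abbrev uA (R : Type*) [CommRing R] (L : ℕ) : LaurentSeries R :=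
  coeffMap (Int.castRingHom R) (Fermat.Agent.S28.FormalU.uZ L)

/-- The `q`-expansion of the modular unit of level `L` with coefficients in the field `k`. -/
abbrev ub (k : Type*) [Field k] (L : ℕ) : LaurentSeries k :=
  coeffMap (Int.castRingHom k) (Fermat.Agent.S28.FormalU.uZ L)

/-- The residue function field at level `L`: `k(jb, ub) ⊆ k((q))`. -/
abbrev kappa (k : Type*) [Field k] (L : ℕ) : IntermediateField k (LaurentSeries k) :=
  IntermediateField.adjoin k {jqModC k, ub k L}

theorem jb_mem (k : Type*) [Field k] (L : ℕ) : jqModC k ∈ kappa k L :=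
  IntermediateField.subset_adjoin k _ (Set.mem_insert _ _)

theorem ub_mem (k : Type*) [Field k] (L : ℕ) : ub k L ∈ kappa k L :=
  IntermediateField.subset_adjoin k _ (Set.mem_insert_of_mem _ rfl)

/-- `jb` as an element of `kappa k L`. -/
def jbE (k : Type*) [Field k] (L : ℕ) : kappa k L := ⟨jqModC k, jb_mem k L⟩

/-- `ub` as an element of `kappa k L`. -/
def ubE (k : Type*) [Field k] (L : ℕ) : kappa k L := ⟨ub k L, ub_mem k L⟩

/-- **The Gauss reduction relation at level `L`.** -/
def Red (A : ValuationSubring (AlgebraicClosure ℚ)) (L : ℕ)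
    (f : modularFunctionFieldBar L) (x : kappa (IsLocalRing.ResidueField A) L) : Prop :=
  RedS A (jqModC A) (uA A L) (f : LaurentSeries (AlgebraicClosure ℚ))
    (x : LaurentSeries (IsLocalRing.ResidueField A))

theorem red_iff (A : ValuationSubring (AlgebraicClosure ℚ)) (L : ℕ)
    (f : modularFunctionFieldBar L) (x : kappa (IsLocalRing.ResidueField A) L) :
    Red A L f x ↔ RedS A (jqModC A) (uA A L) (f : LaurentSeries (AlgebraicClosure ℚ))
      (x : LaurentSeries (IsLocalRing.ResidueField A)) := Iff.rfl

end Fermat.Agent.S18.GaussA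

end
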