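import Mathlib
import Fermat.Agent.S18.CuspsModL
import Fermat.Agent.S18.GaussADefs

/-!
# S18, package (D): the cusp count for `GaussA.kappa k L`

`CuspsModL.card_poles` restated for the literal terms of `S18/GaussADefs`.
-/

set_option autoImplicit false
set_option synthInstance.maxHeartbeats 400000

namespace Fermat.Agent.S18.CuspsKappa

open ModularCurve AlgebraicCurve
open scoped IntermediateField

variable (A : ValuationSubring (AlgebraicClosure ℚ))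

local notation3 "𝕜" => IsLocalRing.ResidueField A

/-- For `ℓ ∤ L`, the function `j̄` has exactly `cuspCount L` poles on `GaussA.kappa k L`. -/
theorem card_poles {ℓ : ℕ} (hℓ : ℓ.Prime) (L : ℕ) [NeZero L] (hℓL : ¬ ℓ ∣ L)
    (hA : A.LiesOverPrime ℓ) (hP : Fermat.Agent.RR.PlaceFacts 𝕜 (GaussA.kappa 𝕜 L))
    (hdeg : Module.finrank 𝕜⟮GaussA.jbE 𝕜 L⟯ (GaussA.kappa 𝕜 L) = dedekindPsi L) :
    Nat.card {v : Place 𝕜 (GaussA.kappa 𝕜 L) // v.ord (GaussA.jbE 𝕜 L) < 0}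
      = ModularCurve.cuspCount L :=
  CuspsModL.card_poles A hℓ L hℓL hA (GaussA.kappa 𝕜 L) rfl (GaussA.jbE 𝕜 L) rfl hP hdeg

/-- For `ℓ ∤ L`, the pole orders of `j̄` on `GaussA.kappa k L` divide `L`. -/
theorem ord_dvd {ℓ : ℕ} (hℓ : ℓ.Prime) (L : ℕ) [NeZero L] (hℓL : ¬ ℓ ∣ L)
    (hA : A.LiesOverPrime ℓ) (hP : Fermat.Agent.RR.PlaceFacts 𝕜 (GaussA.kappa 𝕜 L))
    (hdeg : Module.finrank 𝕜⟮GaussA.jbE 𝕜 L⟯ (GaussA.kappa 𝕜 L) = dedekindPsi L)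
    (v : Place 𝕜 (GaussA.kappa 𝕜 L)) (hv : v.ord (GaussA.jbE 𝕜 L) < 0) :
    v.ord (GaussA.jbE 𝕜 L) ∣ (L : ℤ) :=
  CuspsModL.ord_dvd A hℓ L hℓL hA (GaussA.kappa 𝕜 L) rfl (GaussA.jbE 𝕜 L) rfl hP hdeg v hv

end Fermat.Agent.S18.CuspsKappa
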