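/-
S18 / GenBar: the characteristic-zero algebra of the unit `u` over `K = ℚ̄` (no `A`, no `k`).

`K := AlgebraicClosure ℚ`, `F_L := modularFunctionFieldBar L ⊆ K((q))`, `jqModC K` the series of
`j` (`= Jser K 1 =` the coercion of `S24.xgen K L`), `uK L := ` the `q`-expansion of the modular
unit with coefficients in `K`, `ψ := dedekindPsi L`.

* `exists_relation_bar L` : a monic `P ∈ K[T][X]` of degree `ψ` with the Newton bounds and
  `P(j, u) = 0`;
* `hmin_bar L`            : `Q(j, u) = 0`, `deg_X Q < ψ` ⇒ `Q = 0` (Newton over `K`);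
* `exists_rep L`          : every `x ∈ F_L` is `Q(j, u) / g(j)` with `deg_X Q < ψ`
  (the `K`-version of `S28.GenQ.generation_lt`);
* `uK_mem L`              : `uK L ∈ F_L` (degree count with `[F_L : K(j)] = ψ` from S24).
-/
import Mathlib
import Fermat.Agent.S28.AFinal
import Fermat.Agent.S28.GenQ
import Fermat.Agent.S28.Newton
import Fermat.Agent.S28.RedHyp
import Fermat.Agent.S28.FormalU
import Fermat.Agent.S24.Degree
import Fermat.Agent.S18.GenusBar

set_option autoImplicit false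

noncomputable section

namespace Fermat.Agent.S18.GenBar

open Polynomial ModularCurve IntermediateField
open Fermat.Agent.S28 Fermat.Agent.S28.Chart

/-- The `q`-expansion of the modular unit of level `L`, with coefficients in `ℚ̄`. -/
def uK (L : ℕ) : LaurentSeries (AlgebraicClosure ℚ) :=
  coeffMap (Int.castRingHom (AlgebraicClosure ℚ)) (FormalU.uZ L)

theorem coeffEmb_jq : coeffEmb (AlgebraicClosure ℚ) jq = jqModC (AlgebraicClosure ℚ) := by
  rw [← jqModC_rat]
  exact map_jqModC (algebraMap ℚ (AlgebraicClosure ℚ))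

theorem Jser_one_bar :
    Fermat.Agent.S24.Jser (AlgebraicClosure ℚ) 1 = jqModC (AlgebraicClosure ℚ) := by
  rw [Fermat.Agent.S24.Degree.Jser_one, coeffEmb_jq]

theorem coeffEmb_uQ (L : ℕ) :
    coeffEmb (AlgebraicClosure ℚ) (coeffMap (Int.castRingHom ℚ) (FormalU.uZ L)) = uK L := by
  rw [coeffEmb, coeffMap_coeffMap, uK]
  exact coeffMap_congr (RingHom.ext_int _ _) _

/-- Base change of a two-variable evaluation from `ℚ` to `ℚ̄`. -/
theorem coeffEmb_eval₂ (L : ℕ) (G : ℚ[X][X]) :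
    coeffEmb (AlgebraicClosure ℚ)
        (G.eval₂ ((aeval jq : ℚ[X] →ₐ[ℚ] LaurentSeries ℚ) : ℚ[X] →+* LaurentSeries ℚ)
          (coeffMap (Int.castRingHom ℚ) (FormalU.uZ L)))
      = (G.map (mapRingHom (algebraMap ℚ (AlgebraicClosure ℚ)))).eval₂
          ((aeval (jqModC (AlgebraicClosure ℚ)) :
            (AlgebraicClosure ℚ)[X] →ₐ[AlgebraicClosure ℚ] LaurentSeries (AlgebraicClosure ℚ)) :
            (AlgebraicClosure ℚ)[X] →+* LaurentSeries (AlgebraicClosure ℚ)) (uK L) := by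
  rw [RedHyp.eval₂_aeval_eq_ev2, RedHyp.eval₂_aeval_eq_ev2]
  have h := RedHyp.coeffMap_ev2 (algebraMap ℚ (AlgebraicClosure ℚ)) jq
    (coeffMap (Int.castRingHom ℚ) (FormalU.uZ L)) G
  have e1 : coeffMap (algebraMap ℚ (AlgebraicClosure ℚ)) jq = jqModC (AlgebraicClosure ℚ) :=
    coeffEmb_jq
  have e2 : coeffMap (algebraMap ℚ (AlgebraicClosure ℚ))
      (coeffMap (Int.castRingHom ℚ) (FormalU.uZ L)) = uK L := coeffEmb_uQ L
  rw [e1, e2] at h
  exact h

/-- Base change of a one-variable evaluation from `ℚ` to `ℚ̄`. -/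
theorem coeffEmb_aeval (g : ℚ[X]) :
    coeffEmb (AlgebraicClosure ℚ) (aeval jq g)
      = aeval (jqModC (AlgebraicClosure ℚ)) (g.map (algebraMap ℚ (AlgebraicClosure ℚ))) := by
  rw [RedHyp.aeval_eq_ev1, RedHyp.aeval_eq_ev1]
  have h := RedHyp.coeffMap_ev1 (algebraMap ℚ (AlgebraicClosure ℚ)) jq g
  have e1 : coeffMap (algebraMap ℚ (AlgebraicClosure ℚ)) jq = jqModC (AlgebraicClosure ℚ) :=
    coeffEmb_jq
  rw [e1] at h
  exact h

/-- **The norm relation of the unit over `ℚ̄`.** -/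
theorem exists_relation_bar (L : ℕ) [NeZero L] :
    ∃ P : (AlgebraicClosure ℚ)[X][X], P.Monic ∧ P.natDegree = dedekindPsi L ∧
      (∀ i ≤ dedekindPsi L, (P.coeff i).natDegree ≤ (dedekindPsi L - i) * L.totient) ∧
      (∃ c : AlgebraicClosure ℚ, c ≠ 0 ∧ P.coeff 0 = C c) ∧
      P.eval₂ ((aeval (jqModC (AlgebraicClosure ℚ)) :
          (AlgebraicClosure ℚ)[X] →ₐ[AlgebraicClosure ℚ] LaurentSeries (AlgebraicClosure ℚ)) :
          (AlgebraicClosure ℚ)[X] →+* LaurentSeries (AlgebraicClosure ℚ)) (uK L) = 0 := by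
  obtain ⟨P, hmonic, hdeg, hbound, ⟨c, hc0, hc, -⟩, -, hroot⟩ := AFinal.exists_relation L
  have hinj : Function.Injective (mapRingHom (algebraMap ℚ (AlgebraicClosure ℚ))) :=
    Polynomial.map_injective _ (algebraMap ℚ (AlgebraicClosure ℚ)).injective
  refine ⟨P.map (mapRingHom (algebraMap ℚ (AlgebraicClosure ℚ))), hmonic.map _, ?_, ?_, ?_, ?_⟩
  · rw [natDegree_map_eq_of_injective hinj, hdeg]
  · intro i hi
    rw [coeff_map]
    exact (natDegree_map_le).trans (hbound i hi)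
  · refine ⟨algebraMap ℚ (AlgebraicClosure ℚ) c, ?_, ?_⟩
    · exact (_root_.map_ne_zero _).mpr hc0
    · rw [coeff_map, hc, coe_mapRingHom, map_C]
  · rw [← coeffEmb_eval₂, hroot, map_zero]

theorem jqModC_bar_ne_zero : jqModC (AlgebraicClosure ℚ) ≠ 0 :=
  RedHyp.jqModC_ne_zero (AlgebraicClosure ℚ)

theorem uK_coeff_of_lt (L : ℕ) [NeZero L] {n : ℤ}
    (hn : n < (L.totient : ℤ) * ((dedekindPsi L : ℤ) - 1)) : (uK L).coeff n = 0 := by
  rw [uK, coeffMap_coeff, FormalU.uZ_coeff_of_lt L hn, map_zero]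

/-- **Newton over `ℚ̄`**: `1, u, …, u^(ψ-1)` are linearly independent over `ℚ̄[j]`. -/
theorem hmin_bar (L : ℕ) [NeZero L] (Q : (AlgebraicClosure ℚ)[X][X])
    (hQ : Q.natDegree < dedekindPsi L)
    (h : Q.eval₂ ((aeval (jqModC (AlgebraicClosure ℚ)) :
          (AlgebraicClosure ℚ)[X] →ₐ[AlgebraicClosure ℚ] LaurentSeries (AlgebraicClosure ℚ)) :
          (AlgebraicClosure ℚ)[X] →+* LaurentSeries (AlgebraicClosure ℚ)) (uK L) = 0) :
    Q = 0 := by
  by_contra hQ0
  obtain ⟨P, hmonic, hdeg, hbound, hc, hroot⟩ := exists_relation_bar L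
  have := Newton.natDegree_le_of_order (Nat.totient_pos.mpr (NeZero.pos L)) hmonic hdeg hbound hc
    jqModC_bar_ne_zero (RedHyp.order_jqModC (AlgebraicClosure ℚ))
    (fun n hn => uK_coeff_of_lt L hn) hroot hQ0 h
  omega

/-- `j` is transcendental over `ℚ̄` (polynomial form). -/
theorem aeval_jqModC_bar_ne_zero {g : (AlgebraicClosure ℚ)[X]} (hg : g ≠ 0) :
    aeval (jqModC (AlgebraicClosure ℚ)) g ≠ 0 := by
  intro h
  have hinj := Newton.aeval_injective_of_order jqModC_bar_ne_zero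
    (RedHyp.order_jqModC (AlgebraicClosure ℚ))
  exact hg (hinj (by rw [h, map_zero]))

/-- The two-variable evaluation `K[T][X] → K((q))`, `T ↦ j`, `X ↦ u`. -/
abbrev evJ : (AlgebraicClosure ℚ)[X] →+* LaurentSeries (AlgebraicClosure ℚ) :=
  ((aeval (jqModC (AlgebraicClosure ℚ)) :
    (AlgebraicClosure ℚ)[X] →ₐ[AlgebraicClosure ℚ] LaurentSeries (AlgebraicClosure ℚ)) :
    (AlgebraicClosure ℚ)[X] →+* LaurentSeries (AlgebraicClosure ℚ))

/-- The field `K(j, u) ⊆ K((q))`. -/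
def EJU (L : ℕ) : IntermediateField (AlgebraicClosure ℚ) (LaurentSeries (AlgebraicClosure ℚ)) :=
  IntermediateField.adjoin (AlgebraicClosure ℚ) {jqModC (AlgebraicClosure ℚ), uK L}

theorem jq_mem_EJU (L : ℕ) : jqModC (AlgebraicClosure ℚ) ∈ EJU L :=
  IntermediateField.subset_adjoin _ _ (Set.mem_insert _ _)

theorem uK_mem_EJU (L : ℕ) : uK L ∈ EJU L :=
  IntermediateField.subset_adjoin _ _ (Set.mem_insert_of_mem _ rfl)

theorem evJ_mem_EJU (L : ℕ) (g : (AlgebraicClosure ℚ)[X]) : evJ g ∈ EJU L := by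
  have h : evJ g = (EJU L).val (aeval (⟨jqModC (AlgebraicClosure ℚ), jq_mem_EJU L⟩ : EJU L) g) :=
    (Polynomial.aeval_algHom_apply (EJU L).val
      (⟨jqModC (AlgebraicClosure ℚ), jq_mem_EJU L⟩ : EJU L) g)
  rw [h]
  exact (aeval (⟨jqModC (AlgebraicClosure ℚ), jq_mem_EJU L⟩ : EJU L) g).2

theorem eval₂_mem_EJU (L : ℕ) (Q : (AlgebraicClosure ℚ)[X][X]) :
    Q.eval₂ evJ (uK L) ∈ EJU L := by
  rw [eval₂_eq_sum_range]
  exact sum_mem fun i _ => mul_mem (evJ_mem_EJU L _) (pow_mem (uK_mem_EJU L) i)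

/-- `F_L ⊆ K(j, u)`: base change of the generation theorem of S28. -/
theorem bar_le_EJU (L : ℕ) [NeZero L] : modularFunctionFieldBar L ≤ EJU L := by
  refine IntermediateField.adjoin_le_iff.mpr ?_
  rintro _ ⟨x, hx, rfl⟩
  obtain ⟨g, Q, hg, h⟩ := GenQ.generation L x hx
  have h' := congrArg (coeffEmb (AlgebraicClosure ℚ)) h
  rw [map_mul, coeffEmb_aeval, coeffEmb_eval₂] at h'
  have hg' : g.map (algebraMap ℚ (AlgebraicClosure ℚ)) ≠ 0 :=
    (Polynomial.map_ne_zero_iff (algebraMap ℚ (AlgebraicClosure ℚ)).injective).mpr hg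
  have hne := aeval_jqModC_bar_ne_zero hg'
  have hx' : coeffEmb (AlgebraicClosure ℚ) x
      = (Q.map (mapRingHom (algebraMap ℚ (AlgebraicClosure ℚ)))).eval₂ evJ (uK L)
        / aeval (jqModC (AlgebraicClosure ℚ)) (g.map (algebraMap ℚ (AlgebraicClosure ℚ))) := by
    rw [eq_div_iff hne, mul_comm]
    exact h'
  show coeffEmb (AlgebraicClosure ℚ) x ∈ EJU L
  rw [hx']
  exact div_mem (eval₂_mem_EJU L _) (evJ_mem_EJU L _)

/-! ### The subfield `K(j)` and the degree of `u` over it -/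

/-- The field `K(j) ⊆ K((q))`. -/
def E0 : IntermediateField (AlgebraicClosure ℚ) (LaurentSeries (AlgebraicClosure ℚ)) :=
  IntermediateField.adjoin (AlgebraicClosure ℚ) {jqModC (AlgebraicClosure ℚ)}

theorem jq_mem_E0 : jqModC (AlgebraicClosure ℚ) ∈ E0 :=
  IntermediateField.mem_adjoin_simple_self _ _

/-- The coefficient homomorphism `K[T] → K(j)`, `T ↦ j`. -/
def phi0 : (AlgebraicClosure ℚ)[X] →+* ↥E0 :=
  ((aeval (⟨jqModC (AlgebraicClosure ℚ), jq_mem_E0⟩ : E0) :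
    (AlgebraicClosure ℚ)[X] →ₐ[AlgebraicClosure ℚ] E0) : (AlgebraicClosure ℚ)[X] →+* ↥E0)

theorem coe_phi0 (g : (AlgebraicClosure ℚ)[X]) :
    ((phi0 g : E0) : LaurentSeries (AlgebraicClosure ℚ)) = evJ g :=
  (Polynomial.aeval_algHom_apply E0.val
    (⟨jqModC (AlgebraicClosure ℚ), jq_mem_E0⟩ : E0) g).symm

theorem algebraMap_comp_phi0 :
    (algebraMap ↥E0 (LaurentSeries (AlgebraicClosure ℚ))).comp phi0 = evJ :=
  RingHom.ext fun g => coe_phi0 g

/-- `u` is a root of a monic polynomial of degree `ψ` over `K(j)`. -/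
theorem exists_monic_E0 (L : ℕ) [NeZero L] :
    ∃ p : (↥E0)[X], p.Monic ∧ p.natDegree = dedekindPsi L ∧ aeval (uK L) p = 0 := by
  obtain ⟨P, hmonic, hdeg, -, -, hroot⟩ := exists_relation_bar L
  refine ⟨P.map phi0, hmonic.map _, ?_, ?_⟩
  · rw [hmonic.natDegree_map, hdeg]
  · rw [aeval_def, eval₂_map, algebraMap_comp_phi0]
    exact hroot

theorem isIntegral_uK (L : ℕ) [NeZero L] : IsIntegral ↥E0 (uK L) := by
  obtain ⟨p, hp, -, h0⟩ := exists_monic_E0 L
  exact ⟨p, hp, h0⟩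

theorem natDegree_minpoly_uK_le (L : ℕ) [NeZero L] :
    (minpoly ↥E0 (uK L)).natDegree ≤ dedekindPsi L := by
  obtain ⟨p, hp, hdeg, h0⟩ := exists_monic_E0 L
  rw [← hdeg]
  exact natDegree_le_natDegree (minpoly.min ↥E0 (uK L) hp h0)

theorem EJU_eq (L : ℕ) :
    (IntermediateField.adjoin ↥E0 {uK L}).restrictScalars (AlgebraicClosure ℚ) = EJU L := by
  have h := IntermediateField.adjoin_adjoin_left (AlgebraicClosure ℚ)
    ({jqModC (AlgebraicClosure ℚ)} : Set (LaurentSeries (AlgebraicClosure ℚ))) {uK L}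
  rw [Set.singleton_union] at h
  exact h

/-! ### Representation `x = Q(j, u) / g(j)` with `deg_X Q < ψ` -/

/-- The set of series of the form `Q(j, u) / g(j)` with `deg_X Q < ψ`. -/
def RepSet (L : ℕ) : Set (LaurentSeries (AlgebraicClosure ℚ)) :=
  {y | ∃ (g : (AlgebraicClosure ℚ)[X]) (Q : (AlgebraicClosure ℚ)[X][X]), g ≠ 0 ∧
    Q.natDegree < dedekindPsi L ∧ evJ g * y = Q.eval₂ evJ (uK L)}

theorem zero_mem_repSet (L : ℕ) [NeZero L] : (0 : LaurentSeries (AlgebraicClosure ℚ)) ∈ RepSet L :=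
  ⟨1, 0, one_ne_zero, by
    rw [natDegree_zero]
    exact Fermat.Agent.S24.dedekindPsi_pos L, by rw [mul_zero, eval₂_zero]⟩

theorem add_mem_repSet (L : ℕ) {y₁ y₂ : LaurentSeries (AlgebraicClosure ℚ)}
    (h₁ : y₁ ∈ RepSet L) (h₂ : y₂ ∈ RepSet L) : y₁ + y₂ ∈ RepSet L := by
  obtain ⟨g₁, Q₁, hg₁, hQ₁, e₁⟩ := h₁
  obtain ⟨g₂, Q₂, hg₂, hQ₂, e₂⟩ := h₂
  refine ⟨g₁ * g₂, C g₂ * Q₁ + C g₁ * Q₂, mul_ne_zero hg₁ hg₂, ?_, ?_⟩
  · refine lt_of_le_of_lt (natDegree_add_le _ _) (max_lt ?_ ?_)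
    · exact lt_of_le_of_lt (natDegree_C_mul_le _ _) hQ₁
    · exact lt_of_le_of_lt (natDegree_C_mul_le _ _) hQ₂
  · rw [eval₂_add, eval₂_mul, eval₂_mul, eval₂_C, eval₂_C, ← e₁, ← e₂, map_mul]
    ring

theorem sum_mem_repSet (L : ℕ) [NeZero L] {ι : Type*} (s : Finset ι)
    (f : ι → LaurentSeries (AlgebraicClosure ℚ)) (h : ∀ i ∈ s, f i ∈ RepSet L) :
    ∑ i ∈ s, f i ∈ RepSet L := by
  classical
  induction s using Finset.induction_on with
  | empty =>
    rw [Finset.sum_empty]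
    exact zero_mem_repSet L
  | insert a s ha ih =>
    rw [Finset.sum_insert ha]
    exact add_mem_repSet L (h a (Finset.mem_insert_self a s))
      (ih fun i hi => h i (Finset.mem_insert_of_mem hi))

theorem term_mem_repSet (L : ℕ) [NeZero L] {c : LaurentSeries (AlgebraicClosure ℚ)}
    (hc : c ∈ E0) {i : ℕ} (hi : i < dedekindPsi L) : c * uK L ^ i ∈ RepSet L := by
  obtain ⟨r, s, hrs⟩ := (IntermediateField.mem_adjoin_simple_iff _ _).mp hc
  by_cases hs : aeval (jqModC (AlgebraicClosure ℚ)) s = 0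
  · rw [hs, div_zero] at hrs
    rw [hrs, zero_mul]
    exact zero_mem_repSet L
  · have hs0 : s ≠ 0 := by
      rintro rfl
      exact hs (map_zero _)
    refine ⟨s, C r * X ^ i, hs0, lt_of_le_of_lt (natDegree_C_mul_X_pow_le _ _) hi, ?_⟩
    rw [eval₂_mul, eval₂_C, eval₂_pow, eval₂_X, hrs]
    show aeval (jqModC (AlgebraicClosure ℚ)) s *
      (aeval (jqModC (AlgebraicClosure ℚ)) r / aeval (jqModC (AlgebraicClosure ℚ)) s * uK L ^ i)
      = aeval (jqModC (AlgebraicClosure ℚ)) r * uK L ^ i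
    field_simp

/-- Every element of `K(j)(u)` is of the form `Q(j, u) / g(j)` with `deg_X Q < ψ`. -/
theorem mem_repSet_of_mem_adjoin (L : ℕ) [NeZero L] {y : LaurentSeries (AlgebraicClosure ℚ)}
    (hy : y ∈ IntermediateField.adjoin ↥E0 {uK L}) : y ∈ RepSet L := by
  have hint := isIntegral_uK L
  obtain ⟨f, hf, hyf⟩ := (IntermediateField.adjoin.powerBasis hint).exists_eq_aeval
    (⟨y, hy⟩ : IntermediateField.adjoin ↥E0 {uK L})
  rw [IntermediateField.adjoin.powerBasis_dim] at hf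
  rw [IntermediateField.adjoin.powerBasis_gen] at hyf
  have hf' : f.natDegree < dedekindPsi L := lt_of_lt_of_le hf (natDegree_minpoly_uK_le L)
  have h1 : y = aeval (uK L) f := by
    have h2 := congrArg (IntermediateField.adjoin ↥E0 {uK L}).val hyf
    rw [← Polynomial.aeval_algHom_apply] at h2
    exact h2
  rw [h1, aeval_eq_sum_range' hf']
  refine sum_mem_repSet L _ _ fun i hi => ?_
  rw [Algebra.smul_def]
  exact term_mem_repSet L (f.coeff i).2 (Finset.mem_range.mp hi)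

/-- **Generation over `ℚ̄`** (with the degree bound): every `x ∈ F_L` satisfies
`g(j) x = Q(j, u)` with `0 ≠ g ∈ K[T]`, `Q ∈ K[T][X]` of `X`-degree `< ψ(L)`. -/
theorem exists_rep (L : ℕ) [NeZero L] (x : LaurentSeries (AlgebraicClosure ℚ))
    (hx : x ∈ modularFunctionFieldBar L) :
    ∃ (g : (AlgebraicClosure ℚ)[X]) (Q : (AlgebraicClosure ℚ)[X][X]), g ≠ 0 ∧
      Q.natDegree < dedekindPsi L ∧
      aeval (jqModC (AlgebraicClosure ℚ)) g * x
        = Q.eval₂ ((aeval (jqModC (AlgebraicClosure ℚ)) :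
          (AlgebraicClosure ℚ)[X] →ₐ[AlgebraicClosure ℚ] LaurentSeries (AlgebraicClosure ℚ)) :
          (AlgebraicClosure ℚ)[X] →+* LaurentSeries (AlgebraicClosure ℚ)) (uK L) := by
  have h1 : x ∈ EJU L := bar_le_EJU L hx
  rw [← EJU_eq L] at h1
  exact mem_repSet_of_mem_adjoin L h1

/-! ### `u ∈ F_L` -/

theorem coe_xgen_bar (L : ℕ) :
    ((Fermat.Agent.S24.xgen (AlgebraicClosure ℚ) L : modularFunctionFieldBar L) :
      LaurentSeries (AlgebraicClosure ℚ)) = jqModC (AlgebraicClosure ℚ) := by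
  rw [Fermat.Agent.S24.coe_xgen, Jser_one_bar]

theorem jq_mem_bar (L : ℕ) : jqModC (AlgebraicClosure ℚ) ∈ modularFunctionFieldBar L := by
  rw [← coe_xgen_bar L]
  exact (Fermat.Agent.S24.xgen (AlgebraicClosure ℚ) L).2

/-- `K(j)` as a subfield of `F_L` is the lift of `K⟮xgen⟯`. -/
theorem lift_adjoin_xgen (L : ℕ) :
    IntermediateField.lift
      ((AlgebraicClosure ℚ)⟮Fermat.Agent.S24.xgen (AlgebraicClosure ℚ) L⟯) = E0 := by
  rw [IntermediateField.lift_adjoin_simple, coe_xgen_bar]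
  rfl

theorem E0_le_bar (L : ℕ) : E0 ≤ modularFunctionFieldBar L := by
  rw [← lift_adjoin_xgen L]
  exact IntermediateField.lift_le _

/-- `[F_L : K(j)] = ψ(L)`, with `K(j)` and `F_L` as subfields of `K((q))`. -/
theorem finrank_E0_bar (L : ℕ) [NeZero L] :
    Module.finrank ↥E0 ↥(IntermediateField.extendScalars (E0_le_bar L)) = dedekindPsi L := by
  rw [← GenusBar.finrank_xgen_bar L]
  symm
  let i : ↥((AlgebraicClosure ℚ)⟮Fermat.Agent.S24.xgen (AlgebraicClosure ℚ) L⟯) ≃+* ↥E0 :=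
    ((IntermediateField.liftAlgEquiv
      ((AlgebraicClosure ℚ)⟮Fermat.Agent.S24.xgen (AlgebraicClosure ℚ) L⟯)).trans
      (IntermediateField.equivOfEq (lift_adjoin_xgen L))).toRingEquiv
  let j : ↥(modularFunctionFieldBar L) ≃+* ↥(IntermediateField.extendScalars (E0_le_bar L)) :=
    { toFun := fun x => ⟨x.1, x.2⟩
      invFun := fun x => ⟨x.1, x.2⟩
      left_inv := fun _ => rfl
      right_inv := fun _ => rfl
      map_mul' := fun _ _ => rfl
      map_add' := fun _ _ => rfl }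
  refine Algebra.finrank_eq_of_equiv_equiv i j ?_
  ext y
  rfl

/-- **The unit lies in the function field**: `u ∈ F_L`. -/
theorem uK_mem (L : ℕ) [NeZero L] : uK L ∈ modularFunctionFieldBar L := by
  have hint := isIntegral_uK L
  have hle : IntermediateField.extendScalars (E0_le_bar L) ≤ IntermediateField.adjoin ↥E0 {uK L} := by
    intro x hx
    have h1 : x ∈ EJU L := bar_le_EJU L hx
    rw [← EJU_eq L] at h1
    exact h1
  haveI : FiniteDimensional ↥E0 ↥(IntermediateField.adjoin ↥E0 {uK L}) :=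
    IntermediateField.adjoin.finiteDimensional hint
  have hfin : Module.finrank ↥E0 ↥(IntermediateField.adjoin ↥E0 {uK L})
      ≤ Module.finrank ↥E0 ↥(IntermediateField.extendScalars (E0_le_bar L)) := by
    rw [finrank_E0_bar L, IntermediateField.adjoin.finrank hint]
    exact natDegree_minpoly_uK_le L
  have heq := IntermediateField.eq_of_le_of_finrank_le hle hfin
  have hu : uK L ∈ IntermediateField.extendScalars (E0_le_bar L) := by
    rw [heq]
    exact IntermediateField.mem_adjoin_simple_self _ _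
  exact hu

/-- `F_L = K(j, u)`. -/
theorem bar_eq_EJU (L : ℕ) [NeZero L] : modularFunctionFieldBar L = EJU L :=
  le_antisymm (bar_le_EJU L)
    (IntermediateField.adjoin_le_iff.mpr (by
      rintro x (rfl | rfl)
      · exact jq_mem_bar L
      · exact uK_mem L))

end Fermat.Agent.S18.GenBar

end
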