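import Mathlib
import Fermat.Agent.RR.Defs
import Fermat.Agent.RR.RiemannFacts
import Fermat.Agent.S24.FFBasic
import Fermat.Agent.S24.Principal

/-!
# S18 / GenusGe (E0): a function field of genus `0` is rational

For a function field `F / K` satisfying the place facts `RR.PlaceFacts K F` (any characteristic)
with `dim_K H¹(0) = 0` and a place `P`: there is `t : F` with `K(t) = F` whose only pole is `P`
(a simple pole).  Then the places of `F` are `P` and, for every `a : K`, the unique zero of
`t - a` (the places of `K(t)` are the points of the projective line).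
-/

set_option autoImplicit false

noncomputable section

namespace Fermat.Agent.S18.GenusGe

open AlgebraicCurve IntermediateField

variable {K F : Type*} [Field K] [Field F] [Algebra K F]

/-- A transcendental function has a pole. -/
theorem exists_pole (hP : Fermat.Agent.RR.PlaceFacts K F) {f : F} (hf : Transcendental K f) :
    ∃ v : Place K F, v.ord f < 0 := by
  by_contra hno
  have hf' : Transcendental K f⁻¹ := Fermat.Agent.S24.Principal.transcendental_inv hf
  have hfd := hP.hfd f⁻¹ hf'
  have hsum := hP.hsum f⁻¹ hf'
  have hpos : 0 < Module.finrank K⟮f⁻¹⟯ F := Module.finrank_pos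
  have hempty : {v : Place K F | 0 < v.ord f⁻¹} = ∅ :=
    Set.eq_empty_of_forall_notMem fun v hv => hno ⟨v, by
      have h1 : 0 < v.ord f⁻¹ := hv
      rw [v.ord_inv] at h1
      omega⟩
  rw [hempty, finsum_mem_empty] at hsum
  have : (Module.finrank K⟮f⁻¹⟯ F : ℤ) = 0 := hsum.symm
  omega

/-- `t` is a rational generator of `F / K` with its (simple) pole at `P`. -/
structure IsRatGen (P : Place K F) (t : F) : Prop where
  tr : Transcendental K t
  top : K⟮t⟯ = ⊤
  pole : P.ord t = -1
  reg : ∀ v : Place K F, v ≠ P → 0 ≤ v.ord t

/-- **Genus zero implies rational.** -/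
theorem exists_isRatGen (hP : Fermat.Agent.RR.PlaceFacts K F)
    (h0 : Module.finrank K (H1 (0 : Divisor K F)) = 0) (P : Place K F) :
    ∃ t : F, IsRatGen P t := by
  classical
  have hR := Fermat.Agent.RR.riemannFacts_of_placeFacts hP
  set D : Divisor K F := Finsupp.single P 1 with hD
  have hdeg : Divisor.degree D = 1 := by
    rw [hD, Divisor.degree_single, hP.hdeg P]; norm_num
  have hriem := hR.riemann D
  rw [hdeg, h0] at hriem
  have := hR.finite_L D
  have h2 : 1 < Module.finrank K (riemannRochSpace D) := by
    have : (0 : ℤ) ≤ (Module.finrank K (H1 D) : ℤ) := Int.natCast_nonneg _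
    have h3 : (2 : ℤ) ≤ (Module.finrank K (riemannRochSpace D) : ℤ) := by
      push_cast at hriem; linarith
    omega
  -- `1 ∈ L(P)`
  have hone : (1 : F) ∈ riemannRochSpace D := by
    rw [mem_riemannRochSpace_iff]
    intro v
    right
    rw [Place.ord_one, hD]
    by_cases hv : v = P
    · subst hv; simp
    · rw [Finsupp.single_apply, if_neg (Ne.symm hv)]; simp
  have hone0 : (⟨1, hone⟩ : riemannRochSpace D) ≠ 0 := by
    intro h
    exact one_ne_zero (congrArg Subtype.val h)
  obtain ⟨y, hy⟩ := exists_linearIndependent_pair_of_one_lt_finrank h2 hone0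
  set t : F := (y : F) with ht
  have htmem : t ∈ riemannRochSpace D := y.2
  -- `t` is not a constant
  have hnc : ∀ c : K, t ≠ algebraMap K F c := by
    intro c hc
    have hdep := LinearIndependent.pair_iff.mp hy (-c) 1 (by
      apply Subtype.ext
      show (-c) • (1 : F) + (1 : K) • (y : F) = 0
      rw [← ht, hc, Algebra.smul_def, mul_one, one_smul, map_neg, neg_add_cancel])
    exact one_ne_zero hdep.2
  have ht0 : t ≠ 0 := fun h => hnc 0 (by rw [h, map_zero])
  -- `t` is transcendental
  have htr : Transcendental K t := by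
    intro halg
    have hmem0 : t ∈ riemannRochSpace (0 : Divisor K F) := by
      rw [mem_riemannRochSpace_iff]
      intro v
      right
      rw [Fermat.Agent.S24.Principal.ord_eq_zero_of_isAlgebraic v halg]
      simp
    have hone' : (1 : F) ∈ riemannRochSpace (0 : Divisor K F) := by
      rw [mem_riemannRochSpace_iff]
      intro v
      right
      simp
    have hne : (⟨1, hone'⟩ : riemannRochSpace (0 : Divisor K F)) ≠ 0 := by
      intro h
      exact one_ne_zero (congrArg Subtype.val h)
    obtain ⟨c, hc⟩ := (finrank_eq_one_iff_of_nonzero' _ hne).mp hR.finrank_L_zero ⟨t, hmem0⟩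
    apply hnc c
    have := congrArg Subtype.val hc
    simp only [SetLike.val_smul] at this
    rw [← this, Algebra.smul_def, mul_one]
  have hord : ∀ v : Place K F, -D v ≤ v.ord t := fun v =>
    ((mem_riemannRochSpace_iff.mp htmem) v).resolve_left ht0
  have hreg : ∀ v : Place K F, v ≠ P → 0 ≤ v.ord t := by
    intro v hv
    have := hord v
    rw [hD, Finsupp.single_apply, if_neg (Ne.symm hv)] at this
    simpa using this
  have hPge : -1 ≤ P.ord t := by
    have := hord P
    rw [hD, Finsupp.single_eq_same] at this
    exact this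
  obtain ⟨v₀, hv₀⟩ := exists_pole hP htr
  have hv₀P : v₀ = P := by
    by_contra hne
    have := hreg v₀ hne
    omega
  have hpole : P.ord t = -1 := by
    rw [hv₀P] at hv₀; omega
  -- degree
  have htr' : Transcendental K t⁻¹ := Fermat.Agent.S24.Principal.transcendental_inv htr
  have hsum := hP.hsum t⁻¹ htr'
  have hset : {v : Place K F | 0 < v.ord t⁻¹} = {P} := by
    ext v
    simp only [Set.mem_ofPred_eq, Set.mem_singleton_iff, Place.ord_inv]
    constructor
    · intro hv
      by_contra hne
      have := hreg v hne
      omega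
    · rintro rfl
      omega
  rw [hset, finsum_mem_singleton, Place.ord_inv, hpole,
    Fermat.Agent.S24.Principal.adjoin_inv_eq] at hsum
  have hfin1 : Module.finrank K⟮t⟯ F = 1 := by
    have : (Module.finrank K⟮t⟯ F : ℤ) = 1 := by rw [← hsum]; norm_num
    exact_mod_cast this
  have := hP.hfd t htr
  exact ⟨t, htr, IntermediateField.finrank_eq_one_iff_eq_top.mp hfin1, hpole, hreg⟩

namespace IsRatGen

variable {P : Place K F} {t : F}

theorem tr_sub (h : IsRatGen P t) (a : K) : Transcendental K (t - algebraMap K F a) := by
  intro halg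
  apply h.tr
  have : t = (t - algebraMap K F a) + algebraMap K F a := by ring
  rw [this]
  exact halg.add (isAlgebraic_algebraMap a)

theorem adjoin_sub (t : F) (a : K) : K⟮t - algebraMap K F a⟯ = K⟮t⟯ := by
  apply le_antisymm
  · rw [adjoin_simple_le_iff]
    exact sub_mem (mem_adjoin_simple_self K t) (IntermediateField.algebraMap_mem _ a)
  · rw [adjoin_simple_le_iff]
    have h1 := mem_adjoin_simple_self K (t - algebraMap K F a)
    have h2 : algebraMap K F a ∈ K⟮t - algebraMap K F a⟯ := IntermediateField.algebraMap_mem _ a
    have := add_mem h1 h2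
    rwa [sub_add_cancel] at this

theorem finrank_top_eq_one : Module.finrank (⊤ : IntermediateField K F) F = 1 :=
  IntermediateField.finrank_eq_one_iff_eq_top.mpr rfl

/-- For every value `a : K` the function `t - a` has exactly one zero. -/
theorem existsUnique_zero (hP : Fermat.Agent.RR.PlaceFacts K F) (h : IsRatGen P t) (a : K) :
    ∃! v : Place K F, 0 < v.ord (t - algebraMap K F a) := by
  classical
  have htr := h.tr_sub a
  have hfin := hP.hfin _ htr
  have hsum := hP.hsum _ htr
  rw [adjoin_sub, h.top, finrank_top_eq_one, finsum_mem_eq_finite_toFinset_sum _ hfin] at hsum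
  have hpos : ∀ v ∈ hfin.toFinset, 1 ≤ v.ord (t - algebraMap K F a) := by
    intro v hv
    have : 0 < v.ord (t - algebraMap K F a) := by simpa using hv
    omega
  have hcard : (hfin.toFinset.card : ℤ) ≤ 1 := by
    have := Finset.card_nsmul_le_sum hfin.toFinset _ 1 hpos
    rw [hsum] at this
    simpa using this
  have hne : hfin.toFinset.Nonempty := by
    by_contra hemp
    rw [Finset.not_nonempty_iff_eq_empty] at hemp
    rw [hemp, Finset.sum_empty] at hsum
    norm_num at hsum
  obtain ⟨v, hv⟩ := hne
  refine ⟨v, by simpa using hv, fun v' hv' => ?_⟩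
  have hv'mem : v' ∈ hfin.toFinset := by simpa using hv'
  have hc1 : hfin.toFinset.card ≤ 1 := by exact_mod_cast hcard
  exact Finset.card_le_one.mp hc1 v' hv'mem v hv

/-- Every place other than `P` is the zero of `t - a` for a unique value `a`. -/
theorem existsUnique_value (hP : Fermat.Agent.RR.PlaceFacts K F) (h : IsRatGen P t)
    (v : Place K F) (hv : v ≠ P) : ∃! a : K, 0 < v.ord (t - algebraMap K F a) := by
  have hmem : t ∈ v.toValuationSubring := Fermat.Agent.S24.mem_of_ord_nonneg v (h.reg v hv)
  obtain ⟨a, ha⟩ := hP.hres v t hmem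
  have ha' : 0 < v.ord (t - algebraMap K F a) := by
    rcases ha with ha | ha
    · exact ha
    · exact absurd (ha ▸ isAlgebraic_algebraMap (R := K) (A := F) a : IsAlgebraic K t) h.tr
  refine ⟨a, ha', fun b hb => ?_⟩
  by_contra hne
  have hab : algebraMap K F (a - b) = (t - algebraMap K F b) - (t - algebraMap K F a) := by
    rw [map_sub]; ring
  have hab0 : algebraMap K F (a - b) ≠ 0 := by
    rw [Ne, map_eq_zero, sub_eq_zero]
    exact fun h => hne h.symm
  have h0 : v.ord (algebraMap K F (a - b)) = 0 := Fermat.Agent.S24.ord_algebraMap v _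
  have hge := Fermat.Agent.S24.ord_add_ge v
    (f := t - algebraMap K F b) (g := -(t - algebraMap K F a)) (by rw [← sub_eq_add_neg, ← hab]; exact hab0)
  rw [← sub_eq_add_neg, ← hab, h0, Fermat.Agent.S24.ord_neg] at hge
  have := le_min hb.le ha'.le
  rcases min_le_iff.mp hge with h1 | h1 <;> omega

end IsRatGen

end Fermat.Agent.S18.GenusGe

end
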