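import Mathlib
import Fermat.Prelude.Def_AlgebraicCurve_DivisorPushPull
import Fermat.Agent.S18.GenusGeRat

/-!
# S18 / GenusGe (E1): the genus lower bound from Riemann–Hurwitz over a genus-zero base

`F0 ⊆ F` function fields over `K` (any characteristic), `F0` of genus `0`, `j : F0`
transcendental.  Put the pole of a rational generator `t` of `F0` at a pole of `j`; the poles of
`j` in `F0` are then `t = ∞` and `t = a`, `a ∈ S`, with `#S + 1 = c0` (the number of poles of `j`
in `F0`), and the poles of `j` in `F` are exactly the places of `F` over these points.  Feeding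
this set of points into the Riemann–Hurwitz inequality for `F / K(t)` (hypothesis `hRH`, the
shape of `S18/RHIneq`) gives

  `n * c0 - c - 2 n ≤ 2 * dim H¹(0) - 2`,  `n = [F : F0]`, `c = #{poles of j in F}`.
-/

set_option autoImplicit false

noncomputable section

namespace Fermat.Agent.S18.GenusGe

open AlgebraicCurve IntermediateField

variable {K F0 F : Type*} [Field K] [Field F0] [Field F] [Algebra K F0] [Algebra K F]
  [Algebra F0 F] [IsScalarTower K F0 F]

/-- Signs of orders are preserved by restriction of places. -/
theorem ord_restrict_pos_iff [Algebra.IsIntegral F0 F] (w : Place K F) (f : F0) :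
    0 < w.ord (algebraMap F0 F f) ↔ 0 < (w.restrict F0).ord f := by
  rw [w.ord_restrict f]
  have he : (0 : ℤ) < (Place.ramificationIndex (F := F0) w : ℤ) := by
    exact_mod_cast w.ramificationIndex_pos (F := F0)
  exact mul_pos_iff_of_pos_left he

theorem ord_restrict_neg_iff [Algebra.IsIntegral F0 F] (w : Place K F) (f : F0) :
    w.ord (algebraMap F0 F f) < 0 ↔ (w.restrict F0).ord f < 0 := by
  rw [w.ord_restrict f]
  have he : (0 : ℤ) < (Place.ramificationIndex (F := F0) w : ℤ) := by
    exact_mod_cast w.ramificationIndex_pos (F := F0)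
  constructor
  · intro h
    by_contra hcon
    have : 0 ≤ (Place.ramificationIndex (F := F0) w : ℤ) * (w.restrict F0).ord f :=
      mul_nonneg he.le (not_lt.mp hcon)
    omega
  · intro h
    exact mul_neg_of_pos_of_neg he h

theorem transcendental_algebraMap {t : F0} (ht : Transcendental K t) :
    Transcendental K (algebraMap F0 F t) := by
  intro halg
  exact ht ((isAlgebraic_algebraMap_iff (algebraMap F0 F).injective).mp halg)

/-- If `K(t0) = F0` then `[F : K(t0)] = [F : F0]`. -/
theorem finrank_adjoin_algebraMap (t0 : F0) (h : K⟮t0⟯ = ⊤) :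
    Module.finrank K⟮algebraMap F0 F t0⟯ F = Module.finrank F0 F := by
  have hmap : K⟮algebraMap F0 F t0⟯ = (IsScalarTower.toAlgHom K F0 F).fieldRange := by
    have h1 := IntermediateField.adjoin_map K {t0} (IsScalarTower.toAlgHom K F0 F)
    rw [h, Set.image_singleton] at h1
    rw [← AlgHom.fieldRange_eq_map] at h1
    exact h1.symm
  rw [hmap]
  let e : F0 ≃+* (IsScalarTower.toAlgHom K F0 F).fieldRange :=
    (AlgEquiv.ofInjectiveField (IsScalarTower.toAlgHom K F0 F)).toRingEquiv
  symm
  refine Algebra.finrank_eq_of_equiv_equiv e (RingEquiv.refl F) ?_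
  ext x
  rfl

/-- **The genus lower bound** (abstract form of step (E) of route M). -/
theorem genus_ge [Algebra.IsIntegral F0 F]
    (hP0 : Fermat.Agent.RR.PlaceFacts K F0) (hP : Fermat.Agent.RR.PlaceFacts K F)
    (h0 : Module.finrank K (H1 (0 : Divisor K F0)) = 0)
    (j : F0) (hj : Transcendental K j)
    (hRH : ∀ t0 : F0, Transcendental K t0 → K⟮t0⟯ = ⊤ → ∀ S : Finset K,
      ∑ a ∈ S, ((Module.finrank F0 F : ℤ)
          - Nat.card {w : Place K F // 0 < w.ord (algebraMap F0 F t0 - algebraMap K F a)})
        + ((Module.finrank F0 F : ℤ)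
          - Nat.card {w : Place K F // w.ord (algebraMap F0 F t0) < 0})
        - 2 * (Module.finrank F0 F : ℤ)
        ≤ 2 * (Module.finrank K (H1 (0 : Divisor K F)) : ℤ) - 2) :
    (Module.finrank F0 F : ℤ) * Nat.card {v : Place K F0 // v.ord j < 0}
        - Nat.card {w : Place K F // w.ord (algebraMap F0 F j) < 0}
        - 2 * (Module.finrank F0 F : ℤ)
      ≤ 2 * (Module.finrank K (H1 (0 : Divisor K F)) : ℤ) - 2 := by
  classical
  -- the poles of `j` on `F0`
  have hjinv : Transcendental K j⁻¹ := Fermat.Agent.S24.Principal.transcendental_inv hj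
  have hPjfin : {v : Place K F0 | v.ord j < 0}.Finite := by
    refine (hP0.hfin j⁻¹ hjinv).subset ?_
    intro v hv
    have h1 : v.ord j < 0 := hv
    show 0 < v.ord j⁻¹
    rw [v.ord_inv]; omega
  obtain ⟨P, hPj⟩ := exists_pole hP0 hj
  obtain ⟨t, ht⟩ := exists_isRatGen hP0 h0 P
  -- the value of `t` at a place `≠ P`
  let valOf : Place K F0 → K := fun v =>
    if hv : v = P then 0 else (ht.existsUnique_value hP0 v hv).choose
  have hvalOf : ∀ v : Place K F0, v ≠ P → 0 < v.ord (t - algebraMap K F0 (valOf v)) := by
    intro v hv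
    simp only [valOf, dif_neg hv]
    exact (ht.existsUnique_value hP0 v hv).choose_spec.1
  -- uniqueness of the zero of `t - a`
  have hzero_unique : ∀ (a : K) (v v' : Place K F0), 0 < v.ord (t - algebraMap K F0 a) →
      0 < v'.ord (t - algebraMap K F0 a) → v = v' := by
    intro a v v' hv hv'
    exact (ht.existsUnique_zero hP0 a).unique hv hv'
  set Pj : Finset (Place K F0) := hPjfin.toFinset with hPjdef
  have hPmem : P ∈ Pj := by rw [hPjdef, Set.Finite.mem_toFinset]; exact hPj
  set S : Finset K := (Pj.erase P).image valOf with hSdef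
  have hinj : Set.InjOn valOf (Pj.erase P : Set (Place K F0)) := by
    intro v hv v' hv' hvv
    have hvP : v ≠ P := (Finset.mem_erase.mp hv).1
    have hv'P : v' ≠ P := (Finset.mem_erase.mp hv').1
    refine hzero_unique (valOf v) v v' (hvalOf v hvP) ?_
    rw [hvv]
    exact hvalOf v' hv'P
  have hScard : (S.card : ℤ) + 1 = Pj.card := by
    rw [hSdef, Finset.card_image_of_injOn hinj, Finset.card_erase_of_mem hPmem]
    have : 0 < Pj.card := Finset.card_pos.mpr ⟨P, hPmem⟩
    omega
  have hc0 : Nat.card {v : Place K F0 // v.ord j < 0} = Pj.card :=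
    Nat.subtype_card Pj fun v => by rw [hPjdef, Set.Finite.mem_toFinset]; rfl
  -- the places of `F`
  set T : F := algebraMap F0 F t with hT
  have hTtr : Transcendental K T := transcendental_algebraMap ht.tr
  have hJtr : Transcendental K (algebraMap F0 F j) := transcendental_algebraMap hj
  have hfinJ : {w : Place K F | w.ord (algebraMap F0 F j) < 0}.Finite := by
    refine (hP.hfin (algebraMap F0 F j)⁻¹
      (Fermat.Agent.S24.Principal.transcendental_inv hJtr)).subset ?_
    intro w hw
    have h1 : w.ord (algebraMap F0 F j) < 0 := hw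
    show 0 < w.ord (algebraMap F0 F j)⁻¹
    rw [w.ord_inv]; omega
  have hfinT : {w : Place K F | w.ord T < 0}.Finite := by
    refine (hP.hfin T⁻¹ (Fermat.Agent.S24.Principal.transcendental_inv hTtr)).subset ?_
    intro w hw
    have h1 : w.ord T < 0 := hw
    show 0 < w.ord T⁻¹
    rw [w.ord_inv]; omega
  have hTsub : ∀ a : K, T - algebraMap K F a = algebraMap F0 F (t - algebraMap K F0 a) := by
    intro a
    rw [map_sub, ← IsScalarTower.algebraMap_apply]
  have hfinA : ∀ a : K, {w : Place K F | 0 < w.ord (T - algebraMap K F a)}.Finite := by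
    intro a
    refine hP.hfin _ ?_
    rw [hTsub]
    exact transcendental_algebraMap (ht.tr_sub a)
  -- the decomposition of the poles of `j` on `F`
  have hdecomp : hfinJ.toFinset = hfinT.toFinset ∪ S.biUnion fun a => (hfinA a).toFinset := by
    ext w
    simp only [Set.Finite.mem_toFinset, Set.mem_ofPred_eq, Finset.mem_union, Finset.mem_biUnion]
    constructor
    · intro hw
      have hw0 : (w.restrict F0).ord j < 0 := (ord_restrict_neg_iff w j).mp hw
      by_cases hres : w.restrict F0 = P
      · left
        rw [hT, ord_restrict_neg_iff, hres, ht.pole]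
        norm_num
      · right
        refine ⟨valOf (w.restrict F0), ?_, ?_⟩
        · rw [hSdef, Finset.mem_image]
          refine ⟨w.restrict F0, Finset.mem_erase.mpr ⟨hres, ?_⟩, rfl⟩
          rw [hPjdef, Set.Finite.mem_toFinset]
          exact hw0
        · rw [hTsub, ord_restrict_pos_iff]
          exact hvalOf _ hres
    · rintro (hw | ⟨a, haS, hw⟩)
      · rw [hT, ord_restrict_neg_iff] at hw
        have hres : w.restrict F0 = P := by
          by_contra hne
          have := ht.reg _ hne
          omega
        rw [ord_restrict_neg_iff, hres]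
        exact hPj
      · rw [hSdef, Finset.mem_image] at haS
        obtain ⟨v, hv, rfl⟩ := haS
        have hvP : v ≠ P := (Finset.mem_erase.mp hv).1
        have hvPj : v ∈ Pj := (Finset.mem_erase.mp hv).2
        rw [hTsub, ord_restrict_pos_iff] at hw
        have hres : w.restrict F0 = v := hzero_unique (valOf v) _ _ hw (hvalOf v hvP)
        rw [ord_restrict_neg_iff, hres]
        rw [hPjdef, Set.Finite.mem_toFinset] at hvPj
        exact hvPj
  -- disjointness
  have hdisj1 : Disjoint hfinT.toFinset (S.biUnion fun a => (hfinA a).toFinset) := by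
    rw [Finset.disjoint_left]
    intro w hw1 hw2
    simp only [Set.Finite.mem_toFinset, Set.mem_ofPred_eq, Finset.mem_biUnion] at hw1 hw2
    obtain ⟨a, -, ha⟩ := hw2
    rw [Fermat.Agent.S24.ord_sub_algebraMap_of_neg w hw1 a] at ha
    omega
  have hdisj2 : (S : Set K).PairwiseDisjoint fun a => (hfinA a).toFinset := by
    intro a _ b _ hab
    show Disjoint (hfinA a).toFinset (hfinA b).toFinset
    rw [Finset.disjoint_left]
    intro w hwa hwb
    simp only [Set.Finite.mem_toFinset, Set.mem_ofPred_eq] at hwa hwb
    rw [hTsub, ord_restrict_pos_iff] at hwa hwb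
    have h1 := hzero_unique a _ _ hwa ((ht.existsUnique_zero hP0 a).exists.choose_spec)
    -- the restricted place determines the value
    have hres : w.restrict F0 ≠ P := by
      intro hres
      rw [hres] at hwa
      have := Fermat.Agent.S24.ord_sub_algebraMap_of_neg P (f := t) (by rw [ht.pole]; norm_num) a
      rw [this, ht.pole] at hwa
      omega
    exact hab ((ht.existsUnique_value hP0 _ hres).unique hwa hwb)
  have hcardJ : Nat.card {w : Place K F // w.ord (algebraMap F0 F j) < 0}
      = hfinT.toFinset.card + ∑ a ∈ S, (hfinA a).toFinset.card := by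
    rw [Nat.subtype_card hfinJ.toFinset (fun w => by rw [Set.Finite.mem_toFinset]; rfl), hdecomp,
      Finset.card_union_of_disjoint hdisj1, Finset.card_biUnion hdisj2]
  have hcardT : Nat.card {w : Place K F // w.ord T < 0} = hfinT.toFinset.card :=
    Nat.subtype_card _ fun w => by rw [Set.Finite.mem_toFinset]; rfl
  have hcardA : ∀ a : K, Nat.card {w : Place K F // 0 < w.ord (T - algebraMap K F a)}
      = (hfinA a).toFinset.card := fun a =>
    Nat.subtype_card _ fun w => by rw [Set.Finite.mem_toFinset]; rfl
  have key := hRH t ht.tr ht.top S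
  rw [← hT] at key
  simp only [hcardT, hcardA] at key
  rw [Finset.sum_sub_distrib, Finset.sum_const, nsmul_eq_mul] at key
  rw [hc0, hcardJ, ← hScard]
  push_cast
  linarith

end Fermat.Agent.S18.GenusGe

end
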