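import Mathlib
import Fermat.Agent.RR.Defs
import Fermat.Agent.S24.FFBasic
import Fermat.Agent.S24.Principal

/-!
# S18 / RHCount: the counting half of the Riemann–Hurwitz inequality (any characteristic)

`F / K` a function field with `RR.PlaceFacts`, `t : F` transcendental, `n = [F : K(t)]`.
Let `W` be any divisor with

* `ord_v (t - a) - 1 ≤ W v` whenever `0 < ord_v (t - a)` (`a : K`), and
* `ord_v t - 1 ≤ W v` whenever `ord_v t < 0`

(for `W = div (dt)` these are the Dedekind different bounds).  Then for every finite set `S` of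
values `a : K`

  `∑ a ∈ S, (n - #{v | 0 < ord_v (t - a)}) + (n - #{v | ord_v t < 0}) - 2 n ≤ deg W`.

No differentials occur here; this is pure counting with the fundamental identity `hsum`.
-/

set_option autoImplicit false

noncomputable section

namespace Fermat.Agent.S18.RHCount

open AlgebraicCurve IntermediateField Fermat.Agent.RR Fermat.Agent.S24

variable {K F : Type*} [Field K] [Field F] [Algebra K F]

/-- The fibre of `t` over the value `a`: the places where `t - a` vanishes. -/
def fib (t : F) (a : K) : Set (Place K F) := {v | 0 < v.ord (t - algebraMap K F a)}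

/-- The poles of `t`. -/
def poles (t : F) : Set (Place K F) := {v | v.ord t < 0}

theorem mem_fib {t : F} {a : K} {v : Place K F} :
    v ∈ fib t a ↔ 0 < v.ord (t - algebraMap K F a) := Iff.rfl

theorem mem_poles {t : F} {v : Place K F} : v ∈ poles t ↔ v.ord t < 0 := Iff.rfl

theorem transcendental_sub {t : F} (ht : Transcendental K t) (a : K) :
    Transcendental K (t - algebraMap K F a) := by
  intro h
  apply ht
  have h2 : IsAlgebraic K (t - algebraMap K F a + algebraMap K F a) :=
    h.add (isAlgebraic_algebraMap a)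
  rwa [sub_add_cancel] at h2

theorem adjoin_sub_eq (t : F) (a : K) : K⟮t - algebraMap K F a⟯ = K⟮t⟯ := by
  apply le_antisymm
  · rw [adjoin_simple_le_iff]
    exact sub_mem (mem_adjoin_simple_self K t) (IntermediateField.algebraMap_mem _ a)
  · rw [adjoin_simple_le_iff]
    have h := add_mem (mem_adjoin_simple_self K (t - algebraMap K F a))
      (IntermediateField.algebraMap_mem K⟮t - algebraMap K F a⟯ a)
    rwa [sub_add_cancel] at h

theorem poles_eq (t : F) : poles t = {v : Place K F | 0 < v.ord t⁻¹} := by
  ext v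
  show v.ord t < 0 ↔ 0 < v.ord t⁻¹
  rw [v.ord_inv]
  omega

theorem fib_finite (hP : PlaceFacts K F) {t : F} (ht : Transcendental K t) (a : K) :
    (fib t a).Finite :=
  hP.hfin _ (transcendental_sub ht a)

theorem poles_finite (hP : PlaceFacts K F) {t : F} (ht : Transcendental K t) :
    (poles (K := K) t).Finite := by
  have h := hP.hfin t⁻¹ (Principal.transcendental_inv ht)
  rwa [← poles_eq] at h

/-- The fundamental identity on the fibre over `a`. -/
theorem sum_fib (hP : PlaceFacts K F) {t : F} (ht : Transcendental K t) (a : K) :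
    ∑ v ∈ (fib_finite hP ht a).toFinset, v.ord (t - algebraMap K F a)
      = (Module.finrank K⟮t⟯ F : ℤ) := by
  have h : ∑ᶠ v ∈ fib t a, v.ord (t - algebraMap K F a)
      = (Module.finrank K⟮t - algebraMap K F a⟯ F : ℤ) :=
    hP.hsum _ (transcendental_sub ht a)
  rw [adjoin_sub_eq, finsum_mem_eq_finite_toFinset_sum _ (fib_finite hP ht a)] at h
  exact h

/-- The fundamental identity on the poles. -/
theorem sum_poles (hP : PlaceFacts K F) {t : F} (ht : Transcendental K t) :
    ∑ v ∈ (poles_finite hP ht).toFinset, v.ord t = -(Module.finrank K⟮t⟯ F : ℤ) := by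
  have hfin : {v : Place K F | 0 < v.ord t⁻¹}.Finite :=
    hP.hfin t⁻¹ (Principal.transcendental_inv ht)
  have h := hP.hsum t⁻¹ (Principal.transcendental_inv ht)
  rw [Principal.adjoin_inv_eq, finsum_mem_eq_finite_toFinset_sum _ hfin] at h
  have hset : (poles_finite hP ht).toFinset = hfin.toFinset := by
    ext v
    rw [Set.Finite.mem_toFinset, Set.Finite.mem_toFinset, poles_eq]
  rw [hset, ← h, ← Finset.sum_neg_distrib]
  refine Finset.sum_congr rfl fun v _ => ?_
  rw [v.ord_inv, neg_neg]

theorem fib_disjoint (t : F) {a b : K} (hab : a ≠ b) : Disjoint (fib t a) (fib t b) := by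
  rw [Set.disjoint_left]
  intro v ha hb
  rw [mem_fib] at ha hb
  have hne : algebraMap K F (b - a) ≠ 0 := by
    rw [Ne, map_eq_zero, sub_eq_zero]
    exact fun h => hab h.symm
  have heq : (t - algebraMap K F a) + -(t - algebraMap K F b) = algebraMap K F (b - a) := by
    rw [map_sub]; ring
  have h1 := ord_add_ge v (f := t - algebraMap K F a) (g := -(t - algebraMap K F b))
    (by rw [heq]; exact hne)
  rw [heq, ord_algebraMap, ord_neg] at h1
  rcases min_le_iff.mp h1 with h | h <;> omega

theorem fib_disjoint_poles (t : F) (a : K) : Disjoint (fib t a) (poles t) := by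
  rw [Set.disjoint_left]
  intro v ha hb
  rw [mem_fib] at ha
  rw [mem_poles] at hb
  rw [ord_sub_algebraMap_of_neg v hb a] at ha
  omega

/-- Every place which is not a pole of `t` lies in exactly one fibre. -/
theorem exists_mem_fib (hP : PlaceFacts K F) {t : F} (ht : Transcendental K t) (v : Place K F)
    (hv : ¬ v.ord t < 0) : ∃ a : K, v ∈ fib t a := by
  have hmem : t ∈ v.toValuationSubring := mem_of_ord_nonneg v (not_lt.mp hv)
  obtain ⟨a, ha | ha⟩ := hP.hres v t hmem
  · exact ⟨a, ha⟩
  · exact absurd (ha ▸ isAlgebraic_algebraMap a) ht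

/-- `W` is nonnegative away from the poles of `t`. -/
theorem nonneg_of_not_pole (hP : PlaceFacts K F) {t : F} (ht : Transcendental K t)
    (W : Divisor K F)
    (hpos : ∀ (v : Place K F) (a : K), 0 < v.ord (t - algebraMap K F a) →
      v.ord (t - algebraMap K F a) - 1 ≤ W v)
    (v : Place K F) (hv : ¬ v.ord t < 0) : 0 ≤ W v := by
  obtain ⟨a, ha⟩ := exists_mem_fib hP ht v hv
  have := hpos v a ha
  rw [mem_fib] at ha
  omega

theorem degree_eq_sum (hP : PlaceFacts K F) (W : Divisor K F) (U : Finset (Place K F))
    (hU : W.support ⊆ U) : Divisor.degree W = ∑ v ∈ U, W v := by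
  have h1 : Divisor.degree W = ∑ v ∈ W.support, W v := by
    unfold Divisor.degree
    rw [Finsupp.liftAddHom_apply, Finsupp.sum]
    refine Finset.sum_congr rfl fun v _ => ?_
    rw [AddMonoidHom.coe_mulRight, hP.hdeg v, Nat.cast_one]
    exact mul_one _
  rw [h1]
  refine Finset.sum_subset hU fun v _ hv => ?_
  rwa [Finsupp.notMem_support_iff] at hv

theorem card_fib (hP : PlaceFacts K F) {t : F} (ht : Transcendental K t) (a : K) :
    Nat.card {v : Place K F // 0 < v.ord (t - algebraMap K F a)}
      = (fib_finite hP ht a).toFinset.card := by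
  show Nat.card ↥(fib t a) = _
  rw [Nat.card_coe_set_eq, Set.ncard_eq_toFinset_card _ (fib_finite hP ht a)]

theorem card_poles (hP : PlaceFacts K F) {t : F} (ht : Transcendental K t) :
    Nat.card {v : Place K F // v.ord t < 0} = (poles_finite hP ht).toFinset.card := by
  show Nat.card ↥(poles (K := K) t) = _
  rw [Nat.card_coe_set_eq, Set.ncard_eq_toFinset_card _ (poles_finite hP ht)]

/-- The number of poles of `t` is at most `[F : K(t)]`. -/
theorem card_poles_le (hP : PlaceFacts K F) {t : F} (ht : Transcendental K t) :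
    (Nat.card {v : Place K F // v.ord t < 0} : ℤ) ≤ (Module.finrank K⟮t⟯ F : ℤ) := by
  rw [card_poles hP ht]
  have h := sum_poles hP ht
  have h2 : ∑ v ∈ (poles_finite hP ht).toFinset, v.ord t
      ≤ ∑ _v ∈ (poles_finite hP ht).toFinset, (-1 : ℤ) := by
    refine Finset.sum_le_sum fun v hv => ?_
    rw [Set.Finite.mem_toFinset, mem_poles] at hv
    omega
  rw [Finset.sum_const, h] at h2
  simp only [nsmul_eq_mul, mul_neg, mul_one] at h2
  omega

/-- The number of places in a fibre of `t` is at most `[F : K(t)]`. -/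
theorem card_fib_le (hP : PlaceFacts K F) {t : F} (ht : Transcendental K t) (a : K) :
    (Nat.card {v : Place K F // 0 < v.ord (t - algebraMap K F a)} : ℤ)
      ≤ (Module.finrank K⟮t⟯ F : ℤ) := by
  rw [card_fib hP ht]
  have h := sum_fib hP ht a
  have h2 : ∑ _v ∈ (fib_finite hP ht a).toFinset, (1 : ℤ)
      ≤ ∑ v ∈ (fib_finite hP ht a).toFinset, v.ord (t - algebraMap K F a) := by
    refine Finset.sum_le_sum fun v hv => ?_
    rw [Set.Finite.mem_toFinset, mem_fib] at hv
    omega
  rw [Finset.sum_const, h] at h2
  simp only [nsmul_eq_mul, mul_one] at h2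
  exact h2

/-- **The counting half of Riemann–Hurwitz.**  If `W` is bounded below by `e_v - 1` on the
fibres of `t` and by `ord_v t - 1` at the poles of `t`, then
`∑_{a ∈ S} (n - #fibre(a)) + (n - #poles) - 2 n ≤ deg W`, `n = [F : K(t)]`. -/
theorem main (hP : PlaceFacts K F) (t : F) (ht : Transcendental K t) (W : Divisor K F)
    (hpos : ∀ (v : Place K F) (a : K), 0 < v.ord (t - algebraMap K F a) →
      v.ord (t - algebraMap K F a) - 1 ≤ W v)
    (hneg : ∀ v : Place K F, v.ord t < 0 → v.ord t - 1 ≤ W v) (S : Finset K) :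
    (∑ a ∈ S, ((Module.finrank K⟮t⟯ F : ℤ)
        - Nat.card {v : Place K F // 0 < v.ord (t - algebraMap K F a)}))
      + ((Module.finrank K⟮t⟯ F : ℤ) - Nat.card {v : Place K F // v.ord t < 0})
      - 2 * (Module.finrank K⟮t⟯ F : ℤ) ≤ Divisor.degree W := by
  classical
  set n : ℤ := (Module.finrank K⟮t⟯ F : ℤ) with hn
  set Tf : Finset (Place K F) := S.biUnion fun a => (fib_finite hP ht a).toFinset with hTf
  set Tp : Finset (Place K F) := (poles_finite hP ht).toFinset with hTp
  have hdisjf : (S : Set K).PairwiseDisjoint fun a => (fib_finite hP ht a).toFinset := by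
    intro a _ b _ hab
    show Disjoint (fib_finite hP ht a).toFinset (fib_finite hP ht b).toFinset
    rw [Set.Finite.disjoint_toFinset]
    exact fib_disjoint t hab
  have hdisj : Disjoint Tf Tp := by
    rw [hTf, Finset.disjoint_biUnion_left]
    intro a _
    rw [hTp, Set.Finite.disjoint_toFinset]
    exact fib_disjoint_poles t a
  -- the degree as a sum over a big finite set
  have hdeg := degree_eq_sum hP W (W.support ∪ (Tf ∪ Tp)) Finset.subset_union_left
  -- drop the places outside `Tf ∪ Tp`
  have h1 : ∑ v ∈ Tf ∪ Tp, W v ≤ ∑ v ∈ W.support ∪ (Tf ∪ Tp), W v := by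
    refine Finset.sum_le_sum_of_subset_of_nonneg Finset.subset_union_right ?_
    intro v _ hv
    apply nonneg_of_not_pole hP ht W hpos v
    intro hpole
    apply hv
    rw [Finset.mem_union]
    right
    rw [hTp, Set.Finite.mem_toFinset]
    exact hpole
  -- the fibre part
  have h2 : ∑ a ∈ S, (n - Nat.card {v : Place K F // 0 < v.ord (t - algebraMap K F a)})
      ≤ ∑ v ∈ Tf, W v := by
    rw [hTf, Finset.sum_biUnion hdisjf]
    refine Finset.sum_le_sum fun a _ => ?_
    rw [card_fib hP ht a]
    have hs := sum_fib hP ht a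
    have h3 : ∑ v ∈ (fib_finite hP ht a).toFinset, (v.ord (t - algebraMap K F a) - 1)
        ≤ ∑ v ∈ (fib_finite hP ht a).toFinset, W v := by
      refine Finset.sum_le_sum fun v hv => ?_
      rw [Set.Finite.mem_toFinset] at hv
      exact hpos v a hv
    rw [Finset.sum_sub_distrib, hs, Finset.sum_const] at h3
    simp only [nsmul_eq_mul, mul_one] at h3
    exact h3
  -- the pole part
  have h4 : -n - Nat.card {v : Place K F // v.ord t < 0} ≤ ∑ v ∈ Tp, W v := by
    rw [card_poles hP ht]
    have hs := sum_poles hP ht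
    have h3 : ∑ v ∈ (poles_finite hP ht).toFinset, (v.ord t - 1)
        ≤ ∑ v ∈ (poles_finite hP ht).toFinset, W v := by
      refine Finset.sum_le_sum fun v hv => ?_
      rw [Set.Finite.mem_toFinset] at hv
      exact hneg v hv
    rw [Finset.sum_sub_distrib, hs, Finset.sum_const] at h3
    simp only [nsmul_eq_mul, mul_one] at h3
    exact h3
  rw [hdeg]
  rw [Finset.sum_union hdisj] at h1
  linarith

/-- Variant of `main` without the pole summand (weaker, since `#poles ≤ n`). -/
theorem main' (hP : PlaceFacts K F) (t : F) (ht : Transcendental K t) (W : Divisor K F)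
    (hpos : ∀ (v : Place K F) (a : K), 0 < v.ord (t - algebraMap K F a) →
      v.ord (t - algebraMap K F a) - 1 ≤ W v)
    (hneg : ∀ v : Place K F, v.ord t < 0 → v.ord t - 1 ≤ W v) (S : Finset K) :
    (∑ a ∈ S, ((Module.finrank K⟮t⟯ F : ℤ)
        - Nat.card {v : Place K F // 0 < v.ord (t - algebraMap K F a)}))
      - 2 * (Module.finrank K⟮t⟯ F : ℤ) ≤ Divisor.degree W := by
  have h := main hP t ht W hpos hneg S
  have h2 := card_poles_le hP ht
  linarith

end Fermat.Agent.S18.RHCount

end
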