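import Fermat.Agent.S18.RHIneq
import Fermat.Agent.S18.RHCount
import Fermat.Agent.S18.DiffSep
import Fermat.Agent.S18.GenusGe

/-!
# S18 package (C), assembled: the Riemann–Hurwitz inequality in any characteristic

`F / K` a function field with `RR.PlaceFacts`, `t : F` separating (`D t` spans `Ω[F⁄K]`),
`n = [F : K(t)]`, `g = dim H¹(0)`.  For every finite set `S` of values `a : K`

  `∑ a ∈ S, (n - #{v | 0 < ord_v (t - a)}) + (n - #{v | ord_v t < 0}) - 2 n ≤ 2 g - 2`

(`rh_ineq`; = `RHCount.main` applied to the divisor of `D t` from `RHIneq.exists_canonDiv`).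
`rh_tower` is the same statement in the exact shape of the hypothesis `hRH` of
`GenusGe.genus_ge`, and `genus_ge_of_sep` is `GenusGe.genus_ge` with `hRH` discharged.
-/

set_option autoImplicit false

noncomputable section

namespace Fermat.Agent.S18.RHMain

open AlgebraicCurve KaehlerDifferential IntermediateField Fermat.Agent.RR

section Single

variable {K F : Type*} [Field K] [Field F] [Algebra K F]

/-- **Riemann–Hurwitz inequality** (any characteristic) for a separating element `t`. -/
theorem rh_ineq (hP : PlaceFacts K F) (t : F)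
    (hspan : Submodule.span F {(D K F t : Ω[F⁄K])} = ⊤) (S : Finset K) :
    (∑ a ∈ S, ((Module.finrank K⟮t⟯ F : ℤ)
        - Nat.card {v : Place K F // 0 < v.ord (t - algebraMap K F a)}))
      + ((Module.finrank K⟮t⟯ F : ℤ) - Nat.card {v : Place K F // v.ord t < 0})
      - 2 * (Module.finrank K⟮t⟯ F : ℤ)
      ≤ 2 * (Module.finrank K (H1 (0 : Divisor K F)) : ℤ) - 2 := by
  obtain ⟨W, hW, hdeg⟩ := RHIneq.exists_canonDiv hP t hspan
  obtain ⟨hpos, hneg⟩ := RHIneq.canonDiv_bounds hP t hspan W hW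
  exact (RHCount.main hP t (RHIneq.transcendental_of_span hP t hspan) W hpos hneg S).trans hdeg

/-- Riemann–Hurwitz inequality when `F / K(t)` is separable. -/
theorem rh_ineq_of_sep (hP : PlaceFacts K F) (t : F) [Algebra.IsSeparable K⟮t⟯ F]
    (S : Finset K) :
    (∑ a ∈ S, ((Module.finrank K⟮t⟯ F : ℤ)
        - Nat.card {v : Place K F // 0 < v.ord (t - algebraMap K F a)}))
      + ((Module.finrank K⟮t⟯ F : ℤ) - Nat.card {v : Place K F // v.ord t < 0})
      - 2 * (Module.finrank K⟮t⟯ F : ℤ)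
      ≤ 2 * (Module.finrank K (H1 (0 : Divisor K F)) : ℤ) - 2 :=
  rh_ineq hP t (DiffSep.span_D_eq_top_of_sep t) S

/-- Riemann–Hurwitz inequality for `t` when `F / K(y)` is separable for some `y ∈ K(t)`. -/
theorem rh_ineq_of_sep_of_mem (hP : PlaceFacts K F) (t y : F) (hy : y ∈ K⟮t⟯)
    [Algebra.IsSeparable K⟮y⟯ F] (S : Finset K) :
    (∑ a ∈ S, ((Module.finrank K⟮t⟯ F : ℤ)
        - Nat.card {v : Place K F // 0 < v.ord (t - algebraMap K F a)}))
      + ((Module.finrank K⟮t⟯ F : ℤ) - Nat.card {v : Place K F // v.ord t < 0})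
      - 2 * (Module.finrank K⟮t⟯ F : ℤ)
      ≤ 2 * (Module.finrank K (H1 (0 : Divisor K F)) : ℤ) - 2 :=
  rh_ineq hP t (DiffSep.span_D_eq_top_of_sep_of_mem t y hy) S

end Single

section Tower

variable {K F0 F : Type*} [Field K] [Field F0] [Field F] [Algebra K F0] [Algebra K F]
  [Algebra F0 F] [IsScalarTower K F0 F]

/-- The hypothesis `hRH` of `GenusGe.genus_ge`, from `D t` spanning for the generators `t0` of
`F0`. -/
theorem rh_tower_of_span (hP : PlaceFacts K F)
    (hspan : ∀ t0 : F0, K⟮t0⟯ = ⊤ →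
      Submodule.span F {(D K F (algebraMap F0 F t0) : Ω[F⁄K])} = ⊤) :
    ∀ t0 : F0, Transcendental K t0 → K⟮t0⟯ = ⊤ → ∀ S : Finset K,
      ∑ a ∈ S, ((Module.finrank F0 F : ℤ)
          - Nat.card {w : Place K F // 0 < w.ord (algebraMap F0 F t0 - algebraMap K F a)})
        + ((Module.finrank F0 F : ℤ)
          - Nat.card {w : Place K F // w.ord (algebraMap F0 F t0) < 0})
        - 2 * (Module.finrank F0 F : ℤ)
        ≤ 2 * (Module.finrank K (H1 (0 : Divisor K F)) : ℤ) - 2 := by
  intro t0 _ htop S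
  have h := rh_ineq hP (algebraMap F0 F t0) (hspan t0 htop) S
  rw [GenusGe.finrank_adjoin_algebraMap t0 htop] at h
  exact h

/-- If `K(t0) = F0`, the image of every `y : F0` lies in `K(t)`, `t` the image of `t0`. -/
theorem algebraMap_mem_adjoin (t0 y : F0) (htop : K⟮t0⟯ = ⊤) :
    algebraMap F0 F y ∈ K⟮algebraMap F0 F t0⟯ := by
  have h1 := IntermediateField.adjoin_map K {t0} (IsScalarTower.toAlgHom K F0 F)
  rw [htop, Set.image_singleton] at h1
  have h2 : (IsScalarTower.toAlgHom K F0 F) y ∈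
      IntermediateField.map (IsScalarTower.toAlgHom K F0 F) (⊤ : IntermediateField K F0) :=
    (IntermediateField.mem_map _).mpr ⟨y, IntermediateField.mem_top, rfl⟩
  rw [h1] at h2
  exact h2

/-- The hypothesis `hRH` of `GenusGe.genus_ge`, from one element `y : F0` whose image is
separating for `F / K`. -/
theorem rh_tower (hP : PlaceFacts K F) (y : F0)
    [Algebra.IsSeparable K⟮algebraMap F0 F y⟯ F] :
    ∀ t0 : F0, Transcendental K t0 → K⟮t0⟯ = ⊤ → ∀ S : Finset K,
      ∑ a ∈ S, ((Module.finrank F0 F : ℤ)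
          - Nat.card {w : Place K F // 0 < w.ord (algebraMap F0 F t0 - algebraMap K F a)})
        + ((Module.finrank F0 F : ℤ)
          - Nat.card {w : Place K F // w.ord (algebraMap F0 F t0) < 0})
        - 2 * (Module.finrank F0 F : ℤ)
        ≤ 2 * (Module.finrank K (H1 (0 : Divisor K F)) : ℤ) - 2 :=
  rh_tower_of_span hP (fun t0 htop =>
    DiffSep.span_D_eq_top_of_sep_of_mem (algebraMap F0 F t0) (algebraMap F0 F y)
      (algebraMap_mem_adjoin t0 y htop))

/-- **Genus lower bound over a genus-zero base** (`GenusGe.genus_ge` with the Riemann–Hurwitz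
hypothesis discharged): `F0 ⊆ F`, `F0` of genus `0`, `j : F0` transcendental with `F / K(j)`
separable. -/
theorem genus_ge_of_sep [Algebra.IsIntegral F0 F]
    (hP0 : PlaceFacts K F0) (hP : PlaceFacts K F)
    (h0 : Module.finrank K (H1 (0 : Divisor K F0)) = 0)
    (j : F0) (hj : Transcendental K j) [Algebra.IsSeparable K⟮algebraMap F0 F j⟯ F] :
    (Module.finrank F0 F : ℤ) * Nat.card {v : Place K F0 // v.ord j < 0}
        - Nat.card {w : Place K F // w.ord (algebraMap F0 F j) < 0}
        - 2 * (Module.finrank F0 F : ℤ)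
      ≤ 2 * (Module.finrank K (H1 (0 : Divisor K F)) : ℤ) - 2 :=
  GenusGe.genus_ge hP0 hP h0 j hj (rh_tower hP j)

end Tower

end Fermat.Agent.S18.RHMain

end
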