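import Mathlib
import Fermat.Agent.S18.CoreDefs
import Fermat.Agent.S18.Charts
import Fermat.Agent.S18.ChartInt
import Fermat.Agent.S18.GenusLe
import Fermat.Agent.S18.GenusGe
import Fermat.Agent.S18.RHMain
import Fermat.Agent.S18.LevelNum
import Fermat.Agent.S18.SepPF
import Fermat.Agent.S18.ResField
import Fermat.Agent.S18.ConstPF
import Fermat.Agent.S18.GenusBar

/-!
# S18 / GenusWire: step (E) of route M, wired (`g(X₀(M)) ≤ ḡ(κ_M)`)

* `h1_zero_of_red` : genus `0` passes to the reduction (abstract; `GenusLe.genus_le_of_compat` for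
  the charts `(j)_∞`, `(j)_0`).
* `finrank_tower`, `isIntegral_tower` : tower law / integrality for `k(x) ⊆ κ0 ⊆ κ`.
* `rh_lower` : `genusFormula M ≤ dim H¹(0)_κ` for `κ / κ0` with `κ0` of genus `0`, from the
  Riemann–Hurwitz inequality (`RHMain`), the cusp counts and the degree (`LevelNum.rh_count`).
* `genus_ge_sub` : the same for a tower `κ0 ≤ κ` of subfields of a common field, all hypotheses
  free of the algebra structure `κ0 → κ`.
* `genus_ge_of` : **the wired statement.**  From a Gauss layer `(κ0, Red0)` at level `M0 ℓ`, a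
  residue field `κ ≥ κ0` at level `M` (`M0 ℓ ∣ M`) of degree `ψ(M)` over `k(j̄)`, and the two cusp
  counts: `dim H¹(0)` of `X₀(M)/ℚ̄` is at most `dim H¹(0)` of `κ / k` (= the hypothesis `hg` of
  `CoreLvl.of_gauss`).
-/

set_option autoImplicit false
set_option synthInstance.maxHeartbeats 400000

noncomputable section

namespace Fermat.Agent.S18.GenusWire

open AlgebraicCurve IntermediateField ModularCurve Fermat.Agent.RR

section LevelZero

universe u v w

variable {K : Type u} {F : Type v} {κ : Type w} [Field K] [Field F] [Algebra K F]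
  {A : ValuationSubring K} [Field κ] [Algebra (IsLocalRing.ResidueField A) κ]
  {Red : F → κ → Prop}

/-- **Genus zero passes to the reduction.** -/
theorem h1_zero_of_red [CharZero K] (hRed : RedFacts A Red) (hP : PlaceFacts K F)
    (hR : RiemannFacts K F)
    (hPb : PlaceFacts (IsLocalRing.ResidueField A) κ)
    (hRb : RiemannFacts (IsLocalRing.ResidueField A) κ)
    {j : F} {jb : κ} (hjt : Transcendental K j)
    (hjbt : Transcendental (IsLocalRing.ResidueField A) jb) (hj : Red j jb)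
    (hint0 : ∀ (f : F) (x : κ), Red f x → IsIntegral (Algebra.adjoin K {j}) f →
      IsIntegral (Algebra.adjoin (IsLocalRing.ResidueField A) {jb}) x)
    (hint1 : ∀ (f : F) (x : κ), Red f x → IsIntegral (Algebra.adjoin K {j⁻¹}) f →
      IsIntegral (Algebra.adjoin (IsLocalRing.ResidueField A) {jb⁻¹}) x)
    (hdeg : Module.finrank (IsLocalRing.ResidueField A)⟮jb⟯ κ = Module.finrank K⟮j⟯ F)
    (h0 : Module.finrank K (H1 (0 : Divisor K F)) = 0) :
    Module.finrank (IsLocalRing.ResidueField A)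
      (H1 (0 : Divisor (IsLocalRing.ResidueField A) κ)) = 0 := by
  have hjb0 : jb ≠ 0 := by
    rintro rfl
    exact hjbt isAlgebraic_zero
  obtain ⟨Z0, hZ0, hdZ0⟩ := Charts.exists_poleDiv hP j hjt
  obtain ⟨Z1, hZ1, -⟩ := Charts.exists_zeroDiv hP j hjt
  obtain ⟨Zb0, hZb0, hdZb0⟩ := Charts.exists_poleDiv hPb jb hjbt
  obtain ⟨Zb1, hZb1, -⟩ := Charts.exists_zeroDiv hPb jb hjbt
  have h1 : FiniteDimensional K⟮j⟯ F := hP.hfd j hjt
  have h2 : FiniteDimensional K⟮j⁻¹⟯ F := hP.hfd j⁻¹ (Charts.transcendental_inv hjt)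
  have hpos : 0 < Divisor.degree Z0 := by
    rw [hdZ0]
    exact_mod_cast Module.finrank_pos
  have hdeg' : Divisor.degree Zb0 = Divisor.degree Z0 := by
    rw [hdZ0, hdZb0, hdeg]
  have hle := GenusLe.genus_le_of_compat A Red hRed hR hPb hRb Z0 Z1 Zb0 Zb1 hpos hdeg'
    (fun a b f x hf hfx => Charts.compat_of hRed hj hjb0
      (fun f hf => Charts.isIntegral_of_regular_charZero j hjt f hf)
      (fun f hf => Charts.isIntegral_of_regular_charZero j⁻¹ (Charts.transcendental_inv hjt) f hf)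
      hint0 hint1 hZ0 hZ1 hZb0 hZb1 a b f x hf hfx)
  omega

end LevelZero

section Tower

variable {k κ0 κ : Type*} [Field k] [Field κ0] [Field κ] [Algebra k κ0] [Algebra k κ]
  [Algebra κ0 κ] [IsScalarTower k κ0 κ]

/-- `k(x)` maps onto `k(x)` along `κ0 → κ`. -/
theorem adjoin_algebraMap_eq_map (x : κ0) :
    k⟮algebraMap κ0 κ x⟯ = (k⟮x⟯).map (IsScalarTower.toAlgHom k κ0 κ) := by
  rw [IntermediateField.adjoin_map, Set.image_singleton]
  rfl

/-- The tower law `[κ : k(x)] = [κ0 : k(x)] [κ : κ0]`. -/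
theorem finrank_tower (x : κ0) :
    Module.finrank k⟮algebraMap κ0 κ x⟯ κ = Module.finrank k⟮x⟯ κ0 * Module.finrank κ0 κ := by
  rw [adjoin_algebraMap_eq_map, Module.finrank_mul_finrank]
  symm
  refine Algebra.finrank_eq_of_equiv_equiv
    (IntermediateField.equivMap k⟮x⟯ (IsScalarTower.toAlgHom k κ0 κ)).toRingEquiv
    (RingEquiv.refl κ) ?_
  ext y
  rfl

/-- `κ / κ0` is integral as soon as `κ / k(x)` is finite for some `x ∈ κ0`. -/
theorem isIntegral_tower (x : κ0) (h : FiniteDimensional k⟮algebraMap κ0 κ x⟯ κ) :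
    Algebra.IsIntegral κ0 κ := by
  have h1 : Module.Finite k⟮x⟯ κ := by
    revert h
    rw [adjoin_algebraMap_eq_map]
    intro h
    refine Module.Finite.of_equiv_equiv
      (IntermediateField.equivMap k⟮x⟯ (IsScalarTower.toAlgHom k κ0 κ)).symm.toRingEquiv
      (RingEquiv.refl κ) ?_
    ext y
    obtain ⟨z, rfl⟩ :=
      (IntermediateField.equivMap k⟮x⟯ (IsScalarTower.toAlgHom k κ0 κ)).surjective y
    change algebraMap (↥k⟮x⟯) κ
        ((IntermediateField.equivMap k⟮x⟯ (IsScalarTower.toAlgHom k κ0 κ)).symm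
          ((IntermediateField.equivMap k⟮x⟯ (IsScalarTower.toAlgHom k κ0 κ)) z)) = _
    rw [AlgEquiv.symm_apply_apply]
    rfl
  have h2 : Module.Finite κ0 κ := Module.Finite.of_restrictScalars_finite k⟮x⟯ κ0 κ
  infer_instance

/-- The Riemann–Hurwitz lower bound for the genus of `κ` over a genus-zero `κ0`, in terms of the
genus formula at level `M`. -/
theorem rh_lower [Algebra.IsIntegral κ0 κ]
    (hP0 : PlaceFacts k κ0) (hP : PlaceFacts k κ)
    (h0 : Module.finrank k (H1 (0 : Divisor k κ0)) = 0)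
    (jb : κ0) (hjb : Transcendental k jb) (hsep : Algebra.IsSeparable k⟮algebraMap κ0 κ jb⟯ κ)
    (ℓ : ℕ) {M : ℕ} (hM : LevelNum.M0 ℓ ∣ M)
    (hn : Module.finrank κ0 κ * dedekindPsi (LevelNum.M0 ℓ) = dedekindPsi M)
    (hc0 : Nat.card {v : Place k κ0 // v.ord jb < 0} = cuspCount (LevelNum.M0 ℓ))
    (hc : Nat.card {w : Place k κ // w.ord (algebraMap κ0 κ jb) < 0} = cuspCount M) :
    genusFormula M ≤ (Module.finrank k (H1 (0 : Divisor k κ)) : ℚ) := by
  have h1 := RHMain.genus_ge_of_sep hP0 hP h0 jb hjb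
  rw [hc0, hc] at h1
  have h2 := LevelNum.rh_count ℓ hM (Module.finrank κ0 κ) hn
  have h3 : ((Module.finrank κ0 κ : ℤ) * (cuspCount (LevelNum.M0 ℓ) : ℕ)
        - (cuspCount M : ℕ) - 2 * (Module.finrank κ0 κ : ℤ) : ℚ)
      ≤ ((2 * (Module.finrank k (H1 (0 : Divisor k κ)) : ℤ) - 2 : ℤ) : ℚ) := by
    exact_mod_cast h1
  push_cast at h3
  linarith

end Tower

section Sub

variable {k Ω : Type*} [Field k] [Field Ω] [Algebra k Ω]

/-- **The genus lower bound for a tower of subfields** `κ0 ≤ κ` of a common field `Ω`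
(all hypotheses free of the algebra structure `κ0 → κ`). -/
theorem genus_ge_sub (κ0 κ : IntermediateField k Ω) (hle : κ0 ≤ κ)
    (hP0 : PlaceFacts k κ0) (hP : PlaceFacts k κ)
    (h0 : Module.finrank k (H1 (0 : Divisor k κ0)) = 0)
    (jb0 : κ0) (jb : κ) (hjb : (jb0 : Ω) = (jb : Ω)) (hjbt : Transcendental k jb0)
    (hsep : Algebra.IsSeparable k⟮jb⟯ κ)
    (ℓ : ℕ) {M : ℕ} (hM : LevelNum.M0 ℓ ∣ M)
    (hd0 : Module.finrank k⟮jb0⟯ κ0 = dedekindPsi (LevelNum.M0 ℓ))
    (hd : Module.finrank k⟮jb⟯ κ = dedekindPsi M)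
    (hc0 : Nat.card {v : Place k κ0 // v.ord jb0 < 0} = cuspCount (LevelNum.M0 ℓ))
    (hc : Nat.card {w : Place k κ // w.ord jb < 0} = cuspCount M) :
    genusFormula M ≤ (Module.finrank k (H1 (0 : Divisor k κ)) : ℚ) := by
  let _ : Algebra κ0 κ := (IntermediateField.inclusion hle).toRingHom.toAlgebra
  have : IsScalarTower k κ0 κ := IsScalarTower.of_algebraMap_eq (fun x => rfl)
  have hjb' : algebraMap κ0 κ jb0 = jb := Subtype.ext hjb
  subst hjb'
  have hjbt' : Transcendental k (algebraMap κ0 κ jb0) := GenusGe.transcendental_algebraMap hjbt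
  have : Algebra.IsIntegral κ0 κ := isIntegral_tower jb0 (hP.hfd _ hjbt')
  refine rh_lower hP0 hP h0 jb0 hjbt hsep ℓ hM ?_ hc0 hc
  have h1 := finrank_tower (k := k) (κ := κ) jb0
  rw [hd, hd0] at h1
  rw [h1, mul_comm]

end Sub

section Series

variable (ℓ : ℕ) {M : ℕ} [NeZero M] (A : ValuationSubring (AlgebraicClosure ℚ))

/-- **Step (E) of route M.**  `κ0 ≤ κ` are the residue function fields at levels `M0 ℓ` and `M`
(`M0 ℓ ∣ M`): subfields of `k((q))` containing `j̄`, of degrees `ψ(M0 ℓ)`, `ψ(M)` over `k(j̄)`;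
`Red0` is a Gauss reduction at level `M0 ℓ` (`RedFacts`, `Red0 j j̄`, surjective).  Given the two
cusp counts, the genus of `X₀(M)/ℚ̄` is at most the genus of `κ / k`.  (This is the hypothesis
`hg` of `CoreLvl.of_gauss`.) -/
theorem genus_ge_of (hM : LevelNum.M0 ℓ ∣ M)
    (κ0 κ : IntermediateField (IsLocalRing.ResidueField A)
      (LaurentSeries (IsLocalRing.ResidueField A))) (hle : κ0 ≤ κ)
    (jb0 : κ0) (hjb0 : (jb0 : LaurentSeries (IsLocalRing.ResidueField A))
      = jqModC (IsLocalRing.ResidueField A))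
    (jb : κ) (hjb : (jb : LaurentSeries (IsLocalRing.ResidueField A))
      = jqModC (IsLocalRing.ResidueField A))
    (hfd0 : FiniteDimensional (IsLocalRing.ResidueField A)⟮jb0⟯ κ0)
    (hfr0 : Module.finrank (IsLocalRing.ResidueField A)⟮jb0⟯ κ0 = dedekindPsi (LevelNum.M0 ℓ))
    (hfd : FiniteDimensional (IsLocalRing.ResidueField A)⟮jb⟯ κ)
    (hfr : Module.finrank (IsLocalRing.ResidueField A)⟮jb⟯ κ = dedekindPsi M)
    (Red0 : modularFunctionFieldBar (LevelNum.M0 ℓ) → κ0 → Prop) (hR0 : RedFacts A Red0)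
    (hj0 : Red0 (Fermat.Agent.S24.xgen (AlgebraicClosure ℚ) (LevelNum.M0 ℓ) :
      modularFunctionFieldBar (LevelNum.M0 ℓ)) jb0)
    (hsurj0 : ∀ x : κ0, ∃ f : modularFunctionFieldBar (LevelNum.M0 ℓ), Red0 f x)
    (hc0 : Nat.card {v : Place (IsLocalRing.ResidueField A) κ0 // v.ord jb0 < 0}
      = cuspCount (LevelNum.M0 ℓ))
    (hc : Nat.card {w : Place (IsLocalRing.ResidueField A) κ // w.ord jb < 0} = cuspCount M) :
    (Module.finrank (AlgebraicClosure ℚ)
        (H1 (0 : Divisor (AlgebraicClosure ℚ) (modularFunctionFieldBar M))) : ℤ)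
      ≤ (Module.finrank (IsLocalRing.ResidueField A)
        (H1 (0 : Divisor (IsLocalRing.ResidueField A) κ)) : ℤ) := by
  have hk : IsAlgClosed (IsLocalRing.ResidueField A) := ResField.isAlgClosed A
  have hP0 : PlaceFacts (IsLocalRing.ResidueField A) κ0 := SepPF.placeFacts_of_finite κ0 jb0 hjb0
  have hRb0 : RiemannFacts (IsLocalRing.ResidueField A) κ0 :=
    SepPF.riemannFacts_of_finite κ0 jb0 hjb0
  have hP : PlaceFacts (IsLocalRing.ResidueField A) κ := SepPF.placeFacts_of_finite κ jb hjb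
  have hjb0t : Transcendental (IsLocalRing.ResidueField A) jb0 :=
    SepPF.transcendental_of_coe_eq κ0 jb0 hjb0
  -- the characteristic-zero side at level `M0 ℓ`
  have hPK : PlaceFacts (AlgebraicClosure ℚ) (modularFunctionFieldBar (LevelNum.M0 ℓ)) :=
    ConstPF.placeFacts_bar (LevelNum.M0 ℓ)
  have hjt := GenusBar.transcendental_xgen_bar (LevelNum.M0 ℓ)
  have hfdK : FiniteDimensional
      (AlgebraicClosure ℚ)⟮(Fermat.Agent.S24.xgen (AlgebraicClosure ℚ) (LevelNum.M0 ℓ) :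
        modularFunctionFieldBar (LevelNum.M0 ℓ))⟯ (modularFunctionFieldBar (LevelNum.M0 ℓ)) :=
    hPK.hfd _ hjt
  have hdeg : Module.finrank (IsLocalRing.ResidueField A)⟮jb0⟯ κ0
      = Module.finrank
        (AlgebraicClosure ℚ)⟮(Fermat.Agent.S24.xgen (AlgebraicClosure ℚ) (LevelNum.M0 ℓ) :
          modularFunctionFieldBar (LevelNum.M0 ℓ))⟯ (modularFunctionFieldBar (LevelNum.M0 ℓ)) := by
    rw [hfr0, GenusBar.finrank_xgen_bar (LevelNum.M0 ℓ)]
  -- level `M0 ℓ`: genus zero passes to the reduction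
  have h0 : Module.finrank (IsLocalRing.ResidueField A)
      (H1 (0 : Divisor (IsLocalRing.ResidueField A) κ0)) = 0 :=
    h1_zero_of_red hR0 hPK (GenusBar.riemannFacts_bar (LevelNum.M0 ℓ)) hP0 hRb0 hjt hjb0t hj0
      (ChartInt.hint0_of_surj hR0 hj0 hjt hjb0t hsurj0 hdeg.ge)
      (ChartInt.hint1_of_surj hR0 hj0 hjt hjb0t hsurj0 hdeg.ge) hdeg
      (GenusBar.finrank_H1_zero_M0 ℓ)
  -- the tower `κ0 ≤ κ`
  have hsep : Algebra.IsSeparable (IsLocalRing.ResidueField A)⟮jb⟯ κ :=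
    SepPF.algebra_isSeparable_jb κ jb hjb
  have h1 := genus_ge_sub κ0 κ hle hP0 hP h0 jb0 jb (by rw [hjb0, hjb]) hjb0t hsep ℓ hM
    hfr0 hfr hc0 hc
  rw [← GenusBar.finrank_H1_zero_bar M] at h1
  exact_mod_cast h1

end Series

end Fermat.Agent.S18.GenusWire

end
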