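/-
S18 / KappaDeg: the `k`-side degree of the residue function field `kappa = k(j̄, ū_L)`.

Abstract part (Mathlib only): for `jb ub : k((q))`, a monic `P ∈ k[T][X]` of degree `ψ` with
`P(jb, ub) = 0` and minimality (`Q ≠ 0`, `Q(jb, ub) = 0 ⟹ ψ ≤ deg_X Q`), and
`kappa = adjoin k {jb, ub}`: the powers `uk^i` (`i < ψ`) are linearly independent over `k(jk)`,
`kappa / k(jk)` is finite of degree `ψ` (`main`).

Level part (S28 exports): for every field `k` of characteristic `ℓ ∤ L`,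
`jb = jqModC k`, `ub = coeffMap (Int.castRingHom k) (FormalU.uZ L)`, `ψ = dedekindPsi L`:
`exists_Pb` (reduced norm relation: monic, degree, Newton bounds, unit constant term, root,
minimality), `hmin`, `natDegree_le_of_root`, `level_main`, and the literal-shape corollaries
`linearIndependent_pow`, `finiteDimensional`, `finrank_eq`.
-/
import Fermat.Agent.S28.AFinal
import Fermat.Agent.S28.RedHyp
import Fermat.Agent.S28.Zl

set_option autoImplicit false
set_option synthInstance.maxHeartbeats 400000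

noncomputable section

namespace Fermat.Agent.S18.KappaDeg

open Polynomial IntermediateField ModularCurve

section Abstract

variable {k : Type*} [Field k] {jb ub : LaurentSeries k}
  (kappa : IntermediateField k (LaurentSeries k)) (jk uk : kappa)

/-- Evaluation at `(jk, uk)` inside `kappa` is evaluation at `(jb, ub)` in `k((q))`. -/
theorem coe_eval₂ (hjk : (jk : LaurentSeries k) = jb) (huk : (uk : LaurentSeries k) = ub)
    (Q : k[X][X]) :
    ((Q.eval₂ ((aeval jk : k[X] →ₐ[k] kappa) : k[X] →+* kappa) uk : kappa) : LaurentSeries k)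
      = Q.eval₂ ((aeval jb : k[X] →ₐ[k] LaurentSeries k) : k[X] →+* LaurentSeries k) ub := by
  have h := Polynomial.hom_eval₂ Q ((aeval jk : k[X] →ₐ[k] kappa) : k[X] →+* kappa)
    (kappa.val : kappa →+* LaurentSeries k) uk
  have hcomp : ((kappa.val : kappa →+* LaurentSeries k).comp
      ((aeval jk : k[X] →ₐ[k] kappa) : k[X] →+* kappa))
        = ((aeval jb : k[X] →ₐ[k] LaurentSeries k) : k[X] →+* LaurentSeries k) := by
    refine RingHom.ext (fun p => ?_)
    show kappa.val (aeval jk p) = aeval jb p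
    rw [← Polynomial.aeval_algHom_apply]
    exact congrArg (fun z => aeval z p) hjk
  rw [hcomp] at h
  have huk' : (kappa.val : kappa →+* LaurentSeries k) uk = ub := huk
  rw [huk'] at h
  exact h

/-- `jk` is transcendental, in the form: `aeval jk` is injective. -/
theorem aeval_jk_injective (hjk : (jk : LaurentSeries k) = jb)
    (hinj : Function.Injective (aeval jb : k[X] →ₐ[k] LaurentSeries k)) :
    Function.Injective (aeval jk : k[X] →ₐ[k] kappa) := by
  intro p q hpq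
  apply hinj
  have h := congrArg (fun z : kappa => (kappa.val z : LaurentSeries k)) hpq
  simp only [← Polynomial.aeval_algHom_apply] at h
  have hv : kappa.val jk = jb := hjk
  rwa [hv] at h

variable {ψ : ℕ}

/-- Step 1: the powers `uk^i`, `i < ψ`, are linearly independent over the ring `k[jk]`. -/
theorem linearIndependent_adjoin (hjk : (jk : LaurentSeries k) = jb)
    (huk : (uk : LaurentSeries k) = ub)
    (hmin : ∀ Q : k[X][X], Q ≠ 0 →
      Q.eval₂ ((aeval jb : k[X] →ₐ[k] LaurentSeries k) : k[X] →+* LaurentSeries k) ub = 0 →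
        ψ ≤ Q.natDegree) :
    LinearIndependent (Algebra.adjoin k ({jk} : Set kappa)) (fun i : Fin ψ => uk ^ (i : ℕ)) := by
  rw [Fintype.linearIndependent_iff]
  intro g hg i
  -- each coefficient is a polynomial in `jk`
  have hrep : ∀ i : Fin ψ, ∃ p : k[X], aeval jk p = (g i : kappa) := by
    intro i
    have h : (g i : kappa) ∈ (aeval (R := k) jk).range := by
      rw [← Algebra.adjoin_singleton_eq_range_aeval]
      exact (g i).2
    exact h
  choose p hp using hrep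
  set Q : k[X][X] := ∑ i : Fin ψ, monomial (i : ℕ) (p i) with hQ
  have hQev : Q.eval₂ ((aeval jk : k[X] →ₐ[k] kappa) : k[X] →+* kappa) uk = 0 := by
    rw [hQ, Polynomial.eval₂_finsetSum]
    rw [← hg]
    refine Finset.sum_congr rfl (fun i _ => ?_)
    rw [eval₂_monomial]
    show aeval jk (p i) * uk ^ (i : ℕ) = g i • uk ^ (i : ℕ)
    rw [hp i]
    rfl
  have hQ0 : Q = 0 := by
    by_contra hne
    have h1 := hmin Q hne (by rw [← coe_eval₂ kappa jk uk hjk huk Q, hQev]; rfl)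
    have h2 : Q.natDegree < ψ := by
      rcases Nat.eq_zero_or_pos ψ with h0 | hpos
      · exact absurd i.2 (by omega)
      · rw [hQ]
        refine lt_of_le_of_lt (natDegree_sum_le_of_forall_le _ _ (n := ψ - 1) (fun i _ => ?_))
          (by omega)
        exact (natDegree_monomial_le _).trans (by have := i.2; omega)
    omega
  have hpi : p i = 0 := by
    have h := congrArg (fun R : k[X][X] => R.coeff (i : ℕ)) hQ0
    simp only [hQ, finsetSum_coeff, coeff_monomial, coeff_zero] at h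
    rw [Finset.sum_eq_single i (fun j _ hji => by
      rw [if_neg (fun h => hji (Fin.ext h))]) (fun h => absurd (Finset.mem_univ i) h)] at h
    simpa using h
  apply Subtype.ext
  rw [← hp i, hpi, map_zero]
  rfl

open IntermediateField.algebraAdjoinAdjoin in
/-- Step 2: the powers `uk^i`, `i < ψ`, are linearly independent over the field `k(jk)`. -/
theorem linearIndependent_field (hjk : (jk : LaurentSeries k) = jb)
    (huk : (uk : LaurentSeries k) = ub)
    (hmin : ∀ Q : k[X][X], Q ≠ 0 →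
      Q.eval₂ ((aeval jb : k[X] →ₐ[k] LaurentSeries k) : k[X] →+* LaurentSeries k) ub = 0 →
        ψ ≤ Q.natDegree) :
    LinearIndependent ↥k⟮jk⟯ (fun i : Fin ψ => uk ^ (i : ℕ)) :=
  (linearIndependent_adjoin kappa jk uk hjk huk hmin).localization ↥k⟮jk⟯
    (nonZeroDivisors (Algebra.adjoin k ({jk} : Set kappa)))

theorem adjoin_pair_eq_top (hkappa : kappa = IntermediateField.adjoin k {jb, ub})
    (hjk : (jk : LaurentSeries k) = jb) (huk : (uk : LaurentSeries k) = ub) :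
    IntermediateField.adjoin k ({jk, uk} : Set kappa) = ⊤ := by
  apply IntermediateField.lift_injective kappa
  rw [IntermediateField.lift_adjoin, IntermediateField.lift_top, Set.image_pair, hjk, huk,
    ← hkappa]

theorem adjoin_simple_eq_top (hkappa : kappa = IntermediateField.adjoin k {jb, ub})
    (hjk : (jk : LaurentSeries k) = jb) (huk : (uk : LaurentSeries k) = ub) :
    (↥k⟮jk⟯)⟮uk⟯ = ⊤ := by
  apply IntermediateField.restrictScalars_injective k
  rw [IntermediateField.restrictScalars_top, IntermediateField.adjoin_adjoin_left,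
    Set.singleton_union]
  exact adjoin_pair_eq_top kappa jk uk hkappa hjk huk

/-- **The degree of `kappa = k(jb, ub)` over `k(jb)`.** -/
theorem main (P : k[X][X]) (hP : P.Monic) (hdeg : P.natDegree = ψ)
    (hroot : P.eval₂ ((aeval jb : k[X] →ₐ[k] LaurentSeries k) : k[X] →+* LaurentSeries k) ub = 0)
    (hmin : ∀ Q : k[X][X], Q ≠ 0 →
      Q.eval₂ ((aeval jb : k[X] →ₐ[k] LaurentSeries k) : k[X] →+* LaurentSeries k) ub = 0 →
        ψ ≤ Q.natDegree)
    (hkappa : kappa = IntermediateField.adjoin k {jb, ub})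
    (hjk : (jk : LaurentSeries k) = jb) (huk : (uk : LaurentSeries k) = ub) :
    LinearIndependent ↥k⟮jk⟯ (fun i : Fin ψ => uk ^ (i : ℕ)) ∧
      FiniteDimensional ↥k⟮jk⟯ ↥kappa ∧ Module.finrank ↥k⟮jk⟯ ↥kappa = ψ := by
  have hli := linearIndependent_field kappa jk uk hjk huk hmin
  set gen : ↥k⟮jk⟯ := AdjoinSimple.gen k jk with hgen
  set pE : (↥k⟮jk⟯)[X] := P.map ((aeval gen : k[X] →ₐ[k] ↥k⟮jk⟯) : k[X] →+* ↥k⟮jk⟯) with hpEdef
  have hpE : pE.Monic := hP.map _
  have hpEdeg : pE.natDegree = ψ := by rw [hpEdef, hP.natDegree_map, hdeg]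
  have hpEroot : aeval uk pE = 0 := by
    rw [aeval_def, hpEdef, eval₂_map]
    have hc : (algebraMap ↥k⟮jk⟯ ↥kappa).comp
        ((aeval gen : k[X] →ₐ[k] ↥k⟮jk⟯) : k[X] →+* ↥k⟮jk⟯)
          = ((aeval jk : k[X] →ₐ[k] kappa) : k[X] →+* kappa) := by
      refine RingHom.ext (fun p => ?_)
      exact (Polynomial.aeval_algHom_apply (IsScalarTower.toAlgHom k ↥k⟮jk⟯ ↥kappa) gen p).symm
    rw [hc]
    apply Subtype.ext
    rw [coe_eval₂ kappa jk uk hjk huk P, hroot]
    rfl
  have hint : IsIntegral ↥k⟮jk⟯ uk := ⟨pE, hpE, hpEroot⟩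
  have htop := adjoin_simple_eq_top kappa jk uk hkappa hjk huk
  have hfd1 : FiniteDimensional ↥k⟮jk⟯ ↥((↥k⟮jk⟯)⟮uk⟯) := adjoin.finiteDimensional hint
  have hfd : FiniteDimensional ↥k⟮jk⟯ ↥kappa := by
    rw [htop] at hfd1
    exact Module.Finite.equiv (IntermediateField.topEquiv (F := ↥k⟮jk⟯) (E := ↥kappa)).toLinearEquiv
  have hle : Module.finrank ↥k⟮jk⟯ ↥kappa ≤ ψ := by
    rw [← IntermediateField.finrank_top', ← htop, adjoin.finrank hint, ← hpEdeg]
    exact natDegree_le_of_dvd (minpoly.dvd _ _ hpEroot) hpE.ne_zero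
  have hge : ψ ≤ Module.finrank ↥k⟮jk⟯ ↥kappa := by
    have := hli.fintype_card_le_finrank
    simpa using this
  exact ⟨hli, hfd, le_antisymm hle hge⟩

end Abstract


section Level

variable {k : Type*} [Field k] {ℓ : ℕ}

/-- The reduction map `ℤ_(ℓ) → k` for a field `k` of characteristic `ℓ`. -/
def resK (k : Type*) [Field k] (ℓ : ℕ) [Fact ℓ.Prime] [CharP k ℓ] :
    ↥(GaloisRep.ratLocalizedAt ℓ) →+* k :=
  (ZMod.castHom (dvd_refl ℓ) k).comp (Fermat.Agent.S28.Zl.resZl ℓ)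

theorem resK_eq_zero_iff [Fact ℓ.Prime] [CharP k ℓ] (a : ↥(GaloisRep.ratLocalizedAt ℓ)) :
    resK k ℓ a = 0 ↔ ((ℓ : ℕ) : ↥(GaloisRep.ratLocalizedAt ℓ)) ∣ a := by
  rw [← Fermat.Agent.S28.Zl.resZl_eq_zero_iff]
  show (ZMod.castHom (dvd_refl ℓ) k) (Fermat.Agent.S28.Zl.resZl ℓ a) = 0 ↔ _
  exact map_eq_zero_iff _ (ZMod.castHom (dvd_refl ℓ) k).injective

/-- **The reduced norm relation over any field of characteristic `ℓ ∤ L`**, together with
minimality (`hmin`). -/
theorem exists_Pb (hl : ℓ.Prime) [CharP k ℓ] (L : ℕ) [NeZero L] (hL : ¬ ℓ ∣ L) :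
    ∃ Pb : k[X][X], Pb.Monic ∧ Pb.natDegree = dedekindPsi L ∧
      (∀ i ≤ dedekindPsi L, (Pb.coeff i).natDegree ≤ (dedekindPsi L - i) * L.totient) ∧
      (∃ c : k, c ≠ 0 ∧ Pb.coeff 0 = C c) ∧
      Pb.eval₂ ((aeval (jqModC k) : k[X] →ₐ[k] LaurentSeries k) : k[X] →+* LaurentSeries k)
        (coeffMap (Int.castRingHom k) (Fermat.Agent.S28.FormalU.uZ L)) = 0 ∧
      ∀ Q : k[X][X], Q.natDegree < dedekindPsi L →
        Q.eval₂ ((aeval (jqModC k) : k[X] →ₐ[k] LaurentSeries k) : k[X] →+* LaurentSeries k)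
          (coeffMap (Int.castRingHom k) (Fermat.Agent.S28.FormalU.uZ L)) = 0 → Q = 0 := by
  have : Fact ℓ.Prime := ⟨hl⟩
  obtain ⟨P, hP, hdeg, hbound, ⟨c, hc0, hcC, hcinv⟩, hcoef, hroot⟩ :=
    Fermat.Agent.S28.AFinal.exists_relation L
  obtain ⟨Pℓ, hmap, hdegℓ, hCH⟩ := Fermat.Agent.S28.RedHyp.exists_chartHyp ℓ
    ((ℓ : ℕ) : ↥(GaloisRep.ratLocalizedAt ℓ)) (resK k ℓ) (Fermat.Agent.S28.Zl.prime_ell ℓ)
    resK_eq_zero_iff
    (HahnSeries.C.comp (algebraMap ↥(GaloisRep.ratLocalizedAt ℓ) ℚ)) (fun _ => rfl)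
    (HahnSeries.C : k →+* LaurentSeries k) (fun _ => rfl)
    (Nat.totient_pos.mpr (NeZero.pos L)) (Fermat.Agent.S28.FormalU.uZ L)
    (fun n hn => Fermat.Agent.S28.FormalU.uZ_coeff_of_lt L hn) P hP hdeg hbound
    ⟨c, hc0, hcC, hcinv ℓ hl hL⟩ (fun i m => hcoef i m ℓ hl hL) hroot
  have hinj : Function.Injective (algebraMap ↥(GaloisRep.ratLocalizedAt ℓ) ℚ) :=
    Subtype.val_injective
  refine ⟨Pℓ.map (mapRingHom (resK k ℓ)), hCH.monic.map _, ?_, ?_, ?_, ?_, ?_⟩
  · rw [hCH.monic.natDegree_map, hdegℓ]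
  · intro i hi
    rw [coeff_map]
    refine (natDegree_map_le (f := resK k ℓ)).trans ?_
    have h1 : (Pℓ.coeff i).map (algebraMap ↥(GaloisRep.ratLocalizedAt ℓ) ℚ) = P.coeff i := by
      rw [← hmap, coeff_map]; rfl
    rw [← natDegree_map_eq_of_injective hinj (Pℓ.coeff i), h1]
    exact hbound i hi
  · have hcmem : c ∈ GaloisRep.ratLocalizedAt ℓ := by
      have := hcoef 0 0 ℓ hl hL
      rwa [hcC, coeff_C_zero] at this
    have hconst : Pℓ.coeff 0 = C (⟨c, hcmem⟩ : ↥(GaloisRep.ratLocalizedAt ℓ)) := by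
      apply Polynomial.map_injective _ hinj
      have h1 : (Pℓ.coeff 0).map (algebraMap ↥(GaloisRep.ratLocalizedAt ℓ) ℚ) = P.coeff 0 := by
        rw [← hmap, coeff_map]; rfl
      rw [h1, hcC, Polynomial.map_C]
      rfl
    refine ⟨resK k ℓ ⟨c, hcmem⟩, ?_, ?_⟩
    · intro h0
      have h1 : (⟨c, hcmem⟩ : ↥(GaloisRep.ratLocalizedAt ℓ)) * ⟨c⁻¹, hcinv ℓ hl hL⟩ = 1 :=
        Subtype.ext (mul_inv_cancel₀ hc0)
      have h2 := congrArg (resK k ℓ) h1
      rw [map_mul, h0, zero_mul, map_one] at h2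
      exact zero_ne_one h2
    · rw [coeff_map, hconst]
      exact Polynomial.map_C _
  · rw [Fermat.Agent.S28.RedHyp.eval₂_aeval_eq_ev2]
    exact hCH.hred Pℓ hCH.root
  · intro Q hQ hQ0
    rw [Fermat.Agent.S28.RedHyp.eval₂_aeval_eq_ev2] at hQ0
    exact hCH.hmin Q (by rw [hdegℓ]; exact hQ) hQ0


/-- `hmin` in the shape used by the abstract theorem `main`. -/
theorem natDegree_le_of_root (hl : ℓ.Prime) [CharP k ℓ] (L : ℕ) [NeZero L] (hL : ¬ ℓ ∣ L)
    (Q : k[X][X]) (hQ0 : Q ≠ 0)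
    (hQ : Q.eval₂ ((aeval (jqModC k) : k[X] →ₐ[k] LaurentSeries k) : k[X] →+* LaurentSeries k)
      (coeffMap (Int.castRingHom k) (Fermat.Agent.S28.FormalU.uZ L)) = 0) :
    dedekindPsi L ≤ Q.natDegree := by
  obtain ⟨Pb, -, -, -, -, -, hmin⟩ := exists_Pb (k := k) hl L hL
  by_contra hlt
  exact hQ0 (hmin Q (not_le.mp hlt) hQ)

/-- **`hmin` over `k`** (`1, ū, …, ū^(ψ-1)` are independent over `k[j̄]`), any field `k` of
characteristic `ℓ ∤ L`. -/
theorem hmin (hl : ℓ.Prime) [CharP k ℓ] (L : ℕ) [NeZero L] (hL : ¬ ℓ ∣ L)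
    (Q : k[X][X]) (hQ : Q.natDegree < dedekindPsi L)
    (hQ0 : Q.eval₂ ((aeval (jqModC k) : k[X] →ₐ[k] LaurentSeries k) : k[X] →+* LaurentSeries k)
      (coeffMap (Int.castRingHom k) (Fermat.Agent.S28.FormalU.uZ L)) = 0) : Q = 0 := by
  obtain ⟨Pb, -, -, -, -, -, hmin⟩ := exists_Pb (k := k) hl L hL
  exact hmin Q hQ hQ0

/-- **The `k`-side degree, general form**: for `kappa = k(j̄, ū_L)` (any presentation),
`jk uk : kappa` the elements `j̄`, `ū_L`: the powers `uk^i`, `i < ψ(L)`, are linearly independent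
over `k(jk)`, and `[kappa : k(jk)] = ψ(L)`. -/
theorem level_main (hl : ℓ.Prime) [CharP k ℓ] (L : ℕ) [NeZero L] (hL : ¬ ℓ ∣ L)
    (kappa : IntermediateField k (LaurentSeries k))
    (hkappa : kappa = IntermediateField.adjoin k
      {jqModC k, coeffMap (Int.castRingHom k) (Fermat.Agent.S28.FormalU.uZ L)})
    (jk uk : kappa) (hjk : (jk : LaurentSeries k) = jqModC k)
    (huk : (uk : LaurentSeries k) = coeffMap (Int.castRingHom k) (Fermat.Agent.S28.FormalU.uZ L)) :
    LinearIndependent ↥k⟮jk⟯ (fun i : Fin (dedekindPsi L) => uk ^ (i : ℕ)) ∧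
      FiniteDimensional ↥k⟮jk⟯ ↥kappa ∧ Module.finrank ↥k⟮jk⟯ ↥kappa = dedekindPsi L := by
  obtain ⟨Pb, hmonic, hdeg, -, -, hroot, -⟩ := exists_Pb (k := k) hl L hL
  exact main kappa jk uk Pb hmonic hdeg hroot (natDegree_le_of_root hl L hL) hkappa hjk huk

/-- `ū_L` as an element of the literal `k(j̄, ū_L)`. -/
def ukLit (k : Type*) [Field k] (L : ℕ) :
    ↥(IntermediateField.adjoin k
      {jqModC k, coeffMap (Int.castRingHom k) (Fermat.Agent.S28.FormalU.uZ L)}) :=
  ⟨coeffMap (Int.castRingHom k) (Fermat.Agent.S28.FormalU.uZ L),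
    subset_adjoin k _ (Set.mem_insert_of_mem _ rfl)⟩

/-- `j̄` as an element of the literal `k(j̄, ū_L)`. -/
def jkLit (k : Type*) [Field k] (L : ℕ) :
    ↥(IntermediateField.adjoin k
      {jqModC k, coeffMap (Int.castRingHom k) (Fermat.Agent.S28.FormalU.uZ L)}) :=
  ⟨jqModC k, subset_adjoin k _ (Set.mem_insert _ _)⟩

/-- Literal shape: linear independence of `ū^i`, `i < ψ(L)`, over `k(j̄)` inside
`adjoin k {jqModC k, ū_L}` (the `hbb` of `ChartInt.hint0/hint1`). -/
theorem linearIndependent_pow (hl : ℓ.Prime) [CharP k ℓ] (L : ℕ) [NeZero L] (hL : ¬ ℓ ∣ L)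
    (jk uk : ↥(IntermediateField.adjoin k
      {jqModC k, coeffMap (Int.castRingHom k) (Fermat.Agent.S28.FormalU.uZ L)}))
    (hjk : (jk : LaurentSeries k) = jqModC k)
    (huk : (uk : LaurentSeries k) = coeffMap (Int.castRingHom k) (Fermat.Agent.S28.FormalU.uZ L)) :
    LinearIndependent ↥k⟮jk⟯ (fun i : Fin (dedekindPsi L) => uk ^ (i : ℕ)) :=
  (level_main hl L hL _ rfl jk uk hjk huk).1

/-- Literal shape: `k(j̄, ū_L)` is finite over `k(j̄)`. -/
theorem finiteDimensional (hl : ℓ.Prime) [CharP k ℓ] (L : ℕ) [NeZero L] (hL : ¬ ℓ ∣ L)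
    (jk : ↥(IntermediateField.adjoin k
      {jqModC k, coeffMap (Int.castRingHom k) (Fermat.Agent.S28.FormalU.uZ L)}))
    (hjk : (jk : LaurentSeries k) = jqModC k) :
    FiniteDimensional ↥k⟮jk⟯ ↥(IntermediateField.adjoin k
      {jqModC k, coeffMap (Int.castRingHom k) (Fermat.Agent.S28.FormalU.uZ L)}) :=
  (level_main hl L hL _ rfl jk (ukLit k L) hjk rfl).2.1

/-- Literal shape: `[k(j̄, ū_L) : k(j̄)] = ψ(L)`. -/
theorem finrank_eq (hl : ℓ.Prime) [CharP k ℓ] (L : ℕ) [NeZero L] (hL : ¬ ℓ ∣ L)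
    (jk : ↥(IntermediateField.adjoin k
      {jqModC k, coeffMap (Int.castRingHom k) (Fermat.Agent.S28.FormalU.uZ L)}))
    (hjk : (jk : LaurentSeries k) = jqModC k) :
    Module.finrank ↥k⟮jk⟯ ↥(IntermediateField.adjoin k
      {jqModC k, coeffMap (Int.castRingHom k) (Fermat.Agent.S28.FormalU.uZ L)}) = dedekindPsi L :=
  (level_main hl L hL _ rfl jk (ukLit k L) hjk rfl).2.2

end Level

end Fermat.Agent.S18.KappaDeg
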