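/-
S18, package `Restrict` (owner: helper9).

Restriction of places along an algebraic extension of function fields, and the instance
`F_N ⊆ F_M` (`N ∣ M`) needed by the descent step of S18:
`Fermat.Agent.S18.Restrict.main : RestrictStmt N M`.
-/
import Mathlib
import Fermat.Agent.S18.Defs
import Fermat.Agent.S24.FFBasic
import Fermat.Agent.S24.Degree

set_option autoImplicit false

noncomputable section

namespace Fermat.Agent.S18.Restrict

open AlgebraicCurve ModularCurve IntermediateField

section Generic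

variable {K E E' : Type*} [Field K] [Field E] [Field E'] [Algebra K E']
  [Algebra E E']

/-- The restricted order function `x ↦ ord_{P'}(x)` on the subfield `E`. -/
def rord (P' : Place K E') (x : E) : ℤ := P'.ord (algebraMap E E' x)

theorem rord_mul (P' : Place K E') {x y : E} (hx : x ≠ 0) (hy : y ≠ 0) :
    rord P' (x * y) = rord P' x + rord P' y := by
  unfold rord
  rw [map_mul]
  exact P'.ord_mul ((map_ne_zero _).mpr hx) ((map_ne_zero _).mpr hy)

theorem rord_inv (P' : Place K E') (x : E) : rord P' x⁻¹ = -rord P' x := by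
  unfold rord
  rw [map_inv₀]
  exact P'.ord_inv _

theorem rord_zpow (P' : Place K E') (x : E) (n : ℤ) : rord P' (x ^ n) = n * rord P' x := by
  unfold rord
  rw [map_zpow₀]
  exact P'.ord_zpow _ _

theorem rord_one (P' : Place K E') : rord P' (1 : E) = 0 := by
  unfold rord
  rw [map_one]
  exact P'.ord_one

/-- If `E'/E` is algebraic, a place of `E'` is nontrivial on `E`. -/
theorem exists_rord_neg [Algebra.IsAlgebraic E E'] (P' : Place K E') :
    ∃ x : E, rord P' x < 0 := by
  by_contra hcon
  replace hcon : ∀ x : E, 0 ≤ rord P' x := fun x => not_lt.mp fun h => hcon ⟨x, h⟩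
  have hmem : ∀ x : E, algebraMap E E' x ∈ P'.toValuationSubring := fun x =>
    Fermat.Agent.S24.mem_of_ord_nonneg P' (hcon x)
  let f : E →+* P'.toValuationSubring :=
    (algebraMap E E').codRestrict P'.toValuationSubring.toSubring hmem
  let _ : Algebra E P'.toValuationSubring := f.toAlgebra
  have : IsScalarTower E P'.toValuationSubring E' :=
    IsScalarTower.of_algebraMap_eq fun _ => rfl
  apply P'.ne_top'
  refine SetLike.ext fun y => ⟨fun _ => ValuationSubring.mem_top y, fun _ => ?_⟩
  have hy : IsIntegral E y := (Algebra.IsAlgebraic.isAlgebraic y).isIntegral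
  have hint : IsIntegral P'.toValuationSubring y := hy.tower_top
  obtain ⟨z, hz⟩ := IsIntegrallyClosed.algebraMap_eq_of_integral hint
  rw [← hz]
  exact z.2

/-- The smallest positive value of the restricted order function. -/
theorem exists_minimal_pos [Algebra.IsAlgebraic E E'] (P' : Place K E') :
    ∃ (e : ℕ) (π : E), 0 < e ∧ π ≠ 0 ∧ rord P' π = e ∧
      ∀ x : E, x ≠ 0 → (e : ℤ) ∣ rord P' x := by
  classical
  have hex : ∃ n : ℕ, 0 < n ∧ ∃ x : E, x ≠ 0 ∧ rord P' x = n := by
    obtain ⟨x, hx⟩ := exists_rord_neg (E := E) P'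
    have hx0 : x ≠ 0 := by
      rintro rfl
      simp [rord] at hx
    refine ⟨(-rord P' x).toNat, by omega, x⁻¹, inv_ne_zero hx0, ?_⟩
    rw [rord_inv]
    omega
  obtain ⟨he, π, hπ0, hπ⟩ := Nat.find_spec hex
  refine ⟨Nat.find hex, π, he, hπ0, hπ, fun x hx => ?_⟩
  set e := Nat.find hex with he_def
  -- division with remainder
  have hr0 : 0 ≤ rord P' x % (e : ℤ) := Int.emod_nonneg _ (by omega)
  have hr1 : rord P' x % (e : ℤ) < e := Int.emod_lt_of_pos _ (by omega)
  have hy0 : x * π ^ (-(rord P' x / (e : ℤ))) ≠ 0 := mul_ne_zero hx (zpow_ne_zero _ hπ0)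
  have hy : rord P' (x * π ^ (-(rord P' x / (e : ℤ)))) = rord P' x % (e : ℤ) := by
    rw [rord_mul P' hx (zpow_ne_zero _ hπ0), rord_zpow, hπ]
    have := Int.emod_add_mul_ediv (rord P' x) (e : ℤ)
    linarith
  by_contra hdvd
  have hrne : rord P' x % (e : ℤ) ≠ 0 := fun h => hdvd (Int.dvd_of_emod_eq_zero h)
  have hmin := Nat.find_min hex (m := (rord P' x % (e : ℤ)).toNat) (by omega)
  exact hmin ⟨by omega, _, hy0, by rw [hy]; omega⟩

variable (E) in
/-- The restriction of the valuation ring of `P'` to `E`. -/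
def restrictSubring (P' : Place K E') : ValuationSubring E :=
  P'.toValuationSubring.comap (algebraMap E E')

theorem mem_restrictSubring (P' : Place K E') (x : E) :
    x ∈ restrictSubring E P' ↔ 0 ≤ rord P' x := by
  unfold restrictSubring rord
  rw [ValuationSubring.mem_comap]
  exact Fermat.Agent.S24.mem_iff_ord_nonneg P'

theorem isUnit_restrict_iff (P' : Place K E') (x : restrictSubring E P') (hx : x ≠ 0) :
    IsUnit x ↔ rord P' (x : E) = 0 := by
  have hx0 : (x : E) ≠ 0 := by simpa [ne_eq, ZeroMemClass.coe_eq_zero] using hx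
  have hxn : 0 ≤ rord P' (x : E) := (mem_restrictSubring P' _).mp x.2
  constructor
  · intro hu
    obtain ⟨y, hy⟩ := hu.exists_right_inv
    have hy' : (x : E) * (y : E) = 1 := by
      have := congrArg (fun z : restrictSubring E P' => (z : E)) hy
      simpa using this
    have hy0 : (y : E) ≠ 0 := by
      rintro h
      rw [h, mul_zero] at hy'
      exact zero_ne_one hy'
    have hyn : 0 ≤ rord P' (y : E) := (mem_restrictSubring P' _).mp y.2
    have h1 := rord_mul P' hx0 hy0
    rw [hy', rord_one] at h1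
    omega
  · intro h0
    have hinv : (x : E)⁻¹ ∈ restrictSubring E P' := by
      rw [mem_restrictSubring, rord_inv, h0]
      simp
    refine IsUnit.of_mul_eq_one ⟨(x : E)⁻¹, hinv⟩ ?_
    apply Subtype.ext
    show (x : E) * (x : E)⁻¹ = 1
    exact mul_inv_cancel₀ hx0

/-- **Restriction of a place** along an algebraic extension `E'/E` of fields over `K`: the
valuation ring of `P'` meets `E` in a discrete valuation ring, and the order function of `P'`
restricted to `E` is a constant multiple (the ramification index) of the order function of the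
restricted place. -/
theorem exists_place_restrict [Algebra K E] [IsScalarTower K E E'] [Algebra.IsAlgebraic E E']
    (P' : Place K E') :
    ∃ (P : Place K E) (e : ℤ), ∀ x : E, P'.ord (algebraMap E E' x) = e * P.ord x := by
  obtain ⟨e, π, he, hπ0, hπ, hdvd⟩ := exists_minimal_pos (E := E) P'
  have hπmem : π ∈ restrictSubring E P' := (mem_restrictSubring P' π).mpr (by omega)
  have hπ'0 : (⟨π, hπmem⟩ : restrictSubring E P') ≠ 0 := by
    intro h
    exact hπ0 (congrArg Subtype.val h)
  have hnonneg : ∀ a : restrictSubring E P', 0 ≤ rord P' (a : E) := fun a =>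
    (mem_restrictSubring P' _).mp a.2
  -- `π` is irreducible in the restricted ring
  have hπirr : Irreducible (⟨π, hπmem⟩ : restrictSubring E P') := by
    refine ⟨fun hu => ?_, fun a b hab => ?_⟩
    · have := (isUnit_restrict_iff P' _ hπ'0).mp hu
      simp only at this
      omega
    · have hab' : π = (a : E) * (b : E) := congrArg Subtype.val hab
      have ha0 : (a : E) ≠ 0 := by
        rintro h
        rw [h, zero_mul] at hab'
        exact hπ0 hab'
      have hb0 : (b : E) ≠ 0 := by
        rintro h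
        rw [h, mul_zero] at hab'
        exact hπ0 hab'
      have ha0' : a ≠ 0 := fun h => ha0 (by rw [h]; rfl)
      have hb0' : b ≠ 0 := fun h => hb0 (by rw [h]; rfl)
      have hsum := rord_mul P' ha0 hb0
      rw [← hab', hπ] at hsum
      obtain ⟨m, hm⟩ := hdvd _ ha0
      obtain ⟨n, hn⟩ := hdvd _ hb0
      have hma := hnonneg a
      have hnb := hnonneg b
      rw [isUnit_restrict_iff P' a ha0', isUnit_restrict_iff P' b hb0']
      have he' : (0 : ℤ) < e := by exact_mod_cast he
      have hm0 : 0 ≤ m := by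
        by_contra hneg
        have : (e : ℤ) * m < 0 := mul_neg_of_pos_of_neg he' (by omega)
        omega
      have hn0 : 0 ≤ n := by
        by_contra hneg
        have : (e : ℤ) * n < 0 := mul_neg_of_pos_of_neg he' (by omega)
        omega
      have hmn : m + n = 1 := by
        have h1 : (e : ℤ) * (m + n) = e * 1 := by rw [mul_add, ← hm, ← hn, mul_one]; exact hsum.symm
        exact mul_left_cancel₀ (by omega) h1
      rcases (show m = 0 ∨ n = 0 by omega) with h | h
      · left; rw [hm, h, mul_zero]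
      · right; rw [hn, h, mul_zero]
  -- factorisation `x = u * π ^ n`
  have hfac : ∀ x : E, x ≠ 0 → ∃ (u : (restrictSubring E P')ˣ) (n : ℤ),
      x = ((u : restrictSubring E P') : E) * π ^ n ∧ rord P' x = e * n := by
    intro x hx
    obtain ⟨n, hn⟩ := hdvd x hx
    have hy0 : x * π ^ (-n) ≠ 0 := mul_ne_zero hx (zpow_ne_zero _ hπ0)
    have hy : rord P' (x * π ^ (-n)) = 0 := by
      rw [rord_mul P' hx (zpow_ne_zero _ hπ0), rord_zpow, hπ, hn]
      ring
    have hymem : x * π ^ (-n) ∈ restrictSubring E P' := by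
      rw [mem_restrictSubring, hy]
    have hy0' : (⟨x * π ^ (-n), hymem⟩ : restrictSubring E P') ≠ 0 := by
      intro h
      exact hy0 (congrArg Subtype.val h)
    have hu : IsUnit (⟨x * π ^ (-n), hymem⟩ : restrictSubring E P') :=
      (isUnit_restrict_iff P' _ hy0').mpr hy
    refine ⟨hu.unit, n, ?_, hn⟩
    rw [IsUnit.unit_spec]
    show x = x * π ^ (-n) * π ^ n
    rw [mul_assoc, ← zpow_add₀ hπ0, neg_add_cancel, zpow_zero, mul_one]
  have hdvr : IsDiscreteValuationRing (restrictSubring E P') := by
    refine IsDiscreteValuationRing.ofHasUnitMulPowIrreducibleFactorization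
      ⟨⟨π, hπmem⟩, hπirr, fun {x} hx => ?_⟩
    have hx0 : (x : E) ≠ 0 := by simpa [ne_eq, ZeroMemClass.coe_eq_zero] using hx
    obtain ⟨u, n, hxu, hn⟩ := hfac (x : E) hx0
    have hxn := hnonneg x
    have he' : (0 : ℤ) < e := by exact_mod_cast he
    have hn0 : 0 ≤ n := by
      by_contra hneg
      have : (e : ℤ) * n < 0 := mul_neg_of_pos_of_neg he' (by omega)
      omega
    refine ⟨n.toNat, u, ?_⟩
    apply Subtype.ext
    show π ^ n.toNat * ((u : restrictSubring E P') : E) = (x : E)
    rw [hxu, mul_comm]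
    congr 1
    rw [← zpow_natCast, Int.toNat_of_nonneg hn0]
  have hK : ∀ a : K, algebraMap K E a ∈ restrictSubring E P' := by
    intro a
    show algebraMap E E' (algebraMap K E a) ∈ P'.toValuationSubring
    rw [← IsScalarTower.algebraMap_apply]
    exact P'.algebraMap_mem' a
  have hne : restrictSubring E P' ≠ ⊤ := by
    obtain ⟨x, hx⟩ := exists_rord_neg (E := E) P'
    intro htop
    have hx' : x ∈ restrictSubring E P' := by rw [htop]; exact ValuationSubring.mem_top x
    rw [mem_restrictSubring] at hx'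
    omega
  refine ⟨⟨restrictSubring E P', hK, hne, inferInstance⟩, e, fun x => ?_⟩
  rcases eq_or_ne x 0 with rfl | hx
  · simp
  obtain ⟨u, n, hxu, hn⟩ := hfac x hx
  have h1 : rord P' x = e * n := hn
  have h2 : (Place.mk (K := K) (restrictSubring E P') hK hne inferInstance).ord x = n := by
    rw [hxu]
    exact Place.ord_unit_smul_zpow (Place.mk (K := K) (restrictSubring E P') hK hne inferInstance)
      u hπirr n
  rw [h2]
  exact h1

end Generic

section Generic2

variable {K E E' : Type*} [Field K] [Field E] [Field E'] [Algebra K E'] [Algebra K E]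
  [Algebra E E'] [IsScalarTower K E E']

/-- If `E'` is finite over `K(x)` for some `x ∈ E`, then `E'/E` is algebraic. -/
theorem isAlgebraic_of_finite_adjoin (x : E)
    (hfin : FiniteDimensional K⟮algebraMap E E' x⟯ E') : Algebra.IsAlgebraic E E' := by
  have hsub : K⟮algebraMap E E' x⟯ ≤ (IsScalarTower.toAlgHom K E E').fieldRange := by
    rw [IntermediateField.adjoin_le_iff, Set.singleton_subset_iff]
    exact ⟨x, rfl⟩
  refine ⟨fun y => IsIntegral.isAlgebraic ?_⟩
  obtain ⟨p, hp, hpy⟩ : IsIntegral K⟮algebraMap E E' x⟯ y := IsIntegral.of_finite _ y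
  let τ : K⟮algebraMap E E' x⟯ →+* E :=
    ((AlgEquiv.ofInjectiveField (IsScalarTower.toAlgHom K E E')).symm.toAlgHom.comp
      (IntermediateField.inclusion hsub)).toRingHom
  have hτ : (algebraMap E E').comp τ = algebraMap K⟮algebraMap E E' x⟯ E' := by
    ext z
    have h1 := (AlgEquiv.ofInjectiveField (IsScalarTower.toAlgHom K E E')).apply_symm_apply
      (IntermediateField.inclusion hsub z)
    have h2 := congrArg Subtype.val h1
    exact h2
  refine ⟨p.map τ, hp.map _, ?_⟩
  rw [Polynomial.eval₂_map, hτ]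
  exact hpy

end Generic2

section Inter

variable {K Ω : Type*} [Field K] [Field Ω] [Algebra K Ω]

/-- **Restriction of places for nested intermediate fields** `F₁ ≤ F₂` of `Ω/K`, when `F₂` is
finite over `K(x)` for some `x ∈ F₁`. -/
theorem exists_place_restrict_inter (F₁ F₂ : IntermediateField K Ω) (h : F₁ ≤ F₂)
    (x : Ω) (hx₁ : x ∈ F₁) (hx₂ : x ∈ F₂)
    (hfin : FiniteDimensional K⟮(⟨x, hx₂⟩ : F₂)⟯ F₂) (P' : Place K F₂) :
    ∃ (P : Place K F₁) (e : ℤ), ∀ (y : Ω) (h₁ : y ∈ F₁) (h₂ : y ∈ F₂),
      P'.ord (⟨y, h₂⟩ : F₂) = e * P.ord (⟨y, h₁⟩ : F₁) := by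
  let _ : Algebra F₁ F₂ := (IntermediateField.inclusion h).toRingHom.toAlgebra
  have htower : IsScalarTower K F₁ F₂ := IsScalarTower.of_algebraMap_eq fun _ => rfl
  have hfin' : FiniteDimensional K⟮algebraMap F₁ F₂ (⟨x, hx₁⟩ : F₁)⟯ F₂ := hfin
  have halg : Algebra.IsAlgebraic F₁ F₂ :=
    isAlgebraic_of_finite_adjoin (K := K) (⟨x, hx₁⟩ : F₁) hfin'
  obtain ⟨P, e, hP⟩ := exists_place_restrict (E := F₁) P'
  exact ⟨P, e, fun y h₁ h₂ => hP ⟨y, h₁⟩⟩

end Inter

local notation "Kb" => AlgebraicClosure ℚ

theorem bar_le {N M : ℕ} [NeZero N] [NeZero M] (h : N ∣ M) :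
    modularFunctionFieldBar N ≤ modularFunctionFieldBar M := by
  apply IntermediateField.adjoin.mono
  exact Set.image_mono (full_degeneracy_le h)

theorem finite_bar (M : ℕ) [NeZero M]
    (hx : Fermat.Agent.S24.Jser Kb 1 ∈ modularFunctionFieldBar M) :
    FiniteDimensional Kb⟮(⟨Fermat.Agent.S24.Jser Kb 1, hx⟩ : modularFunctionFieldBar M)⟯
      (modularFunctionFieldBar M) := by
  have h1 : Fermat.Agent.S24.xgen Kb M
      = (⟨Fermat.Agent.S24.Jser Kb 1, hx⟩ : modularFunctionFieldBar M) :=
    Subtype.ext (Fermat.Agent.S24.coe_xgen Kb M)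
  rw [← h1]
  exact Fermat.Agent.S24.finiteDimensional_FK Kb Fermat.Agent.S24.kEmb M

/-- **Restriction of places** along `F_N ⊆ F_M` for `N ∣ M`. -/
theorem main {N M : ℕ} (hNM : N ∣ M) (hM : M ≠ 0) : RestrictStmt N M := by
  have hM' : NeZero M := ⟨hM⟩
  have hN' : NeZero N := ⟨fun h => hM (by subst h; simpa using hNM)⟩
  intro P'
  exact exists_place_restrict_inter (modularFunctionFieldBar N) (modularFunctionFieldBar M)
    (bar_le hNM) (Fermat.Agent.S24.Jser Kb 1) (Fermat.Agent.S24.Jser_mem Kb N (one_dvd N))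
    (Fermat.Agent.S24.Jser_mem Kb M (one_dvd M))
    (finite_bar M (Fermat.Agent.S24.Jser_mem Kb M (one_dvd M))) P'

end Fermat.Agent.S18.Restrict

end
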