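/-
S18 / IntMonic (helper21): polynomial form of `ChartInt.isIntegral_OE`.

Every Gauss-integral `f` is a root of a monic polynomial whose coefficients are Gauss-integral
elements of `K(j)` (the input `hint` of `RootAbs.of_red`, before mapping `K(j)` into `F_N`).
-/
import Mathlib
import Fermat.Agent.S18.ChartInt

set_option autoImplicit false

noncomputable section

namespace Fermat.Agent.S18.IntMonic

open AlgebraicCurve IntermediateField Polynomial Fermat.Agent.S18.ChartInt

variable {K F κ : Type*} [Field K] [Field F] [Algebra K F] {A : ValuationSubring K}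
    [Field κ] [Algebra (IsLocalRing.ResidueField A) κ] {Red : F → κ → Prop}

/-- Every Gauss-integral `f` is a root of a monic polynomial over `K(j)` (as a type) all of whose
coefficients are Gauss-integral. -/
theorem exists_monic_adjoin (hR : RedFacts A Red) {j : F} {jb : κ} (hj : Red j jb)
    (hjb : Transcendental (IsLocalRing.ResidueField A) jb) [FiniteDimensional K⟮j⟯ F] {n : ℕ}
    {b : Fin n → F} {bb : Fin n → κ} (hb : ∀ i, Red (b i) (bb i))
    (hbb : LinearIndependent (IsLocalRing.ResidueField A)⟮jb⟯ bb)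
    (hn : Module.finrank K⟮j⟯ F ≤ n) {f : F} {x : κ} (hf : Red f x) :
    ∃ p : Polynomial K⟮j⟯, p.Monic ∧ (∀ m, ∃ c, Red ((p.coeff m : K⟮j⟯) : F) c) ∧
      aeval f p = 0 := by
  obtain ⟨p, hp, hp0⟩ := isIntegral_OE hR hj hjb hb hbb hn hf
  refine ⟨p.map (algebraMap (OE hR j) K⟮j⟯), hp.map _, fun m => ?_, ?_⟩
  · rw [coeff_map]
    exact (p.coeff m).2
  · rw [aeval_def, eval₂_map]
    exact hp0

/-- Every Gauss-integral `f` is a root of a monic polynomial over `F` all of whose coefficients
are Gauss-integral elements of `K(j)`. -/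
theorem exists_monic (hR : RedFacts A Red) {j : F} {jb : κ} (hj : Red j jb)
    (hjb : Transcendental (IsLocalRing.ResidueField A) jb) [FiniteDimensional K⟮j⟯ F] {n : ℕ}
    {b : Fin n → F} {bb : Fin n → κ} (hb : ∀ i, Red (b i) (bb i))
    (hbb : LinearIndependent (IsLocalRing.ResidueField A)⟮jb⟯ bb)
    (hn : Module.finrank K⟮j⟯ F ≤ n) {f : F} {x : κ} (hf : Red f x) :
    ∃ p : Polynomial F, p.Monic ∧ (∀ m, p.coeff m ∈ K⟮j⟯ ∧ ∃ c, Red (p.coeff m) c) ∧
      p.eval f = 0 := by
  obtain ⟨p, hp, hc, hp0⟩ := exists_monic_adjoin hR hj hjb hb hbb hn hf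
  refine ⟨p.map (algebraMap K⟮j⟯ F), hp.map _, fun m => ?_, ?_⟩
  · rw [coeff_map]
    exact ⟨(p.coeff m).2, hc m⟩
  · rw [eval_map]
    exact hp0

end Fermat.Agent.S18.IntMonic

end
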