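import Fermat.Agent.S18.RootWire
import Fermat.Agent.S18.IntMonic
import Fermat.Agent.S18.ChartInt
import Fermat.Agent.S18.SepPF
import Fermat.Agent.S18.ResField
import Fermat.Agent.S18.GenusBar
import Fermat.Agent.S18.ConstPF

/-!
# S18 / RootLvl: descent of roots `F_M → F_N` from a Gauss layer at level `M`

`RootLvl.of_gauss`: the statement `RootDescentStmt ℓ A N M` from exactly the Gauss-layer inputs
of `CoreLvl.of_gauss` (an intermediate field `κ` of `k((q))` containing `j̄`, of degree `ψ(M)`
over `k(j̄)`, a reduction relation `Red : F_M → κ → Prop` with `RedFacts`, `Red j j̄`, surjective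
onto `κ`) plus the coefficientwise reduction of integral series (the `hint` of `Bridge.main`).
No genus input, no Gauss layer at level `N`.
-/

set_option autoImplicit false
set_option synthInstance.maxHeartbeats 400000

noncomputable section

namespace Fermat.Agent.S18.RootLvl

open AlgebraicCurve ModularCurve Fermat.Agent.RR Fermat.Agent.S18
open scoped IntermediateField

/-- `j`, as an element of `F_M`, lies in `F_N`. -/
theorem coe_xgen_mem (N M : ℕ) :
    ((Fermat.Agent.S24.xgen (AlgebraicClosure ℚ) M : modularFunctionFieldBar M) :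
      LaurentSeries (AlgebraicClosure ℚ)) ∈ modularFunctionFieldBar N := by
  rw [Fermat.Agent.S24.coe_xgen]
  exact Fermat.Agent.S24.Jser_mem (AlgebraicClosure ℚ) N (one_dvd N)

/-- **Descent of roots at level `M`** from a Gauss layer `(κ, Red)` at level `M`. -/
theorem of_gauss {ℓ N M : ℕ} [NeZero N] [NeZero M] (hNM : N ∣ M) (hℓ : ℓ.Prime)
    (A : ValuationSubring (AlgebraicClosure ℚ)) (hA : A.LiesOverPrime ℓ)
    (κ : IntermediateField (IsLocalRing.ResidueField A)
      (LaurentSeries (IsLocalRing.ResidueField A)))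
    (jb : κ) (hjb : (jb : LaurentSeries (IsLocalRing.ResidueField A))
      = ModularCurve.jqModC (IsLocalRing.ResidueField A))
    (hfd : FiniteDimensional (IsLocalRing.ResidueField A)⟮jb⟯ κ)
    (hfr : Module.finrank (IsLocalRing.ResidueField A)⟮jb⟯ κ = dedekindPsi M)
    (Red : modularFunctionFieldBar M → κ → Prop) (hR : RedFacts A Red)
    (hint : ∀ (V : LaurentSeries A) (hV : genS A V ∈ modularFunctionFieldBar M),
      ∃ hx : redS A V ∈ κ, Red ⟨genS A V, hV⟩ ⟨redS A V, hx⟩)
    (hj : Red (Fermat.Agent.S24.xgen (AlgebraicClosure ℚ) M : modularFunctionFieldBar M) jb)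
    (hsurj : ∀ x : κ, ∃ f : modularFunctionFieldBar M, Red f x) :
    RootDescentStmt ℓ A N M := by
  have hk : IsAlgClosed (IsLocalRing.ResidueField A) := ResField.isAlgClosed A
  have hP : PlaceFacts (AlgebraicClosure ℚ) (modularFunctionFieldBar M) :=
    ConstPF.placeFacts_bar M
  have hjt := GenusBar.transcendental_xgen_bar M
  have hjbt : Transcendental (IsLocalRing.ResidueField A) jb :=
    SepPF.transcendental_of_coe_eq κ jb hjb
  have hfdK : FiniteDimensional
      (AlgebraicClosure ℚ)⟮(Fermat.Agent.S24.xgen (AlgebraicClosure ℚ) M :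
        modularFunctionFieldBar M)⟯ (modularFunctionFieldBar M) := hP.hfd _ hjt
  obtain ⟨b, bb, hb, hbb⟩ :=
    ChartInt.exists_family_of_surj (A := A) (Red := Red) (jb := jb) hsurj
  have hn : Module.finrank
      (AlgebraicClosure ℚ)⟮(Fermat.Agent.S24.xgen (AlgebraicClosure ℚ) M :
        modularFunctionFieldBar M)⟯ (modularFunctionFieldBar M)
      ≤ Module.finrank (IsLocalRing.ResidueField A)⟮jb⟯ κ := by
    rw [hfr, GenusBar.finrank_xgen_bar M]
  exact RootWire.main (NeZero.ne N) (NeZero.ne M) hNM hℓ A hA κ Red hR hint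
    (Fermat.Agent.S24.xgen (AlgebraicClosure ℚ) M) (coe_xgen_mem N M)
    (fun _ _ h => IntMonic.exists_monic hR hj hjbt hb hbb hn h)

end Fermat.Agent.S18.RootLvl

end
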