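import Mathlib
import Fermat.Agent.S18.CoreHint

/-!
# S18 / SemiLvl: semicontinuity of the genus at a level `M` (`ḡ_M ≤ g_M`)

Companion of `CoreLvl.of_gauss` / `CoreHint.of_hint`: with the same Gauss-layer inputs (and no
genus hypothesis), the genus of the residue function field `κ` is at most the genus of `F_M`.
At the auxiliary level `M0 ℓ ∈ {4, 9}` (genus `0`) this gives `dim H¹(0) = 0` for `κ`.
-/

set_option autoImplicit false
set_option synthInstance.maxHeartbeats 400000

noncomputable section

namespace Fermat.Agent.S18.SemiLvl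

open AlgebraicCurve ModularCurve Fermat.Agent.RR
open scoped IntermediateField

/-- Semicontinuity at level `M` from a Gauss layer `(κ, Red)`. -/
theorem genus_le_of_gauss (A : ValuationSubring (AlgebraicClosure ℚ)) (M : ℕ) [NeZero M]
    (κ : IntermediateField (IsLocalRing.ResidueField A)
      (LaurentSeries (IsLocalRing.ResidueField A)))
    (jb : κ) (hjb : (jb : LaurentSeries (IsLocalRing.ResidueField A))
      = ModularCurve.jqModC (IsLocalRing.ResidueField A))
    (hfd : FiniteDimensional (IsLocalRing.ResidueField A)⟮jb⟯ κ)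
    (hfr : Module.finrank (IsLocalRing.ResidueField A)⟮jb⟯ κ = dedekindPsi M)
    (Red : modularFunctionFieldBar M → κ → Prop) (hR : RedFacts A Red)
    (hj : Red (Fermat.Agent.S24.xgen (AlgebraicClosure ℚ) M : modularFunctionFieldBar M) jb)
    (hsurj : ∀ x : κ, ∃ f : modularFunctionFieldBar M, Red f x) :
    Module.finrank (IsLocalRing.ResidueField A)
        (H1 (0 : Divisor (IsLocalRing.ResidueField A) κ))
      ≤ Module.finrank (AlgebraicClosure ℚ)
        (H1 (0 : Divisor (AlgebraicClosure ℚ) (modularFunctionFieldBar M))) := by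
  have hk : IsAlgClosed (IsLocalRing.ResidueField A) := ResField.isAlgClosed A
  have hP : PlaceFacts (AlgebraicClosure ℚ) (modularFunctionFieldBar M) :=
    ConstPF.placeFacts_bar M
  have hRR : RiemannFacts (AlgebraicClosure ℚ) (modularFunctionFieldBar M) :=
    GenusBar.riemannFacts_bar M
  have hPb : PlaceFacts (IsLocalRing.ResidueField A) κ := SepPF.placeFacts_of_finite κ jb hjb
  have hRb : RiemannFacts (IsLocalRing.ResidueField A) κ := SepPF.riemannFacts_of_finite κ jb hjb
  have hjt := GenusBar.transcendental_xgen_bar M
  have hjbt : Transcendental (IsLocalRing.ResidueField A) jb :=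
    SepPF.transcendental_of_coe_eq κ jb hjb
  have hdegK := GenusBar.finrank_xgen_bar M
  have hfdK : FiniteDimensional
      (AlgebraicClosure ℚ)⟮(Fermat.Agent.S24.xgen (AlgebraicClosure ℚ) M :
        modularFunctionFieldBar M)⟯ (modularFunctionFieldBar M) := hP.hfd _ hjt
  have hfdK' : FiniteDimensional
      (AlgebraicClosure ℚ)⟮(Fermat.Agent.S24.xgen (AlgebraicClosure ℚ) M :
        modularFunctionFieldBar M)⁻¹⟯ (modularFunctionFieldBar M) :=
    hP.hfd _ (Charts.transcendental_inv hjt)
  have hdeg : Module.finrank (IsLocalRing.ResidueField A)⟮jb⟯ κ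
      = Module.finrank (AlgebraicClosure ℚ)⟮(Fermat.Agent.S24.xgen (AlgebraicClosure ℚ) M :
        modularFunctionFieldBar M)⟯ (modularFunctionFieldBar M) := by
    rw [hfr, hdegK]
  obtain ⟨Z0, hZ0, hZ0deg⟩ := Charts.exists_poleDiv hP _ hjt
  obtain ⟨Z1, hZ1, -⟩ := Charts.exists_zeroDiv hP _ hjt
  obtain ⟨Zb0, hZb0, hZb0deg⟩ := Charts.exists_poleDiv hPb jb hjbt
  obtain ⟨Zb1, hZb1, -⟩ := Charts.exists_zeroDiv hPb jb hjbt
  have hjb0 : jb ≠ 0 := by
    rintro rfl
    exact hjbt isAlgebraic_zero
  have hpos : 0 < Divisor.degree Z0 := by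
    rw [hZ0deg]
    exact_mod_cast Module.finrank_pos
  have hdeg0 : Divisor.degree Zb0 = Divisor.degree Z0 := by
    rw [hZb0deg, hZ0deg, hdeg]
  have compat := Charts.compat_of hR hj hjb0
    (fun f hf => Charts.isIntegral_of_regular_charZero _ hjt f hf)
    (fun f hf => Charts.isIntegral_of_regular_charZero _ (Charts.transcendental_inv hjt) f hf)
    (ChartInt.hint0_of_surj hR hj hjt hjbt hsurj hdeg.ge)
    (ChartInt.hint1_of_surj hR hj hjt hjbt hsurj hdeg.ge) hZ0 hZ1 hZb0 hZb1
  exact GenusLe.genus_le_of_compat A Red hR hRR hPb hRb Z0 Z1 Zb0 Zb1 hpos hdeg0 compat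

/-- From the Bridge-shaped `hint` for the literal residue field `κ = k(j̄, ū_M)`:
`Red j j̄` and surjectivity of `Red`. -/
theorem hj_hsurj_of_hint (A : ValuationSubring (AlgebraicClosure ℚ)) (M : ℕ) [NeZero M]
    (Red : modularFunctionFieldBar M →
      IntermediateField.adjoin (IsLocalRing.ResidueField A)
        ({jqModC (IsLocalRing.ResidueField A),
          coeffMap (Int.castRingHom (IsLocalRing.ResidueField A))
            (Fermat.Agent.S28.FormalU.uZ M)} : Set (LaurentSeries (IsLocalRing.ResidueField A)))
        → Prop)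
    (hR : RedFacts A Red)
    (hint : ∀ (V : LaurentSeries A) (hV : genS A V ∈ modularFunctionFieldBar M),
      ∃ hx : redS A V ∈ IntermediateField.adjoin (IsLocalRing.ResidueField A)
        ({jqModC (IsLocalRing.ResidueField A),
          coeffMap (Int.castRingHom (IsLocalRing.ResidueField A))
            (Fermat.Agent.S28.FormalU.uZ M)} : Set (LaurentSeries (IsLocalRing.ResidueField A))),
        Red ⟨genS A V, hV⟩ ⟨redS A V, hx⟩)
    (huK : coeffMap (Int.castRingHom (AlgebraicClosure ℚ)) (Fermat.Agent.S28.FormalU.uZ M)
      ∈ modularFunctionFieldBar M) :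
    Red (Fermat.Agent.S24.xgen (AlgebraicClosure ℚ) M : modularFunctionFieldBar M)
        ⟨jqModC (IsLocalRing.ResidueField A),
          IntermediateField.subset_adjoin _ _ (Set.mem_insert _ _)⟩ ∧
      ∀ x : IntermediateField.adjoin (IsLocalRing.ResidueField A)
        ({jqModC (IsLocalRing.ResidueField A),
          coeffMap (Int.castRingHom (IsLocalRing.ResidueField A))
            (Fermat.Agent.S28.FormalU.uZ M)} : Set (LaurentSeries (IsLocalRing.ResidueField A))),
        ∃ f : modularFunctionFieldBar M, Red f x := by
  have hjmem : genS A (jqModC A) ∈ modularFunctionFieldBar M := by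
    rw [CoreHint.genS_jq, ← CoreHint.coe_xgen M]
    exact (Fermat.Agent.S24.xgen (AlgebraicClosure ℚ) M).2
  obtain ⟨hjx, hjR⟩ := hint (jqModC A) hjmem
  have hj : Red (Fermat.Agent.S24.xgen (AlgebraicClosure ℚ) M : modularFunctionFieldBar M)
      ⟨jqModC (IsLocalRing.ResidueField A),
        IntermediateField.subset_adjoin _ _ (Set.mem_insert _ _)⟩ := by
    have e1 : (⟨genS A (jqModC A), hjmem⟩ : modularFunctionFieldBar M)
        = Fermat.Agent.S24.xgen (AlgebraicClosure ℚ) M := by
      apply Subtype.ext
      change genS A (jqModC A) = _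
      rw [CoreHint.genS_jq, CoreHint.coe_xgen]
    have e2 : (⟨redS A (jqModC A), hjx⟩ : IntermediateField.adjoin (IsLocalRing.ResidueField A)
        ({jqModC (IsLocalRing.ResidueField A),
          coeffMap (Int.castRingHom (IsLocalRing.ResidueField A))
            (Fermat.Agent.S28.FormalU.uZ M)} : Set (LaurentSeries (IsLocalRing.ResidueField A))))
        = ⟨jqModC (IsLocalRing.ResidueField A),
          IntermediateField.subset_adjoin _ _ (Set.mem_insert _ _)⟩ :=
      Subtype.ext (CoreHint.redS_jq A)
    rw [← e1, ← e2]
    exact hjR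
  refine ⟨hj, ?_⟩
  have humem : genS A (coeffMap (Int.castRingHom A) (Fermat.Agent.S28.FormalU.uZ M))
      ∈ modularFunctionFieldBar M := by
    rw [CoreHint.genS_uA]
    exact huK
  obtain ⟨hux, huR⟩ := hint _ humem
  exact CoreHint.surj_of_generators (A := A)
    ({jqModC (IsLocalRing.ResidueField A),
      coeffMap (Int.castRingHom (IsLocalRing.ResidueField A))
        (Fermat.Agent.S28.FormalU.uZ M)} : Set (LaurentSeries (IsLocalRing.ResidueField A)))
    Red hR (by
      intro s hs
      rcases hs with rfl | hs
      · exact ⟨_, hj⟩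
      · rw [Set.mem_singleton_iff] at hs
        subst hs
        refine ⟨⟨genS A (coeffMap (Int.castRingHom A) (Fermat.Agent.S28.FormalU.uZ M)), humem⟩,
          ?_⟩
        have e : (⟨redS A (coeffMap (Int.castRingHom A) (Fermat.Agent.S28.FormalU.uZ M)), hux⟩ :
            IntermediateField.adjoin (IsLocalRing.ResidueField A)
            ({jqModC (IsLocalRing.ResidueField A),
              coeffMap (Int.castRingHom (IsLocalRing.ResidueField A))
                (Fermat.Agent.S28.FormalU.uZ M)} :
                Set (LaurentSeries (IsLocalRing.ResidueField A))))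
            = ⟨coeffMap (Int.castRingHom (IsLocalRing.ResidueField A))
                (Fermat.Agent.S28.FormalU.uZ M),
              IntermediateField.subset_adjoin _ _
                (Set.mem_insert_of_mem _ (Set.mem_singleton _))⟩ :=
          Subtype.ext (CoreHint.redS_uA A M)
        rw [← e]
        exact huR)

/-- Semicontinuity at level `M` for the literal residue field `κ = k(j̄, ū_M)`, from `RedFacts`
and the Bridge-shaped `hint`. -/
theorem genus_le_of_hint (A : ValuationSubring (AlgebraicClosure ℚ)) (M : ℕ) [NeZero M]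
    (Red : modularFunctionFieldBar M →
      IntermediateField.adjoin (IsLocalRing.ResidueField A)
        ({jqModC (IsLocalRing.ResidueField A),
          coeffMap (Int.castRingHom (IsLocalRing.ResidueField A))
            (Fermat.Agent.S28.FormalU.uZ M)} : Set (LaurentSeries (IsLocalRing.ResidueField A)))
        → Prop)
    (hR : RedFacts A Red)
    (hint : ∀ (V : LaurentSeries A) (hV : genS A V ∈ modularFunctionFieldBar M),
      ∃ hx : redS A V ∈ IntermediateField.adjoin (IsLocalRing.ResidueField A)
        ({jqModC (IsLocalRing.ResidueField A),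
          coeffMap (Int.castRingHom (IsLocalRing.ResidueField A))
            (Fermat.Agent.S28.FormalU.uZ M)} : Set (LaurentSeries (IsLocalRing.ResidueField A))),
        Red ⟨genS A V, hV⟩ ⟨redS A V, hx⟩)
    (huK : coeffMap (Int.castRingHom (AlgebraicClosure ℚ)) (Fermat.Agent.S28.FormalU.uZ M)
      ∈ modularFunctionFieldBar M)
    (hfd : FiniteDimensional
      (IsLocalRing.ResidueField A)⟮(⟨jqModC (IsLocalRing.ResidueField A),
        IntermediateField.subset_adjoin _ _ (Set.mem_insert _ _)⟩ :
        IntermediateField.adjoin (IsLocalRing.ResidueField A)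
        ({jqModC (IsLocalRing.ResidueField A),
          coeffMap (Int.castRingHom (IsLocalRing.ResidueField A))
            (Fermat.Agent.S28.FormalU.uZ M)} : Set (LaurentSeries (IsLocalRing.ResidueField A))))⟯
      (IntermediateField.adjoin (IsLocalRing.ResidueField A)
        ({jqModC (IsLocalRing.ResidueField A),
          coeffMap (Int.castRingHom (IsLocalRing.ResidueField A))
            (Fermat.Agent.S28.FormalU.uZ M)} : Set (LaurentSeries (IsLocalRing.ResidueField A)))))
    (hfr : Module.finrank
      (IsLocalRing.ResidueField A)⟮(⟨jqModC (IsLocalRing.ResidueField A),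
        IntermediateField.subset_adjoin _ _ (Set.mem_insert _ _)⟩ :
        IntermediateField.adjoin (IsLocalRing.ResidueField A)
        ({jqModC (IsLocalRing.ResidueField A),
          coeffMap (Int.castRingHom (IsLocalRing.ResidueField A))
            (Fermat.Agent.S28.FormalU.uZ M)} : Set (LaurentSeries (IsLocalRing.ResidueField A))))⟯
      (IntermediateField.adjoin (IsLocalRing.ResidueField A)
        ({jqModC (IsLocalRing.ResidueField A),
          coeffMap (Int.castRingHom (IsLocalRing.ResidueField A))
            (Fermat.Agent.S28.FormalU.uZ M)} : Set (LaurentSeries (IsLocalRing.ResidueField A))))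
      = dedekindPsi M) :
    Module.finrank (IsLocalRing.ResidueField A)
        (H1 (0 : Divisor (IsLocalRing.ResidueField A)
          (IntermediateField.adjoin (IsLocalRing.ResidueField A)
            ({jqModC (IsLocalRing.ResidueField A),
              coeffMap (Int.castRingHom (IsLocalRing.ResidueField A))
                (Fermat.Agent.S28.FormalU.uZ M)} :
              Set (LaurentSeries (IsLocalRing.ResidueField A))))))
      ≤ Module.finrank (AlgebraicClosure ℚ)
        (H1 (0 : Divisor (AlgebraicClosure ℚ) (modularFunctionFieldBar M))) := by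
  obtain ⟨hj, hsurj⟩ := hj_hsurj_of_hint A M Red hR hint huK
  exact genus_le_of_gauss A M _ _ rfl hfd hfr Red hR hj hsurj

/-- At the auxiliary level `M0 ℓ` (genus `0`): `dim H¹(0) = 0` for the residue function field
`κ = k(j̄, ū_{M0})`. -/
theorem finrank_H1_zero_M0_of_hint (ℓ : ℕ) (A : ValuationSubring (AlgebraicClosure ℚ))
    (Red : modularFunctionFieldBar (LevelNum.M0 ℓ) →
      IntermediateField.adjoin (IsLocalRing.ResidueField A)
        ({jqModC (IsLocalRing.ResidueField A),
          coeffMap (Int.castRingHom (IsLocalRing.ResidueField A))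
            (Fermat.Agent.S28.FormalU.uZ (LevelNum.M0 ℓ))} :
          Set (LaurentSeries (IsLocalRing.ResidueField A)))
        → Prop)
    (hR : RedFacts A Red)
    (hint : ∀ (V : LaurentSeries A) (hV : genS A V ∈ modularFunctionFieldBar (LevelNum.M0 ℓ)),
      ∃ hx : redS A V ∈ IntermediateField.adjoin (IsLocalRing.ResidueField A)
        ({jqModC (IsLocalRing.ResidueField A),
          coeffMap (Int.castRingHom (IsLocalRing.ResidueField A))
            (Fermat.Agent.S28.FormalU.uZ (LevelNum.M0 ℓ))} :
          Set (LaurentSeries (IsLocalRing.ResidueField A))),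
        Red ⟨genS A V, hV⟩ ⟨redS A V, hx⟩)
    (huK : coeffMap (Int.castRingHom (AlgebraicClosure ℚ))
        (Fermat.Agent.S28.FormalU.uZ (LevelNum.M0 ℓ))
      ∈ modularFunctionFieldBar (LevelNum.M0 ℓ))
    (hfd : FiniteDimensional
      (IsLocalRing.ResidueField A)⟮(⟨jqModC (IsLocalRing.ResidueField A),
        IntermediateField.subset_adjoin _ _ (Set.mem_insert _ _)⟩ :
        IntermediateField.adjoin (IsLocalRing.ResidueField A)
        ({jqModC (IsLocalRing.ResidueField A),
          coeffMap (Int.castRingHom (IsLocalRing.ResidueField A))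
            (Fermat.Agent.S28.FormalU.uZ (LevelNum.M0 ℓ))} :
          Set (LaurentSeries (IsLocalRing.ResidueField A))))⟯
      (IntermediateField.adjoin (IsLocalRing.ResidueField A)
        ({jqModC (IsLocalRing.ResidueField A),
          coeffMap (Int.castRingHom (IsLocalRing.ResidueField A))
            (Fermat.Agent.S28.FormalU.uZ (LevelNum.M0 ℓ))} :
          Set (LaurentSeries (IsLocalRing.ResidueField A)))))
    (hfr : Module.finrank
      (IsLocalRing.ResidueField A)⟮(⟨jqModC (IsLocalRing.ResidueField A),
        IntermediateField.subset_adjoin _ _ (Set.mem_insert _ _)⟩ :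
        IntermediateField.adjoin (IsLocalRing.ResidueField A)
        ({jqModC (IsLocalRing.ResidueField A),
          coeffMap (Int.castRingHom (IsLocalRing.ResidueField A))
            (Fermat.Agent.S28.FormalU.uZ (LevelNum.M0 ℓ))} :
          Set (LaurentSeries (IsLocalRing.ResidueField A))))⟯
      (IntermediateField.adjoin (IsLocalRing.ResidueField A)
        ({jqModC (IsLocalRing.ResidueField A),
          coeffMap (Int.castRingHom (IsLocalRing.ResidueField A))
            (Fermat.Agent.S28.FormalU.uZ (LevelNum.M0 ℓ))} :
          Set (LaurentSeries (IsLocalRing.ResidueField A))))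
      = dedekindPsi (LevelNum.M0 ℓ)) :
    Module.finrank (IsLocalRing.ResidueField A)
        (H1 (0 : Divisor (IsLocalRing.ResidueField A)
          (IntermediateField.adjoin (IsLocalRing.ResidueField A)
            ({jqModC (IsLocalRing.ResidueField A),
              coeffMap (Int.castRingHom (IsLocalRing.ResidueField A))
                (Fermat.Agent.S28.FormalU.uZ (LevelNum.M0 ℓ))} :
              Set (LaurentSeries (IsLocalRing.ResidueField A)))))) = 0 := by
  have h := genus_le_of_hint A (LevelNum.M0 ℓ) Red hR hint huK hfd hfr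
  rw [GenusBar.finrank_H1_zero_M0 ℓ] at h
  exact Nat.le_zero.mp h

end Fermat.Agent.S18.SemiLvl

end
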