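import Fermat.Agent.S18.Final
import Fermat.Agent.S18.Bridge
import Fermat.Agent.S18.ConstB
import Fermat.Agent.S18.Restrict
import Fermat.Agent.S18.RootLvl
import Fermat.Agent.S18.CoreLvl
import Fermat.Agent.S18.CoreHint
import Fermat.Agent.S18.SemiLvl
import Fermat.Agent.S18.GenusWire
import Fermat.Agent.S18.KappaDeg
import Fermat.Agent.S18.CuspsKappa
import Fermat.Agent.S18.GenBar
import Fermat.Agent.S18.GaussADefs

/-!
# S18: closing the proof from a Gauss layer at the two levels `M0 ℓ` and `M = lcm(M0 ℓ, N)`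

`Close.Layer A L` : a reduction relation `Red : F_L → κ_L → Prop` on the literal residue field
`κ_L = k(j̄, ū_L)` (`GaussA.kappa k L`) with `RedFacts` and reduction of integral series.

`Close.main` : Gauss layers at levels `M0 ℓ` and `levelM ℓ N` give the statement S18.
Everything else (degrees, places, cusps, genus, the two-chart core, descent of roots, restriction
of places, constants) is taken from the packages on main.
-/

set_option autoImplicit false
set_option synthInstance.maxHeartbeats 400000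

noncomputable section

namespace Fermat.Agent.S18.Close

open AlgebraicCurve ModularCurve Fermat.Agent.S18
open scoped IntermediateField

/-- A Gauss layer at level `L`: a reduction relation from `F_L` to `κ_L = k(j̄, ū_L)` with
`RedFacts`, for which every integral series of `F_L` reduces coefficientwise. -/
def Layer (A : ValuationSubring (AlgebraicClosure ℚ)) (L : ℕ) : Prop :=
  ∃ Red : modularFunctionFieldBar L → GaussA.kappa (IsLocalRing.ResidueField A) L → Prop,
    RedFacts A Red ∧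
    ∀ (V : LaurentSeries A) (hV : genS A V ∈ modularFunctionFieldBar L),
      ∃ hx : redS A V ∈ GaussA.kappa (IsLocalRing.ResidueField A) L,
        Red ⟨genS A V, hV⟩ ⟨redS A V, hx⟩

/-- The tower of residue fields: `κ_{L0} ≤ κ_L` for `L0 ∣ L`, from a Gauss layer at level `L`. -/
theorem tower {L0 L : ℕ} [NeZero L0] [NeZero L] (hdvd : L0 ∣ L)
    (A : ValuationSubring (AlgebraicClosure ℚ)) (h : Layer A L) :
    GaussA.kappa (IsLocalRing.ResidueField A) L0 ≤ GaussA.kappa (IsLocalRing.ResidueField A) L := by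
  obtain ⟨Red, -, hint⟩ := h
  refine IntermediateField.adjoin_le_iff.mpr ?_
  intro x hx
  rcases hx with rfl | hx
  · exact GaussA.jb_mem _ L
  · rw [Set.mem_singleton_iff] at hx
    subst hx
    have hV : genS A (GaussA.uA A L0) ∈ modularFunctionFieldBar L := by
      rw [CoreHint.genS_uA]
      exact Descent.bar_le (NeZero.ne L0) (NeZero.ne L) hdvd (GenBar.uK_mem L0)
    obtain ⟨hx, -⟩ := hint _ hV
    rw [CoreHint.redS_uA] at hx
    exact hx

/-- **S18 from Gauss layers** at the levels `M0 ℓ` and `levelM ℓ N`. -/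
theorem main {ℓ N : ℕ} [NeZero N] (hℓ : ℓ.Prime) (hℓN : ¬ ℓ ∣ N)
    (A : ValuationSubring (AlgebraicClosure ℚ)) (hA : A.LiesOverPrime ℓ)
    (h0 : Layer A (LevelNum.M0 ℓ)) (hM : Layer A (LevelNum.levelM ℓ N)) : MainStmt ℓ A N := by
  have hk : IsAlgClosed (IsLocalRing.ResidueField A) := ResField.isAlgClosed A
  have hchar : CharP (IsLocalRing.ResidueField A) ℓ := ResField.charP A hℓ hA
  have hℓM0 : ¬ ℓ ∣ LevelNum.M0 ℓ := LevelNum.not_dvd_M0 hℓ
  have hℓM : ¬ ℓ ∣ LevelNum.levelM ℓ N := LevelNum.not_dvd_levelM hℓ hℓN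
  have hle := tower (LevelNum.M0_dvd_levelM ℓ N) A hM
  obtain ⟨Red0, hR0, hint0⟩ := h0
  obtain ⟨Red, hR, hint⟩ := hM
  -- degrees over `k(j̄)`
  have hfd0 := KappaDeg.finiteDimensional (k := IsLocalRing.ResidueField A) hℓ (LevelNum.M0 ℓ) hℓM0
    (GaussA.jbE (IsLocalRing.ResidueField A) (LevelNum.M0 ℓ)) rfl
  have hfr0 := KappaDeg.finrank_eq (k := IsLocalRing.ResidueField A) hℓ (LevelNum.M0 ℓ) hℓM0
    (GaussA.jbE (IsLocalRing.ResidueField A) (LevelNum.M0 ℓ)) rfl
  have hfd := KappaDeg.finiteDimensional (k := IsLocalRing.ResidueField A) hℓ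
    (LevelNum.levelM ℓ N) hℓM (GaussA.jbE (IsLocalRing.ResidueField A) (LevelNum.levelM ℓ N)) rfl
  have hfr := KappaDeg.finrank_eq (k := IsLocalRing.ResidueField A) hℓ
    (LevelNum.levelM ℓ N) hℓM (GaussA.jbE (IsLocalRing.ResidueField A) (LevelNum.levelM ℓ N)) rfl
  -- `Red j j̄` and surjectivity at both levels
  obtain ⟨hj0, hsurj0⟩ :=
    SemiLvl.hj_hsurj_of_hint A (LevelNum.M0 ℓ) Red0 hR0 hint0 (GenBar.uK_mem _)
  obtain ⟨hj, hsurj⟩ :=
    SemiLvl.hj_hsurj_of_hint A (LevelNum.levelM ℓ N) Red hR hint (GenBar.uK_mem _)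
  -- cusps
  have hc0 := CuspsKappa.card_poles A hℓ (LevelNum.M0 ℓ) hℓM0 hA
    (SepPF.placeFacts_of_finite _ (GaussA.jbE (IsLocalRing.ResidueField A) (LevelNum.M0 ℓ)) rfl)
    hfr0
  have hc := CuspsKappa.card_poles A hℓ (LevelNum.levelM ℓ N) hℓM hA
    (SepPF.placeFacts_of_finite _
      (GaussA.jbE (IsLocalRing.ResidueField A) (LevelNum.levelM ℓ N)) rfl) hfr
  -- the genus inequality
  have hg := GenusWire.genus_ge_of ℓ A (LevelNum.M0_dvd_levelM ℓ N) _ _ hle
    (GaussA.jbE (IsLocalRing.ResidueField A) (LevelNum.M0 ℓ)) rfl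
    (GaussA.jbE (IsLocalRing.ResidueField A) (LevelNum.levelM ℓ N)) rfl
    hfd0 hfr0 hfd hfr Red0 hR0 hj0 hsurj0 hc0 hc
  -- the core, the Kummer statement at level `M`, and the descent of roots
  have hcore : CoreStmt A Red :=
    CoreLvl.of_gauss A (LevelNum.levelM ℓ N) _
      (GaussA.jbE (IsLocalRing.ResidueField A) (LevelNum.levelM ℓ N)) rfl hfd hfr Red hR hj hsurj hg
  have hK : KummerStmt ℓ A (LevelNum.levelM ℓ N) := Bridge.main hℓ A hA _ Red hR hint hcore
  have hRoot : RootDescentStmt ℓ A N (LevelNum.levelM ℓ N) :=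
    RootLvl.of_gauss (LevelNum.dvd_levelM ℓ N) hℓ A hA _
      (GaussA.jbE (IsLocalRing.ResidueField A) (LevelNum.levelM ℓ N)) rfl hfd hfr Red hR hint
      hj hsurj
  exact Final.main hℓ A (ConstB.main hℓ hℓN A hA)
    (Restrict.main (LevelNum.dvd_levelM ℓ N) (LevelNum.levelM_ne_zero ℓ N (NeZero.ne N)))
    hRoot hK

end Fermat.Agent.S18.Close

end
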