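/-
S18 / OrthoBasis: Gaussian elimination with pivots over a valuation ring (Mathlib only).

`A` a valuation subring of a field `L₀`, `R` ANY index type, `U` a finite-dimensional subspace of
`R → L₀` such that every nonzero `u ∈ U` attains its maximum (`MaxAttained`: some coordinate
`u r₀ ≠ 0` divides all the others in `A`).  Then `U` has a PIVOT BASIS `b : Fin d → R → L₀`
(`exists_pivotBasis`): all coordinates of the `b i` lie in `A`, `b i (piv i) = 1` and
`b j (piv i) = 0` for `i < j`.  Consequences (for any `A`-stable additive subgroup `S` of `L₀`,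
e.g. `S = A` or `S =` the maximal ideal):

* `IsPivotBasis.coeff_mem`       : `∑ c i • b i` has all coordinates in `S`  ⇒  all `c i ∈ S`
  (so `U ∩ (R → A)` is `A`-free on `b`, and the reductions of the `b i` are independent);
* `IsPivotBasis.linearIndependent`, `IsPivotBasis.card_eq` (`d = finrank U`),
  `IsPivotBasis.exists_repr` (every element of `U` is a combination of the `b i`).

No discreteness, no completeness, no noetherian hypothesis is used.
-/
import Mathlib

set_option autoImplicit false

namespace Fermat.Agent.S18.OrthoBasis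

variable {L₀ : Type*} [Field L₀] (A : ValuationSubring L₀) {R : Type*}

/-- Every nonzero element of `U` has a coordinate of maximal absolute value. -/
def MaxAttained (U : Submodule L₀ (R → L₀)) : Prop :=
  ∀ u ∈ U, u ≠ 0 → ∃ r₀ : R, u r₀ ≠ 0 ∧ ∀ r : R, u r / u r₀ ∈ A

/-- A basis of `U` in echelon form with integral coordinates. -/
structure IsPivotBasis (U : Submodule L₀ (R → L₀)) (d : ℕ) (b : Fin d → R → L₀)
    (piv : Fin d → R) : Prop where
  mem : ∀ i, b i ∈ U
  int : ∀ i r, b i r ∈ A
  piv_self : ∀ i, b i (piv i) = 1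
  piv_lt : ∀ i j, i < j → b j (piv i) = 0
  span : Submodule.span L₀ (Set.range b) = U

variable {A}

theorem MaxAttained.mono {U U' : Submodule L₀ (R → L₀)} (h : MaxAttained A U) (hle : U' ≤ U) :
    MaxAttained A U' :=
  fun u hu hu0 => h u (hle hu) hu0

private theorem exists_pivotBasis_aux (n : ℕ) :
    ∀ (U : Submodule L₀ (R → L₀)) [FiniteDimensional L₀ U], Module.finrank L₀ U ≤ n →
      MaxAttained A U →
      ∃ (d : ℕ) (b : Fin d → R → L₀) (piv : Fin d → R), IsPivotBasis A U d b piv := by
  induction n with
  | zero =>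
    intro U _ hn _
    have hU : U = ⊥ := by
      rw [← Submodule.finrank_eq_zero (R := L₀)]
      omega
    subst hU
    refine ⟨0, Fin.elim0, Fin.elim0, ⟨fun i => i.elim0, fun i => i.elim0, fun i => i.elim0,
      fun i => i.elim0, ?_⟩⟩
    rw [show Set.range (Fin.elim0 : Fin 0 → R → L₀) = ∅ from Set.range_eq_empty _,
      Submodule.span_empty]
  | succ n ih =>
    intro U _ hn hmax
    by_cases hU : U = ⊥
    · subst hU
      refine ⟨0, Fin.elim0, Fin.elim0, ⟨fun i => i.elim0, fun i => i.elim0, fun i => i.elim0,
        fun i => i.elim0, ?_⟩⟩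
      rw [show Set.range (Fin.elim0 : Fin 0 → R → L₀) = ∅ from Set.range_eq_empty _,
        Submodule.span_empty]
    obtain ⟨u, hu, hu0⟩ := Submodule.exists_mem_ne_zero_of_ne_bot hU
    obtain ⟨r₀, hr₀, hdiv⟩ := hmax u hu hu0
    -- the normalised pivot vector
    obtain ⟨u', hu'⟩ : ∃ u' : R → L₀, u' = (u r₀)⁻¹ • u := ⟨_, rfl⟩
    have hu'U : u' ∈ U := by rw [hu']; exact U.smul_mem _ hu
    have hu'r : u' r₀ = 1 := by
      rw [hu', Pi.smul_apply, smul_eq_mul, inv_mul_cancel₀ hr₀]
    have hu'A : ∀ r, u' r ∈ A := by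
      intro r
      rw [hu', Pi.smul_apply, smul_eq_mul, mul_comm, ← div_eq_mul_inv]
      exact hdiv r
    -- the hyperplane section
    obtain ⟨U', hU'⟩ : ∃ U' : Submodule L₀ (R → L₀),
        U' = U ⊓ LinearMap.ker (LinearMap.proj r₀ : (R → L₀) →ₗ[L₀] L₀) := ⟨_, rfl⟩
    have hU'le : U' ≤ U := by rw [hU']; exact inf_le_left
    have hU'r : ∀ x ∈ U', x r₀ = 0 := by
      intro x hx
      rw [hU'] at hx
      exact LinearMap.mem_ker.mp (Submodule.mem_inf.mp hx).2
    have hlt : U' < U := by
      refine lt_of_le_of_ne hU'le ?_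
      intro heq
      have h1 := hU'r u' (heq ▸ hu'U)
      rw [hu'r] at h1
      exact one_ne_zero h1
    have hfinU' : FiniteDimensional L₀ U' := Submodule.finiteDimensional_of_le hU'le
    have hrank : Module.finrank L₀ U' ≤ n := by
      have := Submodule.finrank_lt_finrank_of_lt hlt
      omega
    obtain ⟨d, b, piv, hb⟩ := ih U' hrank (hmax.mono hU'le)
    refine ⟨d + 1, Fin.cons u' b, Fin.cons r₀ piv, ⟨?_, ?_, ?_, ?_, ?_⟩⟩
    · intro i
      refine Fin.cases ?_ (fun i => ?_) i
      · simpa using hu'U
      · simpa using hU'le (hb.mem i)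
    · intro i r
      refine Fin.cases ?_ (fun i => ?_) i
      · simpa using hu'A r
      · simpa using hb.int i r
    · intro i
      refine Fin.cases ?_ (fun i => ?_) i
      · simpa using hu'r
      · simpa using hb.piv_self i
    · intro i j hij
      induction i using Fin.cases with
      | zero =>
        induction j using Fin.cases with
        | zero => exact absurd hij (lt_irrefl _)
        | succ j => simpa using hU'r _ (hb.mem j)
      | succ i =>
        induction j using Fin.cases with
        | zero => exact absurd hij (Fin.not_lt_zero _)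
        | succ j => simpa using hb.piv_lt i j (Fin.succ_lt_succ_iff.mp hij)
    · rw [Fin.range_cons, Submodule.span_insert, hb.span]
      apply le_antisymm
      · exact sup_le ((Submodule.span_singleton_le_iff_mem _ _).mpr hu'U) hU'le
      · intro x hx
        have hx' : x - x r₀ • u' ∈ U' := by
          rw [hU']
          refine Submodule.mem_inf.mpr ⟨U.sub_mem hx (U.smul_mem _ hu'U), ?_⟩
          rw [LinearMap.mem_ker, LinearMap.proj_apply, Pi.sub_apply, Pi.smul_apply, hu'r,
            smul_eq_mul, mul_one, sub_self]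
        have hx'' : x = x r₀ • u' + (x - x r₀ • u') := by abel
        rw [hx'']
        exact Submodule.add_mem_sup
          (Submodule.smul_mem _ _ (Submodule.mem_span_singleton_self u')) hx'

/-- **Pivot basis.** A finite-dimensional space of vectors whose maxima are attained has an
echelon basis with coordinates in the valuation ring. -/
theorem exists_pivotBasis (U : Submodule L₀ (R → L₀)) [FiniteDimensional L₀ U]
    (h : MaxAttained A U) :
    ∃ (d : ℕ) (b : Fin d → R → L₀) (piv : Fin d → R), IsPivotBasis A U d b piv :=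
  exists_pivotBasis_aux (Module.finrank L₀ U) U le_rfl h

namespace IsPivotBasis

variable {U : Submodule L₀ (R → L₀)} {d : ℕ} {b : Fin d → R → L₀} {piv : Fin d → R}

/-- The coordinate of `∑ c j • b j` at the pivot of `i` only involves the `c j` with `j ≤ i`. -/
theorem sum_apply_piv (hb : IsPivotBasis A U d b piv) (c : Fin d → L₀) (i : Fin d) :
    (∑ j, c j • b j) (piv i) = c i + ∑ j ∈ Finset.univ.filter (· < i), c j * b j (piv i) := by
  rw [Finset.sum_apply]
  simp only [Pi.smul_apply, smul_eq_mul]
  rw [← Finset.sum_filter_add_sum_filter_not Finset.univ (· < i)]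
  rw [add_comm]
  congr 1
  rw [Finset.sum_eq_single i]
  · rw [hb.piv_self i, mul_one]
  · intro j hj hji
    have hj' : i < j := by
      have := (Finset.mem_filter.mp hj).2
      exact lt_of_le_of_ne (not_lt.mp this) (Ne.symm hji)
    rw [hb.piv_lt i j hj', mul_zero]
  · intro hi
    exact absurd (Finset.mem_filter.mpr ⟨Finset.mem_univ i, lt_irrefl i⟩) hi

/-- **Orthonormality.** If all coordinates of `∑ c i • b i` lie in an `A`-stable additive
subgroup `S` of `L₀`, then so do all the coefficients `c i`. -/
theorem coeff_mem (hb : IsPivotBasis A U d b piv) (S : AddSubgroup L₀)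
    (hS : ∀ a ∈ A, ∀ s ∈ S, s * a ∈ S) (c : Fin d → L₀)
    (h : ∀ r, (∑ j, c j • b j) r ∈ S) : ∀ i, c i ∈ S := by
  have key : ∀ n : ℕ, ∀ i : Fin d, (i : ℕ) = n → c i ∈ S := by
    intro n
    induction n using Nat.strong_induction_on with
    | _ n ih =>
      intro i hi
      have h0 := h (piv i)
      rw [hb.sum_apply_piv c i] at h0
      have hsum : ∑ j ∈ Finset.univ.filter (· < i), c j * b j (piv i) ∈ S := by
        refine S.sum_mem (fun j hj => ?_)
        have hji : j < i := (Finset.mem_filter.mp hj).2
        exact hS _ (hb.int j (piv i)) _ (ih (j : ℕ) (hi ▸ hji) j rfl)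
      have := S.sub_mem h0 hsum
      rwa [add_sub_cancel_right] at this
  exact fun i => key i i rfl

/-- A combination of the pivot basis that vanishes has zero coefficients. -/
theorem coeff_eq_zero (hb : IsPivotBasis A U d b piv) (c : Fin d → L₀)
    (h : ∑ j, c j • b j = 0) : ∀ i, c i = 0 := by
  have := hb.coeff_mem ⊥ (fun a _ s hs => by
    rw [AddSubgroup.mem_bot] at hs ⊢
    rw [hs, zero_mul]) c (fun r => by
    rw [h]
    exact AddSubgroup.mem_bot.mpr rfl)
  exact fun i => AddSubgroup.mem_bot.mp (this i)

theorem linearIndependent (hb : IsPivotBasis A U d b piv) : LinearIndependent L₀ b := by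
  rw [Fintype.linearIndependent_iff]
  intro c hc i
  exact hb.coeff_eq_zero c hc i

/-- The length of a pivot basis is the dimension. -/
theorem card_eq (hb : IsPivotBasis A U d b piv) : d = Module.finrank L₀ U := by
  have h := finrank_span_eq_card hb.linearIndependent
  rw [hb.span, Fintype.card_fin] at h
  exact h.symm

/-- Every element of `U` is a combination of the pivot basis. -/
theorem exists_repr (hb : IsPivotBasis A U d b piv) {x : R → L₀} (hx : x ∈ U) :
    ∃ c : Fin d → L₀, x = ∑ j, c j • b j := by
  rw [← hb.span] at hx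
  obtain ⟨c, hc⟩ := (Submodule.mem_span_range_iff_exists_fun L₀).mp hx
  exact ⟨c, hc.symm⟩

/-- **Integral lattice.** An element of `U` all of whose coordinates lie in `S` is an
`S`-combination of the pivot basis. -/
theorem exists_repr_mem (hb : IsPivotBasis A U d b piv) (S : AddSubgroup L₀)
    (hS : ∀ a ∈ A, ∀ s ∈ S, s * a ∈ S) {x : R → L₀} (hx : x ∈ U) (hxS : ∀ r, x r ∈ S) :
    ∃ c : Fin d → L₀, (∀ i, c i ∈ S) ∧ x = ∑ j, c j • b j := by
  obtain ⟨c, hc⟩ := hb.exists_repr hx
  exact ⟨c, hb.coeff_mem S hS c (fun r => hc ▸ hxS r), hc⟩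

/-- Conversely an `S`-combination of the pivot basis has all coordinates in `S`. -/
theorem sum_mem (hb : IsPivotBasis A U d b piv) (S : AddSubgroup L₀)
    (hS : ∀ a ∈ A, ∀ s ∈ S, s * a ∈ S) (c : Fin d → L₀) (hc : ∀ i, c i ∈ S) (r : R) :
    (∑ j, c j • b j) r ∈ S := by
  rw [Finset.sum_apply]
  refine S.sum_mem (fun j _ => ?_)
  rw [Pi.smul_apply, smul_eq_mul]
  exact hS _ (hb.int j r) _ (hc j)

end IsPivotBasis

/-- Over a finite index set the maximum is always attained. -/
theorem maxAttained_of_finite [Finite R] (U : Submodule L₀ (R → L₀)) : MaxAttained A U := by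
  classical
  have := Fintype.ofFinite R
  intro u _ hu0
  have hne : (Finset.univ.filter (fun r => u r ≠ 0) : Finset R).Nonempty := by
    by_contra hempty
    rw [Finset.not_nonempty_iff_eq_empty] at hempty
    apply hu0
    funext r
    by_contra hr
    have : r ∈ (Finset.univ.filter (fun r => u r ≠ 0) : Finset R) :=
      Finset.mem_filter.mpr ⟨Finset.mem_univ _, hr⟩
    rw [hempty] at this
    exact absurd this (Finset.notMem_empty r)
  obtain ⟨r₀, hr₀, hmax⟩ := Finset.exists_max_image
    (Finset.univ.filter (fun r => u r ≠ 0) : Finset R) (fun r => A.valuation (u r)) hne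
  have hr₀' : u r₀ ≠ 0 := (Finset.mem_filter.mp hr₀).2
  refine ⟨r₀, hr₀', fun r => ?_⟩
  by_cases hr : u r = 0
  · rw [hr, zero_div]
    exact A.zero_mem
  · have hle := hmax r (Finset.mem_filter.mpr ⟨Finset.mem_univ _, hr⟩)
    rw [← A.valuation_le_one_iff, map_div₀]
    exact div_le_one_of_le₀ hle zero_le

/-- If every vector of `U` has finite support the maximum is attained. -/
theorem maxAttained_of_finite_support (U : Submodule L₀ (R → L₀))
    (hfin : ∀ u ∈ U, (Function.support u).Finite) : MaxAttained A U := by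
  classical
  intro u hu hu0
  have hne : (hfin u hu).toFinset.Nonempty := by
    by_contra hempty
    rw [Finset.not_nonempty_iff_eq_empty] at hempty
    apply hu0
    funext r
    by_contra hr
    have : r ∈ (hfin u hu).toFinset := (Set.Finite.mem_toFinset _).mpr hr
    rw [hempty] at this
    exact absurd this (Finset.notMem_empty r)
  obtain ⟨r₀, hr₀, hmax⟩ := Finset.exists_max_image
    (hfin u hu).toFinset (fun r => A.valuation (u r)) hne
  have hr₀' : u r₀ ≠ 0 := (Set.Finite.mem_toFinset _).mp hr₀
  refine ⟨r₀, hr₀', fun r => ?_⟩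
  by_cases hr : u r = 0
  · rw [hr, zero_div]
    exact A.zero_mem
  · have hle := hmax r ((Set.Finite.mem_toFinset _).mpr hr)
    rw [← A.valuation_le_one_iff, map_div₀]
    exact div_le_one_of_le₀ hle zero_le

/-- **Lattice lemma (LF), abstract form.**  `V` a finite-dimensional `L₀`-space,
`φ : V → (R → L₀)` an injective linear map whose image has attained maxima.  Then `V` has a basis
`e` of length `finrank V` with `φ (e i)` integral, in echelon form with respect to pivots
`piv i`. -/
theorem exists_basis_of_injective {V : Type*} [AddCommGroup V] [Module L₀ V]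
    [FiniteDimensional L₀ V] (φ : V →ₗ[L₀] (R → L₀)) (hφ : Function.Injective φ)
    (hmax : MaxAttained A (LinearMap.range φ)) :
    ∃ (e : Fin (Module.finrank L₀ V) → V) (piv : Fin (Module.finrank L₀ V) → R),
      LinearIndependent L₀ e ∧ Submodule.span L₀ (Set.range e) = ⊤ ∧
      IsPivotBasis A (LinearMap.range φ) (Module.finrank L₀ V) (fun i => φ (e i)) piv := by
  obtain ⟨d, b, piv, hb⟩ := exists_pivotBasis (LinearMap.range φ) hmax
  have hd : d = Module.finrank L₀ V := by
    rw [hb.card_eq]
    exact LinearMap.finrank_range_of_inj hφ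
  subst hd
  have hex : ∀ i, ∃ v : V, φ v = b i := fun i => LinearMap.mem_range.mp (hb.mem i)
  choose e he using hex
  have hbe : (fun i => φ (e i)) = b := funext he
  have hli : LinearIndependent L₀ e := by
    have h1 : LinearIndependent L₀ (fun i => φ (e i)) := by
      rw [hbe]
      exact hb.linearIndependent
    exact LinearIndependent.of_comp φ h1
  refine ⟨e, piv, hli, ?_, ?_⟩
  · apply hli.span_eq_top_of_card_eq_finrank'
    rw [Fintype.card_fin]
  · rw [hbe]
    exact hb

/-- **Lattice lemma (LF), coefficient form.**  With `e` as in `exists_basis_of_injective`, a vector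
`∑ c i • e i` has all `φ`-coordinates in the `A`-stable subgroup `S` iff all `c i ∈ S`. -/
theorem coeff_mem_iff {V : Type*} [AddCommGroup V] [Module L₀ V]
    (φ : V →ₗ[L₀] (R → L₀)) {d : ℕ} {e : Fin d → V} {piv : Fin d → R}
    (hb : IsPivotBasis A (LinearMap.range φ) d (fun i => φ (e i)) piv)
    (S : AddSubgroup L₀) (hS : ∀ a ∈ A, ∀ s ∈ S, s * a ∈ S) (c : Fin d → L₀) :
    (∀ r, φ (∑ j, c j • e j) r ∈ S) ↔ ∀ i, c i ∈ S := by
  have hsum : φ (∑ j, c j • e j) = ∑ j, c j • φ (e j) := by
    rw [map_sum]
    exact Finset.sum_congr rfl (fun j _ => map_smul φ (c j) (e j))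
  rw [hsum]
  exact ⟨fun h => hb.coeff_mem S hS c h, fun h r => hb.sum_mem S hS c h r⟩

end Fermat.Agent.S18.OrthoBasis
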