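import Fermat.Agent.S18.CoreDefs
import Fermat.Agent.S18.OrthoBasis

/-!
# S18 / LatticeBridge : the `lattice` field of `RedFacts` from an orthonormal family

`RedBase A Red` is `RedFacts A Red` without its `lattice` field.  Given

* a family `e : ι → F` with reductions `eb : ι → κ` (`Red (e i) (eb i)`) which are linearly
  independent over the residue field (think `e = j ^ n * u ^ i`), and
* denominators: every finite subset of `F` is moved into `span K (range e)` by some `d` with
  `Red d db`, `db ≠ 0` (think: a primitive polynomial in `j`),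

every finite-dimensional `K`-subspace `V` of `F` has `finrank K V` elements with linearly
independent reductions (`lattice_of_family`), hence `RedFacts A Red` (`redFacts_of_family`).
The proof is Gaussian elimination with maximal pivots (`OrthoBasis`) in the coordinates of `d • V`.
-/

set_option autoImplicit false

noncomputable section

namespace Fermat.Agent.S18.LatticeBridge

open Module Fermat.Agent.S18.OrthoBasis

variable {K F κ : Type*} [Field K] [Field F] [Algebra K F]

/-- `RedFacts` without the `lattice` field. -/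
structure RedBase (A : ValuationSubring K) [Field κ] [Algebra (IsLocalRing.ResidueField A) κ]
    (Red : F → κ → Prop) : Prop where
  unique : ∀ (f : F) (x y : κ), Red f x → Red f y → x = y
  one : Red 1 1
  add : ∀ (f g : F) (x y : κ), Red f x → Red g y → Red (f + g) (x + y)
  mul : ∀ (f g : F) (x y : κ), Red f x → Red g y → Red (f * g) (x * y)
  const : ∀ c : A, Red (algebraMap K F (c : K))
    (algebraMap (IsLocalRing.ResidueField A) κ (IsLocalRing.residue A c))
  normalize : ∀ f : F, f ≠ 0 → ∃ c : K, c ≠ 0 ∧ ∃ x : κ, x ≠ 0 ∧ Red (algebraMap K F c * f) x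

variable {A : ValuationSubring K} [Field κ] [Algebra (IsLocalRing.ResidueField A) κ]
  {Red : F → κ → Prop}

/-- `RedFacts` gives `RedBase`. -/
theorem redBase_of_redFacts (h : RedFacts A Red) : RedBase A Red :=
  ⟨h.unique, h.one, h.add, h.mul, h.const, h.normalize⟩

namespace RedBase

theorem zero (h : RedBase A Red) : Red 0 0 := by
  have h0 := h.const 0
  simpa using h0

theorem smul (h : RedBase A Red) (c : A) {f : F} {x : κ} (hf : Red f x) :
    Red (algebraMap K F (c : K) * f)
      (algebraMap (IsLocalRing.ResidueField A) κ (IsLocalRing.residue A c) * x) :=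
  h.mul _ _ _ _ (h.const c) hf

theorem sum (h : RedBase A Red) {α : Type*} (s : Finset α) (f : α → F) (x : α → κ)
    (hfx : ∀ a ∈ s, Red (f a) (x a)) : Red (∑ a ∈ s, f a) (∑ a ∈ s, x a) := by
  classical
  induction s using Finset.induction_on with
  | empty => simpa using h.zero
  | insert a s ha ih =>
    rw [Finset.sum_insert ha, Finset.sum_insert ha]
    exact h.add _ _ _ _ (hfx a (Finset.mem_insert_self a s))
      (ih fun b hb => hfx b (Finset.mem_insert_of_mem hb))

/-- A nonunit of `A` kills reductions. -/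
theorem smul_of_inv_notMem (h : RedBase A Red) {c : K} (hc : c ∈ A) (hc' : c⁻¹ ∉ A) {f : F}
    {x : κ} (hf : Red f x) : Red (algebraMap K F c * f) 0 := by
  have hres : IsLocalRing.residue A ⟨c, hc⟩ = 0 := by
    rw [IsLocalRing.residue_eq_zero_iff, IsLocalRing.mem_maximalIdeal, mem_nonunits_iff]
    rintro ⟨u, hu⟩
    apply hc'
    have h1 : c * ((↑u⁻¹ : A) : K) = 1 := by
      have h2 : (u : A) * (↑u⁻¹ : A) = 1 := Units.mul_inv u
      rw [hu] at h2
      exact congrArg Subtype.val h2
    have h3 : c⁻¹ = ((↑u⁻¹ : A) : K) := by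
      rw [inv_eq_iff_eq_inv]
      exact eq_inv_of_mul_eq_one_left h1
    rw [h3]
    exact (↑u⁻¹ : A).2
  have h1 := h.smul ⟨c, hc⟩ hf
  rwa [hres, map_zero, zero_mul] at h1

/-- Division by a denominator with nonzero reduction. -/
theorem red_of_mul (h : RedBase A Red) {d f : F} {db y : κ} (hd : Red d db) (hdb : db ≠ 0)
    (hy : Red (d * f) y) (hy0 : y ≠ 0) : ∃ x : κ, Red f x ∧ db * x = y := by
  have hf0 : f ≠ 0 := by
    rintro rfl
    rw [mul_zero] at hy
    exact hy0 (h.unique _ _ _ hy h.zero)
  obtain ⟨c, hc0, x, hx0, hcx⟩ := h.normalize f hf0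
  have hc0' : algebraMap K F c ≠ 0 := fun h0 =>
    hc0 ((map_eq_zero (algebraMap K F)).mp h0)
  by_cases hcA : c⁻¹ ∈ A
  · have h1 := h.smul ⟨c⁻¹, hcA⟩ hcx
    have he : algebraMap K F ((⟨c⁻¹, hcA⟩ : A) : K) * (algebraMap K F c * f) = f := by
      show algebraMap K F c⁻¹ * (algebraMap K F c * f) = f
      rw [map_inv₀, ← mul_assoc, inv_mul_cancel₀ hc0', one_mul]
    rw [he] at h1
    exact ⟨_, h1, h.unique _ _ _ (h.mul _ _ _ _ hd h1) hy⟩
  · exfalso
    have hc : c ∈ A := by
      rcases A.mem_or_inv_mem c with h1 | h1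
      · exact h1
      · exact absurd h1 hcA
    have h1 := h.smul_of_inv_notMem hc hcA hy
    have h2 := h.mul _ _ _ _ hd hcx
    have he : algebraMap K F c * (d * f) = d * (algebraMap K F c * f) := by ring
    rw [he] at h1
    exact mul_ne_zero hdb hx0 (h.unique _ _ _ h2 h1)

end RedBase

variable (A) in
/-- The reduction map on `K`, extended by zero outside `A`. -/
def rho (x : K) : IsLocalRing.ResidueField A :=
  open Classical in if hx : x ∈ A then IsLocalRing.residue A ⟨x, hx⟩ else 0

theorem rho_of_mem {x : K} (hx : x ∈ A) : rho A x = IsLocalRing.residue A ⟨x, hx⟩ := by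
  rw [rho, dif_pos hx]

theorem rho_zero : rho A (0 : K) = 0 := by
  rw [rho_of_mem A.zero_mem]
  exact map_zero _

variable (A) in
/-- The maximal ideal of `A` as an additive subgroup of `K`. -/
def maxSub : AddSubgroup K :=
  AddSubgroup.map (A.subtype : A →+* K).toAddMonoidHom
    (RingHom.ker (IsLocalRing.residue A)).toAddSubgroup

theorem mem_maxSub {x : K} : x ∈ maxSub A ↔ ∃ hx : x ∈ A, IsLocalRing.residue A ⟨x, hx⟩ = 0 := by
  constructor
  · rintro ⟨y, hy, rfl⟩
    exact ⟨y.2, hy⟩
  · rintro ⟨hx, h0⟩
    exact ⟨⟨x, hx⟩, h0, rfl⟩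

theorem maxSub_mul : ∀ a ∈ A, ∀ s ∈ maxSub A, s * a ∈ maxSub A := by
  intro a ha s hs
  obtain ⟨hsA, hs0⟩ := mem_maxSub.mp hs
  refine mem_maxSub.mpr ⟨A.mul_mem _ _ hsA ha, ?_⟩
  have : (⟨s * a, A.mul_mem _ _ hsA ha⟩ : A) = ⟨s, hsA⟩ * ⟨a, ha⟩ := rfl
  rw [this, map_mul, hs0, zero_mul]

theorem subA_mul : ∀ a ∈ A, ∀ s ∈ A.toSubring.toAddSubgroup, s * a ∈ A.toSubring.toAddSubgroup :=
  fun _ ha _ hs => A.mul_mem _ _ hs ha

section Family

variable {ι : Type*} {e : ι → F} {eb : ι → κ}

/-- Reduction of an `A`-combination of the family. -/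
theorem red_lincomb (h : RedBase A Red) (he : ∀ i, Red (e i) (eb i)) (s : Finset ι) (c : ι → K)
    (hc : ∀ i ∈ s, c i ∈ A) :
    Red (∑ i ∈ s, c i • e i)
      (∑ i ∈ s, rho A (c i) • eb i) := by
  refine h.sum s _ _ fun i hi => ?_
  rw [rho_of_mem (hc i hi), Algebra.smul_def, Algebra.smul_def]
  exact h.smul ⟨c i, hc i hi⟩ (he i)

/-- An orthonormal family is linearly independent. -/
theorem linearIndependent_of_red (h : RedBase A Red) (he : ∀ i, Red (e i) (eb i))
    (hind : LinearIndependent (IsLocalRing.ResidueField A) eb) : LinearIndependent K e := by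
  classical
  rw [linearIndependent_iff']
  intro s g hg
  by_contra hcon
  push Not at hcon
  obtain ⟨i1, hi1, hgi1⟩ := hcon
  obtain ⟨i0, hi0, hmax⟩ := Finset.exists_max_image s (fun i => A.valuation (g i)) ⟨i1, hi1⟩
  have hgi0 : g i0 ≠ 0 := by
    intro h0
    have h1 := hmax i1 hi1
    rw [h0, map_zero] at h1
    exact hgi1 ((map_eq_zero _).mp (le_antisymm h1 zero_le))
  have hcA : ∀ i ∈ s, g i / g i0 ∈ A := fun i hi => by
    rw [← A.valuation_le_one_iff, map_div₀]
    exact div_le_one_of_le₀ (hmax i hi) zero_le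
  have hsum : ∑ i ∈ s, (g i / g i0) • e i = 0 := by
    have : ∑ i ∈ s, (g i / g i0) • e i = (g i0)⁻¹ • ∑ i ∈ s, g i • e i := by
      rw [Finset.smul_sum]
      refine Finset.sum_congr rfl fun i _ => ?_
      rw [smul_smul, div_eq_inv_mul]
    rw [this, hg, smul_zero]
  have hred := red_lincomb h he s (fun i => g i / g i0) hcA
  rw [hsum] at hred
  have h0 := h.unique _ _ _ hred h.zero
  have h1 := linearIndependent_iff'.mp hind s (fun i => rho A (g i / g i0)) h0 i0 hi0
  have h2 : rho A (g i0 / g i0) = 1 := by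
    have h3 : g i0 / g i0 = 1 := div_self hgi0
    rw [rho_of_mem (h3 ▸ A.one_mem)]
    have : (⟨g i0 / g i0, h3 ▸ A.one_mem⟩ : A) = 1 := Subtype.ext h3
    rw [this, map_one]
  rw [h2] at h1
  exact one_ne_zero h1

/-- **The lattice fact.**  Under `RedBase`, an orthonormal family with denominators gives, for
every finite-dimensional `K`-subspace `V` of `F`, `finrank K V` elements of `V` with linearly
independent reductions. -/
theorem lattice_of_family (h : RedBase A Red) (e : ι → F) (eb : ι → κ)
    (he : ∀ i, Red (e i) (eb i)) (hind : LinearIndependent (IsLocalRing.ResidueField A) eb)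
    (hden : ∀ s : Finset F, ∃ (d : F) (db : κ), Red d db ∧ db ≠ 0 ∧
      ∀ x ∈ s, d * x ∈ Submodule.span K (Set.range e))
    (V : Submodule K F) (hV : FiniteDimensional K V) :
    ∃ (b : Fin (finrank K V) → F) (bb : Fin (finrank K V) → κ),
      (∀ i, b i ∈ V) ∧ (∀ i, Red (b i) (bb i)) ∧
        LinearIndependent (IsLocalRing.ResidueField A) bb := by
  classical
  have hli : LinearIndependent K e := linearIndependent_of_red h he hind
  set B : Basis ι K (Submodule.span K (Set.range e)) := Basis.span hli with hB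
  -- a common denominator for `V`
  obtain ⟨d, db, hd, hdb, hds⟩ :=
    hden (Finset.univ.image fun i => ((Module.finBasis K V i : V) : F))
  have hd0 : d ≠ 0 := by
    rintro rfl
    exact hdb (h.unique _ _ _ hd h.zero)
  have hdV : ∀ x : V, d * (x : F) ∈ Submodule.span K (Set.range e) := by
    intro x
    have hx := (Module.finBasis K V).sum_repr x
    have hx' : (x : F) = ∑ i, (Module.finBasis K V).repr x i • ((Module.finBasis K V i : V) : F) := by
      conv_lhs => rw [← hx]
      rw [Submodule.coe_sum]
      rfl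
    rw [hx', Finset.mul_sum]
    refine Submodule.sum_mem _ fun i _ => ?_
    rw [mul_smul_comm]
    exact Submodule.smul_mem _ _ (hds _ (Finset.mem_image_of_mem _ (Finset.mem_univ i)))
  -- the coordinate map
  set ψ : V →ₗ[K] Submodule.span K (Set.range e) :=
    LinearMap.codRestrict _ ((LinearMap.mulLeft K d).comp V.subtype) hdV with hψ
  have hψval : ∀ x : V, ((ψ x : Submodule.span K (Set.range e)) : F) = d * (x : F) := fun x => rfl
  set φ : V →ₗ[K] (ι → K) := (Finsupp.lcoeFun).comp (B.repr.toLinearMap.comp ψ) with hφ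
  have hφapp : ∀ (x : V) (i : ι), φ x i = B.repr (ψ x) i := fun x i => rfl
  have hφinj : Function.Injective φ := by
    intro x y hxy
    have h1 : B.repr (ψ x) = B.repr (ψ y) := DFunLike.coe_injective hxy
    have h2 : ψ x = ψ y := B.repr.injective h1
    have h3 : d * (x : F) = d * (y : F) := by rw [← hψval, ← hψval, h2]
    exact Subtype.ext (mul_left_cancel₀ hd0 h3)
  have hmax : MaxAttained A (LinearMap.range φ) := by
    refine maxAttained_of_finite_support (A := A) _ ?_
    rintro u ⟨x, rfl⟩
    exact (B.repr (ψ x)).hasFiniteSupport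
  obtain ⟨b, piv, hbli, hbspan, hpb⟩ := exists_basis_of_injective φ hφinj hmax
  -- expansion of `d * x` in the family
  have hexp : ∀ x : V, d * (x : F) = ∑ i ∈ (B.repr (ψ x)).support, φ x i • e i := by
    intro x
    have h1 := B.linearCombination_repr (ψ x)
    have h2 := congrArg (Subtype.val) h1
    rw [← hψval, ← h2, Finsupp.linearCombination_apply, Finsupp.sum, Submodule.coe_sum]
    refine Finset.sum_congr rfl fun i _ => ?_
    rw [Submodule.coe_smul, hB, Basis.span_apply, hφapp]
  -- reduction of `d * x` for integral coordinates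
  have hredx : ∀ x : V, (∀ i, φ x i ∈ A) →
      Red (d * (x : F)) (∑ i ∈ (B.repr (ψ x)).support, rho A (φ x i) • eb i) := by
    intro x hx
    rw [hexp x]
    exact red_lincomb h he _ _ fun i _ => hx i
  set yb : Fin (finrank K V) → κ := fun a =>
    ∑ i ∈ (B.repr (ψ (b a))).support, rho A (φ (b a) i) • eb i with hyb
  have hyred : ∀ a, Red (d * ((b a : V) : F)) (yb a) := fun a => hredx (b a) (hpb.int a)
  -- the reductions `yb` are independent
  have hyind : LinearIndependent (IsLocalRing.ResidueField A) yb := by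
    rw [Fintype.linearIndependent_iff]
    intro lam hlam a
    have hsurj : ∀ a, ∃ c : A, IsLocalRing.residue A c = lam a := fun a =>
      IsLocalRing.residue_surjective (lam a)
    choose c hc using hsurj
    set x : V := ∑ a, (c a : K) • b a with hx
    have hxF : d * (x : F) = ∑ a, algebraMap K F (c a : K) * (d * ((b a : V) : F)) := by
      rw [hx, Submodule.coe_sum, Finset.mul_sum]
      refine Finset.sum_congr rfl fun a _ => ?_
      rw [Submodule.coe_smul, Algebra.smul_def]
      ring
    have hred1 : Red (d * (x : F)) (∑ a, lam a • yb a) := by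
      rw [hxF]
      refine h.sum _ _ _ fun a _ => ?_
      rw [Algebra.smul_def, ← hc a]
      exact h.smul (c a) (hyred a)
    rw [hlam] at hred1
    have hxA : ∀ i, φ x i ∈ A := fun i =>
      (coeff_mem_iff φ hpb A.toSubring.toAddSubgroup subA_mul (fun a => (c a : K))).mpr
        (fun a => (c a).2) i
    have hred2 := hredx x hxA
    have h0 := h.unique _ _ _ hred2 hred1
    have hrho : ∀ i, rho A (φ x i) = 0 := by
      intro i
      by_cases hi : i ∈ (B.repr (ψ x)).support
      · exact linearIndependent_iff'.mp hind _ (fun i => rho A (φ x i)) h0 i hi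
      · rw [hφapp, Finsupp.notMem_support_iff.mp hi]
        exact rho_zero
    have hxm : ∀ i, φ x i ∈ maxSub A := fun i =>
      mem_maxSub.mpr ⟨hxA i, by rw [← rho_of_mem (hxA i)]; exact hrho i⟩
    have hcm := (coeff_mem_iff φ hpb (maxSub A) maxSub_mul (fun a => (c a : K))).mp hxm a
    obtain ⟨hcA, hc0⟩ := mem_maxSub.mp hcm
    rw [← hc a]
    exact hc0
  -- divide by the denominator
  have hex : ∀ a, ∃ x : κ, Red ((b a : V) : F) x ∧ db * x = yb a := fun a =>
    h.red_of_mul hd hdb (hyred a) (hyind.ne_zero a)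
  choose bb hbb using hex
  refine ⟨fun a => ((b a : V) : F), bb, fun a => (b a).2, fun a => (hbb a).1, ?_⟩
  refine LinearIndependent.of_comp (LinearMap.mulLeft (IsLocalRing.ResidueField A) db) ?_
  have : (LinearMap.mulLeft (IsLocalRing.ResidueField A) db) ∘ bb = yb :=
    funext fun a => (hbb a).2
  rw [this]
  exact hyind

/-- Denominators for finite sets from denominators for single elements, when the denominators
preserve the span of the family. -/
theorem hden_of_single (h : RedBase A Red) (W : Submodule K F)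
    (hden1 : ∀ x : F, ∃ (d : F) (db : κ), Red d db ∧ db ≠ 0 ∧ (∀ w ∈ W, d * w ∈ W) ∧ d * x ∈ W)
    (s : Finset F) : ∃ (d : F) (db : κ), Red d db ∧ db ≠ 0 ∧ (∀ w ∈ W, d * w ∈ W) ∧
      ∀ x ∈ s, d * x ∈ W := by
  classical
  induction s using Finset.induction_on with
  | empty => exact ⟨1, 1, h.one, one_ne_zero, fun w hw => by rwa [one_mul], by simp⟩
  | insert a s ha ih =>
    obtain ⟨d1, db1, hd1, hdb1, hW1, hs1⟩ := ih
    obtain ⟨d2, db2, hd2, hdb2, hW2, ha2⟩ := hden1 a
    refine ⟨d1 * d2, db1 * db2, h.mul _ _ _ _ hd1 hd2, mul_ne_zero hdb1 hdb2, ?_, ?_⟩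
    · intro w hw
      rw [mul_assoc]
      exact hW1 _ (hW2 w hw)
    · intro x hx
      rcases Finset.mem_insert.mp hx with rfl | hx
      · rw [mul_assoc]
        exact hW1 _ ha2
      · rw [mul_comm d1 d2, mul_assoc]
        exact hW2 _ (hs1 x hx)

/-- `RedFacts` from `RedBase`, an orthonormal family and denominators. -/
theorem redFacts_of_family (h : RedBase A Red) (e : ι → F) (eb : ι → κ)
    (he : ∀ i, Red (e i) (eb i)) (hind : LinearIndependent (IsLocalRing.ResidueField A) eb)
    (hden : ∀ s : Finset F, ∃ (d : F) (db : κ), Red d db ∧ db ≠ 0 ∧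
      ∀ x ∈ s, d * x ∈ Submodule.span K (Set.range e)) : RedFacts A Red :=
  { unique := h.unique
    one := h.one
    add := h.add
    mul := h.mul
    const := h.const
    normalize := h.normalize
    lattice := fun V hV => lattice_of_family h e eb he hind hden V hV }

/-- `RedFacts` from `RedBase`, an orthonormal family and single-element denominators preserving
the span of the family. -/
theorem redFacts_of_family_single (h : RedBase A Red) (e : ι → F) (eb : ι → κ)
    (he : ∀ i, Red (e i) (eb i)) (hind : LinearIndependent (IsLocalRing.ResidueField A) eb)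
    (hden1 : ∀ x : F, ∃ (d : F) (db : κ), Red d db ∧ db ≠ 0 ∧
      (∀ w ∈ Submodule.span K (Set.range e), d * w ∈ Submodule.span K (Set.range e)) ∧
      d * x ∈ Submodule.span K (Set.range e)) : RedFacts A Red :=
  redFacts_of_family h e eb he hind fun s => by
    obtain ⟨d, db, hd, hdb, -, hs⟩ := hden_of_single h _ hden1 s
    exact ⟨d, db, hd, hdb, hs⟩

end Family

end Fermat.Agent.S18.LatticeBridge

end
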