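import Mathlib
import Fermat.Agent.S18.Defs
import Fermat.Agent.S18.CoreDefs
import Fermat.Agent.S18.OrthoBasis
import Fermat.Agent.S18.LatticeBridge
import Fermat.Agent.S18.Descent
import Fermat.Agent.S24.EmbFinite

/-!
# S18 / GaussQ : the Gauss reduction relation defined by `q`-expansions

For a subfield `κ ⊆ k((q))` (`k` the residue field of `A`), define for `f ∈ F_L`, `x ∈ κ`

  `RedQ A L κ f x`  :=  `f = a / b`, `x = ā / b̄` for integral series `a, b ∈ A((q)) ∩ F_L`
                         with `b̄ ≠ 0`.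

Under the single hypothesis `hκ : ∀ Y, genS A Y ∈ F_L → redS A Y ∈ κ` this relation satisfies
`RedFacts` (`redFacts`) and integral series reduce coefficientwise (`hint`).

The two non-formal fields (`normalize`, `lattice`) use: `F_L = Frac K[j(q^d) : d ∣ L]`, and the
coefficients of every element of `K[j(q^d)]` lie in a finitely generated `ℤ`-module (class `ZB`),
so the maximum of their absolute values is attained; the lattice statement then follows from
Gaussian elimination with maximal pivots (`OrthoBasis`).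
-/

set_option autoImplicit false
set_option synthInstance.maxHeartbeats 400000

noncomputable section

namespace Fermat.Agent.S18.GaussQ

open ModularCurve Fermat.Agent.S18

/-! ### Series whose coefficients lie in a finitely generated `ℤ`-module -/

section General

variable {K : Type*} [Field K]

/-- The coefficients of `x` lie in a finitely generated `ℤ`-submodule of `K`. -/
def ZB (x : LaurentSeries K) : Prop :=
  ∃ M : Submodule ℤ K, M.FG ∧ ∀ n, x.coeff n ∈ M

theorem ZB.add {x y : LaurentSeries K} (hx : ZB x) (hy : ZB y) : ZB (x + y) := by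
  obtain ⟨M, hM, hxM⟩ := hx
  obtain ⟨M', hM', hyM⟩ := hy
  refine ⟨M ⊔ M', hM.sup hM', fun n => ?_⟩
  rw [HahnSeries.coeff_add]
  exact Submodule.add_mem_sup (hxM n) (hyM n)

theorem ZB.mul {x y : LaurentSeries K} (hx : ZB x) (hy : ZB y) : ZB (x * y) := by
  obtain ⟨M, hM, hxM⟩ := hx
  obtain ⟨M', hM', hyM⟩ := hy
  refine ⟨M * M', hM.mul hM', fun n => ?_⟩
  rw [HahnSeries.coeff_mul]
  exact Submodule.sum_mem _ (fun ij _ => Submodule.mul_mem_mul (hxM _) (hyM _))

theorem ZB.const (c : K) : ZB (algebraMap K (LaurentSeries K) c) := by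
  refine ⟨Submodule.span ℤ {c}, Submodule.fg_span_singleton c, fun n => ?_⟩
  rw [algebraMap_laurentSeries_eq_single]
  by_cases h : n = 0
  · subst h
    rw [HahnSeries.coeff_single_same]
    exact Submodule.mem_span_singleton_self c
  · rw [HahnSeries.coeff_single_of_ne h]
    exact zero_mem _

theorem ZB.one : ZB (1 : LaurentSeries K) := by
  have := ZB.const (1 : K)
  rwa [map_one] at this

theorem ZB.zero : ZB (0 : LaurentSeries K) := by
  have := ZB.const (0 : K)
  rwa [map_zero] at this

theorem ZB.sum {ι : Type*} (s : Finset ι) (f : ι → LaurentSeries K) (h : ∀ i ∈ s, ZB (f i)) :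
    ZB (∑ i ∈ s, f i) := by
  classical
  induction s using Finset.induction_on with
  | empty => simpa using ZB.zero
  | insert a s ha ih =>
    rw [Finset.sum_insert ha]
    exact (h a (Finset.mem_insert_self a s)).add (ih fun b hb => h b (Finset.mem_insert_of_mem hb))

theorem ZB.prod {ι : Type*} (s : Finset ι) (f : ι → LaurentSeries K) (h : ∀ i ∈ s, ZB (f i)) :
    ZB (∏ i ∈ s, f i) := by
  classical
  induction s using Finset.induction_on with
  | empty => simpa using ZB.one
  | insert a s ha ih =>
    rw [Finset.prod_insert ha]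
    exact (h a (Finset.mem_insert_self a s)).mul (ih fun b hb => h b (Finset.mem_insert_of_mem hb))

/-- **The maximum is attained.**  A nonzero series whose coefficients lie in a finitely generated
`ℤ`-module has a coefficient of maximal absolute value. -/
theorem ZB.exists_max (A : ValuationSubring K) {x : LaurentSeries K} (hx : ZB x) (hx0 : x ≠ 0) :
    ∃ n₀ : ℤ, x.coeff n₀ ≠ 0 ∧ ∀ n : ℤ, x.coeff n / x.coeff n₀ ∈ A := by
  classical
  obtain ⟨M, hM, hxM⟩ := hx
  have hNoeth : IsNoetherian ℤ M := isNoetherian_of_fg_of_noetherian M hM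
  have hCM : Submodule.span ℤ (Set.range x.coeff) ≤ M :=
    Submodule.span_le.mpr (by rintro _ ⟨n, rfl⟩; exact hxM n)
  have hCfg : (Submodule.span ℤ (Set.range x.coeff)).FG := by
    have : IsNoetherian ℤ (Submodule.span ℤ (Set.range x.coeff)) := isNoetherian_of_le hCM
    exact (Submodule.fg_top _).mp (IsNoetherian.noetherian ⊤)
  obtain ⟨T, hTsub, hT⟩ := (Submodule.fg_span_iff_fg_span_finset_subset _).mp hCfg
  have hmemT : ∀ n, x.coeff n ∈ Submodule.span ℤ (T : Set K) := fun n =>
    hT ▸ Submodule.subset_span ⟨n, rfl⟩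
  -- `T` contains a nonzero element
  have hTne : ∃ t ∈ T, t ≠ 0 := by
    by_contra hcon
    replace hcon : ∀ t ∈ T, t = 0 := fun t ht => by
      by_contra h
      exact hcon ⟨t, ht, h⟩
    apply hx0
    ext n
    have h1 : Submodule.span ℤ (T : Set K) ≤ ⊥ :=
      Submodule.span_le.mpr (fun t ht => by
        rw [Submodule.bot_coe, Set.mem_singleton_iff]
        exact hcon t ht)
    have h2 := h1 (hmemT n)
    rw [Submodule.mem_bot] at h2
    rw [h2]
    rfl
  obtain ⟨t₁, ht₁, ht₁0⟩ := hTne
  obtain ⟨t₀, ht₀, hmax⟩ := Finset.exists_max_image T (fun t => A.valuation t) ⟨t₁, ht₁⟩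
  have ht₀0 : t₀ ≠ 0 := by
    intro h0
    have h1 := hmax t₁ ht₁
    rw [h0, map_zero] at h1
    exact ht₁0 ((map_eq_zero _).mp (le_antisymm h1 zero_le))
  obtain ⟨n₀, hn₀⟩ := hTsub ht₀
  refine ⟨n₀, by rw [hn₀]; exact ht₀0, fun n => ?_⟩
  rw [hn₀]
  have key : ∀ c ∈ Submodule.span ℤ (T : Set K), c / t₀ ∈ A := by
    intro c hc
    induction hc using Submodule.span_induction with
    | mem t ht =>
      rw [← A.valuation_le_one_iff, map_div₀]
      exact div_le_one_of_le₀ (hmax t ht) zero_le
    | zero => rw [zero_div]; exact A.zero_mem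
    | add a b _ _ ha hb => rw [add_div]; exact A.add_mem _ _ ha hb
    | smul z a _ ha =>
      rw [smul_div_assoc]
      exact zsmul_mem ha z
  exact key _ (hmemT n)

end General

/-! ### Integral series of the modular function field -/

section Modular

/-- A series with coefficients in `A` comes from `A((q))`. -/
theorem exists_genS (A : ValuationSubring (AlgebraicClosure ℚ))
    (x : LaurentSeries (AlgebraicClosure ℚ)) (h : ∀ n, x.coeff n ∈ A) :
    ∃ Y : LaurentSeries A, genS A Y = x := by
  refine ⟨⟨fun n => ⟨x.coeff n, h n⟩, x.isPWO_support.mono ?_⟩, ?_⟩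
  · intro n hn
    rw [Function.mem_support] at hn
    rw [HahnSeries.mem_support]
    intro h0
    exact hn (Subtype.ext h0)
  · ext n
    rfl

theorem coeff_algebraMap_mul {K : Type*} [Field K] (c : K) (x : LaurentSeries K) (n : ℤ) :
    (algebraMap K (LaurentSeries K) c * x).coeff n = c * x.coeff n := by
  rw [algebraMap_laurentSeries_eq_single,
    show HahnSeries.single (0 : ℤ) c = HahnSeries.C c from rfl, HahnSeries.C_mul_eq_smul,
    HahnSeries.coeff_smul, smul_eq_mul]

theorem zb_Jser (d : ℕ) : ZB (Fermat.Agent.S24.Jser (AlgebraicClosure ℚ) d) := by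
  by_cases hd : d = 0
  · subst hd
    rw [Fermat.Agent.S24.Jser_zero]
    exact ZB.zero
  · have : NeZero d := ⟨hd⟩
    refine ⟨Submodule.span ℤ {1}, Submodule.fg_span_singleton 1, fun n => ?_⟩
    rw [Fermat.Agent.S24.Jser_eq, coeffEmb_coeff]
    by_cases hdn : (d : ℤ) ∣ n
    · obtain ⟨m, rfl⟩ := hdn
      rw [qExpand_coeff_mul, ← jqModC_rat, jqModC_eq_map_intCast ℚ, HahnSeries.map_coeff]
      rw [Submodule.mem_span_singleton]
      exact ⟨(jqModC ℤ).coeff m, by simp⟩
    · rw [qExpand_coeff_of_not_dvd _ _ hdn, map_zero]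
      exact zero_mem _

theorem zb_of_mem_adjoin (L : ℕ) {x : LaurentSeries (AlgebraicClosure ℚ)}
    (hx : x ∈ Algebra.adjoin (AlgebraicClosure ℚ)
      {f | ∃ d, d ∣ L ∧ f = Fermat.Agent.S24.Jser (AlgebraicClosure ℚ) d}) : ZB x := by
  induction hx using Algebra.adjoin_induction with
  | mem y hy =>
    obtain ⟨d, -, rfl⟩ := hy
    exact zb_Jser d
  | algebraMap c => exact ZB.const c
  | add x y _ _ hx hy => exact hx.add hy
  | mul x y _ _ hx hy => exact hx.mul hy

/-- Every element of `F_L` is a quotient of two series of `F_L` with coefficients in a finitely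
generated `ℤ`-module. -/
theorem exists_num_den (L : ℕ) [NeZero L] {f : LaurentSeries (AlgebraicClosure ℚ)}
    (hf : f ∈ modularFunctionFieldBar L) :
    ∃ r s : LaurentSeries (AlgebraicClosure ℚ), r ∈ modularFunctionFieldBar L ∧
      s ∈ modularFunctionFieldBar L ∧ ZB r ∧ ZB s ∧ s ≠ 0 ∧ f * s = r := by
  have hFK := Fermat.Agent.S24.FK_eq_adjoin (AlgebraicClosure ℚ) L
  have hf' : f ∈ IntermediateField.adjoin (AlgebraicClosure ℚ)
      {f | ∃ d, d ∣ L ∧ f = Fermat.Agent.S24.Jser (AlgebraicClosure ℚ) d} := by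
    rw [← hFK]
    exact hf
  obtain ⟨r, hr, s, hs, rfl⟩ := IntermediateField.mem_adjoin_iff_div.mp hf'
  have hle : ∀ y ∈ Algebra.adjoin (AlgebraicClosure ℚ)
      {f | ∃ d, d ∣ L ∧ f = Fermat.Agent.S24.Jser (AlgebraicClosure ℚ) d},
      y ∈ modularFunctionFieldBar L := by
    intro y hy
    have h1 := IntermediateField.algebra_adjoin_le_adjoin (AlgebraicClosure ℚ) _ hy
    rw [← hFK] at h1
    exact h1
  by_cases hs0 : s = 0
  · refine ⟨0, 1, zero_mem _, one_mem _, ZB.zero, ZB.one, one_ne_zero, ?_⟩
    rw [hs0, div_zero, zero_mul]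
  · exact ⟨r, s, hle r hr, hle s hs, zb_of_mem_adjoin L hr, zb_of_mem_adjoin L hs, hs0,
      div_mul_cancel₀ r hs0⟩

/-- Scaling a nonzero `ZB` series to an integral series with nonzero reduction. -/
theorem exists_normalize (A : ValuationSubring (AlgebraicClosure ℚ))
    {x : LaurentSeries (AlgebraicClosure ℚ)} (hx : ZB x) (hx0 : x ≠ 0) :
    ∃ (c : AlgebraicClosure ℚ) (Y : LaurentSeries A), c ≠ 0 ∧
      algebraMap (AlgebraicClosure ℚ) (LaurentSeries (AlgebraicClosure ℚ)) c * x = genS A Y ∧
      redS A Y ≠ 0 := by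
  obtain ⟨n₀, hn₀, hdiv⟩ := hx.exists_max A hx0
  obtain ⟨Y, hY⟩ := exists_genS A
    (algebraMap (AlgebraicClosure ℚ) (LaurentSeries (AlgebraicClosure ℚ)) (x.coeff n₀)⁻¹ * x)
    (fun n => by
      rw [coeff_algebraMap_mul, inv_mul_eq_div]
      exact hdiv n)
  refine ⟨(x.coeff n₀)⁻¹, Y, inv_ne_zero hn₀, hY.symm, ?_⟩
  intro h0
  have h1 : (redS A Y).coeff n₀ = 0 := by
    rw [h0]
    rfl
  rw [coeffMap_coeff] at h1
  have h2 : ((Y.coeff n₀ : A) : AlgebraicClosure ℚ) = 1 := by
    have h3 := congrArg (fun z : LaurentSeries (AlgebraicClosure ℚ) => z.coeff n₀) hY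
    simp only [coeffMap_coeff, coeff_algebraMap_mul] at h3
    rw [inv_mul_cancel₀ hn₀] at h3
    exact h3
  have h3 : Y.coeff n₀ = 1 := Subtype.ext h2
  rw [h3, map_one] at h1
  exact one_ne_zero h1

end Modular

/-! ### The reduction relation -/

section Red

variable (A : ValuationSubring (AlgebraicClosure ℚ)) (L : ℕ)
  (κ : IntermediateField (IsLocalRing.ResidueField A)
    (LaurentSeries (IsLocalRing.ResidueField A)))

/-- `RedQ A L κ f x` : `f = a / b` and `x = ā / b̄` for integral series `a, b` of `F_L`, with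
`b̄ ≠ 0`. -/
def RedQ (f : modularFunctionFieldBar L) (x : κ) : Prop :=
  ∃ a b : LaurentSeries A, genS A a ∈ modularFunctionFieldBar L ∧
    genS A b ∈ modularFunctionFieldBar L ∧ redS A b ≠ 0 ∧
    (f : LaurentSeries (AlgebraicClosure ℚ)) * genS A b = genS A a ∧
    (x : LaurentSeries (IsLocalRing.ResidueField A)) * redS A b = redS A a

variable {A L κ}

theorem redQ_unique (f : modularFunctionFieldBar L) (x y : κ) (hx : RedQ A L κ f x)
    (hy : RedQ A L κ f y) : x = y := by
  obtain ⟨a, b, -, -, hb, hfa, hxa⟩ := hx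
  obtain ⟨a', b', -, -, hb', hfa', hya⟩ := hy
  have h1 : genS A (a * b') = genS A (a' * b) := by
    rw [map_mul, map_mul, ← hfa, ← hfa']
    ring
  have h2 : a * b' = a' * b := Descent.genS_injective A h1
  have h3 : redS A a * redS A b' = redS A a' * redS A b := by
    rw [← map_mul, ← map_mul, h2]
  rw [← hxa, ← hya] at h3
  apply Subtype.ext
  have h4 : ((x : LaurentSeries (IsLocalRing.ResidueField A)) - y) * (redS A b * redS A b') = 0 := by
    linear_combination h3
  rcases mul_eq_zero.mp h4 with h5 | h5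
  · exact sub_eq_zero.mp h5
  · exact absurd h5 (mul_ne_zero hb hb')

theorem redQ_one : RedQ A L κ 1 1 := by
  refine ⟨1, 1, ?_, ?_, ?_, ?_, ?_⟩
  · rw [map_one]; exact one_mem _
  · rw [map_one]; exact one_mem _
  · rw [map_one]; exact one_ne_zero
  · rw [map_one, mul_one]; rfl
  · rw [map_one, mul_one]; rfl

theorem redQ_add (f g : modularFunctionFieldBar L) (x y : κ) (hx : RedQ A L κ f x)
    (hy : RedQ A L κ g y) : RedQ A L κ (f + g) (x + y) := by
  obtain ⟨a, b, ha, hbm, hb, hfa, hxa⟩ := hx
  obtain ⟨a', b', ha', hbm', hb', hfa', hya⟩ := hy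
  refine ⟨a * b' + a' * b, b * b', ?_, ?_, ?_, ?_, ?_⟩
  · rw [map_add, map_mul, map_mul]
    exact add_mem (mul_mem ha hbm') (mul_mem ha' hbm)
  · rw [map_mul]
    exact mul_mem hbm hbm'
  · rw [map_mul]
    exact mul_ne_zero hb hb'
  · rw [map_add, map_mul, map_mul, map_mul, ← hfa, ← hfa']
    push_cast
    ring
  · rw [map_add, map_mul, map_mul, map_mul, ← hxa, ← hya]
    push_cast
    ring

theorem redQ_mul (f g : modularFunctionFieldBar L) (x y : κ) (hx : RedQ A L κ f x)
    (hy : RedQ A L κ g y) : RedQ A L κ (f * g) (x * y) := by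
  obtain ⟨a, b, ha, hbm, hb, hfa, hxa⟩ := hx
  obtain ⟨a', b', ha', hbm', hb', hfa', hya⟩ := hy
  refine ⟨a * a', b * b', ?_, ?_, ?_, ?_, ?_⟩
  · rw [map_mul]
    exact mul_mem ha ha'
  · rw [map_mul]
    exact mul_mem hbm hbm'
  · rw [map_mul]
    exact mul_ne_zero hb hb'
  · rw [map_mul, map_mul, ← hfa, ← hfa']
    push_cast
    ring
  · rw [map_mul, map_mul, ← hxa, ← hya]
    push_cast
    ring

theorem redQ_const (c : A) :
    RedQ A L κ (algebraMap (AlgebraicClosure ℚ) (modularFunctionFieldBar L) (c : AlgebraicClosure ℚ))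
      (algebraMap (IsLocalRing.ResidueField A) κ (IsLocalRing.residue A c)) := by
  have hg : genS A (HahnSeries.single 0 c)
      = algebraMap (AlgebraicClosure ℚ) (LaurentSeries (AlgebraicClosure ℚ))
        (c : AlgebraicClosure ℚ) := by
    rw [algebraMap_laurentSeries_eq_single, genS, coeffMap_single]
    rfl
  have hr : redS A (HahnSeries.single 0 c)
      = algebraMap (IsLocalRing.ResidueField A) (LaurentSeries (IsLocalRing.ResidueField A))
        (IsLocalRing.residue A c) := by
    rw [algebraMap_laurentSeries_eq_single, redS, coeffMap_single]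
  refine ⟨HahnSeries.single 0 c, 1, ?_, ?_, ?_, ?_, ?_⟩
  · rw [hg]
    exact (modularFunctionFieldBar L).algebraMap_mem _
  · rw [map_one]; exact one_mem _
  · rw [map_one]; exact one_ne_zero
  · rw [map_one, mul_one, hg]
    rfl
  · rw [map_one, mul_one, hr]
    rfl

/-- The basic way to produce reductions: quotients of integral series. -/
theorem redQ_of_quot
    (hκ : ∀ Y : LaurentSeries A, genS A Y ∈ modularFunctionFieldBar L → redS A Y ∈ κ)
    (f : modularFunctionFieldBar L) (a b : LaurentSeries A)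
    (ha : genS A a ∈ modularFunctionFieldBar L) (hb : genS A b ∈ modularFunctionFieldBar L)
    (hb0 : redS A b ≠ 0)
    (hf : (f : LaurentSeries (AlgebraicClosure ℚ)) * genS A b = genS A a) :
    RedQ A L κ f ⟨redS A a / redS A b, div_mem (hκ a ha) (hκ b hb)⟩ :=
  ⟨a, b, ha, hb, hb0, hf, div_mul_cancel₀ _ hb0⟩

/-- Integral series reduce coefficientwise. -/
theorem hint (hκ : ∀ Y : LaurentSeries A, genS A Y ∈ modularFunctionFieldBar L → redS A Y ∈ κ)
    (V : LaurentSeries A) (hV : genS A V ∈ modularFunctionFieldBar L) :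
    ∃ hx : redS A V ∈ κ, RedQ A L κ ⟨genS A V, hV⟩ ⟨redS A V, hx⟩ := by
  refine ⟨hκ V hV, V, 1, hV, ?_, ?_, ?_, ?_⟩
  · rw [map_one]; exact one_mem _
  · rw [map_one]; exact one_ne_zero
  · rw [map_one, mul_one]
  · rw [map_one, mul_one]

theorem redQ_normalize [NeZero L]
    (hκ : ∀ Y : LaurentSeries A, genS A Y ∈ modularFunctionFieldBar L → redS A Y ∈ κ)
    (f : modularFunctionFieldBar L) (hf : f ≠ 0) :
    ∃ c : AlgebraicClosure ℚ, c ≠ 0 ∧ ∃ x : κ, x ≠ 0 ∧
      RedQ A L κ (algebraMap (AlgebraicClosure ℚ) (modularFunctionFieldBar L) c * f) x := by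
  obtain ⟨r, s, hr, hs, hzr, hzs, hs0, hfs⟩ := exists_num_den L f.2
  have hf0 : (f : LaurentSeries (AlgebraicClosure ℚ)) ≠ 0 := fun h => hf (Subtype.ext h)
  have hr0 : r ≠ 0 := by
    rw [← hfs]
    exact mul_ne_zero hf0 hs0
  obtain ⟨cr, Yr, hcr, hYr, hYr0⟩ := exists_normalize A hzr hr0
  obtain ⟨cs, Ys, hcs, hYs, hYs0⟩ := exists_normalize A hzs hs0
  have hYrm : genS A Yr ∈ modularFunctionFieldBar L := by
    rw [← hYr]
    exact mul_mem ((modularFunctionFieldBar L).algebraMap_mem _) hr
  have hYsm : genS A Ys ∈ modularFunctionFieldBar L := by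
    rw [← hYs]
    exact mul_mem ((modularFunctionFieldBar L).algebraMap_mem _) hs
  refine ⟨cr / cs, div_ne_zero hcr hcs, _, ?_, redQ_of_quot hκ _ Yr Ys hYrm hYsm hYs0 ?_⟩
  · intro h0
    have h1 := congrArg Subtype.val h0
    exact (div_ne_zero hYr0 hYs0) h1
  · rw [← hYs, ← hYr, ← hfs]
    have hcs' : algebraMap (AlgebraicClosure ℚ) (LaurentSeries (AlgebraicClosure ℚ)) cs ≠ 0 :=
      fun h => hcs ((map_eq_zero _).mp h)
    show algebraMap (AlgebraicClosure ℚ) (LaurentSeries (AlgebraicClosure ℚ)) (cr / cs)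
        * (f : LaurentSeries (AlgebraicClosure ℚ))
        * (algebraMap (AlgebraicClosure ℚ) (LaurentSeries (AlgebraicClosure ℚ)) cs * s) = _
    rw [map_div₀]
    field_simp

theorem coe_smul_eq {K : Type*} [Field K] (S : IntermediateField K (LaurentSeries K)) (c : K)
    (f : S) : ((c • f : S) : LaurentSeries K)
      = algebraMap K (LaurentSeries K) c * (f : LaurentSeries K) := by
  rw [Algebra.smul_def]
  rfl

theorem genS_single (c : A) : genS A (HahnSeries.single 0 c)
    = algebraMap (AlgebraicClosure ℚ) (LaurentSeries (AlgebraicClosure ℚ))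
      (c : AlgebraicClosure ℚ) := by
  rw [algebraMap_laurentSeries_eq_single, genS, coeffMap_single]
  rfl

theorem redS_single (c : A) : redS A (HahnSeries.single 0 c)
    = algebraMap (IsLocalRing.ResidueField A) (LaurentSeries (IsLocalRing.ResidueField A))
      (IsLocalRing.residue A c) := by
  rw [algebraMap_laurentSeries_eq_single, redS, coeffMap_single]

set_option maxHeartbeats 800000 in
theorem redQ_lattice [NeZero L]
    (hκ : ∀ Y : LaurentSeries A, genS A Y ∈ modularFunctionFieldBar L → redS A Y ∈ κ)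
    (V : Submodule (AlgebraicClosure ℚ) (modularFunctionFieldBar L))
    (hV : FiniteDimensional (AlgebraicClosure ℚ) V) :
    ∃ (e : Fin (Module.finrank (AlgebraicClosure ℚ) V) → modularFunctionFieldBar L)
      (eb : Fin (Module.finrank (AlgebraicClosure ℚ) V) → κ),
      (∀ i, e i ∈ V) ∧ (∀ i, RedQ A L κ (e i) (eb i)) ∧
        LinearIndependent (IsLocalRing.ResidueField A) eb := by
  classical
  -- a basis of `V` and a common denominator
  obtain ⟨b⟩ : Nonempty (Module.Basis (Fin (Module.finrank (AlgebraicClosure ℚ) V))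
      (AlgebraicClosure ℚ) V) := ⟨Module.finBasis (AlgebraicClosure ℚ) V⟩
  have hnd : ∀ i, ∃ r s : LaurentSeries (AlgebraicClosure ℚ), r ∈ modularFunctionFieldBar L ∧
      s ∈ modularFunctionFieldBar L ∧ ZB r ∧ ZB s ∧ s ≠ 0 ∧
      (((b i : V) : modularFunctionFieldBar L) : LaurentSeries (AlgebraicClosure ℚ)) * s = r :=
    fun i => exists_num_den L ((b i : V) : modularFunctionFieldBar L).2
  choose r sd hr hsd hzr hzs hs0 hrs using hnd
  obtain ⟨s, hs⟩ : ∃ s : LaurentSeries (AlgebraicClosure ℚ), s = ∏ i, sd i := ⟨_, rfl⟩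
  have hsm : s ∈ modularFunctionFieldBar L := by
    rw [hs]
    exact prod_mem (fun i _ => hsd i)
  have hsz : ZB s := by
    rw [hs]
    exact ZB.prod _ _ (fun i _ => hzs i)
  have hsne : s ≠ 0 := by
    rw [hs]
    exact Finset.prod_ne_zero_iff.mpr (fun i _ => hs0 i)
  have hsb : ∀ i, ZB (s *
      (((b i : V) : modularFunctionFieldBar L) : LaurentSeries (AlgebraicClosure ℚ))) := by
    intro i
    have h1 : s * (((b i : V) : modularFunctionFieldBar L) : LaurentSeries (AlgebraicClosure ℚ))
        = (∏ j ∈ Finset.univ.erase i, sd j) * r i := by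
      rw [hs, ← Finset.mul_prod_erase Finset.univ sd (Finset.mem_univ i), ← hrs i]
      ring
    rw [h1]
    exact (ZB.prod _ _ (fun j _ => hzs j)).mul (hzr i)
  -- the coefficient map
  let φ : V →ₗ[AlgebraicClosure ℚ] (ℤ → AlgebraicClosure ℚ) :=
    { toFun := fun v =>
        (s * ((v : modularFunctionFieldBar L) : LaurentSeries (AlgebraicClosure ℚ))).coeff
      map_add' := fun v w => by
        funext n
        show (s * (((v + w : V) : modularFunctionFieldBar L) :
          LaurentSeries (AlgebraicClosure ℚ))).coeff n = _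
        rw [Submodule.coe_add, AddMemClass.coe_add, mul_add, HahnSeries.coeff_add]
        rfl
      map_smul' := fun c v => by
        funext n
        show (s * (((c • v : V) : modularFunctionFieldBar L) :
          LaurentSeries (AlgebraicClosure ℚ))).coeff n
          = c * (s * ((v : modularFunctionFieldBar L) :
            LaurentSeries (AlgebraicClosure ℚ))).coeff n
        rw [Submodule.coe_smul, coe_smul_eq, mul_left_comm, coeff_algebraMap_mul] }
  have hφ_apply : ∀ (v : V) (n : ℤ), φ v n
      = (s * ((v : modularFunctionFieldBar L) : LaurentSeries (AlgebraicClosure ℚ))).coeff n :=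
    fun _ _ => rfl
  have hφz : ∀ v : V,
      ZB (s * ((v : modularFunctionFieldBar L) : LaurentSeries (AlgebraicClosure ℚ))) := by
    intro v
    have h1 := b.sum_repr v
    have h2 : s * ((v : modularFunctionFieldBar L) : LaurentSeries (AlgebraicClosure ℚ))
        = ∑ i, algebraMap (AlgebraicClosure ℚ) (LaurentSeries (AlgebraicClosure ℚ)) (b.repr v i)
          * (s * (((b i : V) : modularFunctionFieldBar L) :
            LaurentSeries (AlgebraicClosure ℚ))) := by
      conv_lhs => rw [← h1]
      rw [Submodule.coe_sum, IntermediateField.coe_sum, Finset.mul_sum]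
      refine Finset.sum_congr rfl (fun i _ => ?_)
      rw [Submodule.coe_smul, coe_smul_eq]
      ring
    rw [h2]
    exact ZB.sum _ _ (fun i _ => (ZB.const _).mul (hsb i))
  have hφinj : Function.Injective φ := by
    intro v w hvw
    have h1 : s * ((v : modularFunctionFieldBar L) : LaurentSeries (AlgebraicClosure ℚ))
        = s * ((w : modularFunctionFieldBar L) : LaurentSeries (AlgebraicClosure ℚ)) := by
      ext n
      exact congrFun hvw n
    exact Subtype.ext (Subtype.ext (mul_left_cancel₀ hsne h1))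
  have hmax : OrthoBasis.MaxAttained A (LinearMap.range φ) := by
    rintro u ⟨v, rfl⟩ hu0
    have hne : s * ((v : modularFunctionFieldBar L) : LaurentSeries (AlgebraicClosure ℚ)) ≠ 0 := by
      intro h0
      apply hu0
      funext n
      rw [hφ_apply, h0]
      rfl
    exact (hφz v).exists_max A hne
  obtain ⟨e, piv, -, -, hpb⟩ := OrthoBasis.exists_basis_of_injective φ hφinj hmax
  -- integral models of `s * e i` and of `s`
  have hYex : ∀ i, ∃ Y : LaurentSeries A, genS A Y
      = s * (((e i : V) : modularFunctionFieldBar L) : LaurentSeries (AlgebraicClosure ℚ)) :=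
    fun i => exists_genS A _ (fun n => hpb.int i n)
  choose Y hY using hYex
  obtain ⟨cs, Ys, hcs, hYs, hYs0⟩ := exists_normalize A hsz hsne
  have hYm : ∀ i, genS A (Y i) ∈ modularFunctionFieldBar L := fun i => by
    rw [hY]
    exact mul_mem hsm ((e i : V) : modularFunctionFieldBar L).2
  have hYsm : genS A Ys ∈ modularFunctionFieldBar L := by
    rw [← hYs]
    exact mul_mem ((modularFunctionFieldBar L).algebraMap_mem _) hsm
  have hcs' : algebraMap (AlgebraicClosure ℚ) (LaurentSeries (AlgebraicClosure ℚ)) cs ≠ 0 :=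
    fun h => hcs ((map_eq_zero _).mp h)
  refine ⟨fun i => cs⁻¹ • ((e i : V) : modularFunctionFieldBar L),
    fun i => ⟨redS A (Y i) / redS A Ys, div_mem (hκ _ (hYm i)) (hκ _ hYsm)⟩,
    fun i => V.smul_mem _ (e i).2,
    fun i => redQ_of_quot hκ _ (Y i) Ys (hYm i) hYsm hYs0 ?_, ?_⟩
  · rw [coe_smul_eq, ← hYs, hY, map_inv₀]
    field_simp
  · rw [Fintype.linearIndependent_iff]
    intro lam hlam i
    have hlift : ∀ j, ∃ c : A, IsLocalRing.residue A c = lam j :=
      fun j => IsLocalRing.residue_surjective (lam j)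
    choose c hc using hlift
    -- the relation in `k((q))`
    have h1 : ∑ j, algebraMap (IsLocalRing.ResidueField A)
        (LaurentSeries (IsLocalRing.ResidueField A)) (lam j) * redS A (Y j) = 0 := by
      have h2 := congrArg (fun z : κ => (z : LaurentSeries (IsLocalRing.ResidueField A))) hlam
      simp only [IntermediateField.coe_sum, coe_smul_eq] at h2
      have h3 : ∑ j, algebraMap (IsLocalRing.ResidueField A)
          (LaurentSeries (IsLocalRing.ResidueField A)) (lam j) * redS A (Y j)
          = (∑ j, algebraMap (IsLocalRing.ResidueField A)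
            (LaurentSeries (IsLocalRing.ResidueField A)) (lam j)
              * (redS A (Y j) / redS A Ys)) * redS A Ys := by
        rw [Finset.sum_mul]
        refine Finset.sum_congr rfl (fun j _ => ?_)
        rw [mul_assoc, div_mul_cancel₀ _ hYs0]
      rw [h3, h2]
      exact zero_mul _
    -- an integral series with zero reduction
    obtain ⟨W, hW⟩ : ∃ W : LaurentSeries A, W = ∑ j, HahnSeries.single 0 (c j) * Y j := ⟨_, rfl⟩
    have hWred : redS A W = 0 := by
      rw [hW, map_sum, ← h1]
      refine Finset.sum_congr rfl (fun j _ => ?_)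
      rw [map_mul, redS_single, hc]
    have hWgen : ∀ n, ((W.coeff n : A) : AlgebraicClosure ℚ)
        = (∑ j, ((c j : A) : AlgebraicClosure ℚ) • (fun i => φ (e i)) j) n := by
      intro n
      have h2 : genS A W = ∑ j, algebraMap (AlgebraicClosure ℚ)
          (LaurentSeries (AlgebraicClosure ℚ)) ((c j : A) : AlgebraicClosure ℚ)
          * (s * (((e j : V) : modularFunctionFieldBar L) :
            LaurentSeries (AlgebraicClosure ℚ))) := by
        rw [hW, map_sum]
        refine Finset.sum_congr rfl (fun j _ => ?_)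
        rw [map_mul, genS_single, hY]
      have h3 : ((W.coeff n : A) : AlgebraicClosure ℚ) = (genS A W).coeff n := rfl
      rw [h3, h2, HahnSeries.coeff_sum, Finset.sum_apply]
      refine Finset.sum_congr rfl (fun j _ => ?_)
      rw [coeff_algebraMap_mul, Pi.smul_apply, smul_eq_mul]
      rfl
    have hmem : ∀ n, (∑ j, ((c j : A) : AlgebraicClosure ℚ) • (fun i => φ (e i)) j) n
        ∈ LatticeBridge.maxSub A := by
      intro n
      rw [← hWgen n]
      refine LatticeBridge.mem_maxSub.mpr ⟨(W.coeff n).2, ?_⟩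
      have h2 : (redS A W).coeff n = 0 := by
        rw [hWred]
        rfl
      exact h2
    have hci := hpb.coeff_mem (LatticeBridge.maxSub A) LatticeBridge.maxSub_mul
      (fun j => ((c j : A) : AlgebraicClosure ℚ)) hmem i
    obtain ⟨hx, h0⟩ := LatticeBridge.mem_maxSub.mp hci
    rw [← hc i]
    exact h0

/-- **The Gauss layer from `q`-expansions.** -/
theorem redFacts [NeZero L]
    (hκ : ∀ Y : LaurentSeries A, genS A Y ∈ modularFunctionFieldBar L → redS A Y ∈ κ) :
    RedFacts A (RedQ A L κ) where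
  unique := redQ_unique
  one := redQ_one
  add := redQ_add
  mul := redQ_mul
  const := redQ_const
  normalize := redQ_normalize hκ
  lattice := redQ_lattice hκ

end Red

end Fermat.Agent.S18.GaussQ

end
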