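/-
S18 / HKappa (helper21): reductions of integral series of the function field lie in `k(jb, ub)`.

Abstract core `HKappa.main_of`: `A` a valuation subring of a field `K`, `k` its residue field,
`jA uA : LaurentSeries A` with images `jK, uK` in `K((q))` and reductions `jb, ub` in `k((q))`.
If `Y : LaurentSeries A` satisfies `g(jK) * Y = Q(jK, uK)` over `K` with `g ≠ 0`,
`deg_X Q < ψ`, and no nonzero `G : k[T][X]` of `X`-degree `< ψ` kills `(jb, ub)`, then
the reduction of `Y` lies in `k(jb, ub)`.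
-/
import Mathlib
import Fermat.Agent.S18.ChartInt
import Fermat.Agent.S28.RedHyp
import Fermat.Agent.S18.Defs
import Fermat.Agent.S18.GenBar
import Fermat.Agent.S18.KappaDeg
import Fermat.Agent.S18.ResField
import Fermat.Agent.S18.SepDelta

set_option autoImplicit false

noncomputable section

namespace Fermat.Agent.S18.HKappa

open Polynomial ModularCurve Fermat.Agent.S28.Chart Fermat.Agent.S28.RedHyp

variable {K : Type*} [Field K] {A : ValuationSubring K}

/-- Two-variable primitive scaling over a valuation ring. -/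
theorem exists_primitive₂ (Q : K[X][X]) (hQ : Q ≠ 0) :
    ∃ (e : K) (Q₁ : (Polynomial A)[X]), e ≠ 0 ∧
      Q = C (C e) * Q₁.map (mapRingHom (algebraMap A K)) ∧
      Q₁.map (mapRingHom (IsLocalRing.residue A)) ≠ 0 := by
  classical
  set s : Finset (ℕ × ℕ) :=
    Q.support.biUnion (fun m => (Q.coeff m).support.image (fun i => (m, i))) with hs
  have hmem : ∀ m i, (m, i) ∈ s ↔ (Q.coeff m).coeff i ≠ 0 := by
    intro m i
    rw [hs, Finset.mem_biUnion]
    constructor
    · rintro ⟨m', hm', hp⟩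
      rw [Finset.mem_image] at hp
      obtain ⟨i', hi', heq⟩ := hp
      obtain ⟨rfl, rfl⟩ := Prod.mk.inj heq
      exact Polynomial.mem_support_iff.mp hi'
    · intro h
      refine ⟨m, ?_, Finset.mem_image.mpr ⟨i, Polynomial.mem_support_iff.mpr h, rfl⟩⟩
      rw [Polynomial.mem_support_iff]
      intro h0
      rw [h0, coeff_zero] at h
      exact h rfl
  have hne : s.Nonempty := by
    obtain ⟨m, hm⟩ := Polynomial.support_nonempty.mpr hQ
    have hm' : Q.coeff m ≠ 0 := Polynomial.mem_support_iff.mp hm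
    obtain ⟨i, hi⟩ := Polynomial.support_nonempty.mpr hm'
    exact ⟨(m, i), (hmem m i).mpr (Polynomial.mem_support_iff.mp hi)⟩
  obtain ⟨⟨m₀, i₀⟩, hp₀, hmax⟩ :=
    Finset.exists_max_image s (fun p => A.valuation ((Q.coeff p.1).coeff p.2)) hne
  set e := (Q.coeff m₀).coeff i₀ with he
  have he0 : e ≠ 0 := (hmem m₀ i₀).mp hp₀
  have hcoef : ∀ m i, e⁻¹ * (Q.coeff m).coeff i ∈ A := by
    intro m i
    by_cases h : (Q.coeff m).coeff i = 0
    · rw [h, mul_zero]
      exact A.zero_mem
    · rw [← A.valuation_le_one_iff, map_mul, map_inv₀, mul_comm, ← div_eq_mul_inv]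
      exact div_le_one_of_le₀ (hmax (m, i) ((hmem m i).mpr h)) zero_le
  have hlift : (C (C e⁻¹) * Q) ∈ Polynomial.lifts (mapRingHom (algebraMap A K)) := by
    rw [Polynomial.lifts_iff_coeff_lifts]
    intro m
    rw [Polynomial.coeff_C_mul]
    have h1 : (C e⁻¹ * Q.coeff m) ∈ Polynomial.lifts (algebraMap A K) := by
      rw [Polynomial.lifts_iff_coeff_lifts]
      intro i
      rw [Polynomial.coeff_C_mul]
      exact ⟨⟨_, hcoef m i⟩, rfl⟩
    obtain ⟨q, hq⟩ := h1
    exact ⟨q, hq⟩
  obtain ⟨Q₁, hQ₁⟩ := hlift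
  replace hQ₁ : Q₁.map (mapRingHom (algebraMap A K)) = C (C e⁻¹) * Q := hQ₁
  refine ⟨e, Q₁, he0, ?_, ?_⟩
  · rw [hQ₁, ← mul_assoc, ← C_mul, ← C_mul, mul_inv_cancel₀ he0, C_1, C_1, one_mul]
  · intro h0
    have h1 : ((Q₁.map (mapRingHom (IsLocalRing.residue A))).coeff m₀).coeff i₀ = 0 := by
      rw [h0, coeff_zero, coeff_zero]
    rw [Polynomial.coeff_map, coe_mapRingHom, Polynomial.coeff_map] at h1
    have h2 : ((((Q₁.coeff m₀).coeff i₀ : A)) : K) = 1 := by
      have := congrArg (fun r => (r.coeff m₀).coeff i₀) hQ₁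
      simp only [coeff_map, coe_mapRingHom, coeff_C_mul] at this
      rw [← he, inv_mul_cancel₀ he0] at this
      exact this
    have h3 : (Q₁.coeff m₀).coeff i₀ = 1 := Subtype.ext h2
    rw [h3, map_one] at h1
    exact one_ne_zero h1

/-- **Abstract core**: a representation `g(jK) * Y = Q(jK, uK)` over `K` of an integral series
`Y` reduces to a representation over `k`. -/
theorem exists_rep_red (jA uA : LaurentSeries A) (ψ : ℕ)
    (hmin : ∀ G : (IsLocalRing.ResidueField A)[X][X], G.natDegree < ψ →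
      ev2 HahnSeries.C (coeffMap (IsLocalRing.residue A) jA)
        (coeffMap (IsLocalRing.residue A) uA) G = 0 → G = 0)
    (Y : LaurentSeries A) (g : K[X]) (Q : K[X][X]) (hg : g ≠ 0) (hQ : Q.natDegree < ψ)
    (hrep : ev1 HahnSeries.C (coeffMap (algebraMap A K) jA) g * coeffMap (algebraMap A K) Y
      = ev2 HahnSeries.C (coeffMap (algebraMap A K) jA) (coeffMap (algebraMap A K) uA) Q) :
    ∃ (g₀ : (IsLocalRing.ResidueField A)[X]) (Q₀ : (IsLocalRing.ResidueField A)[X][X]),
      g₀ ≠ 0 ∧ Q₀.natDegree < ψ ∧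
      ev1 HahnSeries.C (coeffMap (IsLocalRing.residue A) jA) g₀
          * coeffMap (IsLocalRing.residue A) Y
        = ev2 HahnSeries.C (coeffMap (IsLocalRing.residue A) jA)
            (coeffMap (IsLocalRing.residue A) uA) Q₀ := by
  classical
  have hιinj : Function.Injective (algebraMap A K) := Subtype.val_injective
  have hcinj := coeffMap_injective (algebraMap A K) hιinj
  have hminj : Function.Injective (mapRingHom (algebraMap A K)) := by
    rw [coe_mapRingHom]
    exact map_injective _ hιinj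
  -- Step 1: primitive denominator
  obtain ⟨c, g₀, hc0, hgg₀, hg₀⟩ := ChartInt.exists_primitive (A := A) g hg
  have hCc : (C (C c⁻¹) : K[X][X]) ≠ 0 := by
    rw [Ne, C_eq_zero, C_eq_zero]
    exact inv_ne_zero hc0
  -- Step 2: rescale the numerator
  set Q' : K[X][X] := C (C c⁻¹) * Q with hQ'
  have hQ'deg : Q'.natDegree < ψ := by
    rw [hQ', natDegree_C_mul (by rw [Ne, C_eq_zero]; exact inv_ne_zero hc0)]
    exact hQ
  have hrep' : ev1 HahnSeries.C (coeffMap (algebraMap A K) jA) (g₀.map (algebraMap A K))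
      * coeffMap (algebraMap A K) Y
      = ev2 HahnSeries.C (coeffMap (algebraMap A K) jA) (coeffMap (algebraMap A K) uA) Q' := by
    have h1 : ev1 HahnSeries.C (coeffMap (algebraMap A K) jA) g
        = HahnSeries.C c * ev1 HahnSeries.C (coeffMap (algebraMap A K) jA)
            (g₀.map (algebraMap A K)) := by
      rw [hgg₀, map_mul, ev1_C]
    have h2 : ev2 HahnSeries.C (coeffMap (algebraMap A K) jA) (coeffMap (algebraMap A K) uA) Q'
        = HahnSeries.C c⁻¹ * ev2 HahnSeries.C (coeffMap (algebraMap A K) jA)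
            (coeffMap (algebraMap A K) uA) Q := by
      rw [hQ', map_mul, ev2_C, ev1_C]
    rw [h2, ← hrep, h1, ← mul_assoc, ← mul_assoc, ← map_mul, inv_mul_cancel₀ hc0, map_one,
      one_mul]
  -- Step 3: the numerator has coefficients in `A`
  have hlift : ∃ Q₀ : (Polynomial A)[X], Q₀.map (mapRingHom (algebraMap A K)) = Q' := by
    by_cases hQ0 : Q' = 0
    · exact ⟨0, by rw [Polynomial.map_zero, hQ0]⟩
    obtain ⟨e, Q₁, he0, hQQ₁, hQ₁⟩ := exists_primitive₂ (A := A) Q' hQ0
    by_cases he : e ∈ A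
    · refine ⟨C (C ⟨e, he⟩) * Q₁, ?_⟩
      rw [Polynomial.map_mul, Polynomial.map_C, coe_mapRingHom, Polynomial.map_C, hQQ₁]
      rfl
    · exfalso
      obtain ⟨hinv, hres0⟩ := ChartInt.residue_inv_eq_zero he
      have hA : HahnSeries.C (⟨e⁻¹, hinv⟩ : A) * (ev1 HahnSeries.C jA g₀ * Y)
          = ev2 HahnSeries.C jA uA Q₁ := by
        apply hcinj
        rw [map_mul, map_mul, coeffMap_C, coeffMap_ev1, coeffMap_ev2, hrep', hQQ₁, map_mul,
          ev2_C, ev1_C, ← mul_assoc, ← map_mul]
        have h1 : algebraMap A K ⟨e⁻¹, hinv⟩ * e = 1 := inv_mul_cancel₀ he0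
        rw [h1, map_one, one_mul]
      have hB := congrArg (coeffMap (IsLocalRing.residue A)) hA
      rw [map_mul, coeffMap_C, hres0, map_zero, zero_mul, coeffMap_ev2] at hB
      have hdeg : (Q₁.map (mapRingHom (IsLocalRing.residue A))).natDegree < ψ := by
        refine lt_of_le_of_lt natDegree_map_le ?_
        have h1 : (Q₁.map (mapRingHom (algebraMap A K))).natDegree = Q₁.natDegree :=
          natDegree_map_eq_of_injective hminj _
        have h2 : Q'.natDegree = (Q₁.map (mapRingHom (algebraMap A K))).natDegree := by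
          conv_lhs => rw [hQQ₁]
          rw [natDegree_C_mul (by rw [Ne, C_eq_zero]; exact he0)]
        omega
      exact hQ₁ (hmin _ hdeg hB.symm)
  obtain ⟨Q₀, hQ₀⟩ := hlift
  -- Step 4: the integral relation and its reduction
  have hA : ev1 HahnSeries.C jA g₀ * Y = ev2 HahnSeries.C jA uA Q₀ := by
    apply hcinj
    rw [map_mul, coeffMap_ev1, coeffMap_ev2, hQ₀]
    exact hrep'
  have hB := congrArg (coeffMap (IsLocalRing.residue A)) hA
  rw [map_mul, coeffMap_ev1, coeffMap_ev2] at hB
  refine ⟨g₀.map (IsLocalRing.residue A), Q₀.map (mapRingHom (IsLocalRing.residue A)), hg₀, ?_,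
    hB⟩
  refine lt_of_le_of_lt natDegree_map_le ?_
  have h1 : (Q₀.map (mapRingHom (algebraMap A K))).natDegree = Q₀.natDegree :=
    natDegree_map_eq_of_injective hminj _
  rw [hQ₀] at h1
  omega

/-- A series with a representation `g(jb) * y = Q(jb, ub)`, `g(jb) ≠ 0`, lies in `k(jb, ub)`. -/
theorem mem_adjoin_of_rep {k : Type*} [Field k] (jb ub y : LaurentSeries k)
    (g₀ : k[X]) (Q₀ : k[X][X]) (hg₀ : ev1 HahnSeries.C jb g₀ ≠ 0)
    (h : ev1 HahnSeries.C jb g₀ * y = ev2 HahnSeries.C jb ub Q₀) :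
    y ∈ IntermediateField.adjoin k {jb, ub} := by
  have hjb : jb ∈ IntermediateField.adjoin k {jb, ub} :=
    IntermediateField.subset_adjoin k _ (Set.mem_insert _ _)
  have hub : ub ∈ IntermediateField.adjoin k {jb, ub} :=
    IntermediateField.subset_adjoin k _ (Set.mem_insert_of_mem _ rfl)
  have h1 : ∀ p : k[X], ev1 HahnSeries.C jb p ∈ IntermediateField.adjoin k {jb, ub} := by
    intro p
    rw [ev1_apply, eval₂_eq_sum_range]
    refine sum_mem (fun i _ => mul_mem ?_ (pow_mem hjb i))
    rw [← algebraMap_eq_C]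
    exact algebraMap_mem _ _
  have h2 : ev2 HahnSeries.C jb ub Q₀ ∈ IntermediateField.adjoin k {jb, ub} := by
    rw [ev2_apply, eval₂_eq_sum_range]
    exact sum_mem (fun i _ => mul_mem (h1 _) (pow_mem hub i))
  have h3 : y = ev2 HahnSeries.C jb ub Q₀ / ev1 HahnSeries.C jb g₀ := by
    rw [eq_div_iff hg₀, mul_comm]
    exact h
  rw [h3]
  exact div_mem h2 (h1 _)

variable {K : Type*} [Field K]

/-- **HKappa, abstract form** (inputs in the `aeval` / `eval₂` shapes of `GenBar.exists_rep` and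
`KappaDeg.hmin`). -/
theorem main_of (A : ValuationSubring K) (u : LaurentSeries ℤ) (ψ : ℕ)
    (hjb : Transcendental (IsLocalRing.ResidueField A) (jqModC (IsLocalRing.ResidueField A)))
    (hmin : ∀ Q : (IsLocalRing.ResidueField A)[X][X], Q.natDegree < ψ →
      Q.eval₂ ((aeval (jqModC (IsLocalRing.ResidueField A)) :
          (IsLocalRing.ResidueField A)[X] →ₐ[IsLocalRing.ResidueField A]
            LaurentSeries (IsLocalRing.ResidueField A)) :
          (IsLocalRing.ResidueField A)[X] →+* LaurentSeries (IsLocalRing.ResidueField A))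
        (coeffMap (Int.castRingHom (IsLocalRing.ResidueField A)) u) = 0 → Q = 0)
    (Y : LaurentSeries A)
    (hrep : ∃ (g : K[X]) (Q : K[X][X]), g ≠ 0 ∧ Q.natDegree < ψ ∧
      aeval (jqModC K) g * coeffMap A.subtype Y
        = Q.eval₂ ((aeval (jqModC K) : K[X] →ₐ[K] LaurentSeries K) : K[X] →+* LaurentSeries K)
            (coeffMap (Int.castRingHom K) u)) :
    coeffMap (IsLocalRing.residue A) Y ∈
      IntermediateField.adjoin (IsLocalRing.ResidueField A)
        {jqModC (IsLocalRing.ResidueField A),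
          coeffMap (Int.castRingHom (IsLocalRing.ResidueField A)) u} := by
  obtain ⟨g, Q, hg, hQ, hrep⟩ := hrep
  have hj1 : coeffMap (algebraMap A K) (jqModC A) = jqModC K := ModularCurve.coeffMap_jqModC _
  have hj2 : coeffMap (IsLocalRing.residue A) (jqModC A) = jqModC (IsLocalRing.ResidueField A) :=
    ModularCurve.coeffMap_jqModC _
  have hu1 : coeffMap (algebraMap A K) (coeffMap (Int.castRingHom A) u)
      = coeffMap (Int.castRingHom K) u := coeffMap_intCast_comp _ u
  have hu2 : coeffMap (IsLocalRing.residue A) (coeffMap (Int.castRingHom A) u)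
      = coeffMap (Int.castRingHom (IsLocalRing.ResidueField A)) u := coeffMap_intCast_comp _ u
  obtain ⟨g₀, Q₀, hg₀, -, h⟩ := exists_rep_red (A := A) (jqModC A)
    (coeffMap (Int.castRingHom A) u) ψ
    (by
      intro G hG h0
      rw [hj2, hu2, ← eval₂_aeval_eq_ev2] at h0
      exact hmin G hG h0)
    Y g Q hg hQ
    (by
      rw [hj1, hu1, ← aeval_eq_ev1, ← eval₂_aeval_eq_ev2]
      exact hrep)
  rw [hj2, hu2] at h
  refine mem_adjoin_of_rep _ _ _ g₀ Q₀ ?_ h
  rw [← aeval_eq_ev1]
  intro h0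
  exact hg₀ (transcendental_iff.mp hjb _ h0)

/-- **HKappa**: the coefficientwise reduction of an integral series of the function field `F_L`
lies in `k(jb, ub_L)`. -/
theorem main {ℓ L : ℕ} [NeZero L] (hℓ : ℓ.Prime) (hℓL : ¬ ℓ ∣ L)
    (A : ValuationSubring (AlgebraicClosure ℚ)) (hA : A.LiesOverPrime ℓ) :
    ∀ Y : LaurentSeries A, genS A Y ∈ modularFunctionFieldBar L →
      redS A Y ∈ IntermediateField.adjoin (IsLocalRing.ResidueField A)
        {jqModC (IsLocalRing.ResidueField A),
          coeffMap (Int.castRingHom (IsLocalRing.ResidueField A))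
            (Fermat.Agent.S28.FormalU.uZ L)} := by
  intro Y hY
  have hchar : CharP (IsLocalRing.ResidueField A) ℓ := ResField.charP A hℓ hA
  exact main_of A (Fermat.Agent.S28.FormalU.uZ L) (dedekindPsi L)
    (SepDelta.transcendental_jqModC _)
    (fun Q hQ h0 => KappaDeg.hmin (k := IsLocalRing.ResidueField A) hℓ L hℓL Q hQ h0) Y
    (GenBar.exists_rep L (genS A Y) hY)

/-- The same, with a representation of the reduction: `g₀(jb) * redS Y = Q₀(jb, ub)` with
`g₀ ≠ 0` and `deg_X Q₀ < ψ(L)`. -/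
theorem exists_rep_redS {ℓ L : ℕ} [NeZero L] (hℓ : ℓ.Prime) (hℓL : ¬ ℓ ∣ L)
    (A : ValuationSubring (AlgebraicClosure ℚ)) (hA : A.LiesOverPrime ℓ)
    (Y : LaurentSeries A) (hY : genS A Y ∈ modularFunctionFieldBar L) :
    ∃ (g₀ : (IsLocalRing.ResidueField A)[X]) (Q₀ : (IsLocalRing.ResidueField A)[X][X]),
      g₀ ≠ 0 ∧ Q₀.natDegree < dedekindPsi L ∧
      aeval (jqModC (IsLocalRing.ResidueField A)) g₀ * redS A Y
        = Q₀.eval₂ ((aeval (jqModC (IsLocalRing.ResidueField A)) :
            (IsLocalRing.ResidueField A)[X] →ₐ[IsLocalRing.ResidueField A]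
              LaurentSeries (IsLocalRing.ResidueField A)) :
            (IsLocalRing.ResidueField A)[X] →+* LaurentSeries (IsLocalRing.ResidueField A))
          (coeffMap (Int.castRingHom (IsLocalRing.ResidueField A))
            (Fermat.Agent.S28.FormalU.uZ L)) := by
  have hchar : CharP (IsLocalRing.ResidueField A) ℓ := ResField.charP A hℓ hA
  obtain ⟨g, Q, hg, hQ, hrep⟩ := GenBar.exists_rep L (genS A Y) hY
  have hj1 : coeffMap (algebraMap A (AlgebraicClosure ℚ)) (jqModC A)
      = jqModC (AlgebraicClosure ℚ) := ModularCurve.coeffMap_jqModC _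
  have hj2 : coeffMap (IsLocalRing.residue A) (jqModC A)
      = jqModC (IsLocalRing.ResidueField A) := ModularCurve.coeffMap_jqModC _
  have hu1 : coeffMap (algebraMap A (AlgebraicClosure ℚ))
      (coeffMap (Int.castRingHom A) (Fermat.Agent.S28.FormalU.uZ L))
      = coeffMap (Int.castRingHom (AlgebraicClosure ℚ)) (Fermat.Agent.S28.FormalU.uZ L) :=
    coeffMap_intCast_comp _ _
  have hu2 : coeffMap (IsLocalRing.residue A)
      (coeffMap (Int.castRingHom A) (Fermat.Agent.S28.FormalU.uZ L))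
      = coeffMap (Int.castRingHom (IsLocalRing.ResidueField A))
          (Fermat.Agent.S28.FormalU.uZ L) := coeffMap_intCast_comp _ _
  obtain ⟨g₀, Q₀, hg₀, hQ₀, h⟩ := exists_rep_red (A := A) (jqModC A)
    (coeffMap (Int.castRingHom A) (Fermat.Agent.S28.FormalU.uZ L)) (dedekindPsi L)
    (by
      intro G hG h0
      rw [hj2, hu2, ← eval₂_aeval_eq_ev2] at h0
      exact KappaDeg.hmin (k := IsLocalRing.ResidueField A) hℓ L hℓL G hG h0)
    Y g Q hg hQ
    (by
      rw [hj1, hu1, ← aeval_eq_ev1, ← eval₂_aeval_eq_ev2]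
      exact hrep)
  rw [hj2, hu2, ← aeval_eq_ev1, ← eval₂_aeval_eq_ev2] at h
  exact ⟨g₀, Q₀, hg₀, hQ₀, h⟩

end Fermat.Agent.S18.HKappa

end
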