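import Mathlib

/-!
# S18 / AL: an abstract lemma on injective maps of finite free modules over a valuation ring

`Φ : M₁ → M₂` injective, `M₁`, `M₂` finite free over a valuation ring `A` with maximal ideal `𝔪`,
and the kernel of `Φ mod 𝔪` is the line spanned by the class of `e₀`.  Then there are `e ≡ e₀`,
`β ∈ 𝔪 \ {0}` and `f` with `Φ e = β f` and `f ∉ Φ(M₁) + 𝔪 M₂`.
-/

set_option autoImplicit false

namespace Fermat.Agent.S18.AL

open TensorProduct

section General

variable {R : Type*} [CommRing R] {M N : Type*} [AddCommGroup M] [Module R M]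
  [AddCommGroup N] [Module R N]

/-- coordinates of an element of `I M` lie in `I`. -/
theorem repr_mem_of_mem_smul_top {ι : Type*} (b : Module.Basis ι R M) (I : Ideal R) {x : M}
    (hx : x ∈ I • (⊤ : Submodule R M)) (i : ι) : b.repr x i ∈ I := by
  refine Submodule.smul_induction_on hx (fun r hr n _ => ?_) (fun x y hx hy => ?_)
  · rw [map_smul, Finsupp.smul_apply, smul_eq_mul]
    exact I.mul_mem_right _ hr
  · rw [map_add, Finsupp.add_apply]
    exact I.add_mem hx hy

/-- an element all of whose coordinates lie in `I` is in `I M`. -/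
theorem mem_smul_top_of_repr_mem {ι : Type*} [Fintype ι] (b : Module.Basis ι R M) (I : Ideal R)
    {x : M} (hx : ∀ i, b.repr x i ∈ I) : x ∈ I • (⊤ : Submodule R M) := by
  rw [← b.sum_repr x]
  exact Submodule.sum_mem _ fun i _ => Submodule.smul_mem_smul (hx i) Submodule.mem_top

/-- linear maps send `I M` into `I N`. -/
theorem map_mem_smul_top (g : M →ₗ[R] N) (I : Ideal R) {x : M}
    (hx : x ∈ I • (⊤ : Submodule R M)) : g x ∈ I • (⊤ : Submodule R N) := by
  refine Submodule.smul_induction_on hx (fun r hr n _ => ?_) (fun x y hx hy => ?_)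
  · rw [map_smul]
    exact Submodule.smul_mem_smul hr Submodule.mem_top
  · rw [map_add]
    exact Submodule.add_mem _ hx hy

/-- linear functionals send `I M` into `I`. -/
theorem map_mem_of_mem_smul_top (g : M →ₗ[R] R) (I : Ideal R) {x : M}
    (hx : x ∈ I • (⊤ : Submodule R M)) : g x ∈ I := by
  refine Submodule.smul_induction_on hx (fun r hr n _ => ?_) (fun x y hx hy => ?_)
  · rw [map_smul, smul_eq_mul]
    exact I.mul_mem_right _ hr
  · rw [map_add]
    exact I.add_mem hx hy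

/-- `1 ⊗ y = 0` in `(R ⧸ I) ⊗ M` iff `y ∈ I M`. -/
theorem one_tmul_eq_zero_iff (I : Ideal R) (y : M) :
    (1 : R ⧸ I) ⊗ₜ[R] y = 0 ↔ y ∈ I • (⊤ : Submodule R M) := by
  rw [← (TensorProduct.quotTensorEquivQuotSMul M I).map_eq_zero_iff,
    TensorProduct.quotTensorEquivQuotSMul_mk_one_tmul, Submodule.Quotient.mk_eq_zero]

/-- every element of `(R ⧸ I) ⊗ M` is of the form `1 ⊗ x`. -/
theorem exists_one_tmul (I : Ideal R) (z : (R ⧸ I) ⊗[R] M) :
    ∃ x : M, (1 : R ⧸ I) ⊗ₜ[R] x = z := by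
  obtain ⟨x, hx⟩ := Submodule.Quotient.mk_surjective _ (TensorProduct.quotTensorEquivQuotSMul M I z)
  refine ⟨x, ?_⟩
  rw [← TensorProduct.quotTensorEquivQuotSMul_symm_mk, hx, LinearEquiv.symm_apply_apply]

end General

section Valuation

variable {A : Type*} [CommRing A] [IsDomain A] [ValuationRing A]

/-- in a valuation ring, a finite nonempty family has a member dividing all the others. -/
theorem exists_dvd_all {ι : Type*} (s : Finset ι) (hs : s.Nonempty) (γ : ι → A) :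
    ∃ j₀ ∈ s, ∀ j ∈ s, γ j₀ ∣ γ j := by
  induction hs using Finset.Nonempty.cons_induction with
  | singleton a => exact ⟨a, Finset.mem_singleton_self a, fun j hj => by
      rw [Finset.mem_singleton] at hj; rw [hj]⟩
  | cons a s ha hs ih =>
    obtain ⟨j₀, hj₀, h⟩ := ih
    rcases ValuationRing.dvd_total (γ a) (γ j₀) with h1 | h1
    · refine ⟨a, Finset.mem_cons_self a s, fun j hj => ?_⟩
      rw [Finset.mem_cons] at hj
      rcases hj with rfl | hj
      · exact dvd_rfl
      · exact h1.trans (h j hj)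
    · refine ⟨j₀, Finset.mem_cons.mpr (Or.inr hj₀), fun j hj => ?_⟩
      rw [Finset.mem_cons] at hj
      rcases hj with rfl | hj
      · exact h1
      · exact h j hj

variable {M : Type*} [AddCommGroup M] [Module A M] [Module.Free A M] [Module.Finite A M]

/-- a nonzero element of `𝔪 M` is `β f` with `β ∈ 𝔪 \ {0}` and `f ∉ 𝔪 M`. -/
theorem exists_primitive {c : M} (hc : c ∈ IsLocalRing.maximalIdeal A • (⊤ : Submodule A M))
    (hc0 : c ≠ 0) :
    ∃ (β : A) (f : M), β ∈ IsLocalRing.maximalIdeal A ∧ β ≠ 0 ∧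
      f ∉ IsLocalRing.maximalIdeal A • (⊤ : Submodule A M) ∧ c = β • f := by
  classical
  let b := Module.Free.chooseBasis A M
  have hne : (Finset.univ : Finset (Module.Free.ChooseBasisIndex A M)).Nonempty := by
    rw [Finset.univ_nonempty_iff]
    by_contra hemp
    rw [not_nonempty_iff] at hemp
    apply hc0
    rw [← b.sum_repr c]
    exact Finset.sum_eq_zero fun i _ => (hemp.false i).elim
  obtain ⟨j₀, -, hj₀⟩ := exists_dvd_all Finset.univ hne (fun j => b.repr c j)
  have hβ0 : b.repr c j₀ ≠ 0 := by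
    intro h0
    apply hc0
    rw [← b.sum_repr c]
    refine Finset.sum_eq_zero fun i _ => ?_
    have := hj₀ i (Finset.mem_univ i)
    rw [h0, zero_dvd_iff] at this
    rw [this, zero_smul]
  choose δ hδ using fun j => hj₀ j (Finset.mem_univ j)
  have hδ0 : δ j₀ = 1 := by
    have h := hδ j₀
    have h' : b.repr c j₀ * 1 = b.repr c j₀ * δ j₀ := by rw [mul_one]; exact h
    exact (mul_left_cancel₀ hβ0 h').symm
  refine ⟨b.repr c j₀, ∑ j, δ j • b j, repr_mem_of_mem_smul_top b _ hc j₀, hβ0, ?_, ?_⟩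
  · intro hf
    have h1 := repr_mem_of_mem_smul_top b _ hf j₀
    rw [map_sum] at h1
    simp only [map_smul, Module.Basis.repr_self, Finsupp.coe_finsetSum, Finsupp.coe_smul,
      Finset.sum_apply, Pi.smul_apply, Finsupp.single_apply, smul_eq_mul, mul_ite, mul_one,
      mul_zero, Finset.sum_ite_eq', Finset.mem_univ, if_true] at h1
    rw [hδ0] at h1
    exact (IsLocalRing.maximalIdeal.isMaximal A).ne_top ((Ideal.eq_top_iff_one _).mpr h1)
  · rw [Finset.smul_sum]
    conv_lhs => rw [← b.sum_repr c]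
    refine Finset.sum_congr rfl fun j _ => ?_
    rw [smul_smul, ← hδ j]

end Valuation

section Main

variable {A : Type*} [CommRing A] [IsDomain A] [ValuationRing A]
variable {M₁ M₂ : Type*} [AddCommGroup M₁] [Module A M₁] [Module.Free A M₁] [Module.Finite A M₁]
  [AddCommGroup M₂] [Module A M₂] [Module.Free A M₂] [Module.Finite A M₂]

/-- **AL.** -/
theorem main (Φ : M₁ →ₗ[A] M₂) (hΦ : Function.Injective Φ) (e₀ : M₁)
    (he₀ : e₀ ∉ IsLocalRing.maximalIdeal A • (⊤ : Submodule A M₁))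
    (hΦe₀ : Φ e₀ ∈ IsLocalRing.maximalIdeal A • (⊤ : Submodule A M₂))
    (hker : ∀ x : M₁, Φ x ∈ IsLocalRing.maximalIdeal A • (⊤ : Submodule A M₂) →
      ∃ a : A, x - a • e₀ ∈ IsLocalRing.maximalIdeal A • (⊤ : Submodule A M₁)) :
    ∃ (e : M₁) (β : A) (f : M₂),
      e - e₀ ∈ IsLocalRing.maximalIdeal A • (⊤ : Submodule A M₁) ∧
      β ∈ IsLocalRing.maximalIdeal A ∧ β ≠ 0 ∧ Φ e = β • f ∧
      ∀ x : M₁, f - Φ x ∉ IsLocalRing.maximalIdeal A • (⊤ : Submodule A M₂) := by
  classical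
  set 𝔪 := IsLocalRing.maximalIdeal A with h𝔪
  -- a functional with `φ e₀ = 1`
  obtain ⟨φ, hφ⟩ : ∃ φ : M₁ →ₗ[A] A, φ e₀ = 1 := by
    let b := Module.Free.chooseBasis A M₁
    obtain ⟨i₀, hi₀⟩ : ∃ i₀, b.repr e₀ i₀ ∉ 𝔪 := by
      by_contra hcon
      push Not at hcon
      exact he₀ (mem_smul_top_of_repr_mem b 𝔪 hcon)
    have hu : IsUnit (b.repr e₀ i₀) := IsLocalRing.notMem_maximalIdeal.mp hi₀
    obtain ⟨u, hu⟩ := hu
    refine ⟨(↑u⁻¹ : A) • b.coord i₀, ?_⟩
    rw [LinearMap.smul_apply, Module.Basis.coord_apply, ← hu, smul_eq_mul, Units.inv_mul]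
  -- the augmented map is injective mod `𝔪`
  have hinj : Function.Injective ((Φ.prod φ).lTensor (A ⧸ 𝔪)) := by
    rw [injective_iff_map_eq_zero]
    intro z hz
    obtain ⟨x, rfl⟩ := exists_one_tmul 𝔪 z
    rw [LinearMap.lTensor_tmul, one_tmul_eq_zero_iff] at hz
    rw [one_tmul_eq_zero_iff]
    have h1 : Φ x ∈ 𝔪 • (⊤ : Submodule A M₂) := map_mem_smul_top (LinearMap.fst A M₂ A) 𝔪 hz
    have h2 : φ x ∈ 𝔪 := map_mem_of_mem_smul_top (LinearMap.snd A M₂ A) 𝔪 hz
    obtain ⟨a, ha⟩ := hker x h1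
    have h3 : φ (x - a • e₀) ∈ 𝔪 := map_mem_of_mem_smul_top φ 𝔪 ha
    rw [map_sub, map_smul, hφ, smul_eq_mul, mul_one] at h3
    have ha' : a ∈ 𝔪 := by
      have := 𝔪.sub_mem h2 h3
      rwa [sub_sub_cancel] at this
    have h4 : a • e₀ ∈ 𝔪 • (⊤ : Submodule A M₁) := Submodule.smul_mem_smul ha' Submodule.mem_top
    have := Submodule.add_mem _ ha h4
    rwa [sub_add_cancel] at this
  obtain ⟨L, hL⟩ := (IsLocalRing.split_injective_iff_lTensor_residueField_injective
    (Φ.prod φ)).mpr hinj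
  have hL' : ∀ x, L (Φ x, φ x) = x := fun x => LinearMap.congr_fun hL x
  set L₁ : M₂ →ₗ[A] M₁ := L ∘ₗ LinearMap.inl A M₂ A with hL₁
  set w : M₁ := L (0, 1) with hw
  have star : ∀ x, L₁ (Φ x) + φ x • w = x := by
    intro x
    have h := hL' x
    have h2 : ((Φ x, φ x) : M₂ × A) = LinearMap.inl A M₂ A (Φ x) + φ x • ((0, 1) : M₂ × A) := by
      simp
    rw [h2, map_add, map_smul] at h
    exact h
  -- `w ≡ e₀`
  have hw0 : w - e₀ ∈ 𝔪 • (⊤ : Submodule A M₁) := by
    have h := star e₀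
    rw [hφ, one_smul] at h
    have h2 : w - e₀ = - L₁ (Φ e₀) := by
      calc w - e₀ = w - (L₁ (Φ e₀) + w) := by rw [h]
        _ = - L₁ (Φ e₀) := by abel
    rw [h2]
    exact Submodule.neg_mem _ (map_mem_smul_top L₁ 𝔪 hΦe₀)
  have hc : Φ w ∈ 𝔪 • (⊤ : Submodule A M₂) := by
    have h2 : Φ w = Φ e₀ + Φ (w - e₀) := by rw [map_sub]; abel
    rw [h2]
    exact Submodule.add_mem _ hΦe₀ (map_mem_smul_top Φ 𝔪 hw0)
  have hc0 : Φ w ≠ 0 := by
    intro h0
    have hw' : w = 0 := hΦ (by rw [h0, map_zero])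
    rw [hw', zero_sub] at hw0
    exact he₀ (by simpa using Submodule.neg_mem _ hw0)
  obtain ⟨β, f, hβ, hβ0, hf, hcf⟩ := exists_primitive hc hc0
  refine ⟨w, β, f, hw0, hβ, hβ0, hcf, ?_⟩
  intro x hx
  apply hf
  set μ : M₂ := f - Φ x with hμ
  -- `1 - φ w ∈ 𝔪`
  have hs : 1 - φ w ∈ 𝔪 := by
    have h := map_mem_of_mem_smul_top φ 𝔪 hw0
    rw [map_sub, hφ] at h
    have := 𝔪.neg_mem h
    rwa [neg_sub] at this
  have h1 : L₁ (Φ w) = (1 - φ w) • w := by
    have h := star w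
    rw [sub_smul, one_smul]
    exact eq_sub_of_add_eq h
  have h2 : L₁ f = x - φ x • w + L₁ μ := by
    have h := star x
    have hf' : f = μ + Φ x := by rw [hμ]; abel
    rw [hf', map_add, eq_sub_of_add_eq h]
    abel
  -- apply `Φ` to `β • L₁ f = (1 - φ w) • w`
  have h3 : β • (Φ x - (φ x * β) • f + Φ (L₁ μ)) = β • ((1 - φ w) • f) := by
    have h4 : β • L₁ f = (1 - φ w) • w := by rw [← map_smul, ← hcf, h1]
    have h5 := congrArg Φ h4
    rw [h2, map_smul, map_smul, map_add, map_sub, map_smul, hcf] at h5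
    rw [smul_comm β (1 - φ w) f, ← h5, mul_smul]
  have hinjβ : Function.Injective (fun y : M₂ => β • y) := smul_right_injective M₂ hβ0
  have h6 : Φ x - (φ x * β) • f + Φ (L₁ μ) = (1 - φ w) • f := hinjβ h3
  have h7 : Φ x = (1 - φ w) • f + (φ x * β) • f - Φ (L₁ μ) := by
    rw [← h6]; abel
  have h8 : Φ x ∈ 𝔪 • (⊤ : Submodule A M₂) := by
    rw [h7]
    refine Submodule.sub_mem _ (Submodule.add_mem _ (Submodule.smul_mem_smul hs Submodule.mem_top)
      (Submodule.smul_mem_smul (𝔪.mul_mem_left _ hβ) Submodule.mem_top)) ?_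
    exact map_mem_smul_top Φ 𝔪 (map_mem_smul_top L₁ 𝔪 hx)
  have h9 : f = μ + Φ x := by rw [hμ]; abel
  rw [h9]
  exact Submodule.add_mem _ hx h8

end Main

end Fermat.Agent.S18.AL

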