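import Mathlib
import Fermat.Agent.S18.CoreHint
import Fermat.Agent.S18.SemiLvl
import Fermat.Agent.S18.GenusWire
import Fermat.Agent.S18.KappaDeg
import Fermat.Agent.S18.GenBar
import Fermat.Agent.S18.Bridge

/-!
# S18 / CoreM: the Kummer statement at the working level `M = lcm(M0 ℓ, N)`

`CoreM.kummer_of`: from Gauss reduction layers (any relation `Red` with `RedFacts` and the
Bridge-shaped `hint`) at the levels `M0 ℓ` and `M = levelM ℓ N`, the inclusion
`κ_{M0} ≤ κ_M` of the literal residue fields `κ_L = k(j̄, ū_L)` and the two cusp counts, the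
Kummer statement `KummerStmt ℓ A M` holds.  All other inputs (degrees, `u_L ∈ F_L`, places and
Riemann's theorem on both sides, the genus inequality, the chart data, the two-chart core and
the bridge) are discharged from files on main.
-/

set_option autoImplicit false
set_option synthInstance.maxHeartbeats 400000

noncomputable section

namespace Fermat.Agent.S18.CoreM

open AlgebraicCurve ModularCurve Fermat.Agent.RR
open scoped IntermediateField

/-- The literal residue function field `k(j̄, ū_L)` at level `L`. -/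
abbrev kap (k : Type*) [Field k] (L : ℕ) : IntermediateField k (LaurentSeries k) :=
  IntermediateField.adjoin k
    ({jqModC k, coeffMap (Int.castRingHom k) (Fermat.Agent.S28.FormalU.uZ L)} :
      Set (LaurentSeries k))

/-- `j̄` as an element of `kap k L`. -/
abbrev jk (k : Type*) [Field k] (L : ℕ) : kap k L :=
  ⟨jqModC k, IntermediateField.subset_adjoin _ _ (Set.mem_insert _ _)⟩

/-- The Bridge-shaped reduction of integral series, for a relation `Red` at level `L`. -/
def Hint (A : ValuationSubring (AlgebraicClosure ℚ)) (L : ℕ)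
    (Red : modularFunctionFieldBar L → kap (IsLocalRing.ResidueField A) L → Prop) : Prop :=
  ∀ (V : LaurentSeries A) (hV : genS A V ∈ modularFunctionFieldBar L),
    ∃ hx : redS A V ∈ kap (IsLocalRing.ResidueField A) L, Red ⟨genS A V, hV⟩ ⟨redS A V, hx⟩

/-- **The Kummer statement at level `M = levelM ℓ N`** from Gauss layers at the levels `M0 ℓ`
and `M`, the tower `κ_{M0} ≤ κ_M` and the two cusp counts. -/
theorem kummer_of {ℓ N : ℕ} [NeZero N] (hℓ : ℓ.Prime) (hℓN : ¬ ℓ ∣ N)
    (A : ValuationSubring (AlgebraicClosure ℚ)) (hA : A.LiesOverPrime ℓ)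
    (Red0 : modularFunctionFieldBar (LevelNum.M0 ℓ) →
      kap (IsLocalRing.ResidueField A) (LevelNum.M0 ℓ) → Prop)
    (hR0 : RedFacts A Red0) (hint0 : Hint A (LevelNum.M0 ℓ) Red0)
    (Red : modularFunctionFieldBar (LevelNum.levelM ℓ N) →
      kap (IsLocalRing.ResidueField A) (LevelNum.levelM ℓ N) → Prop)
    (hR : RedFacts A Red) (hint : Hint A (LevelNum.levelM ℓ N) Red)
    (hle : kap (IsLocalRing.ResidueField A) (LevelNum.M0 ℓ)
      ≤ kap (IsLocalRing.ResidueField A) (LevelNum.levelM ℓ N))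
    (hc0 : Nat.card {v : Place (IsLocalRing.ResidueField A)
          (kap (IsLocalRing.ResidueField A) (LevelNum.M0 ℓ)) //
        v.ord (jk (IsLocalRing.ResidueField A) (LevelNum.M0 ℓ)) < 0}
      = cuspCount (LevelNum.M0 ℓ))
    (hc : Nat.card {w : Place (IsLocalRing.ResidueField A)
          (kap (IsLocalRing.ResidueField A) (LevelNum.levelM ℓ N)) //
        w.ord (jk (IsLocalRing.ResidueField A) (LevelNum.levelM ℓ N)) < 0}
      = cuspCount (LevelNum.levelM ℓ N)) :
    KummerStmt ℓ A (LevelNum.levelM ℓ N) := by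
  have hchar : CharP (IsLocalRing.ResidueField A) ℓ := ResField.charP A hℓ hA
  have hℓM0 : ¬ ℓ ∣ LevelNum.M0 ℓ := LevelNum.not_dvd_M0 hℓ
  have hℓM : ¬ ℓ ∣ LevelNum.levelM ℓ N := LevelNum.not_dvd_levelM hℓ hℓN
  have hfd0 := KappaDeg.finiteDimensional (k := IsLocalRing.ResidueField A) hℓ (LevelNum.M0 ℓ)
    hℓM0 (jk (IsLocalRing.ResidueField A) (LevelNum.M0 ℓ)) rfl
  have hfr0 := KappaDeg.finrank_eq (k := IsLocalRing.ResidueField A) hℓ (LevelNum.M0 ℓ)
    hℓM0 (jk (IsLocalRing.ResidueField A) (LevelNum.M0 ℓ)) rfl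
  have hfd := KappaDeg.finiteDimensional (k := IsLocalRing.ResidueField A) hℓ
    (LevelNum.levelM ℓ N) hℓM (jk (IsLocalRing.ResidueField A) (LevelNum.levelM ℓ N)) rfl
  have hfr := KappaDeg.finrank_eq (k := IsLocalRing.ResidueField A) hℓ
    (LevelNum.levelM ℓ N) hℓM (jk (IsLocalRing.ResidueField A) (LevelNum.levelM ℓ N)) rfl
  have huK0 := GenBar.uK_mem (LevelNum.M0 ℓ)
  have huK := GenBar.uK_mem (LevelNum.levelM ℓ N)
  obtain ⟨hj0, hsurj0⟩ := SemiLvl.hj_hsurj_of_hint A (LevelNum.M0 ℓ) Red0 hR0 hint0 huK0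
  have hg := GenusWire.genus_ge_of ℓ A (LevelNum.M0_dvd_levelM ℓ N)
    (kap (IsLocalRing.ResidueField A) (LevelNum.M0 ℓ))
    (kap (IsLocalRing.ResidueField A) (LevelNum.levelM ℓ N)) hle
    (jk (IsLocalRing.ResidueField A) (LevelNum.M0 ℓ)) rfl
    (jk (IsLocalRing.ResidueField A) (LevelNum.levelM ℓ N)) rfl
    hfd0 hfr0 hfd hfr Red0 hR0 hj0 hsurj0 hc0 hc
  have hcore : CoreStmt A Red :=
    CoreHint.of_hint A (LevelNum.levelM ℓ N) Red hR hint huK hfd hfr hg
  exact Bridge.main hℓ A hA _ Red hR hint hcore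

end Fermat.Agent.S18.CoreM

end
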