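import Mathlib
import Fermat.Agent.S18.CuspsModL
import Fermat.Agent.S18.KappaDeg
import Fermat.Agent.S18.SepPF

/-!
# S18, package (D): the cusp count modulo `ℓ`, hypothesis-free

`CuspsModL.card_poles` with `PlaceFacts` (from `SepPF`) and the degree `[κ : k(j̄)] = ψ(L)` (from
`KappaDeg`) discharged: for `ℓ ∤ L` and every presentation `κ = k(j̄, ū_L)`, the function `j̄` has
exactly `cuspCount L` poles on `κ`.
-/

set_option autoImplicit false
set_option synthInstance.maxHeartbeats 400000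

namespace Fermat.Agent.S18.CuspsClosed

open ModularCurve AlgebraicCurve
open Fermat.Agent.S28
open scoped IntermediateField

variable (A : ValuationSubring (AlgebraicClosure ℚ))

local notation3 "𝕜" => IsLocalRing.ResidueField A

/-- **Cusps modulo `ℓ`, closed form.** -/
theorem card_poles_and_dvd {ℓ : ℕ} (hℓ : ℓ.Prime) (L : ℕ) [NeZero L] (hℓL : ¬ ℓ ∣ L)
    (hA : A.LiesOverPrime ℓ) (κ : IntermediateField 𝕜 (LaurentSeries 𝕜))
    (hκ : κ = IntermediateField.adjoin 𝕜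
      {jqModC 𝕜, coeffMap (Int.castRingHom 𝕜) (FormalU.uZ L)})
    (jk : κ) (hjk : (jk : LaurentSeries 𝕜) = jqModC 𝕜) :
    Nat.card {v : Place 𝕜 κ // v.ord jk < 0} = ModularCurve.cuspCount L ∧
      ∀ v : Place 𝕜 κ, v.ord jk < 0 → v.ord jk ∣ (L : ℤ) := by
  have := ResField.isAlgClosed A
  have := ResField.charP A hℓ hA
  subst hκ
  have hfd := KappaDeg.finiteDimensional (k := 𝕜) hℓ L hℓL jk hjk
  have hP := SepPF.placeFacts_of_finite _ jk hjk
  exact CuspsModL.card_poles_and_dvd A hℓ L hℓL hA _ rfl jk hjk hP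
    (KappaDeg.finrank_eq (k := 𝕜) hℓ L hℓL jk hjk)

/-- For `ℓ ∤ L`, the function `j̄` has exactly `cuspCount L` poles on `κ = k(j̄, ū_L)`. -/
theorem card_poles {ℓ : ℕ} (hℓ : ℓ.Prime) (L : ℕ) [NeZero L] (hℓL : ¬ ℓ ∣ L)
    (hA : A.LiesOverPrime ℓ) (κ : IntermediateField 𝕜 (LaurentSeries 𝕜))
    (hκ : κ = IntermediateField.adjoin 𝕜
      {jqModC 𝕜, coeffMap (Int.castRingHom 𝕜) (FormalU.uZ L)})
    (jk : κ) (hjk : (jk : LaurentSeries 𝕜) = jqModC 𝕜) :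
    Nat.card {v : Place 𝕜 κ // v.ord jk < 0} = ModularCurve.cuspCount L :=
  (card_poles_and_dvd A hℓ L hℓL hA κ hκ jk hjk).1

/-- For `ℓ ∤ L`, the pole orders of `j̄` on `κ = k(j̄, ū_L)` divide `L`. -/
theorem ord_dvd {ℓ : ℕ} (hℓ : ℓ.Prime) (L : ℕ) [NeZero L] (hℓL : ¬ ℓ ∣ L)
    (hA : A.LiesOverPrime ℓ) (κ : IntermediateField 𝕜 (LaurentSeries 𝕜))
    (hκ : κ = IntermediateField.adjoin 𝕜
      {jqModC 𝕜, coeffMap (Int.castRingHom 𝕜) (FormalU.uZ L)})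
    (jk : κ) (hjk : (jk : LaurentSeries 𝕜) = jqModC 𝕜) (v : Place 𝕜 κ) (hv : v.ord jk < 0) :
    v.ord jk ∣ (L : ℤ) :=
  (card_poles_and_dvd A hℓ L hℓL hA κ hκ jk hjk).2 v hv

end Fermat.Agent.S18.CuspsClosed
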