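/-
S18, package `Extract` (owner: helper7): the ONLY use of the hypothesis
`h : ReductionInputsModL A N`.  Reduction to prime order `d ≠ ℓ` and normalisation:
the statement S18 at level `N` (`MainStmt ℓ A N`) follows from the Kummer statement at level `N`
(`KummerStmt ℓ A N` of `S18/Defs`: a quotient `V₁ / V₂` of two integral series with the same
nonzero reduction whose divisor is divisible by `d` is a `d`-th power) and from the constants
statement `ConstStmt A N` ("a function on the special fibre without zeros and poles is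
constant").  Main result: `Extract.main`.

Proof: `z = [D]` of prime order `d`, so `d • D` is principal, hence (hypothesis
`PrincipalGeneratedByIntegral`) `d • D = div a - div b` for integral series `a, b`; the reduction
axiom and `red z = 0` give `ā / b̄ = c̄ ḡ₀ ^ d`; lifting `ḡ₀ = Ḡ₁ / Ḡ₂` and `c̄ = γ̄`, the series
`U₁ = a G₂ ^ d`, `U₂ = γ b G₁ ^ d` have the same reduction and `div (U₁ / U₂) = d • (D - div
(G₁ / G₂))`; the Kummer statement gives `U₁ / U₂ = w ^ d`, so `D = div (w G₁ / G₂)`.
-/
import Mathlib
import Fermat.Prelude.Def_ModularCurve_ReductionModL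
import Fermat.Agent.S18.Defs

set_option autoImplicit false
set_option synthInstance.maxHeartbeats 400000
set_option linter.unusedSectionVars false

open ModularCurve AlgebraicCurve

namespace Fermat.Agent.S18.Extract

noncomputable section

/-! ### Elementary facts about `Place.ord` -/

section Ord

variable {K F : Type*} [Field K] [Field F] [Algebra K F]

theorem ord_const (v : Place K F) (c : K) : v.ord (algebraMap K F c) = 0 := by
  rcases eq_or_ne c 0 with rfl | hc
  · simp
  · have hu : IsUnit (algebraMap K v.toValuationSubring c) := (IsUnit.mk0 c hc).map _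
    have h := v.ord_coe_unit hu.unit
    rwa [IsUnit.unit_spec, v.coe_algebraMap] at h

theorem ord_npow (v : Place K F) (f : F) (n : ℕ) : v.ord (f ^ n) = n * v.ord f := by
  have := v.ord_zpow f (n : ℤ)
  rwa [zpow_natCast] at this

theorem ord_quot (v : Place K F) {f g : F} (hf : f ≠ 0) (hg : g ≠ 0) :
    v.ord (f / g) = v.ord f - v.ord g := by
  rw [div_eq_mul_inv, v.ord_mul hf (inv_ne_zero hg), v.ord_inv, sub_eq_add_neg]

end Ord

/-! ### Integral series -/

section IntSer

variable (N : ℕ) [NeZero N] (A : ValuationSubring (AlgebraicClosure ℚ))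

/-- An integral series: a Laurent series over `A` which is a modular function of level `N`,
whose coefficientwise reduction is a nonzero element of the function field of the special
fibre. -/
structure IntSer where
  y : LaurentSeries A
  mem : coeffMap A.subtype y ∈ modularFunctionFieldBar N
  memk : coeffMap (IsLocalRing.residue A) y ∈
    modularFunctionFieldFullC (IsLocalRing.ResidueField A) N
  ne : coeffMap (IsLocalRing.residue A) y ≠ 0

variable {N A}

theorem coeffMap_subtype_injective : Function.Injective (coeffMap A.subtype) := by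
  intro x y h
  ext k
  have h1 := congrArg (fun s : LaurentSeries (AlgebraicClosure ℚ) => s.coeff k) h
  simp only [coeffMap_coeff] at h1
  exact h1

namespace IntSer

/-- The series as an element of the characteristic zero function field. -/
def up (s : IntSer N A) : modularFunctionFieldBar N := ⟨coeffMap A.subtype s.y, s.mem⟩

/-- The reduction as an element of the function field of the special fibre. -/
def down (s : IntSer N A) : modularFunctionFieldFullC (IsLocalRing.ResidueField A) N :=
  ⟨coeffMap (IsLocalRing.residue A) s.y, s.memk⟩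

theorem down_ne_zero (s : IntSer N A) : s.down ≠ 0 := fun h =>
  s.ne (congrArg Subtype.val h)

theorem y_ne_zero (s : IntSer N A) : s.y ≠ 0 := fun h => s.ne (by rw [h, map_zero])

theorem up_ne_zero (s : IntSer N A) : s.up ≠ 0 := fun h => by
  apply s.y_ne_zero
  apply coeffMap_subtype_injective
  rw [map_zero]
  exact congrArg Subtype.val h

/-- The constant series `1`. -/
def one : IntSer N A where
  y := 1
  mem := by rw [map_one]; exact one_mem _
  memk := by rw [map_one]; exact one_mem _
  ne := by rw [map_one]; exact one_ne_zero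

/-- The product of two integral series. -/
def mul (s t : IntSer N A) : IntSer N A where
  y := s.y * t.y
  mem := by rw [map_mul]; exact mul_mem s.mem t.mem
  memk := by rw [map_mul]; exact mul_mem s.memk t.memk
  ne := by rw [map_mul]; exact mul_ne_zero s.ne t.ne

/-- A power of an integral series. -/
def pow (s : IntSer N A) (n : ℕ) : IntSer N A where
  y := s.y ^ n
  mem := by rw [map_pow]; exact pow_mem s.mem n
  memk := by rw [map_pow]; exact pow_mem s.memk n
  ne := by rw [map_pow]; exact pow_ne_zero n s.ne

/-- A constant integral series (a unit of `A`). -/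
def const (γ : A) (hγ : IsLocalRing.residue A γ ≠ 0) : IntSer N A where
  y := HahnSeries.single 0 γ
  mem := by
    rw [coeffMap_single, ← algebraMap_laurentSeries_eq_single]
    exact IntermediateField.algebraMap_mem _ _
  memk := by
    rw [coeffMap_single, ← algebraMap_laurentSeries_eq_single]
    exact IntermediateField.algebraMap_mem _ _
  ne := by
    rw [coeffMap_single]
    intro h
    apply hγ
    have h1 := congrArg (fun s : LaurentSeries (IsLocalRing.ResidueField A) => s.coeff 0) h
    simpa using h1

theorem up_one : (one : IntSer N A).up = 1 := Subtype.ext (map_one _)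

theorem up_pow (s : IntSer N A) (n : ℕ) : (s.pow n).up = s.up ^ n := Subtype.ext (map_pow _ _ _)

theorem down_pow (s : IntSer N A) (n : ℕ) : (s.pow n).down = s.down ^ n :=
  Subtype.ext (map_pow _ _ _)

theorem up_const (γ : A) (hγ : IsLocalRing.residue A γ ≠ 0) :
    (const γ hγ : IntSer N A).up
      = algebraMap (AlgebraicClosure ℚ) (modularFunctionFieldBar N) (γ : AlgebraicClosure ℚ) := by
  apply Subtype.ext
  show coeffMap A.subtype (HahnSeries.single 0 γ) = _
  rw [coeffMap_single, ← algebraMap_laurentSeries_eq_single]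
  rfl

theorem down_const (γ : A) (hγ : IsLocalRing.residue A γ ≠ 0) :
    (const γ hγ : IntSer N A).down
      = algebraMap (IsLocalRing.ResidueField A)
          (modularFunctionFieldFullC (IsLocalRing.ResidueField A) N) (IsLocalRing.residue A γ) := by
  apply Subtype.ext
  show coeffMap (IsLocalRing.residue A) (HahnSeries.single 0 γ) = _
  rw [coeffMap_single, ← algebraMap_laurentSeries_eq_single]
  rfl

theorem up_mul (s t : IntSer N A) : (s.mul t).up = s.up * t.up := Subtype.ext (map_mul _ _ _)

theorem down_mul (s t : IntSer N A) : (s.mul t).down = s.down * t.down :=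
  Subtype.ext (map_mul _ _ _)

end IntSer

end IntSer

/-! ### The subgroup generated by the integral principal divisors -/

section Closure

variable {N : ℕ} [NeZero N] {A : ValuationSubring (AlgebraicClosure ℚ)}

/-- Every element of the subgroup generated by the integral principal divisors is the divisor
of a quotient of two integral series. -/
theorem exists_intSer_of_mem_closure
    {E : Divisor (AlgebraicClosure ℚ) (modularFunctionFieldBar N)}
    (hE : E ∈ AddSubgroup.closure (integralPrincipalDivisors A (IsLocalRing.residue A) N)) :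
    ∃ (a b : IntSer N A) (Da Db : Divisor (AlgebraicClosure ℚ) (modularFunctionFieldBar N)),
      (∀ P, Da P = P.ord a.up) ∧ (∀ P, Db P = P.ord b.up) ∧ E = Da - Db := by
  induction hE using AddSubgroup.closure_induction with
  | mem E hE =>
    obtain ⟨y, hy, hyk, hne, hD⟩ := hE
    refine ⟨⟨y, hy, hyk, hne⟩, IntSer.one, E, 0, hD, fun P => ?_, (sub_zero E).symm⟩
    rw [IntSer.up_one, Place.ord_one]
    rfl
  | zero =>
    refine ⟨IntSer.one, IntSer.one, 0, 0, fun P => ?_, fun P => ?_, (sub_zero _).symm⟩ <;>
    · rw [IntSer.up_one, Place.ord_one]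
      rfl
  | add E E' _ _ ih ih' =>
    obtain ⟨a, b, Da, Db, ha, hb, rfl⟩ := ih
    obtain ⟨a', b', Da', Db', ha', hb', rfl⟩ := ih'
    refine ⟨a.mul a', b.mul b', Da + Da', Db + Db', fun P => ?_, fun P => ?_, by abel⟩
    · rw [Finsupp.add_apply, ha, ha', IntSer.up_mul, P.ord_mul a.up_ne_zero a'.up_ne_zero]
    · rw [Finsupp.add_apply, hb, hb', IntSer.up_mul, P.ord_mul b.up_ne_zero b'.up_ne_zero]
  | neg E _ ih =>
    obtain ⟨a, b, Da, Db, ha, hb, rfl⟩ := ih
    exact ⟨b, a, Db, Da, hb, ha, by abel⟩

/-- The reduction axiom, for an integral series. -/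
theorem mapDomain_apply_of_intSer
    {r : Place (AlgebraicClosure ℚ) (modularFunctionFieldBar N) →
      Place (IsLocalRing.ResidueField A)
        (modularFunctionFieldFullC (IsLocalRing.ResidueField A) N)}
    (hr : IsPlaceReductionAlong A (IsLocalRing.residue A) N r) (a : IntSer N A)
    (Da : Divisor (AlgebraicClosure ℚ) (modularFunctionFieldBar N))
    (ha : ∀ P, Da P = P.ord a.up)
    (Q : Place (IsLocalRing.ResidueField A)
      (modularFunctionFieldFullC (IsLocalRing.ResidueField A) N)) :
    Finsupp.mapDomain r Da Q = Q.ord a.down :=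
  hr.2 a.y a.mem a.memk a.ne Da ha Q

end Closure

/-! ### Lifting elements of the function field of the special fibre -/

section Lift

variable {N : ℕ} [NeZero N] {A : ValuationSubring (AlgebraicClosure ℚ)}

theorem coeffMap_subtype_jq_mem {d : ℕ} [NeZero d] (hd : d ∣ N) :
    coeffMap A.subtype (qExpand A d (jqModC A)) ∈ modularFunctionFieldBar N := by
  have h1 : coeffEmb (AlgebraicClosure ℚ) (qExpand ℚ d jq) ∈ modularFunctionFieldBar N :=
    coeffEmb_mem_laurentBaseChange (AlgebraicClosure ℚ) (jqd_mem_full N hd)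
  have h2 : coeffEmb (AlgebraicClosure ℚ) (qExpand ℚ d jq)
      = coeffMap A.subtype (qExpand A d (jqModC A)) := by
    rw [coeffEmb, coeffMap_qExpand, coeffMap_qExpand, ← jqModC_rat, coeffMap_jqModC,
      coeffMap_jqModC]
  rwa [h2] at h1

/-- Elements of the `k`-algebra generated by the `j(q^d)` lift to integral series. -/
theorem exists_lift_of_mem_algebraAdjoin {x : LaurentSeries (IsLocalRing.ResidueField A)}
    (hx : x ∈ Algebra.adjoin (IsLocalRing.ResidueField A)
      (divisorExpansionsC (IsLocalRing.ResidueField A) N)) :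
    ∃ G : LaurentSeries A, coeffMap A.subtype G ∈ modularFunctionFieldBar N ∧
      coeffMap (IsLocalRing.residue A) G = x := by
  induction hx using Algebra.adjoin_induction with
  | mem x hx =>
    obtain ⟨d, hd0, hd, rfl⟩ := hx
    have : NeZero d := hd0
    refine ⟨qExpand A d (jqModC A), coeffMap_subtype_jq_mem hd, ?_⟩
    rw [coeffMap_qExpand, coeffMap_jqModC]
  | algebraMap c =>
    obtain ⟨a, rfl⟩ := IsLocalRing.residue_surjective c
    refine ⟨HahnSeries.single 0 a, ?_, ?_⟩
    · rw [coeffMap_single, ← algebraMap_laurentSeries_eq_single]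
      exact IntermediateField.algebraMap_mem _ _
    · rw [coeffMap_single, ← algebraMap_laurentSeries_eq_single]
  | add x y _ _ hx hy =>
    obtain ⟨G, hG, rfl⟩ := hx
    obtain ⟨G', hG', rfl⟩ := hy
    exact ⟨G + G', by rw [map_add]; exact add_mem hG hG', map_add _ _ _⟩
  | mul x y _ _ hx hy =>
    obtain ⟨G, hG, rfl⟩ := hx
    obtain ⟨G', hG', rfl⟩ := hy
    exact ⟨G * G', by rw [map_mul]; exact mul_mem hG hG', map_mul _ _ _⟩

/-- Every nonzero element of the function field of the special fibre is a quotient of the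
reductions of two integral series. -/
theorem exists_intSer_div
    (g : modularFunctionFieldFullC (IsLocalRing.ResidueField A) N) (hg : g ≠ 0) :
    ∃ G₁ G₂ : IntSer N A, g = G₁.down / G₂.down := by
  obtain ⟨x, hx, y, hy, hxy⟩ := IntermediateField.mem_adjoin_iff_div.mp g.2
  have hx0 : x ≠ 0 := by
    rintro rfl
    apply hg
    apply Subtype.ext
    rw [hxy, zero_div]
    rfl
  have hy0 : y ≠ 0 := by
    rintro rfl
    apply hg
    apply Subtype.ext
    rw [hxy, div_zero]
    rfl
  obtain ⟨G, hG, rfl⟩ := exists_lift_of_mem_algebraAdjoin hx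
  obtain ⟨G', hG', rfl⟩ := exists_lift_of_mem_algebraAdjoin hy
  refine ⟨⟨G, hG, IntermediateField.algebra_adjoin_le_adjoin _ _ hx, hx0⟩,
    ⟨G', hG', IntermediateField.algebra_adjoin_le_adjoin _ _ hy, hy0⟩, ?_⟩
  apply Subtype.ext
  rw [hxy]
  rfl

end Lift

/-! ### The Kummer statement and the main reduction -/

section Main

variable (N : ℕ) [NeZero N] (A : ValuationSubring (AlgebraicClosure ℚ))

variable {N A}

/-- The prime order case. -/
theorem eq_zero_of_prime_nsmul {ℓ : ℕ} (h : ReductionInputsModL A N) (hcb : ConstStmt A N)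
    (K : KummerStmt ℓ A N) {d : ℕ} (hd : d.Prime) (hdℓ : d ≠ ℓ) (z : JZero N)
    (hdz : d • z = 0) (hz : reductionModL A N z = 0) : z = 0 := by
  obtain ⟨D, rfl⟩ := Pic0.mk_surjective z
  have hr : IsPlaceReductionModL A N (placeReductionModL h) :=
    isPlaceReductionModL_placeReductionModL h
  have hgen : PrincipalGeneratedByIntegral A (IsLocalRing.residue A) N := h.choose_spec.2
  -- `d • D` is principal
  have h1 : d • (D : Divisor (AlgebraicClosure ℚ) (modularFunctionFieldBar N)) ∈
      Divisor.principal (K := AlgebraicClosure ℚ) (F := modularFunctionFieldBar N) := by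
    have h2 : (Pic0.mk (d • D) : JZero N) = 0 := hdz
    have h3 := (QuotientAddGroup.eq_zero_iff _).mp h2
    rw [AddSubgroup.mem_addSubgroupOf] at h3
    exact h3
  -- the reduction of `D` is principal
  have h4 : Finsupp.mapDomain (placeReductionModL h)
      (D : Divisor (AlgebraicClosure ℚ) (modularFunctionFieldBar N)) ∈
      Divisor.principal (K := IsLocalRing.ResidueField A)
        (F := modularFunctionFieldFullC (IsLocalRing.ResidueField A) N) := by
    rw [reductionModL_mk h D] at hz
    have h5 := (QuotientAddGroup.eq_zero_iff _).mp hz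
    rw [AddSubgroup.mem_addSubgroupOf] at h5
    exact h5
  obtain ⟨g0, hg0, hg0D⟩ := h4
  obtain ⟨a, b, Da, Db, ha, hb, hab⟩ := exists_intSer_of_mem_closure (hgen h1)
  -- pointwise form of `d • D = Da - Db`
  have hDP : ∀ P : Place (AlgebraicClosure ℚ) (modularFunctionFieldBar N),
      (d : ℤ) * (D : Divisor (AlgebraicClosure ℚ) (modularFunctionFieldBar N)) P
        = P.ord a.up - P.ord b.up := by
    intro P
    have h5 := congrArg (fun E : Divisor (AlgebraicClosure ℚ) (modularFunctionFieldBar N) => E P)
      hab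
    simp only [Finsupp.smul_apply, Finsupp.sub_apply, nsmul_eq_mul] at h5
    rw [h5, ha, hb]
  -- its reduction
  have h6 : ∀ Q : Place (IsLocalRing.ResidueField A)
      (modularFunctionFieldFullC (IsLocalRing.ResidueField A) N),
      (d : ℤ) * Q.ord g0 = Q.ord a.down - Q.ord b.down := by
    intro Q
    have h5 : Finsupp.mapDomain (placeReductionModL h)
        (d • (D : Divisor (AlgebraicClosure ℚ) (modularFunctionFieldBar N))) Q
          = Finsupp.mapDomain (placeReductionModL h) (Da - Db) Q := by rw [hab]
    rw [Finsupp.mapDomain_sub, Finsupp.sub_apply, mapDomain_apply_of_intSer hr a Da ha,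
      mapDomain_apply_of_intSer hr b Db hb, ← Finsupp.mapDomain.addMonoidHom_apply, map_nsmul,
      Finsupp.mapDomain.addMonoidHom_apply, Finsupp.smul_apply, hg0D Q, nsmul_eq_mul] at h5
    exact h5
  -- the constant
  have hab0 : a.down / b.down / g0 ^ d ≠ 0 :=
    div_ne_zero (div_ne_zero a.down_ne_zero b.down_ne_zero) (pow_ne_zero d hg0)
  have h7 : ∀ Q : Place (IsLocalRing.ResidueField A)
      (modularFunctionFieldFullC (IsLocalRing.ResidueField A) N),
      Q.ord (a.down / b.down / g0 ^ d) = 0 := by
    intro Q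
    rw [ord_quot Q (div_ne_zero a.down_ne_zero b.down_ne_zero) (pow_ne_zero d hg0),
      ord_quot Q a.down_ne_zero b.down_ne_zero, ord_npow, ← h6 Q]
    ring
  obtain ⟨c, hc⟩ := hcb _ hab0 h7
  obtain ⟨γ, rfl⟩ := IsLocalRing.residue_surjective c
  have hγ : IsLocalRing.residue A γ ≠ 0 := by
    intro h0
    rw [h0, map_zero] at hc
    exact hab0 hc
  obtain ⟨G₁, G₂, hG⟩ := exists_intSer_div g0 hg0
  -- the two integral series
  set U₁ : IntSer N A := a.mul (G₂.pow d) with hU₁
  set U₂ : IntSer N A := ((IntSer.const γ hγ).mul b).mul (G₁.pow d) with hU₂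
  have hdown : U₁.down = U₂.down := by
    rw [hU₁, hU₂, IntSer.down_mul, IntSer.down_mul, IntSer.down_mul, IntSer.down_pow,
      IntSer.down_pow, IntSer.down_const, ← hc, hG, div_pow]
    have hb0 := b.down_ne_zero
    have hG₁ := pow_ne_zero d G₁.down_ne_zero
    have hG₂ := pow_ne_zero d G₂.down_ne_zero
    field_simp
  have hup : ∀ P : Place (AlgebraicClosure ℚ) (modularFunctionFieldBar N),
      P.ord (U₁.up / U₂.up) = (d : ℤ) *
        ((D : Divisor (AlgebraicClosure ℚ) (modularFunctionFieldBar N)) P
          + P.ord G₂.up - P.ord G₁.up) := by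
    intro P
    have hγ0 : algebraMap (AlgebraicClosure ℚ) (modularFunctionFieldBar N)
        (γ : AlgebraicClosure ℚ) ≠ 0 := by
      rw [← IntSer.up_const γ hγ]
      exact IntSer.up_ne_zero _
    rw [ord_quot P U₁.up_ne_zero U₂.up_ne_zero, hU₁, hU₂, IntSer.up_mul, IntSer.up_mul,
      IntSer.up_mul, IntSer.up_pow, IntSer.up_pow, IntSer.up_const,
      P.ord_mul a.up_ne_zero (pow_ne_zero d G₂.up_ne_zero),
      P.ord_mul (mul_ne_zero hγ0 b.up_ne_zero) (pow_ne_zero d G₁.up_ne_zero),
      P.ord_mul hγ0 b.up_ne_zero, ord_const, ord_npow, ord_npow]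
    linear_combination (-1 : ℤ) * hDP P
  obtain ⟨w, hw⟩ := K d hd hdℓ U₁.y U₂.y U₁.mem U₂.mem (congrArg Subtype.val hdown) U₁.ne
    (fun P => ⟨_, hup P⟩)
  replace hw : w ^ d = U₁.up / U₂.up := hw
  have hw0 : w ≠ 0 := by
    rintro rfl
    rw [zero_pow hd.ne_zero] at hw
    exact (div_ne_zero U₁.up_ne_zero U₂.up_ne_zero) hw.symm
  have hwP : ∀ P : Place (AlgebraicClosure ℚ) (modularFunctionFieldBar N),
      P.ord w = (D : Divisor (AlgebraicClosure ℚ) (modularFunctionFieldBar N)) P
          + P.ord G₂.up - P.ord G₁.up := by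
    intro P
    have h8 := hup P
    rw [← hw, ord_npow] at h8
    exact mul_left_cancel₀ (Nat.cast_ne_zero.mpr hd.ne_zero) h8
  -- `D` is the divisor of `w * G₁ / G₂`
  apply (QuotientAddGroup.eq_zero_iff _).mpr
  rw [AddSubgroup.mem_addSubgroupOf]
  refine ⟨w * G₁.up / G₂.up,
    div_ne_zero (mul_ne_zero hw0 G₁.up_ne_zero) G₂.up_ne_zero, fun P => ?_⟩
  rw [ord_quot P (mul_ne_zero hw0 G₁.up_ne_zero) G₂.up_ne_zero,
    P.ord_mul hw0 G₁.up_ne_zero, hwP P]
  ring

/-- **S18 from the Kummer statement**: the only use of the hypothesis `h`. -/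
theorem result_of_kummer {ℓ : ℕ} (h : ReductionInputsModL A N) (hcb : ConstStmt A N)
    (K : KummerStmt ℓ A N) (m : ℕ) (hm : ¬ ℓ ∣ m) (z : JZero N) (hmz : m • z = 0)
    (hz : reductionModL A N z = 0) : z = 0 := by
  by_contra hz0
  have hm0 : m ≠ 0 := by
    rintro rfl
    exact hm (dvd_zero ℓ)
  set n := addOrderOf z with hn
  have hnm : n ∣ m := addOrderOf_dvd_of_nsmul_eq_zero hmz
  have hn0 : n ≠ 0 := fun h0 => hm0 (Nat.eq_zero_of_zero_dvd (h0 ▸ hnm))
  have hn1 : n ≠ 1 := fun h1 => hz0 (AddMonoid.addOrderOf_eq_one_iff.mp h1)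
  set d := n.minFac with hd
  have hdp : d.Prime := Nat.minFac_prime hn1
  have hdn : d ∣ n := Nat.minFac_dvd n
  have hdℓ : d ≠ ℓ := by
    rintro rfl
    exact hm (hdn.trans hnm)
  have hz' : (n / d) • z = 0 := by
    apply eq_zero_of_prime_nsmul h hcb K hdp hdℓ
    · rw [← mul_nsmul', Nat.mul_div_cancel' hdn]
      exact addOrderOf_nsmul_eq_zero z
    · rw [map_nsmul, hz, nsmul_zero]
  have h1 : n ∣ n / d := addOrderOf_dvd_of_nsmul_eq_zero hz'
  have h2 : n / d < n := Nat.div_lt_self (Nat.pos_of_ne_zero hn0) hdp.one_lt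
  have h3 : 0 < n / d := Nat.div_pos (Nat.le_of_dvd (Nat.pos_of_ne_zero hn0) hdn) hdp.pos
  exact absurd (Nat.le_of_dvd h3 h1) (not_le.mpr h2)

/-- **`Extract.main`** (shape of `S18/Defs`): the statement S18 at level `N` follows from the
constants statement in characteristic `ℓ` and the Kummer statement at level `N`. -/
theorem main {ℓ N : ℕ} [NeZero N] (_hℓ : ℓ.Prime) (A : ValuationSubring (AlgebraicClosure ℚ))
    (hC : ConstStmt A N) (hK : KummerStmt ℓ A N) : MainStmt ℓ A N :=
  fun h m hm z hmz hz => result_of_kummer h hC hK m hm z hmz hz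

end Main

end

end Fermat.Agent.S18.Extract
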