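import Fermat.Agent.S18.Defs
import Fermat.Agent.S18.Descent
import Fermat.Agent.S18.Extract
import Fermat.Agent.S18.LevelNum

/-!
# S18: final wiring, Red-agnostic form

`Final.main`: constants at level `N` in characteristic `ℓ`, restriction of places and descent of
roots along `F_N ⊆ F_M` (`M = lcm(M0 ℓ, N)`), and the Kummer statement at level `M` give the
statement S18.  (Same as `Pre.main`, but with the Kummer statement at level `M` as a hypothesis,
so that no Gauss layer appears in the interface.)
-/

set_option autoImplicit false
set_option synthInstance.maxHeartbeats 400000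

noncomputable section

namespace Fermat.Agent.S18.Final

open AlgebraicCurve ModularCurve Fermat.Agent.S18

theorem main {ℓ N : ℕ} [NeZero N] (hℓ : ℓ.Prime) (A : ValuationSubring (AlgebraicClosure ℚ))
    (hC : ConstStmt A N)
    (hRes : RestrictStmt N (LevelNum.levelM ℓ N))
    (hRoot : RootDescentStmt ℓ A N (LevelNum.levelM ℓ N))
    (hK : KummerStmt ℓ A (LevelNum.levelM ℓ N)) : MainStmt ℓ A N :=
  Extract.main hℓ A hC
    (Descent.main (NeZero.ne N) (LevelNum.levelM_ne_zero ℓ N (NeZero.ne N))
      (LevelNum.dvd_levelM ℓ N) A hK hRes hRoot)

end Fermat.Agent.S18.Final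

end
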