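import Mathlib
import Fermat.Agent.S18.CoreDefs
import Fermat.Agent.S18.LatticeBridge
import Fermat.Agent.S18.GaussACore

/-!
# S18 / GaussA: `RedFacts` for the Gauss reduction relation (abstract form)

Setting of `GaussACore` (`A` a valuation subring of `K`, integral series `j u : A((q))`, a monic
relation `P` with `GHyp A j u P`), plus

* `F ⊆ K((q))` an intermediate field containing the generic series `j`, `u`, every element of which
  has a `K`-representation `g(j) x = Q(j,u)`, `deg_X Q < deg P`;
* `κ ⊆ k((q))` an intermediate field containing `k(jb, ub)`.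

Then `RedF A j u F κ f x := RedS A j u f x` satisfies `RedFacts` (`FHyp.redFacts`), and every
integral series of `F` reduces coefficientwise (`FHyp.hint`).
-/

set_option autoImplicit false
set_option synthInstance.maxHeartbeats 400000

namespace Fermat.Agent.S18.GaussA

open Polynomial ModularCurve Fermat.Agent.S28.Chart Fermat.Agent.S28.RedHyp

section Monomials

variable {K R : Type*} [Field K] [CommRing R] [Algebra K R]

/-- The monomial family `a ^ n * b ^ i`, `i < ψ`. -/
def monoFam (a b : R) (ψ : ℕ) (p : ℕ × Fin ψ) : R := a ^ p.1 * b ^ (p.2 : ℕ)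

theorem ev2_mem_span (a b : R) (ψ : ℕ) (Q : K[X][X]) (hQ : Q.natDegree < ψ) :
    ev2 (algebraMap K R) a b Q ∈ Submodule.span K (Set.range (monoFam a b ψ)) := by
  rw [ev2_apply, eval₂_eq_sum_range' _ hQ]
  refine Submodule.sum_mem _ (fun i hi => ?_)
  rw [ev1_apply, eval₂_eq_sum_range, Finset.sum_mul]
  refine Submodule.sum_mem _ (fun n _ => ?_)
  have h1 : algebraMap K R ((Q.coeff i).coeff n) * a ^ n * b ^ i =
      (Q.coeff i).coeff n • (a ^ n * b ^ i) := by rw [Algebra.smul_def, mul_assoc]
  rw [h1]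
  exact Submodule.smul_mem _ _ (Submodule.subset_span ⟨(n, ⟨i, Finset.mem_range.mp hi⟩), rfl⟩)

theorem ev1_mul_mem_span (a b : R) (ψ : ℕ) (g : K[X]) {w : R}
    (hw : w ∈ Submodule.span K (Set.range (monoFam a b ψ))) :
    ev1 (algebraMap K R) a g * w ∈ Submodule.span K (Set.range (monoFam a b ψ)) := by
  induction hw using Submodule.span_induction with
  | mem x hx =>
    obtain ⟨⟨n, i⟩, rfl⟩ := hx
    rw [ev1_apply, eval₂_eq_sum_range, Finset.sum_mul]
    refine Submodule.sum_mem _ (fun m _ => ?_)
    have h1 : algebraMap K R (g.coeff m) * a ^ m * monoFam a b ψ (n, i) =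
        g.coeff m • monoFam a b ψ (m + n, i) := by
      simp only [monoFam]
      rw [Algebra.smul_def, pow_add]; ring
    rw [h1]
    exact Submodule.smul_mem _ _ (Submodule.subset_span ⟨_, rfl⟩)
  | zero => rw [mul_zero]; exact Submodule.zero_mem _
  | add x y _ _ hx hy => rw [mul_add]; exact Submodule.add_mem _ hx hy
  | smul c x _ hx => rw [mul_smul_comm]; exact Submodule.smul_mem _ _ hx

theorem linearIndependent_monoFam (a b : R) (ψ : ℕ)
    (h : ∀ G : K[X][X], G.natDegree < ψ → ev2 (algebraMap K R) a b G = 0 → G = 0) :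
    LinearIndependent K (monoFam a b ψ) := by
  classical
  rcases Nat.eq_zero_or_pos ψ with h0 | hpos
  · subst h0
    exact linearIndependent_empty_type
  rw [linearIndependent_iff]
  intro l hl
  set G : K[X][X] := ∑ p ∈ l.support, monomial (p.2 : ℕ) (monomial p.1 (l p)) with hG
  have hdeg : G.natDegree < ψ := by
    have h1 : G.natDegree ≤ ψ - 1 := by
      refine natDegree_sum_le_of_forall_le _ _ (fun p _ => ?_)
      refine (natDegree_monomial_le _).trans ?_
      have := p.2.2
      omega
    omega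
  have hev : ev2 (algebraMap K R) a b G = Finsupp.linearCombination K (monoFam a b ψ) l := by
    rw [Finsupp.linearCombination_apply, Finsupp.sum, hG, map_sum]
    refine Finset.sum_congr rfl (fun p _ => ?_)
    rw [ev2_apply, eval₂_monomial, ev1_apply, eval₂_monomial, Algebra.smul_def, monoFam, mul_assoc]
  have hG0 : G = 0 := h G hdeg (by rw [hev, hl])
  ext ⟨n, i⟩
  have h1 : (G.coeff (i : ℕ)).coeff n = l (n, i) := by
    rw [hG, finsetSum_coeff, finsetSum_coeff]
    rw [Finset.sum_eq_single (n, i)]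
    · simp
    · rintro ⟨n', i'⟩ _ hne
      rw [coeff_monomial]
      split_ifs with h2
      · rw [coeff_monomial]
        split_ifs with h3
        · exfalso
          apply hne
          have h4 : i' = i := Fin.ext h2
          simp only at h3
          rw [h3, h4]
        · rfl
      · simp
    · intro hni
      rw [Finsupp.notMem_support_iff] at hni
      simp [hni]
  rw [hG0] at h1
  simpa using h1.symm

end Monomials

section Integral

variable {K : Type*} [Field K] {A : ValuationSubring K} {j u : LaurentSeries A} {P : A[X][X]}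

/-- **Integral series reduce coefficientwise.** If `Y ∈ A((q))` and its image in `K((q))` has a
`K`-representation `g(j) Y = Q(j,u)` of small degree, then `Y` is Gauss-integral with reduction
the coefficientwise reduction of `Y`. -/
theorem GHyp.redS_of_integral (h : GHyp A j u P) (Y : LaurentSeries A)
    {g : K[X]} (hg : g ≠ 0) {Q : K[X][X]} (hdeg : Q.natDegree < P.natDegree)
    (hx : ev1 HahnSeries.C (coeffMap A.subtype j) g * coeffMap A.subtype Y =
      ev2 HahnSeries.C (coeffMap A.subtype j) (coeffMap A.subtype u) Q) :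
    RedS A j u (coeffMap A.subtype Y) (coeffMap (IsLocalRing.residue A) Y) := by
  by_cases hY : Y = 0
  · rw [hY, map_zero, map_zero]; exact redS_zero
  have hY' : coeffMap A.subtype Y ≠ 0 := fun h0 => hY (toK_injective (by rw [h0, map_zero]))
  have hQ0 : Q ≠ 0 := by
    intro h0
    rw [h0, map_zero] at hx
    exact hY' ((mul_eq_zero.mp hx).resolve_left (h.ev1K_ne_zero hg))
  obtain ⟨c₁, g₀, hc₁, hgc, hg₀⟩ := exists_prim A g hg
  obtain ⟨c₂, Q₀, hc₂, hQc, hQ₀⟩ := exists_prim₂ A Q hQ0
  have hinj : Function.Injective (mapRingHom (A.subtype)) :=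
    Polynomial.map_injective _ Subtype.val_injective
  have hdeg₀ : Q₀.natDegree < P.natDegree := by
    have h1 : Q.natDegree = (Q₀.map (mapRingHom A.subtype)).natDegree := by
      rw [hQc, natDegree_C_mul (by simpa using hc₂)]
    rw [natDegree_map_eq_of_injective hinj] at h1
    rw [← h1]; exact hdeg
  rw [hgc, hQc, ev1_C_mul, ev2_C_C_mul, ev1K_map, ev2K_map] at hx
  have hne₁ := C_ne_zero' (S := K) hc₁
  have hne₂ := C_ne_zero' (S := K) hc₂
  by_cases hc : c₂ / c₁ ∈ A
  · set c : A := ⟨c₂ / c₁, hc⟩ with hcdef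
    have hA : ev1 HahnSeries.C j g₀ * Y = ev2 HahnSeries.C j u (C (C c) * Q₀) := by
      apply toK_injective
      rw [map_mul, map_mul, map_mul, ev2_C, ev1_C, coeffMap_C]
      have hC : (HahnSeries.C (A.subtype c) : LaurentSeries K) =
          HahnSeries.C c₂ * (HahnSeries.C c₁)⁻¹ := by
        rw [← map_inv₀, ← map_mul]
        congr 1
        show c₂ / c₁ = c₂ * c₁⁻¹
        rw [div_eq_mul_inv]
      rw [hC]
      field_simp
      linear_combination hx
    exact ⟨g₀, C (C c) * Q₀, hg₀, by rw [← hA, map_mul], by rw [← hA, map_mul]⟩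
  · exfalso
    have hc' : (c₂ / c₁)⁻¹ ∈ A := (A.mem_or_inv_mem (c₂ / c₁)).resolve_left hc
    set c : A := ⟨(c₂ / c₁)⁻¹, hc'⟩ with hcdef
    have hres : IsLocalRing.residue A c = 0 := by
      by_contra hne
      have h1 := inv_mem_of_residue_ne_zero A hne
      apply hc
      have h2 : ((c : K))⁻¹ = c₂ / c₁ := by rw [hcdef]; simp
      rwa [h2] at h1
    have hA : ev1 HahnSeries.C j (C c * g₀) * Y = ev2 HahnSeries.C j u Q₀ := by
      apply toK_injective
      rw [map_mul, map_mul, map_mul, ev1_C, coeffMap_C]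
      have hC : (HahnSeries.C (A.subtype c) : LaurentSeries K) =
          HahnSeries.C c₁ * (HahnSeries.C c₂)⁻¹ := by
        rw [← map_inv₀, ← map_mul]
        congr 1
        show (c₂ / c₁)⁻¹ = c₁ * c₂⁻¹
        rw [inv_div, div_eq_mul_inv]
      rw [hC]
      field_simp
      linear_combination hx
    have hk := congrArg (coeffMap (IsLocalRing.residue A)) hA
    rw [map_mul, map_mul, map_mul, ev1_C, coeffMap_C, hres, map_zero, zero_mul, zero_mul] at hk
    exact h.tok_ev2_ne_zero hdeg₀ hQ₀ hk.symm

end Integral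

section Val

variable {S : Type*} [Field S] (E : IntermediateField S (LaurentSeries S))

theorem val_comp_ev1 (a : E) :
    (E.val : E →+* LaurentSeries S).comp (ev1 (algebraMap S E) a) =
      ev1 HahnSeries.C (a : LaurentSeries S) := by
  refine Polynomial.ringHom_ext (fun c => ?_) ?_
  · rw [RingHom.comp_apply, ev1_C, ev1_C, ← algebraMap_eq_C]
    rfl
  · rw [RingHom.comp_apply, ev1_X, ev1_X]
    rfl

theorem coe_ev1 (a : E) (g : S[X]) :
    ((ev1 (algebraMap S E) a g : E) : LaurentSeries S) = ev1 HahnSeries.C (a : LaurentSeries S) g :=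
  RingHom.congr_fun (val_comp_ev1 E a) g

theorem val_comp_ev2 (a b : E) :
    (E.val : E →+* LaurentSeries S).comp (ev2 (algebraMap S E) a b) =
      ev2 HahnSeries.C (a : LaurentSeries S) (b : LaurentSeries S) := by
  refine Polynomial.ringHom_ext (fun q => ?_) ?_
  · rw [RingHom.comp_apply, ev2_C, ev2_C]
    exact coe_ev1 E a q
  · rw [RingHom.comp_apply, ev2_X, ev2_X]
    rfl

theorem coe_ev2 (a b : E) (G : S[X][X]) :
    ((ev2 (algebraMap S E) a b G : E) : LaurentSeries S) =
      ev2 HahnSeries.C (a : LaurentSeries S) (b : LaurentSeries S) G :=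
  RingHom.congr_fun (val_comp_ev2 E a b) G

end Val

section Fields

variable {K : Type*} [Field K] (A : ValuationSubring K) (j u : LaurentSeries A) (P : A[X][X])
  (F : IntermediateField K (LaurentSeries K))
  (κ : IntermediateField (IsLocalRing.ResidueField A) (LaurentSeries (IsLocalRing.ResidueField A)))

/-- The Gauss reduction relation between an intermediate field `F ⊆ K((q))` and an intermediate
field `κ ⊆ k((q))`. -/
def RedF (f : F) (x : κ) : Prop :=
  RedS A j u (f : LaurentSeries K) (x : LaurentSeries (IsLocalRing.ResidueField A))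

/-- Hypotheses on the pair of fields `(F, κ)`. -/
structure FHyp : Prop where
  ghyp : GHyp A j u P
  hj : coeffMap A.subtype j ∈ F
  hu : coeffMap A.subtype u ∈ F
  hκ : IntermediateField.adjoin (IsLocalRing.ResidueField A)
    ({coeffMap (IsLocalRing.residue A) j, coeffMap (IsLocalRing.residue A) u} :
      Set (LaurentSeries (IsLocalRing.ResidueField A))) ≤ κ
  hrep : ∀ x ∈ F, ∃ (g : K[X]) (Q : K[X][X]), g ≠ 0 ∧ Q.natDegree < P.natDegree ∧
    ev1 HahnSeries.C (coeffMap A.subtype j) g * x =
      ev2 HahnSeries.C (coeffMap A.subtype j) (coeffMap A.subtype u) Q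

variable {A j u P F κ}

theorem FHyp.redBase (H : FHyp A j u P F κ) : LatticeBridge.RedBase A (RedF A j u F κ) where
  unique := fun f x y h1 h2 => Subtype.ext (H.ghyp.unique h1 h2)
  one := redS_one
  add := fun f g x y h1 h2 => redS_add h1 h2
  mul := fun f g x y h1 h2 => redS_mul h1 h2
  const := fun c => by
    show RedS A j u (algebraMap K (LaurentSeries K) (c : K))
      (algebraMap (IsLocalRing.ResidueField A) (LaurentSeries (IsLocalRing.ResidueField A))
        (IsLocalRing.residue A c))
    rw [algebraMap_eq_C, algebraMap_eq_C]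
    exact redS_const c
  normalize := fun f hf => by
    obtain ⟨g, Q, hg, hdeg, hx⟩ := H.hrep f f.2
    have hf0 : (f : LaurentSeries K) ≠ 0 := fun h0 => hf (Subtype.ext h0)
    obtain ⟨c, hc, y, hy, hred⟩ := H.ghyp.normalize hf0 hg hdeg hx
    have hyκ : y ∈ κ := H.hκ (H.ghyp.redS_mem hred)
    refine ⟨c, hc, ⟨y, hyκ⟩, fun h0 => hy (congrArg Subtype.val h0), ?_⟩
    show RedS A j u (algebraMap K (LaurentSeries K) c * f) y
    rw [algebraMap_eq_C]
    exact hred

/-- **Integral series of `F` reduce coefficientwise** (the `hint` of `Bridge.main`). -/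
theorem FHyp.hint (H : FHyp A j u P F κ) (Y : LaurentSeries A) (hY : coeffMap A.subtype Y ∈ F) :
    ∃ hx : coeffMap (IsLocalRing.residue A) Y ∈ κ,
      RedF A j u F κ ⟨coeffMap A.subtype Y, hY⟩ ⟨coeffMap (IsLocalRing.residue A) Y, hx⟩ := by
  obtain ⟨g, Q, hg, hdeg, hx⟩ := H.hrep _ hY
  have hred := H.ghyp.redS_of_integral Y hg hdeg hx
  exact ⟨H.hκ (H.ghyp.redS_mem hred), hred⟩

theorem FHyp.jb_mem (H : FHyp A j u P F κ) : coeffMap (IsLocalRing.residue A) j ∈ κ :=
  H.hκ (IntermediateField.subset_adjoin _ _ (Set.mem_insert _ _))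

theorem FHyp.ub_mem (H : FHyp A j u P F κ) : coeffMap (IsLocalRing.residue A) u ∈ κ :=
  H.hκ (IntermediateField.subset_adjoin _ _ (Set.mem_insert_of_mem _ rfl))

theorem redS_j : RedS A j u (coeffMap A.subtype j) (coeffMap (IsLocalRing.residue A) j) := by
  have h1 := redS_of_poly (A := A) (j := j) (u := u) (C X)
  rwa [ev2_C, ev1_X] at h1

theorem redS_u : RedS A j u (coeffMap A.subtype u) (coeffMap (IsLocalRing.residue A) u) := by
  have h1 := redS_of_poly (A := A) (j := j) (u := u) X
  rwa [ev2_X] at h1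

theorem FHyp.red_j (H : FHyp A j u P F κ) :
    RedF A j u F κ ⟨coeffMap A.subtype j, H.hj⟩ ⟨coeffMap (IsLocalRing.residue A) j, H.jb_mem⟩ :=
  redS_j

theorem FHyp.red_u (H : FHyp A j u P F κ) :
    RedF A j u F κ ⟨coeffMap A.subtype u, H.hu⟩ ⟨coeffMap (IsLocalRing.residue A) u, H.ub_mem⟩ :=
  redS_u

/-- Denominators: every element of `F` is moved into the span of the monomials by a polynomial
in `j` with nonzero reduction. -/
theorem FHyp.hden (H : FHyp A j u P F κ) (jF uF : F) (hjF : (jF : LaurentSeries K) = coeffMap A.subtype j)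
    (huF : (uF : LaurentSeries K) = coeffMap A.subtype u) (jκ : κ)
    (hjκ : (jκ : LaurentSeries (IsLocalRing.ResidueField A)) = coeffMap (IsLocalRing.residue A) j)
    (x : F) :
    ∃ (d : F) (db : κ), RedF A j u F κ d db ∧ db ≠ 0 ∧
      (∀ w ∈ Submodule.span K (Set.range (monoFam jF uF P.natDegree)),
        d * w ∈ Submodule.span K (Set.range (monoFam jF uF P.natDegree))) ∧
      d * x ∈ Submodule.span K (Set.range (monoFam jF uF P.natDegree)) := by
  obtain ⟨g, Q, hg, hdeg, hx⟩ := H.hrep x x.2
  obtain ⟨c₁, g₀, hc₁, hgc, hg₀⟩ := exists_prim A g hg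
  have hd : ((ev1 (algebraMap K F) jF (g₀.map A.subtype) : F) : LaurentSeries K) =
      coeffMap A.subtype (ev1 HahnSeries.C j g₀) := by
    rw [coe_ev1, hjF, coeffMap_ev1]
  have hdb : ((ev1 (algebraMap (IsLocalRing.ResidueField A) κ) jκ
      (g₀.map (IsLocalRing.residue A)) : κ) : LaurentSeries (IsLocalRing.ResidueField A)) =
      coeffMap (IsLocalRing.residue A) (ev1 HahnSeries.C j g₀) := by
    rw [coe_ev1, hjκ, coeffMap_ev1]
  refine ⟨ev1 (algebraMap K F) jF (g₀.map A.subtype),
    ev1 (algebraMap (IsLocalRing.ResidueField A) κ) jκ (g₀.map (IsLocalRing.residue A)),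
    ?_, ?_, ?_, ?_⟩
  · show RedS A j u ((ev1 (algebraMap K F) jF (g₀.map A.subtype) : F) : LaurentSeries K)
      ((ev1 (algebraMap (IsLocalRing.ResidueField A) κ) jκ (g₀.map (IsLocalRing.residue A)) : κ) :
        LaurentSeries (IsLocalRing.ResidueField A))
    rw [hd, hdb]
    have h1 := redS_of_poly (A := A) (j := j) (u := u) (C g₀)
    rw [ev2_C] at h1
    exact h1
  · intro h0
    have h1 := congrArg Subtype.val h0
    rw [hdb, coeffMap_ev1] at h1
    exact hg₀ (H.ghyp.transcb _ h1)
  · intro w hw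
    exact ev1_mul_mem_span jF uF _ _ hw
  · have hdx : (ev1 (algebraMap K F) jF (g₀.map A.subtype) : F) * x =
        (ev2 (algebraMap K F) jF uF (C (C c₁⁻¹) * Q) : F) := by
      apply Subtype.ext
      have e1 : (((ev1 (algebraMap K F) jF (g₀.map A.subtype) : F) * x : F) : LaurentSeries K) =
          ((ev1 (algebraMap K F) jF (g₀.map A.subtype) : F) : LaurentSeries K) *
            (x : LaurentSeries K) := rfl
      rw [e1, hd, coe_ev2, hjF, huF, ev2_C_C_mul, ← hx, hgc, ev1_C_mul, ev1K_map]
      rw [← mul_assoc, ← mul_assoc, ← map_mul, inv_mul_cancel₀ hc₁, map_one, one_mul]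
    rw [hdx]
    exact ev2_mem_span jF uF _ _ (lt_of_le_of_lt (natDegree_C_mul_le _ _) hdeg)

/-- **`RedFacts` for the Gauss reduction relation.** -/
theorem FHyp.redFacts (H : FHyp A j u P F κ) : RedFacts A (RedF A j u F κ) := by
  refine LatticeBridge.redFacts_of_family_single H.redBase
    (monoFam (⟨coeffMap A.subtype j, H.hj⟩ : F) (⟨coeffMap A.subtype u, H.hu⟩ : F) P.natDegree)
    (monoFam (⟨coeffMap (IsLocalRing.residue A) j, H.jb_mem⟩ : κ)
      (⟨coeffMap (IsLocalRing.residue A) u, H.ub_mem⟩ : κ) P.natDegree) ?_ ?_ ?_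
  · rintro ⟨n, i⟩
    have h1 := redS_of_poly (A := A) (j := j) (u := u) (C (X ^ n) * X ^ (i : ℕ))
    rw [map_mul, ev2_C, map_pow, map_pow, ev1_X, ev2_X, map_mul, map_pow, map_pow, map_mul,
      map_pow, map_pow] at h1
    exact h1
  · apply linearIndependent_monoFam
    intro G hG h0
    apply H.ghyp.hmin G hG
    have h1 := congrArg Subtype.val h0
    rw [coe_ev2] at h1
    exact h1
  · intro x
    exact H.hden ⟨coeffMap A.subtype j, H.hj⟩ ⟨coeffMap A.subtype u, H.hu⟩ rfl rfl
      ⟨coeffMap (IsLocalRing.residue A) j, H.jb_mem⟩ rfl x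

end Fields

end Fermat.Agent.S18.GaussA
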