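import Mathlib
import Fermat.Agent.S28.AFinal
import Fermat.Agent.S28.Newton
import Fermat.Agent.S28.RedHyp
import Fermat.Agent.S18.ResField
import Fermat.Agent.S18.KappaDeg
import Fermat.Agent.S18.GaussADefs

/-!
# S18 / GaussIn: the standing hypotheses `GHyp` of the Gauss layer at level `L`

For a prime `ℓ ∤ L` and a valuation subring `A` of `ℚ̄` lying over `ℓ`, the norm relation of the
modular unit (`S28.AFinal.exists_relation`, coefficients in `ℤ_(ℓ)`) lifts to a monic
`P ∈ A[T][X]` of degree `ψ(L)` with `P(j, u) = 0` in `A((q))`; together with the transcendence of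
`j̄` and the Newton independence over the residue field (`KappaDeg.hmin`) this is
`GaussA.GHyp A (jqModC A) (GaussA.uA A L) P`.
-/

set_option autoImplicit false
set_option synthInstance.maxHeartbeats 400000

noncomputable section

namespace Fermat.Agent.S18.GaussIn

open Polynomial ModularCurve Fermat.Agent.S28.Chart Fermat.Agent.S28.RedHyp

/-- Elements of `ℤ_(ℓ)` lie in a valuation subring of `ℚ̄` over `ℓ`. -/
theorem algebraMap_mem_of_mem_ratLocalizedAt {ℓ : ℕ} (hℓ : ℓ.Prime)
    (A : ValuationSubring (AlgebraicClosure ℚ)) (hA : A.LiesOverPrime ℓ) {r : ℚ}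
    (hr : r ∈ GaloisRep.ratLocalizedAt ℓ) : algebraMap ℚ (AlgebraicClosure ℚ) r ∈ A := by
  have hcop : r.den.Coprime ℓ := hr
  have hnd : ¬ ℓ ∣ r.den := fun h =>
    hℓ.one_lt.ne' (Nat.eq_one_of_dvd_coprimes hcop h (dvd_refl ℓ))
  have hinv : ((r.den : ℕ) : AlgebraicClosure ℚ)⁻¹ ∈ A := ResField.inv_natCast_mem A hℓ hA hnd
  have hnum : ((r.num : ℤ) : AlgebraicClosure ℚ) ∈ A := intCast_mem A r.num
  have h1 : algebraMap ℚ (AlgebraicClosure ℚ) r
      = ((r.num : ℤ) : AlgebraicClosure ℚ) * ((r.den : ℕ) : AlgebraicClosure ℚ)⁻¹ := by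
    rw [eq_ratCast, Rat.cast_def, div_eq_mul_inv]
  rw [h1]
  exact A.mul_mem _ _ hnum hinv

/-- **The hypotheses of the Gauss layer at level `L`.** -/
theorem exists_ghyp {ℓ : ℕ} (hℓ : ℓ.Prime) (A : ValuationSubring (AlgebraicClosure ℚ))
    (hA : A.LiesOverPrime ℓ) (L : ℕ) [NeZero L] (hℓL : ¬ ℓ ∣ L) :
    ∃ P : Polynomial (Polynomial A), P.natDegree = dedekindPsi L ∧
      GaussA.GHyp A (ModularCurve.jqModC A) (GaussA.uA A L) P := by
  have hchar : CharP (IsLocalRing.ResidueField A) ℓ := ResField.charP A hℓ hA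
  obtain ⟨P, hPm, hPdeg, -, -, hPcoef, hProot⟩ := Fermat.Agent.S28.AFinal.exists_relation L
  -- the relation over `ℚ̄`
  set f : ℚ →+* AlgebraicClosure ℚ := algebraMap ℚ (AlgebraicClosure ℚ) with hf
  have hfinj : Function.Injective f := (algebraMap ℚ (AlgebraicClosure ℚ)).injective
  set PK : (AlgebraicClosure ℚ)[X][X] := P.map (mapRingHom f) with hPK
  have hPKm : PK.Monic := hPm.map _
  have hPKdeg : PK.natDegree = dedekindPsi L := by
    rw [hPK, natDegree_map_eq_of_injective (Polynomial.map_injective f hfinj), hPdeg]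
  -- coefficients in `A`
  have hmem : ∀ i m, (PK.coeff i).coeff m ∈ A := by
    intro i m
    rw [hPK, coeff_map, coe_mapRingHom, coeff_map]
    exact algebraMap_mem_of_mem_ratLocalizedAt hℓ A hA (hPcoef i m ℓ hℓ hℓL)
  obtain ⟨PA, hPA⟩ := (mem_lifts _).mp ((GaussA.mem_lifts₂_iff A PK).mpr hmem)
  have hinj₂ : Function.Injective (mapRingHom A.subtype) :=
    Polynomial.map_injective _ Subtype.val_injective
  have hPAm : PA.Monic := monic_of_injective hinj₂ (by rw [hPA]; exact hPKm)
  have hPAdeg : PA.natDegree = dedekindPsi L := by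
    rw [← natDegree_map_eq_of_injective hinj₂ PA, hPA, hPKdeg]
  refine ⟨PA, hPAdeg, hPAm, ?_, ?_, ?_⟩
  · -- the root, by injectivity of `A((q)) → ℚ̄((q))`
    apply GaussA.toK_injective (A := A)
    rw [map_zero, coeffMap_ev2, hPA, hPK, ModularCurve.coeffMap_jqModC]
    have h1 : coeffMap A.subtype (GaussA.uA A L)
        = coeffMap (Int.castRingHom (AlgebraicClosure ℚ)) (Fermat.Agent.S28.FormalU.uZ L) :=
      coeffMap_intCast_comp A.subtype _
    have h2 : coeffMap f (jqModC ℚ) = jqModC (AlgebraicClosure ℚ) := ModularCurve.coeffMap_jqModC f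
    have h3 : coeffMap f (coeffMap (Int.castRingHom ℚ) (Fermat.Agent.S28.FormalU.uZ L))
        = coeffMap (Int.castRingHom (AlgebraicClosure ℚ)) (Fermat.Agent.S28.FormalU.uZ L) :=
      coeffMap_intCast_comp f _
    rw [h1, ← h2, ← h3, ← coeffMap_ev2, ← eval₂_aeval_eq_ev2, jqModC_rat, hProot, map_zero]
  · -- transcendence of `j̄`
    intro g hg
    rw [ModularCurve.coeffMap_jqModC, ← aeval_eq_ev1] at hg
    have hinj := Fermat.Agent.S28.Newton.aeval_injective_of_order
      (jqModC_ne_zero (IsLocalRing.ResidueField A)) (order_jqModC (IsLocalRing.ResidueField A))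
    exact hinj (by rw [hg, map_zero])
  · -- Newton independence over the residue field
    intro G hG hG0
    rw [hPAdeg] at hG
    rw [ModularCurve.coeffMap_jqModC] at hG0
    have h1 : coeffMap (IsLocalRing.residue A) (GaussA.uA A L)
        = coeffMap (Int.castRingHom (IsLocalRing.ResidueField A))
            (Fermat.Agent.S28.FormalU.uZ L) :=
      coeffMap_intCast_comp (IsLocalRing.residue A) _
    rw [h1, ← eval₂_aeval_eq_ev2] at hG0
    exact KappaDeg.hmin hℓ L hℓL G hG hG0

end Fermat.Agent.S18.GaussIn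

end
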