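import Mathlib
import Fermat.Agent.S18.Defs
import Fermat.Agent.S18.GaussADefs
import Fermat.Agent.S18.GaussARed
import Fermat.Agent.S18.GaussIn
import Fermat.Agent.S18.GenBar

/-!
# S18 / GaussA: the Gauss layer at level `L` (final statements)

For a prime `ℓ ∤ L` and a valuation subring `A` of `K = ℚ̄` over `ℓ` (residue field `k`):

* `GaussA.redFacts hℓ hℓL A hA : RedFacts A (Red A L)`;
* `GaussA.hint hℓ hℓL A hA` : every integral series `V ∈ A((q))` of `F_L` has its coefficientwise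
  reduction in `kappa k L`, and `Red ⟨genS A V, _⟩ ⟨redS A V, _⟩` (the `hint` of `Bridge.main`);
* `GaussA.red_j`, `GaussA.red_u` : reductions of the generators.
-/

set_option autoImplicit false
set_option synthInstance.maxHeartbeats 400000

namespace Fermat.Agent.S18.GaussA

open Polynomial ModularCurve Fermat.Agent.S28.Chart Fermat.Agent.S28.RedHyp

/-- The field-level hypotheses of the Gauss layer hold at every level `L` prime to `ℓ`. -/
theorem exists_fhyp {ℓ L : ℕ} [NeZero L] (hℓ : ℓ.Prime) (hℓL : ¬ ℓ ∣ L)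
    (A : ValuationSubring (AlgebraicClosure ℚ)) (hA : A.LiesOverPrime ℓ) :
    ∃ P : Polynomial (Polynomial A),
      FHyp A (jqModC A) (uA A L) P (modularFunctionFieldBar L)
        (kappa (IsLocalRing.ResidueField A) L) := by
  obtain ⟨P, hdeg, hG⟩ := Fermat.Agent.S18.GaussIn.exists_ghyp hℓ A hA L hℓL
  have ej : coeffMap A.subtype (jqModC A) = jqModC (AlgebraicClosure ℚ) := Fermat.Agent.S28.RedHyp.coeffMap_jqModC _
  have eu : coeffMap A.subtype (uA A L) = Fermat.Agent.S18.GenBar.uK L :=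
    coeffMap_intCast_comp A.subtype _
  have ejb : coeffMap (IsLocalRing.residue A) (jqModC A) = jqModC (IsLocalRing.ResidueField A) :=
    Fermat.Agent.S28.RedHyp.coeffMap_jqModC _
  have eub : coeffMap (IsLocalRing.residue A) (uA A L) = ub (IsLocalRing.ResidueField A) L :=
    coeffMap_intCast_comp (IsLocalRing.residue A) _
  refine ⟨P, hG, ?_, ?_, ?_, ?_⟩
  · rw [ej]
    exact Fermat.Agent.S18.GenBar.jq_mem_bar L
  · rw [eu]
    exact Fermat.Agent.S18.GenBar.uK_mem L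
  · rw [ejb, eub]
  · intro x hx
    obtain ⟨g, Q, hg, hQ, h⟩ := Fermat.Agent.S18.GenBar.exists_rep L x hx
    refine ⟨g, Q, hg, by rw [hdeg]; exact hQ, ?_⟩
    rw [ej, eu, ← aeval_eq_ev1, ← eval₂_aeval_eq_ev2]
    exact h

/-- **`RedFacts` for the Gauss reduction relation at level `L`.** -/
theorem redFacts {ℓ L : ℕ} [NeZero L] (hℓ : ℓ.Prime) (hℓL : ¬ ℓ ∣ L)
    (A : ValuationSubring (AlgebraicClosure ℚ)) (hA : A.LiesOverPrime ℓ) :
    RedFacts A (Red A L) := by
  obtain ⟨P, H⟩ := exists_fhyp hℓ hℓL A hA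
  exact H.redFacts

/-- **Integral series of `F_L` reduce coefficientwise** (the `hint` of `Bridge.main`). -/
theorem hint {ℓ L : ℕ} [NeZero L] (hℓ : ℓ.Prime) (hℓL : ¬ ℓ ∣ L)
    (A : ValuationSubring (AlgebraicClosure ℚ)) (hA : A.LiesOverPrime ℓ) :
    ∀ (V : LaurentSeries A) (hV : genS A V ∈ modularFunctionFieldBar L),
      ∃ hx : redS A V ∈ kappa (IsLocalRing.ResidueField A) L,
        Red A L ⟨genS A V, hV⟩ ⟨redS A V, hx⟩ := by
  obtain ⟨P, H⟩ := exists_fhyp hℓ hℓL A hA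
  intro V hV
  exact H.hint V hV

/-- The series of `j` is Gauss-integral with reduction `jb`. -/
theorem red_j {ℓ L : ℕ} [NeZero L] (hℓ : ℓ.Prime) (hℓL : ¬ ℓ ∣ L)
    (A : ValuationSubring (AlgebraicClosure ℚ)) (hA : A.LiesOverPrime ℓ) :
    ∃ (h1 : genS A (jqModC A) ∈ modularFunctionFieldBar L)
      (h2 : redS A (jqModC A) ∈ kappa (IsLocalRing.ResidueField A) L),
      Red A L ⟨genS A (jqModC A), h1⟩ ⟨redS A (jqModC A), h2⟩ := by
  obtain ⟨P, H⟩ := exists_fhyp hℓ hℓL A hA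
  exact ⟨H.hj, H.jb_mem, H.red_j⟩

/-- The series of the unit `u` is Gauss-integral with reduction `ub`. -/
theorem red_u {ℓ L : ℕ} [NeZero L] (hℓ : ℓ.Prime) (hℓL : ¬ ℓ ∣ L)
    (A : ValuationSubring (AlgebraicClosure ℚ)) (hA : A.LiesOverPrime ℓ) :
    ∃ (h1 : genS A (uA A L) ∈ modularFunctionFieldBar L)
      (h2 : redS A (uA A L) ∈ kappa (IsLocalRing.ResidueField A) L),
      Red A L ⟨genS A (uA A L), h1⟩ ⟨redS A (uA A L), h2⟩ := by
  obtain ⟨P, H⟩ := exists_fhyp hℓ hℓL A hA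
  exact ⟨H.hu, H.ub_mem, H.red_u⟩

end Fermat.Agent.S18.GaussA
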