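import Fermat.Agent.RR.RRFinal
import Fermat.Agent.S18.ConstPF

/-!
# S18 / GenusChar0: the genus of `X₀(N)` over `ℚ̄` in `H¹` form

`finrank_H1_zero_bar N : (finrank ℚ̄ (H1 (0 : Divisor ℚ̄ F_N)) : ℚ) = genusFormula N`, i.e. the
number `g` of `CoreDefs.ChartFacts` (`finrank K (H1 0)` of `F = modularFunctionFieldBar N`) is
the classical genus.  Also `riemannFacts_bar N : RR.RiemannFacts ℚ̄ F_N`.
-/

set_option autoImplicit false

namespace Fermat.Agent.S18.GenusChar0

open AlgebraicCurve ModularCurve KaehlerDifferential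

/-- Riemann's theorem for `F_N = modularFunctionFieldBar N` over `ℚ̄`. -/
theorem riemannFacts_bar (N : ℕ) [NeZero N] :
    Fermat.Agent.RR.RiemannFacts (AlgebraicClosure ℚ) (modularFunctionFieldBar N) :=
  Fermat.Agent.RR.riemannFacts_of_placeFacts (Fermat.Agent.S18.ConstPF.placeFacts_bar N)

/-- `dim H¹(0) = genusFormula N` for the modular function field of level `N` over `ℚ̄`. -/
theorem finrank_H1_zero_bar (N : ℕ) [NeZero N] :
    (Module.finrank (AlgebraicClosure ℚ)
      (H1 (0 : Divisor (AlgebraicClosure ℚ) (modularFunctionFieldBar N))) : ℚ)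
      = genusFormula N := by
  have hP : Fermat.Agent.RR.PlaceFacts (AlgebraicClosure ℚ) (modularFunctionFieldBar N) :=
    Fermat.Agent.S18.ConstPF.placeFacts_bar N
  obtain ⟨hω, W, hW⟩ :=
    Fermat.Agent.RR.exists_divisor_D_xgen (AlgebraicClosure ℚ) Fermat.Agent.S24.kEmb N
  have h1 := Fermat.Agent.RR.finrank_H1_zero_eq (K := AlgebraicClosure ℚ)
    (F := Fermat.Agent.S24.FK (AlgebraicClosure ℚ) N) hP _ hω W hW
  have h2 := Fermat.Agent.RR.finrank_riemannRochSpace_FK (AlgebraicClosure ℚ)
    Fermat.Agent.S24.kEmb N _ hω W hW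
  have h3 : Module.finrank (AlgebraicClosure ℚ)
      (H1 (0 : Divisor (AlgebraicClosure ℚ) (modularFunctionFieldBar N)))
      = Module.finrank (AlgebraicClosure ℚ) (riemannRochSpace W) := h1
  rw [h3]
  exact h2

/-- The genus of `F_N` as a natural number equal to the genus formula, in the integer shape
used by `ChartFacts`. -/
theorem exists_genus_bar (N : ℕ) [NeZero N] :
    ∃ g : ℕ, (g : ℚ) = genusFormula N ∧
      Module.finrank (AlgebraicClosure ℚ)
        (H1 (0 : Divisor (AlgebraicClosure ℚ) (modularFunctionFieldBar N))) = g :=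
  ⟨_, finrank_H1_zero_bar N, rfl⟩

end Fermat.Agent.S18.GenusChar0
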