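import Mathlib
import Fermat.Agent.S18.GenusLe
import Fermat.Agent.RR.RiemannFacts

/-!
# S18 / H1Van: `H¹(D) = 0` in large degree, from the place facts alone (any characteristic)
-/

set_option autoImplicit false

namespace Fermat.Agent.S18.H1Van

open AlgebraicCurve

variable {K F : Type*} [Field K] [Field F] [Algebra K F]

/-- `H¹(D)` vanishes as soon as `deg D ≥ c`. -/
theorem exists_bound (hP : Fermat.Agent.RR.PlaceFacts K F) :
    ∃ c : ℤ, ∀ D : Divisor K F, c ≤ Divisor.degree D → Module.finrank K (H1 D) = 0 :=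
  Fermat.Agent.S18.GenusLe.exists_H1_bound hP (Fermat.Agent.RR.riemannFacts_of_placeFacts hP)

end Fermat.Agent.S18.H1Van
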