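import Mathlib
import Fermat.Agent.S18.CoreRed

/-!
# S18: abstract INT (integrality is compatible with Gauss reduction)

From `RedFacts A Red`, a pair `Red g gb` with `gb` transcendental over the residue field and a
family `b` whose reductions are independent over `k(gb)` and which is large enough to span
`F / K(g)`:

* `exists_monic` : every Gauss-integral `f` is a root of a monic polynomial whose coefficients
  lie in `K(g)` and are Gauss-integral;
* `hint0` : if moreover `f` is integral over `K[g]`, its reduction is integral over `k[gb]`;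
* `hint1` : the same for `g⁻¹`, `gb⁻¹`.
-/

set_option autoImplicit false

noncomputable section

namespace Fermat.Agent.S18.Int

open Polynomial IntermediateField Fermat.Agent.S18 Fermat.Agent.S18.CoreRed

variable {K F κ : Type*} [Field K] [Field F] [Algebra K F] {A : ValuationSubring K}
  [Field κ] [Algebra (IsLocalRing.ResidueField A) κ] {Red : F → κ → Prop}

local notation "kk" => IsLocalRing.ResidueField A
local notation "res" => IsLocalRing.residue A

/-- If `y` has nonzero reduction and `t • y` is Gauss-integral then `t ∈ A`. -/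
theorem red_scalar (h : RedFacts A Red) {t : K} {y : F} {yb x : κ} (hy : Red y yb) (hyb : yb ≠ 0)
    (hx : Red (algebraMap K F t * y) x) :
    ∃ ht : t ∈ A, x = algebraMap kk κ (res ⟨t, ht⟩) * yb := by
  have ht : t ∈ A := by
    by_contra ht
    have hinv : t⁻¹ ∈ A := (A.mem_or_inv_mem t).resolve_left ht
    have hres : res (⟨t⁻¹, hinv⟩ : A) = 0 := res_eq_zero_of_inv_notMem hinv (by rwa [inv_inv])
    have ht0 : t ≠ 0 := by rintro rfl; exact ht (zero_mem _)
    have h1 := red_smul h (⟨t⁻¹, hinv⟩ : A) hx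
    rw [hres, map_zero, zero_mul, ← mul_assoc, ← map_mul] at h1
    simp only [inv_mul_cancel₀ ht0, map_one, one_mul] at h1
    exact hyb (h.unique _ _ _ hy h1)
  exact ⟨ht, h.unique _ _ _ hx (red_smul h ⟨t, ht⟩ hy)⟩

/-- Inverse of a Gauss unit. -/
theorem red_inv (h : RedFacts A Red) {f : F} {x : κ} (hf : Red f x) (hx : x ≠ 0) :
    Red f⁻¹ x⁻¹ := by
  have hf0 : f ≠ 0 := by
    rintro rfl
    exact hx (h.unique _ _ _ hf (red_zero h))
  obtain ⟨c, hc0, y, hy0, hy⟩ := h.normalize f⁻¹ (inv_ne_zero hf0)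
  have h1 : Red (algebraMap K F c * 1) (y * x) := by
    have := h.mul _ _ _ _ hy hf
    rwa [mul_assoc, inv_mul_cancel₀ hf0] at this
  obtain ⟨hc, hyx⟩ := red_scalar h h.one one_ne_zero h1
  rw [mul_one] at hyx
  have hinv : c⁻¹ ∈ A := by
    by_contra hinv
    rw [res_eq_zero_of_inv_notMem hc hinv, map_zero] at hyx
    exact mul_ne_zero hy0 hx hyx
  have h2 := red_smul h (⟨c⁻¹, hinv⟩ : A) hy
  rw [← mul_assoc, ← map_mul] at h2
  simp only [inv_mul_cancel₀ hc0, map_one, one_mul] at h2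
  have h3 : algebraMap kk κ (res (⟨c⁻¹, hinv⟩ : A)) * y = x⁻¹ := by
    apply eq_inv_of_mul_eq_one_left
    rw [mul_assoc, hyx, ← map_mul, ← map_mul]
    have : (⟨c⁻¹, hinv⟩ : A) * ⟨c, hc⟩ = 1 := by
      ext; simp [inv_mul_cancel₀ hc0]
    rw [this, map_one, map_one]
  rwa [h3] at h2

/-- The Gauss-integral elements form a valuation ring. -/
theorem red_or_inv (h : RedFacts A Red) (f : F) : (∃ x, Red f x) ∨ (∃ x, Red f⁻¹ x) := by
  by_cases hf0 : f = 0
  · left; exact ⟨0, hf0 ▸ red_zero h⟩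
  obtain ⟨c, hc0, x, hx0, hx⟩ := h.normalize f hf0
  by_cases hc : c⁻¹ ∈ A
  · left
    have h1 := red_smul h (⟨c⁻¹, hc⟩ : A) hx
    rw [← mul_assoc, ← map_mul] at h1
    simp only [inv_mul_cancel₀ hc0, map_one, one_mul] at h1
    exact ⟨_, h1⟩
  · right
    have hcA : c ∈ A := (A.mem_or_inv_mem c).resolve_right hc
    have h1 := red_smul h (⟨c, hcA⟩ : A) (red_inv h hx hx0)
    have h2 : algebraMap K F c * (algebraMap K F c * f)⁻¹ = f⁻¹ := by
      have : algebraMap K F c ≠ 0 := by simpa using hc0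
      field_simp
    rw [h2] at h1
    exact ⟨_, h1⟩

/-- The valuation ring of Gauss-integral elements. -/
def Ow (h : RedFacts A Red) : ValuationSubring F where
  carrier := {f | ∃ x, Red f x}
  mul_mem' := fun ⟨x, hx⟩ ⟨y, hy⟩ => ⟨x * y, h.mul _ _ _ _ hx hy⟩
  one_mem' := ⟨1, h.one⟩
  add_mem' := fun ⟨x, hx⟩ ⟨y, hy⟩ => ⟨x + y, h.add _ _ _ _ hx hy⟩
  zero_mem' := ⟨0, red_zero h⟩
  neg_mem' := fun ⟨x, hx⟩ => ⟨-x, red_neg h hx⟩
  mem_or_inv_mem' := red_or_inv h

theorem mem_Ow (h : RedFacts A Red) {f : F} : f ∈ Ow h ↔ ∃ x, Red f x := Iff.rfl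

/-- Reduction of a polynomial expression with coefficients in `A`. -/
theorem red_aeval (h : RedFacts A Red) {g : F} {gb : κ} (hg : Red g gb) (p : A[X]) :
    Red (aeval g (p.map A.subtype)) (aeval gb (p.map (res))) := by
  have h1 : (p.map A.subtype).natDegree < p.natDegree + 1 :=
    Nat.lt_succ_of_le natDegree_map_le
  have h2 : (p.map (res)).natDegree < p.natDegree + 1 :=
    Nat.lt_succ_of_le natDegree_map_le
  rw [aeval_eq_sum_range' h1, aeval_eq_sum_range' h2]
  refine red_sum h _ _ _ fun i _ => ?_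
  rw [coeff_map, coeff_map, Algebra.smul_def, Algebra.smul_def]
  exact red_smul h (p.coeff i) (red_pow h hg i)

/-- Every nonzero polynomial over `K` is a scalar times a polynomial over `A` with nonzero
reduction. -/
theorem exists_primitive (p : K[X]) (hp : p ≠ 0) :
    ∃ (c : K) (p₁ : A[X]), c ≠ 0 ∧ p = C c * p₁.map A.subtype ∧ p₁.map (res) ≠ 0 := by
  classical
  have hne : p.support.Nonempty := by
    rw [Finset.nonempty_iff_ne_empty, Ne, support_eq_empty]; exact hp
  obtain ⟨i₀, hi₀, hmax⟩ := Finset.exists_max_image p.support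
    (fun i => A.valuation (p.coeff i)) hne
  have hc0 : p.coeff i₀ ≠ 0 := mem_support_iff.mp hi₀
  have hdiv : ∀ i, (p.coeff i₀)⁻¹ * p.coeff i ∈ A := by
    intro i
    by_cases hi : i ∈ p.support
    · rw [← ValuationSubring.valuation_le_one_iff, map_mul, map_inv₀]
      have hpos : 0 < A.valuation (p.coeff i₀) := by
        rw [zero_lt_iff]; exact (_root_.map_ne_zero _).mpr hc0
      rw [inv_mul_le_one₀ hpos]
      exact hmax i hi
    · rw [notMem_support_iff.mp hi, mul_zero]; exact zero_mem _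
  have hl : C (p.coeff i₀)⁻¹ * p ∈ lifts A.subtype := by
    rw [lifts_iff_coeff_lifts]
    intro n
    exact ⟨⟨_, hdiv n⟩, by rw [coeff_C_mul]; rfl⟩
  obtain ⟨p₁, hp₁⟩ := hl
  have hp₁' : p₁.map A.subtype = C (p.coeff i₀)⁻¹ * p := hp₁
  refine ⟨p.coeff i₀, p₁, hc0, ?_, ?_⟩
  · rw [hp₁', ← mul_assoc, ← C_mul, mul_inv_cancel₀ hc0, C_1, one_mul]
  · intro h0
    have h1 : (p₁.map (res)).coeff i₀ = 0 := by rw [h0, coeff_zero]
    rw [coeff_map] at h1
    have h2 : p₁.coeff i₀ = 1 := by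
      apply Subtype.ext
      have h3 := congrArg (fun q => q.coeff i₀) hp₁'
      simp only [coeff_map, coeff_C_mul] at h3
      rw [inv_mul_cancel₀ hc0] at h3
      exact h3
    rw [h2, map_one] at h1
    exact one_ne_zero h1

theorem aeval_ne_zero_of_transcendental {gb : κ} (hgb : Transcendental kk gb) {q : kk[X]}
    (hq : q ≠ 0) : aeval gb q ≠ 0 :=
  fun h0 => hq (transcendental_iff.mp hgb q h0)

/-- **Gauss lemma**: a polynomial expression in `g` which is Gauss-integral has coefficients in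
`A`, and reduces coefficientwise. -/
theorem coeff_mem (h : RedFacts A Red) {g : F} {gb : κ} (hg : Red g gb)
    (hgb : Transcendental kk gb) (p : K[X]) {x : κ} (hx : Red (aeval g p) x) :
    ∃ p₁ : A[X], p₁.map A.subtype = p ∧ x = aeval gb (p₁.map (res)) := by
  by_cases hp : p = 0
  · subst hp
    refine ⟨0, by simp, ?_⟩
    rw [map_zero] at hx
    rw [Polynomial.map_zero, map_zero]
    exact h.unique _ _ _ hx (red_zero h)
  obtain ⟨c, p₁, hc0, hpe, hp₁⟩ := exists_primitive (A := A) p hp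
  have hy := red_aeval h hg p₁
  have hyb := aeval_ne_zero_of_transcendental hgb hp₁
  have hx' : Red (algebraMap K F c * aeval g (p₁.map A.subtype)) x := by
    rw [hpe, map_mul, aeval_C] at hx
    exact hx
  obtain ⟨hc, hxe⟩ := red_scalar h hy hyb hx'
  refine ⟨C ⟨c, hc⟩ * p₁, ?_, ?_⟩
  · rw [Polynomial.map_mul, map_C, hpe]; rfl
  · rw [hxe, Polynomial.map_mul, map_C, map_mul, aeval_C]

/-- `g` is transcendental over `K`. -/
theorem transcendental (h : RedFacts A Red) {g : F} {gb : κ} (hg : Red g gb)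
    (hgb : Transcendental kk gb) : Transcendental K g := by
  rw [transcendental_iff]
  intro p hp0
  by_contra hp
  obtain ⟨c, p₁, hc0, hpe, hp₁⟩ := exists_primitive (A := A) p hp
  have hy := red_aeval h hg p₁
  have hyb := aeval_ne_zero_of_transcendental hgb hp₁
  rw [hpe, map_mul, aeval_C] at hp0
  have h1 : aeval g (p₁.map A.subtype) = 0 := by
    rcases mul_eq_zero.mp hp0 with h1 | h1
    · exact absurd ((map_eq_zero _).mp h1) hc0
    · exact h1
  rw [h1] at hy
  exact hyb (h.unique _ _ _ hy (red_zero h))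

/-- The reduction of a Gauss-integral element of `K(g)` lies in `k(gb)`. -/
theorem red_mem_adjoin (h : RedFacts A Red) {g : F} {gb : κ} (hg : Red g gb)
    (hgb : Transcendental kk gb) {c : F} (hc : c ∈ K⟮g⟯) {x : κ} (hx : Red c x) :
    x ∈ kk⟮gb⟯ := by
  obtain ⟨r, s, rfl⟩ := (mem_adjoin_simple_iff K c).mp hc
  by_cases hr : r = 0
  · subst hr
    rw [map_zero, zero_div] at hx
    rw [h.unique _ _ _ hx (red_zero h)]; exact zero_mem _
  by_cases hs : s = 0
  · subst hs
    rw [map_zero, div_zero] at hx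
    rw [h.unique _ _ _ hx (red_zero h)]; exact zero_mem _
  obtain ⟨a, r₁, ha0, hre, hr₁⟩ := exists_primitive (A := A) r hr
  obtain ⟨b, s₁, hb0, hse, hs₁⟩ := exists_primitive (A := A) s hs
  have hR := red_aeval h hg r₁
  have hS := red_aeval h hg s₁
  have hRb := aeval_ne_zero_of_transcendental hgb hr₁
  have hSb := aeval_ne_zero_of_transcendental hgb hs₁
  have hq := h.mul _ _ _ _ hR (red_inv h hS hSb)
  have hx' : Red (algebraMap K F (a / b) * (aeval g (r₁.map A.subtype) *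
      (aeval g (s₁.map A.subtype))⁻¹)) x := by
    convert hx using 1
    rw [hre, hse, map_mul, map_mul, aeval_C, aeval_C, map_div₀, div_eq_mul_inv, div_eq_mul_inv,
      mul_inv]
    ring
  obtain ⟨ht, hxe⟩ := red_scalar h hq (mul_ne_zero hRb (inv_ne_zero hSb)) hx'
  rw [hxe]
  have hmem : ∀ q : kk[X], aeval gb q ∈ kk⟮gb⟯ := fun q =>
    algebra_adjoin_le_adjoin kk {gb} (aeval_mem_adjoin_singleton kk gb)
  exact mul_mem (IntermediateField.algebraMap_mem _ _) (mul_mem (hmem _) (inv_mem (hmem _)))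

/-- Pivot for a family of coefficients in `K(g)`. -/
theorem pivot (h : RedFacts A Red) {g : F} {gb : κ} (hg : Red g gb)
    (hgb : Transcendental kk gb) {n : ℕ} {b : Fin n → F} {bb : Fin n → κ}
    (hb : ∀ i, Red (b i) (bb i)) (hli : LinearIndependent kk⟮gb⟯ bb)
    (c : Fin n → F) (hc : ∀ i, c i ∈ K⟮g⟯) (i₁ : Fin n) (h₁ : c i₁ ≠ 0) :
    ∃ i₀, c i₀ ≠ 0 ∧ (∀ i, c i / c i₀ ∈ Ow h) ∧ ¬ Red ((c i₀)⁻¹ * ∑ i, c i * b i) 0 := by
  obtain ⟨i₀, h0, hdiv⟩ := exists_pivot (A := Ow h) c i₁ h₁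
  refine ⟨i₀, h0, hdiv, fun hred => ?_⟩
  choose y hy using hdiv
  have hyE : ∀ i, y i ∈ kk⟮gb⟯ := fun i =>
    red_mem_adjoin h hg hgb (div_mem (hc i) (hc i₀)) (hy i)
  have hy0 : y i₀ = 1 := h.unique _ _ _ (hy i₀) (by rw [div_self h0]; exact h.one)
  have hsum : Red (∑ i, c i / c i₀ * b i) (∑ i, y i * bb i) :=
    red_sum h _ _ _ fun i _ => h.mul _ _ _ _ (hy i) (hb i)
  have heq : (c i₀)⁻¹ * ∑ i, c i * b i = ∑ i, c i / c i₀ * b i := by
    rw [Finset.mul_sum]; exact Finset.sum_congr rfl fun i _ => by ring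
  rw [heq] at hred
  have h3 : ∑ i, (⟨y i, hyE i⟩ : kk⟮gb⟯) • bb i = 0 := h.unique _ _ _ hsum hred
  have h4 := (Fintype.linearIndependent_iff.mp hli) _ h3 i₀
  have h5 : y i₀ = 0 := congrArg Subtype.val h4
  rw [hy0] at h5
  exact one_ne_zero h5

/-- The family `b` is linearly independent over `K(g)`. -/
theorem linearIndependent_adjoin (h : RedFacts A Red) {g : F} {gb : κ} (hg : Red g gb)
    (hgb : Transcendental kk gb) {n : ℕ} {b : Fin n → F} {bb : Fin n → κ}
    (hb : ∀ i, Red (b i) (bb i)) (hli : LinearIndependent kk⟮gb⟯ bb) :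
    LinearIndependent K⟮g⟯ b := by
  rw [Fintype.linearIndependent_iff]
  intro c hc i
  by_contra hi
  obtain ⟨i₀, h0, hdiv, hnot⟩ := pivot h hg hgb hb hli (fun i => (c i : F)) (fun i => (c i).2) i
    (by simpa using hi)
  apply hnot
  have h1 : ∑ i, (c i : F) * b i = 0 := hc
  rw [h1, mul_zero]
  exact red_zero h

/-- Coefficients (in `K(g)`) of a Gauss-integral element w.r.t. `b` are Gauss-integral. -/
theorem coeff_mem_Ow (h : RedFacts A Red) {g : F} {gb : κ} (hg : Red g gb)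
    (hgb : Transcendental kk gb) {n : ℕ} {b : Fin n → F} {bb : Fin n → κ}
    (hb : ∀ i, Red (b i) (bb i)) (hli : LinearIndependent kk⟮gb⟯ bb)
    (c : Fin n → F) (hc : ∀ i, c i ∈ K⟮g⟯) {x : κ}
    (hx : Red (∑ i, c i * b i) x) (i : Fin n) : c i ∈ Ow h := by
  by_contra hi
  have hi0 : c i ≠ 0 := by
    rintro h0; rw [h0] at hi; exact hi (zero_mem _)
  obtain ⟨i₀, h0, hdiv, hnot⟩ := pivot h hg hgb hb hli c hc i hi0
  have hc0 : c i₀ ∉ Ow h := by
    intro hmem
    apply hi
    have h1 : c i = c i / c i₀ * c i₀ := by field_simp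
    rw [h1]; exact mul_mem (hdiv i) hmem
  have hinv : (c i₀)⁻¹ ∈ Ow h := ((Ow h).mem_or_inv_mem (c i₀)).resolve_left hc0
  obtain ⟨z, hz⟩ := hinv
  have hz0 : z = 0 := by
    by_contra hz0
    apply hc0
    have h1 := red_inv h hz hz0
    rw [inv_inv] at h1
    exact ⟨_, h1⟩
  subst hz0
  apply hnot
  have h1 := h.mul _ _ _ _ hz hx
  rwa [zero_mul] at h1

/-- Every Gauss-integral element is integral over the Gauss-integral elements of `K(g)`. -/
theorem isIntegral_comap (h : RedFacts A Red) {g : F} {gb : κ} (hg : Red g gb)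
    (hgb : Transcendental kk gb) {n : ℕ} {b : Fin n → F} {bb : Fin n → κ}
    (hb : ∀ i, Red (b i) (bb i)) (hli : LinearIndependent kk⟮gb⟯ bb)
    [Module.Finite K⟮g⟯ F] (hfin : Module.finrank K⟮g⟯ F ≤ n) {f : F} {x : κ}
    (hf : Red f x) : IsIntegral ((Ow h).comap (algebraMap K⟮g⟯ F)) f := by
  have hliE := linearIndependent_adjoin h hg hgb hb hli
  have hcard : Fintype.card (Fin n) = Module.finrank K⟮g⟯ F :=
    le_antisymm hliE.fintype_card_le_finrank (by simpa using hfin)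
  have hspan := hliE.span_eq_top_of_card_eq_finrank' hcard
  have hn : 0 < n := by
    have : 0 < Module.finrank K⟮g⟯ F := Module.finrank_pos
    omega
  refine isIntegral_of_smul_mem_submodule
    (Submodule.span ((Ow h).comap (algebraMap K⟮g⟯ F)) (Set.range b)) ?_
    (Submodule.fg_span (Set.finite_range b)) f ?_
  · rw [Submodule.ne_bot_iff]
    exact ⟨b ⟨0, hn⟩, Submodule.subset_span ⟨_, rfl⟩, hliE.ne_zero _⟩
  · intro y hy
    induction hy using Submodule.span_induction with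
    | mem y hy =>
      obtain ⟨i, rfl⟩ := hy
      have hmem : f * b i ∈ Submodule.span K⟮g⟯ (Set.range b) := by rw [hspan]; trivial
      obtain ⟨c, hc⟩ := (Submodule.mem_span_range_iff_exists_fun _).mp hmem
      have hc' : ∑ j, (c j : F) * b j = f * b i := hc
      have hred : Red (∑ j, (c j : F) * b j) (x * bb i) := by
        rw [hc']; exact h.mul _ _ _ _ hf (hb i)
      have hO : ∀ j, c j ∈ (Ow h).comap (algebraMap K⟮g⟯ F) := fun j =>
        coeff_mem_Ow h hg hgb hb hli (fun j => (c j : F)) (fun j => (c j).2) hred j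
      have : f • b i = ∑ j, (⟨c j, hO j⟩ : (Ow h).comap (algebraMap K⟮g⟯ F)) • b j := by
        rw [smul_eq_mul, ← hc']; rfl
      rw [this]
      exact Submodule.sum_mem _ fun j _ => Submodule.smul_mem _ _ (Submodule.subset_span ⟨j, rfl⟩)
    | zero => rw [smul_zero]; exact zero_mem _
    | add y z _ _ hy hz => rw [smul_add]; exact add_mem hy hz
    | smul r y _ hy => rw [smul_comm]; exact Submodule.smul_mem _ _ hy

/-- **(S1)** Every Gauss-integral `f` is a root of a monic polynomial whose coefficients lie in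
`K(g)` and are Gauss-integral. -/
theorem exists_monic (h : RedFacts A Red) {g : F} {gb : κ} (hg : Red g gb)
    (hgb : Transcendental kk gb) {n : ℕ} {b : Fin n → F} {bb : Fin n → κ}
    (hb : ∀ i, Red (b i) (bb i)) (hli : LinearIndependent kk⟮gb⟯ bb)
    [Module.Finite K⟮g⟯ F] (hfin : Module.finrank K⟮g⟯ F ≤ n) {f : F} {x : κ}
    (hf : Red f x) :
    ∃ p : Polynomial F, p.Monic ∧ (∀ i, p.coeff i ∈ K⟮g⟯ ∧ ∃ c, Red (p.coeff i) c) ∧
      p.eval f = 0 := by
  obtain ⟨p, hp, hpe⟩ := isIntegral_comap h hg hgb hb hli hfin hf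
  refine ⟨p.map (algebraMap _ F), hp.map _, fun i => ?_, ?_⟩
  · rw [coeff_map]
    exact ⟨((p.coeff i : (Ow h).comap (algebraMap K⟮g⟯ F)) : K⟮g⟯).2, (p.coeff i).2⟩
  · rw [eval_map]; exact hpe

open scoped IntermediateField.algebraAdjoinAdjoin in
/-- **INT**: a Gauss-integral `f` which is integral over `K[g]` reduces to an element integral
over `k[gb]`. -/
theorem hint0 (h : RedFacts A Red) {g : F} {gb : κ} (hg : Red g gb)
    (hgb : Transcendental kk gb) {n : ℕ} {b : Fin n → F} {bb : Fin n → κ}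
    (hb : ∀ i, Red (b i) (bb i)) (hli : LinearIndependent kk⟮gb⟯ bb)
    [Module.Finite K⟮g⟯ F] (hfin : Module.finrank K⟮g⟯ F ≤ n) {f : F} {x : κ}
    (hf : Red f x) (hint : IsIntegral (Algebra.adjoin K {g}) f) :
    IsIntegral (Algebra.adjoin kk {gb}) x := by
  have hO := isIntegral_comap h hg hgb hb hli hfin hf
  have e1 : minpoly K⟮g⟯ f = (minpoly ((Ow h).comap (algebraMap K⟮g⟯ F)) f).map
      (algebraMap ((Ow h).comap (algebraMap K⟮g⟯ F)) K⟮g⟯) :=
    minpoly.isIntegrallyClosed_eq_field_fractions' K⟮g⟯ hO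
  have : IsIntegrallyClosed (Algebra.adjoin K {g}) :=
    IsIntegrallyClosed.of_equiv
      (Polynomial.algEquivOfTranscendental K g (transcendental h hg hgb)).toRingEquiv
  have e2 : minpoly K⟮g⟯ f = (minpoly (Algebra.adjoin K {g}) f).map
      (algebraMap (Algebra.adjoin K {g}) K⟮g⟯) :=
    minpoly.isIntegrallyClosed_eq_field_fractions' K⟮g⟯ hint
  have hcoeff : ∀ i, ∃ y, y ∈ Algebra.adjoin kk {gb} ∧
      Red (algebraMap K⟮g⟯ F ((minpoly K⟮g⟯ f).coeff i)) y := by
    intro i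
    have h1 : algebraMap K⟮g⟯ F ((minpoly K⟮g⟯ f).coeff i) ∈ Ow h := by
      rw [e1, coeff_map]
      exact ((minpoly ((Ow h).comap (algebraMap K⟮g⟯ F)) f).coeff i).2
    have h2 : ∃ p : K[X], algebraMap K⟮g⟯ F ((minpoly K⟮g⟯ f).coeff i) = aeval g p := by
      rw [e2, coeff_map]
      have h3 : ((minpoly (Algebra.adjoin K {g}) f).coeff i : F) ∈
          (aeval g : K[X] →ₐ[K] F).range := by
        rw [← Algebra.adjoin_singleton_eq_range_aeval]
        exact ((minpoly (Algebra.adjoin K {g}) f).coeff i).2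
      obtain ⟨p, hp⟩ := h3
      exact ⟨p, hp.symm⟩
    obtain ⟨z, hz⟩ := h1
    obtain ⟨p, hp⟩ := h2
    rw [hp] at hz ⊢
    obtain ⟨p₁, -, hz1⟩ := coeff_mem h hg hgb p hz
    exact ⟨z, hz1 ▸ aeval_mem_adjoin_singleton kk gb, hz⟩
  choose y hyA hy using hcoeff
  have hfE : IsIntegral K⟮g⟯ f := hO.tower_top
  have hm : (minpoly K⟮g⟯ f).Monic := minpoly.monic hfE
  have hroot : ∑ i ∈ Finset.range ((minpoly K⟮g⟯ f).natDegree + 1),
      algebraMap K⟮g⟯ F ((minpoly K⟮g⟯ f).coeff i) * f ^ i = 0 := by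
    have h1 := minpoly.aeval K⟮g⟯ f
    rw [aeval_eq_sum_range] at h1
    simpa [Algebra.smul_def] using h1
  have hred : Red (∑ i ∈ Finset.range ((minpoly K⟮g⟯ f).natDegree + 1),
      algebraMap K⟮g⟯ F ((minpoly K⟮g⟯ f).coeff i) * f ^ i)
      (∑ i ∈ Finset.range ((minpoly K⟮g⟯ f).natDegree + 1), y i * x ^ i) :=
    red_sum h _ _ _ fun i _ => h.mul _ _ _ _ (hy i) (red_pow h hf i)
  rw [hroot] at hred
  have hzero : ∑ i ∈ Finset.range ((minpoly K⟮g⟯ f).natDegree + 1), y i * x ^ i = 0 :=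
    h.unique _ _ _ hred (red_zero h)
  have hyd : y (minpoly K⟮g⟯ f).natDegree = 1 := by
    refine h.unique _ _ _ (hy _) ?_
    rw [coeff_natDegree, hm.leadingCoeff, map_one]
    exact h.one
  have hdeg : (∑ i ∈ Finset.range (minpoly K⟮g⟯ f).natDegree,
      C (⟨y i, hyA i⟩ : Algebra.adjoin kk {gb}) * X ^ i).degree
        < ((minpoly K⟮g⟯ f).natDegree : WithBot ℕ) := by
    refine lt_of_le_of_lt (degree_sum_le _ _) ?_
    rw [Finset.sup_lt_iff (WithBot.bot_lt_coe _)]
    intro i hi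
    exact lt_of_le_of_lt (degree_C_mul_X_pow_le i _)
      (by exact_mod_cast Finset.mem_range.mp hi)
  refine ⟨X ^ (minpoly K⟮g⟯ f).natDegree + ∑ i ∈ Finset.range (minpoly K⟮g⟯ f).natDegree,
      C (⟨y i, hyA i⟩ : Algebra.adjoin kk {gb}) * X ^ i, monic_X_pow_add hdeg, ?_⟩
  rw [Finset.sum_range_succ, hyd, one_mul] at hzero
  rw [eval₂_add, eval₂_X_pow, eval₂_finsetSum, add_comm]
  rw [← hzero]
  congr 1
  refine Finset.sum_congr rfl fun i _ => ?_
  rw [eval₂_mul, eval₂_C, eval₂_X_pow]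
  rfl

theorem adjoin_inv_eq (g : F) : K⟮g⁻¹⟯ = K⟮g⟯ := by
  apply le_antisymm
  · rw [adjoin_simple_le_iff]; exact inv_mem (mem_adjoin_simple_self K g)
  · rw [adjoin_simple_le_iff]
    have := inv_mem (mem_adjoin_simple_self K g⁻¹)
    rwa [inv_inv] at this

/-- **INT** on the other chart. -/
theorem hint1 (h : RedFacts A Red) {g : F} {gb : κ} (hg : Red g gb)
    (hgb : Transcendental kk gb) {n : ℕ} {b : Fin n → F} {bb : Fin n → κ}
    (hb : ∀ i, Red (b i) (bb i)) (hli : LinearIndependent kk⟮gb⟯ bb)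
    [Module.Finite K⟮g⟯ F] (hfin : Module.finrank K⟮g⟯ F ≤ n) {f : F} {x : κ}
    (hf : Red f x) (hint : IsIntegral (Algebra.adjoin K {g⁻¹}) f) :
    IsIntegral (Algebra.adjoin kk {gb⁻¹}) x := by
  have hgb0 : gb ≠ 0 := fun h0 => hgb (h0 ▸ isAlgebraic_zero)
  have hg' : Red g⁻¹ gb⁻¹ := red_inv h hg hgb0
  have hgb' : Transcendental kk gb⁻¹ := fun ha => hgb (IsAlgebraic.inv_iff.mp ha)
  have hE : K⟮g⁻¹⟯ = K⟮g⟯ := adjoin_inv_eq g
  have hEb : kk⟮gb⁻¹⟯ = kk⟮gb⟯ := adjoin_inv_eq gb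
  have hli' : LinearIndependent kk⟮gb⁻¹⟯ bb := by rw [hEb]; exact hli
  have : Module.Finite K⟮g⁻¹⟯ F := by rw [hE]; infer_instance
  have hfin' : Module.finrank K⟮g⁻¹⟯ F ≤ n := by rw [hE]; exact hfin
  exact hint0 h hg' hgb' hb hli' hfin' hf hint

end Fermat.Agent.S18.Int

end
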