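import Mathlib
import Fermat.Agent.S24.PlacesOver

/-!
# S18 / IntReg: a function regular wherever `y` is regular is integral over `K[y]`

`isIntegral_of_regular`: `K` algebraically closed of characteristic `0`, `y ∈ F` transcendental
with `F / K(y)` finite; if `0 ≤ v.ord f` at every place `v` with `0 ≤ v.ord y`, then `f` is
integral over `K[y] = Algebra.adjoin K {y}`.

(The integral closure `B` of `K[y]` in `F` is a Dedekind domain with fraction field `F`; every
height one prime of `B` gives a place at which `y` is regular, and
`HeightOneSpectrum.mem_integers_of_valuation_le_one`.)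
-/

set_option autoImplicit false

noncomputable section

namespace Fermat.Agent.S18.IntReg

open AlgebraicCurve IntermediateField IsDedekindDomain
open scoped IntermediateField.algebraAdjoinAdjoin

universe u v

variable {K : Type u} {F : Type v} [Field K] [Field F] [Algebra K F]

set_option maxHeartbeats 400000 in
/-- Abstract form with the Dedekind instances as hypotheses (any characteristic). -/
theorem isIntegral_of_regular_aux (y : F)
    [IsDedekindDomain (integralClosure (Algebra.adjoin K {y}) F)]
    [IsFractionRing (integralClosure (Algebra.adjoin K {y}) F) F]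
    (f : F) (h : ∀ v : Place K F, 0 ≤ v.ord y → 0 ≤ v.ord f) :
    IsIntegral (Algebra.adjoin K {y}) f := by
  classical
  rcases eq_or_ne f 0 with rfl | hf0
  · exact isIntegral_zero
  have hyB : y ∈ integralClosure (Algebra.adjoin K {y}) F :=
    (integralClosure (Algebra.adjoin K {y}) F).algebraMap_mem
      ⟨y, Algebra.self_mem_adjoin_singleton K y⟩
  have hval : ∀ w : HeightOneSpectrum (integralClosure (Algebra.adjoin K {y}) F),
      w.valuation F f ≤ 1 := by
    intro w
    have hy1 : w.valuation F y ≤ 1 :=
      w.valuation_le_one (⟨y, hyB⟩ : integralClosure (Algebra.adjoin K {y}) F)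
    have hymem : y ∈ (Place.ofHeightOneSpectrum (K := K) w).toValuationSubring := by
      rw [Place.ofHeightOneSpectrum_toValuationSubring]
      exact (Valuation.mem_valuationSubring_iff _ _).mpr hy1
    have hy0 : 0 ≤ (Place.ofHeightOneSpectrum (K := K) w).ord y :=
      Fermat.Agent.S24.PlacesOver.ord_nonneg_of_mem _ hymem
    have hf := h _ hy0
    rw [Fermat.Agent.S24.PlacesOver.ord_ofHeightOneSpectrum] at hf
    have hne : w.valuation F f ≠ 0 := (Valuation.ne_zero_iff _).mpr hf0
    have hlog : WithZero.log (w.valuation F f) ≤ 0 := by omega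
    rw [← WithZero.exp_log hne, ← WithZero.exp_zero]
    exact WithZero.exp_le_exp.mpr hlog
  obtain ⟨b, hb⟩ := HeightOneSpectrum.mem_integers_of_valuation_le_one F f hval
  rw [← hb]
  exact b.2

/-- A function regular at every place where `y` is regular is integral over `K[y]`. -/
theorem isIntegral_of_regular [IsAlgClosed K] [CharZero K] (y : F) (hy : Transcendental K y)
    [FiniteDimensional K⟮y⟯ F] (f : F)
    (h : ∀ v : Place K F, 0 ≤ v.ord y → 0 ≤ v.ord f) :
    IsIntegral (Algebra.adjoin K {y}) f := by
  have := Fermat.Agent.S24.PlacesOver.isPrincipalIdealRing_adjoin y hy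
  have : CharZero F := charZero_of_injective_algebraMap (algebraMap K F).injective
  have : Algebra.IsSeparable K⟮y⟯ F := inferInstance
  have : IsDedekindDomain (integralClosure (Algebra.adjoin K {y}) F) :=
    integralClosure.isDedekindDomain (Algebra.adjoin K {y}) K⟮y⟯ F
  have : IsFractionRing (integralClosure (Algebra.adjoin K {y}) F) F :=
    integralClosure.isFractionRing_of_finite_extension K⟮y⟯ F
  exact isIntegral_of_regular_aux y f h

/-- The same with a separability hypothesis instead of characteristic `0`. -/
theorem isIntegral_of_regular_of_sep (y : F) (hy : Transcendental K y)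
    [FiniteDimensional K⟮y⟯ F] [Algebra.IsSeparable K⟮y⟯ F] (f : F)
    (h : ∀ v : Place K F, 0 ≤ v.ord y → 0 ≤ v.ord f) :
    IsIntegral (Algebra.adjoin K {y}) f := by
  have := Fermat.Agent.S24.PlacesOver.isPrincipalIdealRing_adjoin y hy
  have : IsDedekindDomain (integralClosure (Algebra.adjoin K {y}) F) :=
    integralClosure.isDedekindDomain (Algebra.adjoin K {y}) K⟮y⟯ F
  have : IsFractionRing (integralClosure (Algebra.adjoin K {y}) F) F :=
    integralClosure.isFractionRing_of_finite_extension K⟮y⟯ F
  exact isIntegral_of_regular_aux y f h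

/-- Converse (any field, no hypotheses): an element integral over `K[y]` is regular wherever
`y` is. -/
theorem ord_nonneg_of_isIntegral (y : F) (f : F) (hf : IsIntegral (Algebra.adjoin K {y}) f)
    (v : Place K F) (hv : 0 ≤ v.ord y) : 0 ≤ v.ord f :=
  Fermat.Agent.S24.PlacesOver.ord_nonneg_of_mem v
    (Fermat.Agent.S24.PlacesOver.integralClosure_mem_of_mem v y
      (Fermat.Agent.S24.PlacesOver.mem_of_ord_nonneg v hv) ⟨f, hf⟩)

end Fermat.Agent.S18.IntReg

end
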