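import Fermat.Agent.S18.GaussADefs
import Fermat.Agent.S18.KappaDeg
import Fermat.Agent.S18.SepPF
import Fermat.Agent.S18.ResField

/-!
# S18 / KappaPF: the residue function field `kappa k L = k(j̄, ū_L)` is a function field

For a prime `ℓ ∤ L` and a field `k` of characteristic `ℓ` (algebraically closed for the place
statements), the field `GaussA.kappa k L = k(j̄, ū_L) ⊆ k((q))` is finite separable of degree
`ψ(L)` over `k(j̄)`, so it satisfies `RR.PlaceFacts` and `RR.RiemannFacts`.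

This is a thin composition of `KappaDeg` (degree), `SepPF` (separability by the derivation
`q d/dq` and `PlaceFactsP`), stated for the literal terms `GaussA.kappa k L`, `GaussA.jbE k L`,
`GaussA.ubE k L`, and for `k` the residue field of a valuation subring of `ℚ̄` over `ℓ`.
-/

set_option autoImplicit false
set_option synthInstance.maxHeartbeats 400000

noncomputable section

namespace Fermat.Agent.S18.KappaPF

open IntermediateField AlgebraicCurve ModularCurve

section Field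

variable {k : Type*} [Field k] {ℓ : ℕ}

theorem coe_jbE (L : ℕ) :
    ((GaussA.jbE k L : GaussA.kappa k L) : LaurentSeries k) = jqModC k := rfl

theorem coe_ubE (L : ℕ) :
    ((GaussA.ubE k L : GaussA.kappa k L) : LaurentSeries k) = GaussA.ub k L := rfl

/-- `j̄` is transcendental over `k` in `kappa k L` (any field `k`, any `L`). -/
theorem transcendental_jbE (L : ℕ) : Transcendental k (GaussA.jbE k L) :=
  SepPF.transcendental_of_coe_eq (GaussA.kappa k L) (GaussA.jbE k L) rfl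

theorem jbE_ne_zero (L : ℕ) : GaussA.jbE k L ≠ 0 := by
  intro h
  exact transcendental_jbE (k := k) L (h ▸ isAlgebraic_zero)

/-- `kappa k L` is finite over `k(j̄)`. -/
theorem finiteDimensional_kappa (hl : ℓ.Prime) [CharP k ℓ] (L : ℕ) [NeZero L] (hL : ¬ ℓ ∣ L) :
    FiniteDimensional ↥k⟮GaussA.jbE k L⟯ ↥(GaussA.kappa k L) :=
  KappaDeg.finiteDimensional hl L hL (GaussA.jbE k L) rfl

/-- `[kappa k L : k(j̄)] = ψ(L)`. -/
theorem finrank_kappa (hl : ℓ.Prime) [CharP k ℓ] (L : ℕ) [NeZero L] (hL : ¬ ℓ ∣ L) :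
    Module.finrank ↥k⟮GaussA.jbE k L⟯ ↥(GaussA.kappa k L) = dedekindPsi L :=
  KappaDeg.finrank_eq hl L hL (GaussA.jbE k L) rfl

/-- `1, ū, …, ū^(ψ-1)` are linearly independent over `k(j̄)`. -/
theorem linearIndependent_ubE_pow (hl : ℓ.Prime) [CharP k ℓ] (L : ℕ) [NeZero L]
    (hL : ¬ ℓ ∣ L) :
    LinearIndependent ↥k⟮GaussA.jbE k L⟯
      (fun i : Fin (dedekindPsi L) => GaussA.ubE k L ^ (i : ℕ)) :=
  KappaDeg.linearIndependent_pow hl L hL (GaussA.jbE k L) (GaussA.ubE k L) rfl rfl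

/-- `kappa k L / k(j̄)` is separable (`k` perfect of characteristic `ℓ ∤ L`). -/
theorem isSeparable_kappa [PerfectField k] (hl : ℓ.Prime) [CharP k ℓ] (L : ℕ) [NeZero L]
    (hL : ¬ ℓ ∣ L) : Algebra.IsSeparable ↥k⟮GaussA.jbE k L⟯ ↥(GaussA.kappa k L) := by
  have hfd := finiteDimensional_kappa (k := k) hl L hL
  exact SepPF.algebra_isSeparable_jb (GaussA.kappa k L) (GaussA.jbE k L) rfl

/-- **`PlaceFacts` for `kappa k L`** (`k` algebraically closed of characteristic `ℓ ∤ L`). -/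
theorem placeFacts_kappa [IsAlgClosed k] (hl : ℓ.Prime) [CharP k ℓ] (L : ℕ) [NeZero L]
    (hL : ¬ ℓ ∣ L) : Fermat.Agent.RR.PlaceFacts k ↥(GaussA.kappa k L) := by
  have hfd := finiteDimensional_kappa (k := k) hl L hL
  exact SepPF.placeFacts_of_finite (GaussA.kappa k L) (GaussA.jbE k L) rfl

/-- **`RiemannFacts` for `kappa k L`**. -/
theorem riemannFacts_kappa [IsAlgClosed k] (hl : ℓ.Prime) [CharP k ℓ] (L : ℕ) [NeZero L]
    (hL : ¬ ℓ ∣ L) : Fermat.Agent.RR.RiemannFacts k ↥(GaussA.kappa k L) := by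
  have hfd := finiteDimensional_kappa (k := k) hl L hL
  exact SepPF.riemannFacts_of_finite (GaussA.kappa k L) (GaussA.jbE k L) rfl

end Field

section Res

variable (A : ValuationSubring (AlgebraicClosure ℚ)) {ℓ : ℕ}

local notation3 "𝕜" => IsLocalRing.ResidueField A

/-- `kappa 𝕜 L` is finite over `𝕜(j̄)` for the residue field `𝕜` of `A` over `ℓ ∤ L`. -/
theorem finiteDimensional_res (hl : ℓ.Prime) (hA : A.LiesOverPrime ℓ) (L : ℕ) [NeZero L]
    (hL : ¬ ℓ ∣ L) : FiniteDimensional ↥𝕜⟮GaussA.jbE 𝕜 L⟯ ↥(GaussA.kappa 𝕜 L) := by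
  have hchar : CharP 𝕜 ℓ := ResField.charP A hl hA
  exact finiteDimensional_kappa hl L hL

/-- `[kappa 𝕜 L : 𝕜(j̄)] = ψ(L)`. -/
theorem finrank_res (hl : ℓ.Prime) (hA : A.LiesOverPrime ℓ) (L : ℕ) [NeZero L]
    (hL : ¬ ℓ ∣ L) :
    Module.finrank ↥𝕜⟮GaussA.jbE 𝕜 L⟯ ↥(GaussA.kappa 𝕜 L) = dedekindPsi L := by
  have hchar : CharP 𝕜 ℓ := ResField.charP A hl hA
  exact finrank_kappa hl L hL

/-- `kappa 𝕜 L / 𝕜(j̄)` is separable. -/
theorem isSeparable_res (hl : ℓ.Prime) (hA : A.LiesOverPrime ℓ) (L : ℕ) [NeZero L]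
    (hL : ¬ ℓ ∣ L) : Algebra.IsSeparable ↥𝕜⟮GaussA.jbE 𝕜 L⟯ ↥(GaussA.kappa 𝕜 L) := by
  have hchar : CharP 𝕜 ℓ := ResField.charP A hl hA
  have hk : IsAlgClosed 𝕜 := ResField.isAlgClosed A
  exact isSeparable_kappa hl L hL

/-- **`PlaceFacts` for the residue function field at level `L`** (`ℓ ∤ L`). -/
theorem placeFacts_res (hl : ℓ.Prime) (hA : A.LiesOverPrime ℓ) (L : ℕ) [NeZero L]
    (hL : ¬ ℓ ∣ L) : Fermat.Agent.RR.PlaceFacts 𝕜 ↥(GaussA.kappa 𝕜 L) := by
  have hchar : CharP 𝕜 ℓ := ResField.charP A hl hA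
  have hk : IsAlgClosed 𝕜 := ResField.isAlgClosed A
  exact placeFacts_kappa hl L hL

/-- **`RiemannFacts` for the residue function field at level `L`** (`ℓ ∤ L`). -/
theorem riemannFacts_res (hl : ℓ.Prime) (hA : A.LiesOverPrime ℓ) (L : ℕ) [NeZero L]
    (hL : ¬ ℓ ∣ L) : Fermat.Agent.RR.RiemannFacts 𝕜 ↥(GaussA.kappa 𝕜 L) := by
  have hchar : CharP 𝕜 ℓ := ResField.charP A hl hA
  have hk : IsAlgClosed 𝕜 := ResField.isAlgClosed A
  exact riemannFacts_kappa hl L hL

end Res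

end Fermat.Agent.S18.KappaPF

end
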