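import Fermat.Agent.S18.GaussQ
import Fermat.Agent.S18.HKappa
import Fermat.Agent.S18.Close

/-!
# S18 / LayerQ : the Gauss layer `Close.Layer A L` from `GaussQ` + `HKappa`

For `ℓ` prime, `ℓ ∤ L`, `A` a valuation subring of `AlgebraicClosure ℚ` over `ℓ`, the relation
`GaussQ.RedQ A L (GaussA.kappa k L)` is a Gauss layer at level `L` (`layer`); hence `MainStmt`
(`mainStmt`).
-/

set_option autoImplicit false
set_option synthInstance.maxHeartbeats 400000

noncomputable section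

namespace Fermat.Agent.S18.LayerQ

open ModularCurve Fermat.Agent.S18

/-- The Gauss layer at level `L`, `ℓ ∤ L`. -/
theorem layer {ℓ L : ℕ} [NeZero L] (hℓ : ℓ.Prime) (hℓL : ¬ ℓ ∣ L)
    (A : ValuationSubring (AlgebraicClosure ℚ)) (hA : A.LiesOverPrime ℓ) : Close.Layer A L :=
  ⟨GaussQ.RedQ A L (GaussA.kappa (IsLocalRing.ResidueField A) L),
    GaussQ.redFacts (HKappa.main hℓ hℓL A hA), GaussQ.hint (HKappa.main hℓ hℓL A hA)⟩

/-- The statement S18 for fixed `ℓ`, `A`, `N`. -/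
theorem mainStmt {ℓ N : ℕ} [NeZero N] (hℓ : ℓ.Prime) (hℓN : ¬ ℓ ∣ N)
    (A : ValuationSubring (AlgebraicClosure ℚ)) (hA : A.LiesOverPrime ℓ) : MainStmt ℓ A N :=
  Close.main hℓ hℓN A hA (layer hℓ (LevelNum.not_dvd_M0 hℓ) A hA)
    (layer hℓ (LevelNum.not_dvd_levelM hℓ hℓN) A hA)

end Fermat.Agent.S18.LayerQ

end
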