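import Mathlib

/-!
# S18 / NT: the norm trick

If `u ∈ F` becomes a `d`-th power in a finite extension `F'` of degree prime to `d`, then `u` is
a `d`-th power in `F`.
-/

set_option autoImplicit false

namespace Fermat.Agent.S18.NT

/-- **NT.** `u = h ^ d` in `F'`, `gcd([F' : F], d) = 1` ⟹ `u ∈ F ^ d`. -/
theorem main {F F' : Type*} [Field F] [Field F'] [Algebra F F'] [FiniteDimensional F F']
    (d : ℕ) (hcop : Nat.Coprime (Module.finrank F F') d) (u : F) (h : F')
    (hh : h ^ d = algebraMap F F' u) : ∃ g : F, g ^ d = u := by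
  rcases Nat.eq_zero_or_pos d with hd | hd
  · subst hd
    refine ⟨1, ?_⟩
    rw [pow_zero] at hh ⊢
    apply (algebraMap F F').injective
    rw [map_one, hh]
  by_cases hu : u = 0
  · exact ⟨0, by rw [hu, zero_pow hd.ne']⟩
  set n := Module.finrank F F' with hn
  set ν : F := Algebra.norm F h with hν
  have h1 : ν ^ d = u ^ n := by
    rw [hν, ← map_pow, hh, Algebra.norm_algebraMap]
  have hh0 : h ≠ 0 := by
    intro h0
    rw [h0, zero_pow hd.ne'] at hh
    exact hu ((algebraMap F F').injective (by rw [map_zero, ← hh]))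
  have hν0 : ν ≠ 0 := by
    rw [hν, Algebra.norm_ne_zero_iff]
    exact hh0
  -- Bezout
  have hb : (n : ℤ) * Nat.gcdA n d + (d : ℤ) * Nat.gcdB n d = 1 := by
    have := Nat.gcd_eq_gcd_ab n d
    rw [hcop.gcd_eq_one] at this
    exact_mod_cast this.symm
  refine ⟨ν ^ (Nat.gcdA n d) * u ^ (Nat.gcdB n d), ?_⟩
  have h2 : (ν ^ (Nat.gcdA n d) * u ^ (Nat.gcdB n d)) ^ d
      = u ^ ((n : ℤ) * Nat.gcdA n d + (d : ℤ) * Nat.gcdB n d) := by
    rw [mul_pow, ← zpow_natCast (ν ^ Nat.gcdA n d) d, ← zpow_mul, mul_comm (Nat.gcdA n d) (d : ℤ),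
      zpow_mul, zpow_natCast, h1, ← zpow_natCast u n, ← zpow_mul,
      ← zpow_natCast (u ^ Nat.gcdB n d) d, ← zpow_mul, mul_comm (Nat.gcdB n d) (d : ℤ),
      ← zpow_add₀ hu]
  rw [h2, hb, zpow_one]

/-- **NT** for intermediate fields `E ≤ E'` of an extension `L / K`. -/
theorem main_intermediate {K L : Type*} [Field K] [Field L] [Algebra K L]
    (E E' : IntermediateField K L) (hle : E ≤ E')
    (hfin : letI := (IntermediateField.inclusion hle).toRingHom.toAlgebra
      FiniteDimensional E E')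
    (d : ℕ)
    (hcop : letI := (IntermediateField.inclusion hle).toRingHom.toAlgebra
      Nat.Coprime (Module.finrank E E') d)
    (u : L) (hu : u ∈ E) (h : L) (hhE : h ∈ E') (hh : h ^ d = u) :
    ∃ g ∈ E, g ^ d = u := by
  let _ := (IntermediateField.inclusion hle).toRingHom.toAlgebra
  have : FiniteDimensional E E' := hfin
  obtain ⟨g, hg⟩ := main (F := E) (F' := E') d hcop ⟨u, hu⟩ ⟨h, hhE⟩ (by
    apply Subtype.ext
    show (h ^ d : L) = u
    exact hh)
  exact ⟨g, g.2, by
    have := congrArg Subtype.val hg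
    simpa using this⟩

end Fermat.Agent.S18.NT

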