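import Fermat.Agent.S18.Defs
import Fermat.Agent.S18.CoreDefs
import Fermat.Agent.S18.Descent
import Fermat.Agent.S18.Bridge
import Fermat.Agent.S18.Extract
import Fermat.Agent.S18.LevelNum

/-!
# S18: final wiring (all package outputs as hypotheses)

`Pre.main`: constants at level `N` in characteristic `ℓ`, restriction of places and descent of
roots along `F_N ⊆ F_M` (`M = lcm(M0 ℓ, N)`), and the abstract core statement for a Gauss layer
at level `M` give the statement S18.
-/

set_option autoImplicit false
set_option synthInstance.maxHeartbeats 400000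

noncomputable section

namespace Fermat.Agent.S18.Pre

open AlgebraicCurve ModularCurve Fermat.Agent.S18

theorem main {ℓ N : ℕ} [NeZero N] (hℓ : ℓ.Prime) (A : ValuationSubring (AlgebraicClosure ℚ))
    (hA : A.LiesOverPrime ℓ)
    (hC : ConstStmt A N)
    (hRes : RestrictStmt N (LevelNum.levelM ℓ N))
    (hRoot : RootDescentStmt ℓ A N (LevelNum.levelM ℓ N))
    (κ : IntermediateField (IsLocalRing.ResidueField A)
      (LaurentSeries (IsLocalRing.ResidueField A)))
    (Red : modularFunctionFieldBar (LevelNum.levelM ℓ N) → κ → Prop)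
    (hR : RedFacts A Red)
    (hint : ∀ (V : LaurentSeries A)
      (hV : genS A V ∈ modularFunctionFieldBar (LevelNum.levelM ℓ N)),
      ∃ hx : redS A V ∈ κ, Red ⟨genS A V, hV⟩ ⟨redS A V, hx⟩)
    (hcore : CoreStmt A Red) : MainStmt ℓ A N :=
  Extract.main hℓ A hC
    (Descent.main (NeZero.ne N) (LevelNum.levelM_ne_zero ℓ N (NeZero.ne N))
      (LevelNum.dvd_levelM ℓ N) A (Bridge.main hℓ A hA κ Red hR hint hcore) hRes hRoot)

end Fermat.Agent.S18.Pre

end
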