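import Fermat.Agent.RR.ResFunctional
import Fermat.Agent.RR.RiemannFacts

/-!
# S18: degree bound for divisors below `div (dt)` (any characteristic, no finiteness needed)

Let `F / K` be a function field with the place facts, `t : F` with `D t` spanning `Ω[F⁄K]`
(i.e. `F / K(t)` separable).  For **every** divisor `E` with `E v ≤ ord_v (dt)` at all places,

`deg E ≤ 2 g - 2`,  `g = dim H¹(0)`.

No canonical divisor is needed (in characteristic `ℓ` the finiteness of the support of
`v ↦ ord_v (dt)` is not available a priori).  Proof: the residue functional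
`θ α = ∑_v res_v (α_v dt)` kills the principal adeles and `A(E)`, and `θ ≠ 0`; hence
`H¹(E) ≠ 0`, and `x ↦ θ (x · -)` embeds `L(E)` into the dual of `H¹(0)`.  Riemann's theorem
finishes.
-/

set_option autoImplicit false

noncomputable section

namespace Fermat.Agent.S18.RHDeg

open AlgebraicCurve KaehlerDifferential IntermediateField Fermat.Agent.RR

variable {K F : Type*} [Field K] [Field F] [Algebra K F]

/-- There is at least one place. -/
theorem nonempty_place_of (hP : PlaceFacts K F) : Nonempty (Place K F) := by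
  obtain ⟨x, hx⟩ := hP.htr
  have hfd : FiniteDimensional K⟮x⟯ F := hP.hfd x hx
  have hxinv : Transcendental K x⁻¹ := Fermat.Agent.S24.Principal.transcendental_inv hx
  have hpole : ∑ᶠ v ∈ {v : Place K F | 0 < v.ord x⁻¹}, v.ord x⁻¹ =
      (Module.finrank K⟮x⟯ F : ℤ) := by
    have h := hP.hsum x⁻¹ hxinv
    rw [Fermat.Agent.S24.Principal.adjoin_inv_eq] at h
    exact h
  exact nonempty_place x hfd hpole

/-- The residue functional of `dt` kills the principal adeles (residue theorem). -/
theorem theta_diag (hP : PlaceFacts K F) (t f : F) :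
    WeilDiff.theta hP 1 t (diagRep K F f) = 0 := by
  have hR : RiemannFacts K F := riemannFacts_of_placeFacts hP
  rw [WeilDiff.theta_apply]
  exact sum_tres_eq_zero placeSub (fun _ _ => Iff.rfl)
    (fun v f => almostStable_mulLeft v (hP.hres v) f) (WeilDiff.finite_not_mem hP)
    (hR.finite_L 0) (hR.finite_H1 0) (f * 1) t

/-- The residue functional of `dt` kills `A(E)` for every divisor `E` below `div (dt)`. -/
theorem theta_eq_zero_of_mem (hP : PlaceFacts K F) (t : F)
    (hspan : Submodule.span F {(D K F t : Ω[F⁄K])} = ⊤) (E : Divisor K F)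
    (hE : ∀ v : Place K F, E v ≤ v.ordDifferential (D K F t))
    (α : ↥(repartitions K F)) (hα : α ∈ repartitionsOf E) :
    WeilDiff.theta hP 1 t α = 0 := by
  rw [WeilDiff.theta_apply]
  refine finsum_eq_zero_of_forall_eq_zero fun v => ?_
  rcases mem_repartitionsOf_iff.mp hα v with h0 | h0
  · rw [h0, zero_mul]
    exact lres_zero_left v (hP.hres v) t
  · by_cases hαv : (α : Place K F → F) v = 0
    · rw [hαv, zero_mul]
      exact lres_zero_left v (hP.hres v) t
    · refine lres_eq_zero_of_ord' v (hP.hres v) t hspan _ (mul_ne_zero hαv one_ne_zero) ?_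
      rw [mul_one]
      have := hE v
      linarith

/-- The residue functional of `dt` is not zero. -/
theorem exists_theta_ne_zero (hP : PlaceFacts K F) (t : F)
    (hspan : Submodule.span F {(D K F t : Ω[F⁄K])} = ⊤) :
    ∃ α : ↥(repartitions K F), WeilDiff.theta hP 1 t α ≠ 0 := by
  obtain ⟨v⟩ := nonempty_place_of hP
  obtain ⟨f₀, _, _, hone⟩ := exists_lres_eq_one' v (hP.hres v) t hspan
  refine ⟨singleRep v f₀, ?_⟩
  rw [WeilDiff.theta_apply, finsum_eq_single _ v, singleRep_apply_self, mul_one, hone]
  · exact one_ne_zero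
  · intro w hwv
    rw [singleRep_apply_of_ne hwv, zero_mul]
    exact lres_zero_left w (hP.hres w) t

/-- `x ↦ θ (x · -)`, `K`-linear in `x`. -/
def twist (hP : PlaceFacts K F) (t : F) : F →ₗ[K] Module.Dual K ↥(repartitions K F) where
  toFun x := (WeilDiff.theta hP 1 t).comp (mulRep K F x)
  map_add' x y := by
    ext α
    simp only [LinearMap.comp_apply, LinearMap.add_apply, map_add]
  map_smul' c x := by
    ext α
    simp only [LinearMap.comp_apply, LinearMap.smul_apply, map_smul, RingHom.id_apply]

theorem twist_apply (hP : PlaceFacts K F) (t x : F) (α : ↥(repartitions K F)) :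
    twist hP t x α = WeilDiff.theta hP 1 t (mulRep K F x α) := rfl

/-- `x ↦ θ (x · -)` is injective. -/
theorem twist_injective (hP : PlaceFacts K F) (t : F)
    (hspan : Submodule.span F {(D K F t : Ω[F⁄K])} = ⊤) :
    Function.Injective (twist hP t) := by
  rw [injective_iff_map_eq_zero]
  intro x hx
  by_contra hx0
  obtain ⟨α, hα⟩ := exists_theta_ne_zero hP t hspan
  apply hα
  have h1 : mulRep K F x (mulRep K F x⁻¹ α) = α := by
    rw [← Module.End.mul_apply, ← map_mul, mul_inv_cancel₀ hx0, map_one, Module.End.one_apply]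
  have h2 := congrArg (fun φ : Module.Dual K ↥(repartitions K F) => φ (mulRep K F x⁻¹ α)) hx
  simp only [twist_apply, h1, LinearMap.zero_apply] at h2
  exact h2

/-- For `x ∈ L(E)`, the functional `θ (x · -)` kills `A(0) + F`. -/
theorem twist_mem_dualAnnihilator (hP : PlaceFacts K F) (t : F)
    (hspan : Submodule.span F {(D K F t : Ω[F⁄K])} = ⊤) (E : Divisor K F)
    (hE : ∀ v : Place K F, E v ≤ v.ordDifferential (D K F t))
    (x : F) (hx : x ∈ riemannRochSpace E) :
    twist hP t x ∈
      (repartitionsOf (0 : Divisor K F) ⊔ principalRepartitions K F).dualAnnihilator := by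
  rw [Submodule.mem_dualAnnihilator]
  intro β hβ
  obtain ⟨α, hα, γ, hγ, rfl⟩ := Submodule.mem_sup.mp hβ
  rw [map_add]
  have h1 : twist hP t x α = 0 := by
    rw [twist_apply]
    refine theta_eq_zero_of_mem hP t hspan E hE _ ?_
    rw [mem_repartitionsOf_iff]
    intro v
    rw [mulRep_apply]
    rcases mem_riemannRochSpace_iff.mp hx v with hx0 | hxv
    · left; rw [hx0, zero_mul]
    · rcases mem_repartitionsOf_iff.mp hα v with hα0 | hαv
      · left; rw [hα0, mul_zero]
      · by_cases hx0 : x = 0
        · left; rw [hx0, zero_mul]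
        by_cases hα0 : (α : Place K F → F) v = 0
        · left; rw [hα0, mul_zero]
        right
        rw [v.ord_mul hx0 hα0]
        have h0 : (0 : Divisor K F) v = 0 := rfl
        rw [h0, neg_zero] at hαv
        linarith
  have h2 : twist hP t x γ = 0 := by
    obtain ⟨f, hf⟩ := mem_principalRepartitions_iff.mp hγ
    have hγ' : mulRep K F x γ = diagRep K F (x * f) := by
      apply Subtype.ext
      funext v
      rw [mulRep_apply, hf, diagRep_apply]
    rw [twist_apply, hγ']
    exact theta_diag hP t (x * f)
  rw [h1, h2, add_zero]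

/-- `dim L(E) ≤ dim H¹(0)` for every divisor `E` below `div (dt)`. -/
theorem finrank_L_le (hP : PlaceFacts K F) (t : F)
    (hspan : Submodule.span F {(D K F t : Ω[F⁄K])} = ⊤) (E : Divisor K F)
    (hE : ∀ v : Place K F, E v ≤ v.ordDifferential (D K F t)) :
    Module.finrank K (riemannRochSpace E) ≤ Module.finrank K (H1 (0 : Divisor K F)) := by
  have hR : RiemannFacts K F := riemannFacts_of_placeFacts hP
  have hfin : Module.Finite K (H1 (0 : Divisor K F)) := hR.finite_H1 0
  set p : Submodule K ↥(repartitions K F) :=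
    repartitionsOf (0 : Divisor K F) ⊔ principalRepartitions K F with hp
  let Φ : ↥(riemannRochSpace E) →ₗ[K] ↥p.dualAnnihilator :=
    ((twist hP t).comp (riemannRochSpace E).subtype).codRestrict p.dualAnnihilator
      (fun x => twist_mem_dualAnnihilator hP t hspan E hE x.1 x.2)
  have hΦ : Function.Injective Φ := by
    intro x y hxy
    have h1 : twist hP t x.1 = twist hP t y.1 := congrArg Subtype.val hxy
    exact Subtype.ext (twist_injective hP t hspan h1)
  let e : Module.Dual K (↥(repartitions K F) ⧸ p) ≃ₗ[K] ↥p.dualAnnihilator :=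
    Submodule.dualQuotEquivDualAnnihilator p
  have hfin2 : Module.Finite K (Module.Dual K (↥(repartitions K F) ⧸ p)) := by
    have : Module.Finite K (↥(repartitions K F) ⧸ p) := hfin
    infer_instance
  have hfin3 : Module.Finite K ↥p.dualAnnihilator := Module.Finite.equiv e
  calc Module.finrank K (riemannRochSpace E)
      ≤ Module.finrank K ↥p.dualAnnihilator := LinearMap.finrank_le_finrank_of_injective hΦ
    _ = Module.finrank K (Module.Dual K (↥(repartitions K F) ⧸ p)) := e.finrank_eq.symm
    _ = Module.finrank K (↥(repartitions K F) ⧸ p) := by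
        have : Module.Finite K (↥(repartitions K F) ⧸ p) := hfin
        exact Subspace.dual_finrank_eq
    _ = Module.finrank K (H1 (0 : Divisor K F)) := rfl

/-- `H¹(E) ≠ 0` for every divisor `E` below `div (dt)`. -/
theorem finrank_H1_pos (hP : PlaceFacts K F) (t : F)
    (hspan : Submodule.span F {(D K F t : Ω[F⁄K])} = ⊤) (E : Divisor K F)
    (hE : ∀ v : Place K F, E v ≤ v.ordDifferential (D K F t)) :
    0 < Module.finrank K (H1 E) := by
  have hR : RiemannFacts K F := riemannFacts_of_placeFacts hP
  have hfin : Module.Finite K (H1 E) := hR.finite_H1 E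
  set p : Submodule K ↥(repartitions K F) :=
    repartitionsOf E ⊔ principalRepartitions K F with hp
  have hle : p ≤ LinearMap.ker (WeilDiff.theta hP 1 t) := by
    rw [hp, sup_le_iff]
    refine ⟨fun α hα => ?_, fun γ hγ => ?_⟩
    · exact LinearMap.mem_ker.mpr (theta_eq_zero_of_mem hP t hspan E hE α hα)
    · obtain ⟨f, hf⟩ := mem_principalRepartitions_iff.mp hγ
      have hγ' : γ = diagRep K F f := Subtype.ext (by rw [hf]; rfl)
      rw [LinearMap.mem_ker, hγ']
      exact theta_diag hP t f
  obtain ⟨α, hα⟩ := exists_theta_ne_zero hP t hspan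
  have hne : (Submodule.Quotient.mk α : ↥(repartitions K F) ⧸ p) ≠ 0 := by
    intro h0
    rw [Submodule.Quotient.mk_eq_zero] at h0
    exact hα (LinearMap.mem_ker.mp (hle h0))
  have hnt : Nontrivial (H1 E) := ⟨⟨_, _, hne⟩⟩
  exact Module.finrank_pos

/-- **Degree bound.**  Every divisor `E` with `E v ≤ ord_v (dt)` for all places `v` has degree
at most `2 g - 2`, `g = dim H¹(0)`.  (Any characteristic; `D t` spans `Ω[F⁄K]`.) -/
theorem degree_le (hP : PlaceFacts K F) (t : F)
    (hspan : Submodule.span F {(D K F t : Ω[F⁄K])} = ⊤) (E : Divisor K F)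
    (hE : ∀ v : Place K F, E v ≤ v.ordDifferential (D K F t)) :
    Divisor.degree E ≤ 2 * (Module.finrank K (H1 (0 : Divisor K F)) : ℤ) - 2 := by
  have hR : RiemannFacts K F := riemannFacts_of_placeFacts hP
  have h1 := finrank_L_le hP t hspan E hE
  have h2 := finrank_H1_pos hP t hspan E hE
  have h3 := hR.riemann E
  have h1' : (Module.finrank K (riemannRochSpace E) : ℤ)
      ≤ (Module.finrank K (H1 (0 : Divisor K F)) : ℤ) := by exact_mod_cast h1
  have h2' : (1 : ℤ) ≤ (Module.finrank K (H1 E) : ℤ) := by exact_mod_cast h2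
  linarith

end Fermat.Agent.S18.RHDeg

end
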