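import Fermat.Agent.RR.RRStar
import Fermat.Agent.S24.Differentials

/-!
# S18 package (C): the Riemann–Hurwitz inequality in any characteristic

`F / K` is a function field with the place facts `RR.PlaceFacts K F` (all residue fields are
`K`), `t : F` is a separating element, i.e. `D t` spans `Ω[F⁄K]` (this holds as soon as
`F / K(t)` is separable: `DiffSep.span_D_eq_top_of_sep`).  Then, with `n = [F : K(t)]` and
`g = dim H¹(0)`:

* `ordDifferential_D_ge_of_pos`, `ordDifferential_D_ge_of_neg`, `ordDifferential_D_nonneg`: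
  the local bounds `ord_v (dt) ≥ ord_v (t - a) - 1`, `ord_v (dt) ≥ ord_v t - 1` (poles) and
  `ord_v (dt) ≥ 0` (at places where `t` is regular) — inequalities only, valid in every
  characteristic;
* `degree_le_of_functional`: a nonzero Weil differential vanishing on `repartitionsOf W`
  forces `deg W ≤ 2 g - 2`;
* `degree_le_of_le_ordDifferential`: every divisor `W ≤ div (dt)` has `deg W ≤ 2 g - 2`;
* `finite_ordDifferential_ne_zero`, `exists_canonDiv`, `canonDiv_bounds`: `div (dt)` is a
  divisor, of degree `≤ 2 g - 2`, and it dominates the ramification bounds; together with the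
  counting argument (`RHCount`) this is the Riemann–Hurwitz inequality.

No characteristic assumption anywhere (the residue theorem, the local residue calculus and
Riemann's theorem of the `RR` packages are characteristic free).
-/

set_option autoImplicit false

noncomputable section

namespace Fermat.Agent.S18.RHIneq

open AlgebraicCurve KaehlerDifferential IntermediateField Fermat.Agent.RR

variable {K F : Type*} [Field K] [Field F] [Algebra K F]

/-! ### Local bounds for the order of `D x` -/

/-- The derivative lowers the order of a power series by at most one (any characteristic). -/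
theorem le_order_derivative (p : PowerSeries K) (n : ℕ)
    (hp : ((n + 1 : ℕ) : ℕ∞) ≤ PowerSeries.order p) :
    (n : ℕ∞) ≤ PowerSeries.order (PowerSeries.derivative K p) := by
  refine PowerSeries.nat_le_order _ n (fun i hi => ?_)
  rw [PowerSeries.coeff_derivative, PowerSeries.coeff_of_lt_order, zero_mul]
  refine lt_of_lt_of_le ?_ hp
  exact_mod_cast Nat.succ_lt_succ hi

open Fermat.Agent.S24 Fermat.Agent.S24.Differentials in
/-- Core computation: if `x - a` has positive order at `v` and `D x = c • D π` with `c ≠ 0`,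
then `ord (x - a) - 1 ≤ ord c`. -/
theorem ord_coeff_ge_of_pos (v : Place K F)
    (hres : ∀ f : F, f ∈ v.toValuationSubring →
      ∃ a : K, 0 < v.ord (f - algebraMap K F a) ∨ f = algebraMap K F a)
    (x : F) (a : K) (h : 0 < v.ord (x - algebraMap K F a)) (c : F) (hc0 : c ≠ 0)
    (hc : D K F x = c • D K F ((unif v : v.toValuationSubring) : F)) :
    v.ord (x - algebraMap K F a) - 1 ≤ v.ord c := by
  have hπ := unif_irreducible v
  obtain ⟨w, e, he, hf⟩ := exists_eq_unit_mul_pow_of_ord_pos v hπ _ h
  obtain ⟨c₁, c₂, hc₂, hcc⟩ : ∃ c₁ c₂ : v.toValuationSubring, c₂ ≠ 0 ∧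
      (c₂ : F) * c = (c₁ : F) := by
    rcases v.toValuationSubring.mem_or_inv_mem c with hmem | hmem
    · exact ⟨⟨c, hmem⟩, 1, one_ne_zero, by simp⟩
    · refine ⟨1, ⟨c⁻¹, hmem⟩, ?_, ?_⟩
      · intro h0
        have h1 := congrArg (Subtype.val) h0
        simp only [ZeroMemClass.coe_zero, inv_eq_zero] at h1
        exact hc0 h1
      · simp [hc0]
  have hDx : D K F x = D K F (x - algebraMap K F a) := by
    rw [map_sub, Derivation.map_algebraMap, sub_zero]
  have hrel : algebraMap v.toValuationSubring F c₂ •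
      D K F (algebraMap v.toValuationSubring F ((w : v.toValuationSubring) * unif v ^ (e + 1))) =
      algebraMap v.toValuationSubring F c₁ •
        D K F (algebraMap v.toValuationSubring F (unif v)) := by
    show (c₂ : F) • D K F ((((w : v.toValuationSubring) * unif v ^ (e + 1) :
      v.toValuationSubring)) : F) = (c₁ : F) • D K F ((unif v : v.toValuationSubring) : F)
    rw [← hf, ← hDx, hc, smul_smul, hcc]
  have hkey := LocalExpansion.expansion_mul_derivative_eq (F := F) (hresO v hres) hπ
    ((w : v.toValuationSubring) * unif v ^ (e + 1)) c₁ c₂ hrel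
  have hc₂F : (c₂ : F) ≠ 0 := by
    intro h0
    exact hc₂ (Subtype.ext h0)
  have hc₁F : (c₁ : F) ≠ 0 := by
    rw [← hcc]
    exact mul_ne_zero hc₂F hc0
  have hc₁ : c₁ ≠ 0 := by
    rintro rfl
    exact hc₁F rfl
  obtain ⟨k, w₂, hw₂⟩ := IsDiscreteValuationRing.eq_unit_mul_pow_irreducible hc₂ hπ
  obtain ⟨m, w₁, hw₁⟩ := IsDiscreteValuationRing.eq_unit_mul_pow_irreducible hc₁ hπ
  have ho2 : PowerSeries.order (LocalExpansion.expansion (hresO v hres) hπ c₂) = k := by
    rw [hw₂]
    exact LocalExpansion.order_expansion_unit_mul_pow (hresO v hres) hπ w₂ k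
  have ho1 : PowerSeries.order (LocalExpansion.expansion (hresO v hres) hπ c₁) = m := by
    rw [hw₁]
    exact LocalExpansion.order_expansion_unit_mul_pow (hresO v hres) hπ w₁ m
  have hof : (e : ℕ∞) ≤ PowerSeries.order (PowerSeries.derivative K
      (LocalExpansion.expansion (hresO v hres) hπ
        ((w : v.toValuationSubring) * unif v ^ (e + 1)))) := by
    apply le_order_derivative
    rw [LocalExpansion.order_expansion_unit_mul_pow (hresO v hres) hπ w (e + 1)]
  have hkm : k + e ≤ m := by
    have h1 : ((k : ℕ∞) + (e : ℕ∞)) ≤ (m : ℕ∞) := by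
      rw [← ho1, ← hkey, PowerSeries.order_mul, ho2]
      exact add_le_add le_rfl hof
    exact_mod_cast h1
  have ho₂ : v.ord (c₂ : F) = k := by rw [hw₂]; exact ord_coe_unit_mul_pow v w₂ hπ k
  have ho₁ : v.ord (c₁ : F) = m := by rw [hw₁]; exact ord_coe_unit_mul_pow v w₁ hπ m
  have hmul := v.ord_mul hc₂F hc0
  rw [hcc, ho₁, ho₂] at hmul
  rw [he]
  omega

section Local

variable (v : Place K F)
  (hres : ∀ f : F, f ∈ v.toValuationSubring →
    ∃ a : K, 0 < v.ord (f - algebraMap K F a) ∨ f = algebraMap K F a)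
  (x₀ : F) (hx₀ : Submodule.span F {(D K F x₀ : Ω[F⁄K])} = ⊤)

include hres hx₀

/-- Zeros of `x - a`: `ord_v (x - a) - 1 ≤ ord_v (D x)` (any characteristic). -/
theorem ordDifferential_D_ge_of_pos (x : F) (hx : D K F x ≠ 0) (a : K)
    (h : 0 < v.ord (x - algebraMap K F a)) :
    v.ord (x - algebraMap K F a) - 1 ≤ v.ordDifferential (D K F x) := by
  have := Fermat.Agent.S24.dCoordGenerates v hres x₀ hx₀
  have hc : D K F x = v.differentialCoeff (D K F x) •
      D K F ((Fermat.Agent.S24.Differentials.unif v : v.toValuationSubring) : F) :=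
    (v.differentialCoeff_smul_dCoord (D K F x)).symm
  exact ord_coeff_ge_of_pos v hres x a h _
    (Fermat.Agent.S24.differentialCoeff_D_ne_zero v hres x₀ hx₀ x hx) hc

/-- Poles of `x`: `ord_v x - 1 ≤ ord_v (D x)` (any characteristic). -/
theorem ordDifferential_D_ge_of_neg (x : F) (hx : D K F x ≠ 0) (h : v.ord x < 0) :
    v.ord x - 1 ≤ v.ordDifferential (D K F x) := by
  have := Fermat.Agent.S24.dCoordGenerates v hres x₀ hx₀
  have := Fermat.Agent.S24.nontrivial_kaehler v hres
  have hx0 : x ≠ 0 := by
    rintro rfl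
    simp at h
  have hy : 0 < v.ord (x⁻¹ - algebraMap K F 0) := by
    rw [map_zero, sub_zero, v.ord_inv]
    omega
  have hD : D K F x = (-(x ^ 2)) • D K F x⁻¹ := by
    have h1 := Derivation.leibniz_inv (D K F) x⁻¹
    rw [inv_inv] at h1
    exact h1
  have hDinv : D K F x⁻¹ ≠ 0 := by
    intro h0
    rw [h0, smul_zero] at hD
    exact hx hD
  have hoy := ordDifferential_D_ge_of_pos v hres x₀ hx₀ x⁻¹ hDinv 0 hy
  rw [map_zero, sub_zero, v.ord_inv] at hoy
  have hcy := Fermat.Agent.S24.differentialCoeff_D_ne_zero v hres x₀ hx₀ x⁻¹ hDinv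
  have hcoef : v.differentialCoeff (D K F x) = (-(x ^ 2)) * v.differentialCoeff (D K F x⁻¹) := by
    rw [hD, v.differentialCoeff_smul]
  have hx2 : (-(x ^ 2) : F) ≠ 0 := neg_ne_zero.mpr (pow_ne_zero 2 hx0)
  have h2 : v.ord (-(x ^ 2)) = 2 * v.ord x := by
    rw [Fermat.Agent.S24.ord_neg, Fermat.Agent.S24.ord_pow]
    push_cast
    ring
  have h5 : -v.ord x - 1 ≤ v.ord (v.differentialCoeff (D K F x⁻¹)) := hoy
  show v.ord x - 1 ≤ v.ord (v.differentialCoeff (D K F x))
  rw [hcoef, v.ord_mul hx2 hcy, h2]
  linarith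

/-- At a place where `x` is regular, `D x` is regular (any characteristic). -/
theorem ordDifferential_D_nonneg (x : F) (hx : D K F x ≠ 0) (h : 0 ≤ v.ord x) :
    0 ≤ v.ordDifferential (D K F x) := by
  obtain ⟨a, ha | ha⟩ := hres x (Fermat.Agent.S24.mem_of_ord_nonneg v h)
  · have := ordDifferential_D_ge_of_pos v hres x₀ hx₀ x hx a ha
    omega
  · exfalso
    apply hx
    rw [ha, Derivation.map_algebraMap]

end Local

/-! ### The global inequality -/

/-- A function field with the place facts has a place. -/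
theorem nonempty_place_of_placeFacts (hP : PlaceFacts K F) : Nonempty (Place K F) := by
  obtain ⟨x, hx⟩ := hP.htr
  have hfd : FiniteDimensional K⟮x⟯ F := hP.hfd x hx
  have hxinv : Transcendental K x⁻¹ := Fermat.Agent.S24.Principal.transcendental_inv hx
  have hpole : ∑ᶠ v ∈ {v : Place K F | 0 < v.ord x⁻¹}, v.ord x⁻¹ =
      (Module.finrank K⟮x⟯ F : ℤ) := by
    have h := hP.hsum x⁻¹ hxinv
    rw [Fermat.Agent.S24.Principal.adjoin_inv_eq] at h
    exact h
  exact nonempty_place x hfd hpole

/-- A nonzero Weil differential (a functional on the repartitions killing the principal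
ones) which vanishes on `repartitionsOf W` forces `deg W ≤ 2 g - 2`, `g = dim H¹(0)`. -/
theorem degree_le_of_functional (hP : PlaceFacts K F)
    (θ : ↥(repartitions K F) →ₗ[K] K) (hθ : θ ≠ 0)
    (h1 : ∀ f : F, θ (diagRep K F f) = 0) (W : Divisor K F)
    (h2 : ∀ α ∈ repartitionsOf W, θ α = 0) :
    Divisor.degree W ≤ 2 * (Module.finrank K (H1 (0 : Divisor K F)) : ℤ) - 2 := by
  have hR : RiemannFacts K F := riemannFacts_of_placeFacts hP
  have hpd : HasPrincipalDivisors K F :=
    Fermat.Agent.S24.hasPrincipalDivisors_of hP.hdeg hP.hfin hP.hsum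
  have hax := DualityInst.axioms_of hP hR hpd
  have hθW : θ ∈ Duality.Omega (V := ↥(repartitions K F)) repartitionsOf (diagRep K F) W :=
    Duality.mem_Omega_iff.mpr ⟨h2, h1⟩
  have hfin0 := hax.finite_Omega 0
  have hfinW := hax.finite_Omega W
  have hfinL := hR.finite_L W
  -- `l(W) ≤ dim Ω(0)`
  have hle : Module.finrank K (riemannRochSpace W) ≤
      Module.finrank K (Duality.Omega (V := ↥(repartitions K F)) repartitionsOf (diagRep K F)
        (0 : Divisor K F)) := by
    let φ : riemannRochSpace W →ₗ[K]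
        Duality.Omega (V := ↥(repartitions K F)) repartitionsOf (diagRep K F)
          (0 : Divisor K F) :=
      LinearMap.codRestrict _ ((Duality.twLin (F := F) θ).comp (riemannRochSpace W).subtype)
        (fun x => hax.tw_mem_Omega hθW (by rw [sub_zero]; exact x.2))
    have hφ : Function.Injective φ := by
      intro x y hxy
      have h3 := congrArg Subtype.val hxy
      exact Subtype.ext (Duality.twLin_injective (F := F) hθ h3)
    exact LinearMap.finrank_le_finrank_of_injective hφ
  -- `1 ≤ dim Ω(W)`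
  have hpos : 0 < Module.finrank K
      (Duality.Omega (V := ↥(repartitions K F)) repartitionsOf (diagRep K F) W) :=
    Module.finrank_pos_iff_exists_ne_zero.mpr
      ⟨⟨θ, hθW⟩, fun h => hθ (congrArg Subtype.val h)⟩
  have e0 := hax.finrank_Omega 0
  have eW := hax.finrank_Omega W
  have hr := hax.riemann W
  have e0' : Module.finrank K (↥(repartitions K F) ⧸
      (repartitionsOf (0 : Divisor K F) ⊔ LinearMap.range (diagRep K F))) =
      Module.finrank K (H1 (0 : Divisor K F)) := by
    rw [DualityInst.range_diagRep]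
  rw [← eW] at hr
  rw [e0, e0'] at hle
  have hle' : (Module.finrank K (riemannRochSpace W) : ℤ) ≤
      (Module.finrank K (H1 (0 : Divisor K F)) : ℤ) := by exact_mod_cast hle
  have hpos' : (1 : ℤ) ≤ (Module.finrank K
      (Duality.Omega (V := ↥(repartitions K F)) repartitionsOf (diagRep K F) W) : ℤ) := by
    exact_mod_cast hpos
  linarith

/-- Every divisor below the divisor of `D t` (`t` separating) has degree `≤ 2 g - 2`. -/
theorem degree_le_of_le_ordDifferential (hP : PlaceFacts K F) (t : F)
    (hspan : Submodule.span F {(D K F t : Ω[F⁄K])} = ⊤) (W : Divisor K F)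
    (hW : ∀ v : Place K F, W v ≤ v.ordDifferential (D K F t)) :
    Divisor.degree W ≤ 2 * (Module.finrank K (H1 (0 : Divisor K F)) : ℤ) - 2 := by
  have hR : RiemannFacts K F := riemannFacts_of_placeFacts hP
  refine degree_le_of_functional hP (WeilDiff.theta hP 1 t) ?_ ?_ W ?_
  · obtain ⟨v⟩ := nonempty_place_of_placeFacts hP
    obtain ⟨f₀, hf₀, hord, hone⟩ := exists_lres_eq_one' v (hP.hres v) t hspan
    intro h0
    have h1 : WeilDiff.theta hP 1 t (singleRep v f₀) = 1 := by
      rw [WeilDiff.theta_apply, finsum_eq_single _ v, singleRep_apply_self, mul_one, hone]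
      intro w hwv
      rw [singleRep_apply_of_ne hwv, zero_mul]
      exact lres_zero_left w (hP.hres w) t
    rw [h0, LinearMap.zero_apply] at h1
    exact zero_ne_one h1
  · intro f
    rw [WeilDiff.theta_apply]
    exact sum_tres_eq_zero placeSub (fun _ _ => Iff.rfl)
      (fun v f => almostStable_mulLeft v (hP.hres v) f) (WeilDiff.finite_not_mem hP)
      (hR.finite_L 0) (hR.finite_H1 0) (f * 1) t
  · intro α hα
    rw [WeilDiff.theta_apply]
    refine finsum_eq_zero_of_forall_eq_zero fun v => ?_
    rw [mul_one]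
    by_cases hαv : (α : Place K F → F) v = 0
    · rw [hαv]
      exact lres_zero_left v (hP.hres v) t
    · rcases mem_repartitionsOf_iff.mp hα v with h0 | h0
      · exact absurd h0 hαv
      · refine lres_eq_zero_of_ord' v (hP.hres v) t hspan _ hαv ?_
        have := hW v
        linarith

/-! ### The divisor of `D t` -/

/-- A separating element is transcendental. -/
theorem transcendental_of_span (hP : PlaceFacts K F) (t : F)
    (hspan : Submodule.span F {(D K F t : Ω[F⁄K])} = ⊤) : Transcendental K t := by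
  obtain ⟨v⟩ := nonempty_place_of_placeFacts hP
  have hDt : D K F t ≠ 0 :=
    Fermat.Agent.S24.D_ne_zero_of_span_eq_top v (hP.hres v) t hspan
  intro halg
  have h0 : v.ord t = 0 := Fermat.Agent.S24.ord_eq_zero_of_isAlgebraic v halg
  obtain ⟨a, ha | ha⟩ := hP.hres v t (Fermat.Agent.S24.mem_of_ord_nonneg v (le_of_eq h0.symm))
  · have h1 : IsAlgebraic K (t - algebraMap K F a) := halg.sub (isAlgebraic_algebraMap a)
    rw [Fermat.Agent.S24.ord_eq_zero_of_isAlgebraic v h1] at ha
    exact lt_irrefl _ ha
  · apply hDt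
    rw [ha, Derivation.map_algebraMap]

/-- The set of poles of a function is finite. -/
theorem finite_poles (hP : PlaceFacts K F) (t : F) : {v : Place K F | v.ord t < 0}.Finite :=
  (Fermat.Agent.S24.Principal.finite_ord_ne_zero hP.hfin t).subset (fun _ hv => ne_of_lt hv)

/-- The pole orders of `t` add up to `-[F : K(t)]`. -/
theorem sum_poles (hP : PlaceFacts K F) (t : F) (ht : Transcendental K t) :
    ∑ v ∈ (finite_poles hP t).toFinset, v.ord t = -(Module.finrank K⟮t⟯ F : ℤ) := by
  have h := hP.hsum t⁻¹ (Fermat.Agent.S24.Principal.transcendental_inv ht)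
  rw [Fermat.Agent.S24.Principal.adjoin_inv_eq] at h
  have hset : {v : Place K F | 0 < v.ord t⁻¹} = {v : Place K F | v.ord t < 0} := by
    ext v
    show 0 < v.ord t⁻¹ ↔ v.ord t < 0
    rw [v.ord_inv]
    omega
  rw [hset, finsum_mem_eq_finite_toFinset_sum _ (finite_poles hP t)] at h
  rw [← h, ← Finset.sum_neg_distrib]
  exact Finset.sum_congr rfl fun v _ => by rw [v.ord_inv, neg_neg]

/-- The divisor `-2 (t)_∞`. -/
theorem exists_neg_two_poleDiv (hP : PlaceFacts K F) (t : F) (ht : Transcendental K t) :
    ∃ Z : Divisor K F, (∀ v : Place K F, Z v = if v.ord t < 0 then 2 * v.ord t else 0) ∧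
      Divisor.degree Z = -2 * (Module.finrank K⟮t⟯ F : ℤ) := by
  classical
  have hf : ∀ v : Place K F, (if v.ord t < 0 then 2 * v.ord t else 0) ≠ 0 →
      v ∈ (finite_poles hP t).toFinset := by
    intro v hv
    rw [Set.Finite.mem_toFinset]
    by_contra hcon
    exact hv (if_neg hcon)
  refine ⟨Finsupp.onFinset (finite_poles hP t).toFinset
    (fun v => if v.ord t < 0 then 2 * v.ord t else 0) hf, fun v => rfl, ?_⟩
  unfold Divisor.degree
  rw [Finsupp.liftAddHom_apply, Finsupp.onFinset_sum hf (fun v => by simp)]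
  have h1 : ∀ v ∈ (finite_poles hP t).toFinset,
      (AddMonoidHom.mulRight ((v.deg : ℕ) : ℤ)) (if v.ord t < 0 then 2 * v.ord t else 0)
        = 2 * v.ord t := by
    intro v hv
    rw [Set.Finite.mem_toFinset] at hv
    have hv' : v.ord t < 0 := hv
    rw [if_pos hv', AddMonoidHom.coe_mulRight, hP.hdeg v]
    simp
  rw [Finset.sum_congr rfl h1, ← Finset.mul_sum, sum_poles hP t ht]
  ring

/-- A finite set of regular points of `t` at which `D t` vanishes has at most
`2 g - 2 + 2 [F : K(t)]` elements. -/
theorem card_le_of_ordDifferential_pos (hP : PlaceFacts K F) (t : F)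
    (hspan : Submodule.span F {(D K F t : Ω[F⁄K])} = ⊤) (T : Finset (Place K F))
    (hT : ∀ v ∈ T, 0 ≤ v.ord t ∧ 0 < v.ordDifferential (D K F t)) :
    (T.card : ℤ) ≤ 2 * (Module.finrank K (H1 (0 : Divisor K F)) : ℤ) - 2
      + 2 * (Module.finrank K⟮t⟯ F : ℤ) := by
  classical
  have ht := transcendental_of_span hP t hspan
  obtain ⟨v₀⟩ := nonempty_place_of_placeFacts hP
  have hDt : D K F t ≠ 0 :=
    Fermat.Agent.S24.D_ne_zero_of_span_eq_top v₀ (hP.hres v₀) t hspan
  obtain ⟨Z, hZ, hZdeg⟩ := exists_neg_two_poleDiv hP t ht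
  have hWv : ∀ v : Place K F,
      (Z + ∑ w ∈ T, Finsupp.single w (1 : ℤ) : Divisor K F) v
        = (if v.ord t < 0 then 2 * v.ord t else 0) + (if v ∈ T then 1 else 0) := by
    intro v
    rw [Finsupp.add_apply, hZ, Finsupp.finsetSum_apply]
    congr 1
    simp only [Finsupp.single_apply]
    rw [Finset.sum_ite_eq' T v]
  have hbound : ∀ v : Place K F,
      (Z + ∑ w ∈ T, Finsupp.single w (1 : ℤ) : Divisor K F) v
        ≤ v.ordDifferential (D K F t) := by
    intro v
    rw [hWv]
    by_cases hpole : v.ord t < 0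
    · have hvT : v ∉ T := fun h => absurd (hT v h).1 (not_le.mpr hpole)
      rw [if_pos hpole, if_neg hvT]
      have := ordDifferential_D_ge_of_neg v (hP.hres v) t hspan t hDt hpole
      omega
    · rw [if_neg hpole]
      by_cases hvT : v ∈ T
      · rw [if_pos hvT]
        have := (hT v hvT).2
        omega
      · rw [if_neg hvT]
        have := ordDifferential_D_nonneg v (hP.hres v) t hspan t hDt (not_lt.mp hpole)
        omega
  have key := degree_le_of_le_ordDifferential hP t hspan _ hbound
  rw [map_add, hZdeg, map_sum] at key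
  have h1 : ∑ w ∈ T, Divisor.degree (Finsupp.single w (1 : ℤ) : Divisor K F) = (T.card : ℤ) := by
    rw [Finset.card_eq_sum_ones, Nat.cast_sum]
    refine Finset.sum_congr rfl fun w _ => ?_
    rw [Divisor.degree_single, hP.hdeg w]
    simp
  rw [h1] at key
  linarith

/-- `D t` has only finitely many zeros and poles (`t` separating; any characteristic). -/
theorem finite_ordDifferential_ne_zero (hP : PlaceFacts K F) (t : F)
    (hspan : Submodule.span F {(D K F t : Ω[F⁄K])} = ⊤) :
    {v : Place K F | v.ordDifferential (D K F t) ≠ 0}.Finite := by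
  obtain ⟨v₀⟩ := nonempty_place_of_placeFacts hP
  have hDt : D K F t ≠ 0 :=
    Fermat.Agent.S24.D_ne_zero_of_span_eq_top v₀ (hP.hres v₀) t hspan
  have hR : {v : Place K F | 0 ≤ v.ord t ∧ 0 < v.ordDifferential (D K F t)}.Finite := by
    by_contra hinf
    obtain ⟨T, hTsub, hTcard⟩ := Set.Infinite.exists_subset_card_eq hinf
      ((2 * (Module.finrank K (H1 (0 : Divisor K F)) : ℤ) - 2
        + 2 * (Module.finrank K⟮t⟯ F : ℤ)).toNat + 1)
    have h1 := card_le_of_ordDifferential_pos hP t hspan T (fun v hv => hTsub hv)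
    rw [hTcard] at h1
    have h2 := Int.self_le_toNat (2 * (Module.finrank K (H1 (0 : Divisor K F)) : ℤ) - 2
        + 2 * (Module.finrank K⟮t⟯ F : ℤ))
    push_cast at h1
    omega
  refine ((finite_poles hP t).union hR).subset ?_
  intro v hv
  by_cases hpole : v.ord t < 0
  · exact Or.inl hpole
  · right
    have h1 := ordDifferential_D_nonneg v (hP.hres v) t hspan t hDt (not_lt.mp hpole)
    exact ⟨not_lt.mp hpole, lt_of_le_of_ne h1 (Ne.symm hv)⟩

/-- **The divisor of `D t`** (`t` separating, any characteristic) exists and has degree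
`≤ 2 g - 2`, `g = dim H¹(0)`. -/
theorem exists_canonDiv (hP : PlaceFacts K F) (t : F)
    (hspan : Submodule.span F {(D K F t : Ω[F⁄K])} = ⊤) :
    ∃ W : Divisor K F, (∀ v : Place K F, W v = v.ordDifferential (D K F t)) ∧
      Divisor.degree W ≤ 2 * (Module.finrank K (H1 (0 : Divisor K F)) : ℤ) - 2 := by
  classical
  have hfin := finite_ordDifferential_ne_zero hP t hspan
  have hf : ∀ v : Place K F, v.ordDifferential (D K F t) ≠ 0 → v ∈ hfin.toFinset := by
    intro v hv
    rw [Set.Finite.mem_toFinset]
    exact hv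
  refine ⟨Finsupp.onFinset hfin.toFinset (fun v => v.ordDifferential (D K F t)) hf,
    fun v => rfl, ?_⟩
  exact degree_le_of_le_ordDifferential hP t hspan _ (fun v => le_of_eq rfl)

/-- The local bounds in the shape used by the counting argument: the divisor of `D t`
dominates `ord_v (t - a) - 1` at the zeros of `t - a` and `ord_v t - 1` at the poles
of `t`. -/
theorem canonDiv_bounds (hP : PlaceFacts K F) (t : F)
    (hspan : Submodule.span F {(D K F t : Ω[F⁄K])} = ⊤) (W : Divisor K F)
    (hW : ∀ v : Place K F, W v = v.ordDifferential (D K F t)) :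
    (∀ (v : Place K F) (a : K), 0 < v.ord (t - algebraMap K F a) →
        v.ord (t - algebraMap K F a) - 1 ≤ W v) ∧
      (∀ v : Place K F, v.ord t < 0 → v.ord t - 1 ≤ W v) := by
  obtain ⟨v₀⟩ := nonempty_place_of_placeFacts hP
  have hDt : D K F t ≠ 0 :=
    Fermat.Agent.S24.D_ne_zero_of_span_eq_top v₀ (hP.hres v₀) t hspan
  refine ⟨fun v a h => ?_, fun v h => ?_⟩
  · rw [hW]
    exact ordDifferential_D_ge_of_pos v (hP.hres v) t hspan t hDt a h
  · rw [hW]
    exact ordDifferential_D_ge_of_neg v (hP.hres v) t hspan t hDt h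

end Fermat.Agent.S18.RHIneq

end
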