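import Mathlib
import Fermat.Agent.S18.RHCount
import Fermat.Agent.S18.RHIneq
import Fermat.Agent.S18.DiffSep
import Fermat.Agent.S18.GenusGe

/-!
# S18 / RHFinal: the Riemann–Hurwitz inequality in any characteristic, hypothesis-free form

* `rh_ineq` : for a function field `F / K` with `RR.PlaceFacts` and `t : F` separating
  (`D t` spans `Ω[F⁄K]`), for every finite set `S` of values
  `∑_{a ∈ S} (n - #fibre a) + (n - #poles) - 2 n ≤ 2 g - 2`, `n = [F : K(t)]`, `g = dim H¹(0)`.
  (= `RHCount.main` applied to the divisor of `D t` of `RHIneq.exists_canonDiv`.)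
* `rh_ineq_of_sep` : the same for `F / K(t)` separable.
* `hRH` : the Riemann–Hurwitz hypothesis of `GenusGe.genus_ge`, for a separable extension
  `F / F0` (every rational generator `t0` of `F0`).
* `genus_ge_of_sep` : `GenusGe.genus_ge` with that hypothesis discharged.
-/

set_option autoImplicit false

noncomputable section

namespace Fermat.Agent.S18.RHFinal

open AlgebraicCurve IntermediateField KaehlerDifferential Fermat.Agent.RR

section Single

variable {K F : Type*} [Field K] [Field F] [Algebra K F]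

/-- **Riemann–Hurwitz inequality** (any characteristic) for a separating element `t`. -/
theorem rh_ineq (hP : PlaceFacts K F) (t : F)
    (hspan : Submodule.span F {(D K F t : Ω[F⁄K])} = ⊤) (S : Finset K) :
    (∑ a ∈ S, ((Module.finrank K⟮t⟯ F : ℤ)
        - Nat.card {v : Place K F // 0 < v.ord (t - algebraMap K F a)}))
      + ((Module.finrank K⟮t⟯ F : ℤ) - Nat.card {v : Place K F // v.ord t < 0})
      - 2 * (Module.finrank K⟮t⟯ F : ℤ)
      ≤ 2 * (Module.finrank K (H1 (0 : Divisor K F)) : ℤ) - 2 := by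
  obtain ⟨W, hW, hdeg⟩ := Fermat.Agent.S18.RHIneq.exists_canonDiv hP t hspan
  obtain ⟨hpos, hneg⟩ := Fermat.Agent.S18.RHIneq.canonDiv_bounds hP t hspan W hW
  exact (Fermat.Agent.S18.RHCount.main hP t
    (Fermat.Agent.S18.RHIneq.transcendental_of_span hP t hspan) W hpos hneg S).trans hdeg

/-- **Riemann–Hurwitz inequality** (any characteristic) for `F / K(t)` separable. -/
theorem rh_ineq_of_sep (hP : PlaceFacts K F) (t : F) [Algebra.IsSeparable K⟮t⟯ F]
    (S : Finset K) :
    (∑ a ∈ S, ((Module.finrank K⟮t⟯ F : ℤ)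
        - Nat.card {v : Place K F // 0 < v.ord (t - algebraMap K F a)}))
      + ((Module.finrank K⟮t⟯ F : ℤ) - Nat.card {v : Place K F // v.ord t < 0})
      - 2 * (Module.finrank K⟮t⟯ F : ℤ)
      ≤ 2 * (Module.finrank K (H1 (0 : Divisor K F)) : ℤ) - 2 :=
  rh_ineq hP t (Fermat.Agent.S18.DiffSep.span_D_eq_top_of_sep t) S

end Single

section Tower

variable {K F0 F : Type*} [Field K] [Field F0] [Field F] [Algebra K F0] [Algebra K F]
  [Algebra F0 F] [IsScalarTower K F0 F]

/-- If `K(t0) = F0`, then `K(algebraMap t0)` is the image of `F0` in `F`. -/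
theorem adjoin_algebraMap_eq (t0 : F0) (h : K⟮t0⟯ = ⊤) :
    K⟮algebraMap F0 F t0⟯ = (IsScalarTower.toAlgHom K F0 F).fieldRange := by
  have h1 := IntermediateField.adjoin_map K {t0} (IsScalarTower.toAlgHom K F0 F)
  rw [h, Set.image_singleton] at h1
  rw [← AlgHom.fieldRange_eq_map] at h1
  exact h1.symm

/-- If `F / F0` is separable and `K(t0) = F0`, then `F` is separable over `K(algebraMap t0)`. -/
theorem isSeparable_adjoin_algebraMap [Algebra.IsSeparable F0 F] (t0 : F0) (h : K⟮t0⟯ = ⊤) :
    Algebra.IsSeparable K⟮algebraMap F0 F t0⟯ F := by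
  rw [adjoin_algebraMap_eq t0 h]
  let e : F0 ≃+* (IsScalarTower.toAlgHom K F0 F).fieldRange :=
    (AlgEquiv.ofInjectiveField (IsScalarTower.toAlgHom K F0 F)).toRingEquiv
  refine Algebra.IsSeparable.of_equiv_equiv e (RingEquiv.refl F) ?_
  ext x
  rfl

/-- **The Riemann–Hurwitz hypothesis of `GenusGe.genus_ge`** for a separable extension
`F / F0`: for every rational generator `t0` of `F0` and every finite set `S` of values. -/
theorem hRH [Algebra.IsSeparable F0 F] (hP : PlaceFacts K F) :
    ∀ t0 : F0, Transcendental K t0 → K⟮t0⟯ = ⊤ → ∀ S : Finset K,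
      ∑ a ∈ S, ((Module.finrank F0 F : ℤ)
          - Nat.card {w : Place K F // 0 < w.ord (algebraMap F0 F t0 - algebraMap K F a)})
        + ((Module.finrank F0 F : ℤ)
          - Nat.card {w : Place K F // w.ord (algebraMap F0 F t0) < 0})
        - 2 * (Module.finrank F0 F : ℤ)
        ≤ 2 * (Module.finrank K (H1 (0 : Divisor K F)) : ℤ) - 2 := by
  intro t0 _ h S
  have hsep : Algebra.IsSeparable K⟮algebraMap F0 F t0⟯ F := isSeparable_adjoin_algebraMap t0 h
  have key := rh_ineq_of_sep hP (algebraMap F0 F t0) S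
  rw [Fermat.Agent.S18.GenusGe.finrank_adjoin_algebraMap t0 h] at key
  exact key

/-- **The genus lower bound** of `GenusGe.genus_ge` for a separable extension `F / F0` of
function fields over `K` with `F0` of genus zero: with `n = [F : F0]`, `c0` the number of poles
of `j` on `F0` and `c` the number of poles of `j` on `F`,
`n c0 - c - 2 n ≤ 2 g(F) - 2`. -/
theorem genus_ge_of_sep [Algebra.IsIntegral F0 F] [Algebra.IsSeparable F0 F]
    (hP0 : PlaceFacts K F0) (hP : PlaceFacts K F)
    (h0 : Module.finrank K (H1 (0 : Divisor K F0)) = 0)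
    (j : F0) (hj : Transcendental K j) :
    (Module.finrank F0 F : ℤ) * Nat.card {v : Place K F0 // v.ord j < 0}
        - Nat.card {w : Place K F // w.ord (algebraMap F0 F j) < 0}
        - 2 * (Module.finrank F0 F : ℤ)
      ≤ 2 * (Module.finrank K (H1 (0 : Divisor K F)) : ℤ) - 2 :=
  Fermat.Agent.S18.GenusGe.genus_ge hP0 hP h0 j hj (hRH hP)

end Tower

end Fermat.Agent.S18.RHFinal

end
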