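import Mathlib
import Fermat.Agent.S18.RHCount
import Fermat.Agent.S18.RHDeg

/-!
# S18 / RHGlue: the Riemann–Hurwitz inequality from pointwise lower bounds (any characteristic)

`RHCount.main` needs a *divisor* `W` (finite support) bounded below on all fibres.  In
characteristic `ℓ` the divisor of `dt` is not available a priori, so here the counting is redone
with the explicit finite-support divisor

  `E_S = ∑_{a ∈ S} ∑_{v | a} (e_v - 1) v + ∑_{v pole of t} (ord_v t - 1) v`

for an arbitrary function `ω : Place K F → ℤ` (think `ω v = ord_v (dt)`) with the pointwise lower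
bounds `e_v - 1 ≤ ω v`, `ord_v t - 1 ≤ ω v`:

* `main_gen` : the counting inequality when the lower bounds are only known on the `S`-fibres and
  at the poles, and `0 ≤ W v` elsewhere;
* `exists_divisor` : the divisor `E_S`, with `E_S ≤ ω` pointwise and
  `∑_{a ∈ S} (n - #fibre a) + (n - #poles) - 2 n ≤ deg E_S`;
* `rh_of_lower` : if every divisor `E ≤ ω` has degree `≤ B`, then the Riemann–Hurwitz count is
  `≤ B`;
* `rh_ineq` : the Riemann–Hurwitz inequality `… ≤ 2 g - 2` for `ω = ord (dt)`, from
  `RHDeg.degree_le` and the two local inequalities `ord_v (dt) ≥ e_v - 1`,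
  `ord_v (dt) ≥ ord_v t - 1` (taken as hypotheses).
-/

set_option autoImplicit false

noncomputable section

namespace Fermat.Agent.S18.RHGlue

open AlgebraicCurve IntermediateField KaehlerDifferential Fermat.Agent.RR Fermat.Agent.S24
open Fermat.Agent.S18.RHCount

variable {K F : Type*} [Field K] [Field F] [Algebra K F]

/-- The counting inequality of `RHCount.main`, with the lower bounds only assumed on the
`S`-fibres and at the poles of `t`, and nonnegativity elsewhere. -/
theorem main_gen (hP : PlaceFacts K F) (t : F) (ht : Transcendental K t) (W : Divisor K F)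
    (S : Finset K)
    (hpos : ∀ a ∈ S, ∀ v : Place K F, 0 < v.ord (t - algebraMap K F a) →
      v.ord (t - algebraMap K F a) - 1 ≤ W v)
    (hneg : ∀ v : Place K F, v.ord t < 0 → v.ord t - 1 ≤ W v)
    (hnn : ∀ v : Place K F, ¬ v.ord t < 0 →
      (∀ a ∈ S, ¬ 0 < v.ord (t - algebraMap K F a)) → 0 ≤ W v) :
    (∑ a ∈ S, ((Module.finrank K⟮t⟯ F : ℤ)
        - Nat.card {v : Place K F // 0 < v.ord (t - algebraMap K F a)}))
      + ((Module.finrank K⟮t⟯ F : ℤ) - Nat.card {v : Place K F // v.ord t < 0})
      - 2 * (Module.finrank K⟮t⟯ F : ℤ) ≤ Divisor.degree W := by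
  classical
  set n : ℤ := (Module.finrank K⟮t⟯ F : ℤ) with hn
  set Tf : Finset (Place K F) := S.biUnion fun a => (fib_finite hP ht a).toFinset with hTf
  set Tp : Finset (Place K F) := (poles_finite hP ht).toFinset with hTp
  have hdisjf : (S : Set K).PairwiseDisjoint fun a => (fib_finite hP ht a).toFinset := by
    intro a _ b _ hab
    show Disjoint (fib_finite hP ht a).toFinset (fib_finite hP ht b).toFinset
    rw [Set.Finite.disjoint_toFinset]
    exact fib_disjoint t hab
  have hdisj : Disjoint Tf Tp := by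
    rw [hTf, Finset.disjoint_biUnion_left]
    intro a _
    rw [hTp, Set.Finite.disjoint_toFinset]
    exact fib_disjoint_poles t a
  have hdeg := degree_eq_sum hP W (W.support ∪ (Tf ∪ Tp)) Finset.subset_union_left
  have h1 : ∑ v ∈ Tf ∪ Tp, W v ≤ ∑ v ∈ W.support ∪ (Tf ∪ Tp), W v := by
    refine Finset.sum_le_sum_of_subset_of_nonneg Finset.subset_union_right ?_
    intro v _ hv
    rw [Finset.mem_union, not_or] at hv
    apply hnn v
    · intro hpole
      apply hv.2
      rw [hTp, Set.Finite.mem_toFinset]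
      exact hpole
    · intro a ha hva
      apply hv.1
      rw [hTf, Finset.mem_biUnion]
      exact ⟨a, ha, by rw [Set.Finite.mem_toFinset]; exact hva⟩
  have h2 : ∑ a ∈ S, (n - Nat.card {v : Place K F // 0 < v.ord (t - algebraMap K F a)})
      ≤ ∑ v ∈ Tf, W v := by
    rw [hTf, Finset.sum_biUnion hdisjf]
    refine Finset.sum_le_sum fun a ha => ?_
    rw [card_fib hP ht a]
    have hs := sum_fib hP ht a
    have h3 : ∑ v ∈ (fib_finite hP ht a).toFinset, (v.ord (t - algebraMap K F a) - 1)
        ≤ ∑ v ∈ (fib_finite hP ht a).toFinset, W v := by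
      refine Finset.sum_le_sum fun v hv => ?_
      rw [Set.Finite.mem_toFinset] at hv
      exact hpos a ha v hv
    rw [Finset.sum_sub_distrib, hs, Finset.sum_const] at h3
    simp only [nsmul_eq_mul, mul_one] at h3
    exact h3
  have h4 : -n - Nat.card {v : Place K F // v.ord t < 0} ≤ ∑ v ∈ Tp, W v := by
    rw [card_poles hP ht]
    have hs := sum_poles hP ht
    have h3 : ∑ v ∈ (poles_finite hP ht).toFinset, (v.ord t - 1)
        ≤ ∑ v ∈ (poles_finite hP ht).toFinset, W v := by
      refine Finset.sum_le_sum fun v hv => ?_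
      rw [Set.Finite.mem_toFinset] at hv
      exact hneg v hv
    rw [Finset.sum_sub_distrib, hs, Finset.sum_const] at h3
    simp only [nsmul_eq_mul, mul_one] at h3
    exact h3
  rw [hdeg]
  rw [Finset.sum_union hdisj] at h1
  linarith

/-- The value of `t` at a place which is not a pole (junk value `0` at poles). -/
def valAt (hP : PlaceFacts K F) {t : F} (ht : Transcendental K t) (v : Place K F) : K := by
  classical
  exact if hv : v.ord t < 0 then 0 else (exists_mem_fib hP ht v hv).choose

theorem valAt_spec (hP : PlaceFacts K F) {t : F} (ht : Transcendental K t) (v : Place K F)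
    (hv : ¬ v.ord t < 0) : 0 < v.ord (t - algebraMap K F (valAt hP ht v)) := by
  unfold valAt
  rw [dif_neg hv]
  exact (exists_mem_fib hP ht v hv).choose_spec

theorem valAt_eq (hP : PlaceFacts K F) {t : F} (ht : Transcendental K t) (v : Place K F)
    (a : K) (hva : 0 < v.ord (t - algebraMap K F a)) : valAt hP ht v = a := by
  have hv : ¬ v.ord t < 0 := by
    intro hpole
    exact (Set.disjoint_left.mp (fib_disjoint_poles t a)) hva hpole
  by_contra hne
  exact (Set.disjoint_left.mp (fib_disjoint t hne)) (valAt_spec hP ht v hv) hva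

/-- **The explicit ramification divisor over `S` and `∞`.**  For a function `ω` on places with
the lower bounds `e_v - 1 ≤ ω v` on all fibres of `t` and `ord_v t - 1 ≤ ω v` at the poles, and
a finite set `S` of values, there is a divisor `E ≤ ω` whose degree is at least the
Riemann–Hurwitz count over `S ∪ {∞}`. -/
theorem exists_divisor (hP : PlaceFacts K F) (t : F) (ht : Transcendental K t)
    (ω : Place K F → ℤ)
    (hpos : ∀ (v : Place K F) (a : K), 0 < v.ord (t - algebraMap K F a) →
      v.ord (t - algebraMap K F a) - 1 ≤ ω v)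
    (hneg : ∀ v : Place K F, v.ord t < 0 → v.ord t - 1 ≤ ω v) (S : Finset K) :
    ∃ E : Divisor K F, (∀ v, E v ≤ ω v) ∧
      (∑ a ∈ S, ((Module.finrank K⟮t⟯ F : ℤ)
          - Nat.card {v : Place K F // 0 < v.ord (t - algebraMap K F a)}))
        + ((Module.finrank K⟮t⟯ F : ℤ) - Nat.card {v : Place K F // v.ord t < 0})
        - 2 * (Module.finrank K⟮t⟯ F : ℤ) ≤ Divisor.degree E := by
  classical
  set Tf : Finset (Place K F) := S.biUnion fun a => (fib_finite hP ht a).toFinset with hTf
  set Tp : Finset (Place K F) := (poles_finite hP ht).toFinset with hTp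
  have hmemTp : ∀ v : Place K F, v ∈ Tp ↔ v.ord t < 0 := fun v => by
    rw [hTp, Set.Finite.mem_toFinset]; rfl
  have hmemTf : ∀ v : Place K F, v ∈ Tf ↔ ∃ a ∈ S, 0 < v.ord (t - algebraMap K F a) := fun v => by
    rw [hTf, Finset.mem_biUnion]
    refine exists_congr fun a => and_congr_right fun _ => ?_
    rw [Set.Finite.mem_toFinset]; rfl
  -- the local exponents
  let e : Place K F → ℤ := fun v =>
    if v ∈ Tf ∪ Tp then
      (if v.ord t < 0 then v.ord t - 1 else v.ord (t - algebraMap K F (valAt hP ht v)) - 1)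
    else 0
  have hsupp : ∀ v, e v ≠ 0 → v ∈ Tf ∪ Tp := by
    intro v hv
    by_contra hmem
    exact hv (if_neg hmem)
  set E : Divisor K F := Finsupp.onFinset (Tf ∪ Tp) e hsupp with hE
  have hEv : ∀ v, E v = e v := fun v => rfl
  -- nonnegativity of `ω` away from the poles
  have hωnn : ∀ v : Place K F, ¬ v.ord t < 0 → 0 ≤ ω v := by
    intro v hv
    have h1 := hpos v _ (valAt_spec hP ht v hv)
    have h2 := valAt_spec hP ht v hv
    omega
  refine ⟨E, ?_, ?_⟩
  · intro v
    rw [hEv]
    show (if v ∈ Tf ∪ Tp then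
      (if v.ord t < 0 then v.ord t - 1 else v.ord (t - algebraMap K F (valAt hP ht v)) - 1)
      else 0) ≤ ω v
    split_ifs with h1 h2
    · exact hneg v h2
    · exact hpos v _ (valAt_spec hP ht v h2)
    · by_cases h2 : v.ord t < 0
      · exact absurd (Finset.mem_union_right _ ((hmemTp v).mpr h2)) h1
      · exact hωnn v h2
  · refine main_gen hP t ht E S ?_ ?_ ?_
    · intro a ha v hva
      have hnp : ¬ v.ord t < 0 := fun hpole =>
        (Set.disjoint_left.mp (fib_disjoint_poles t a)) hva hpole
      have hmem : v ∈ Tf ∪ Tp := Finset.mem_union_left _ ((hmemTf v).mpr ⟨a, ha, hva⟩)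
      rw [hEv]
      show v.ord (t - algebraMap K F a) - 1 ≤ (if v ∈ Tf ∪ Tp then
        (if v.ord t < 0 then v.ord t - 1 else v.ord (t - algebraMap K F (valAt hP ht v)) - 1)
        else 0)
      rw [if_pos hmem, if_neg hnp, valAt_eq hP ht v a hva]
    · intro v hv
      have hmem : v ∈ Tf ∪ Tp := Finset.mem_union_right _ ((hmemTp v).mpr hv)
      rw [hEv]
      show v.ord t - 1 ≤ (if v ∈ Tf ∪ Tp then
        (if v.ord t < 0 then v.ord t - 1 else v.ord (t - algebraMap K F (valAt hP ht v)) - 1)
        else 0)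
      rw [if_pos hmem, if_pos hv]
    · intro v hv hS
      have hmem : v ∉ Tf ∪ Tp := by
        rw [Finset.mem_union, not_or]
        refine ⟨fun h => ?_, fun h => hv ((hmemTp v).mp h)⟩
        obtain ⟨a, ha, hva⟩ := (hmemTf v).mp h
        exact hS a ha hva
      rw [hEv]
      show 0 ≤ (if v ∈ Tf ∪ Tp then
        (if v.ord t < 0 then v.ord t - 1 else v.ord (t - algebraMap K F (valAt hP ht v)) - 1)
        else 0)
      rw [if_neg hmem]

/-- **Riemann–Hurwitz from a degree bound.**  If every divisor `E ≤ ω` (pointwise) has degree at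
most `B`, and `ω` satisfies the Dedekind lower bounds, then the Riemann–Hurwitz count over
`S ∪ {∞}` is at most `B`. -/
theorem rh_of_lower (hP : PlaceFacts K F) (t : F) (ht : Transcendental K t)
    (ω : Place K F → ℤ)
    (hpos : ∀ (v : Place K F) (a : K), 0 < v.ord (t - algebraMap K F a) →
      v.ord (t - algebraMap K F a) - 1 ≤ ω v)
    (hneg : ∀ v : Place K F, v.ord t < 0 → v.ord t - 1 ≤ ω v)
    (B : ℤ) (hB : ∀ E : Divisor K F, (∀ v, E v ≤ ω v) → Divisor.degree E ≤ B) (S : Finset K) :
    (∑ a ∈ S, ((Module.finrank K⟮t⟯ F : ℤ)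
        - Nat.card {v : Place K F // 0 < v.ord (t - algebraMap K F a)}))
      + ((Module.finrank K⟮t⟯ F : ℤ) - Nat.card {v : Place K F // v.ord t < 0})
      - 2 * (Module.finrank K⟮t⟯ F : ℤ) ≤ B := by
  obtain ⟨E, hE, hcount⟩ := exists_divisor hP t ht ω hpos hneg S
  exact hcount.trans (hB E hE)

/-- **The Riemann–Hurwitz inequality** (any characteristic), for a separating element `t`
(`D t` spans `Ω[F⁄K]`), from the two local inequalities `ord_v (dt) ≥ e_v - 1` on the fibres and
`ord_v (dt) ≥ ord_v t - 1` at the poles: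

`∑_{a ∈ S} (n - #fibre a) + (n - #poles) - 2 n ≤ 2 g - 2`,  `n = [F : K(t)]`, `g = dim H¹(0)`. -/
theorem rh_ineq (hP : PlaceFacts K F) (t : F) (ht : Transcendental K t)
    (hspan : Submodule.span F {(D K F t : Ω[F⁄K])} = ⊤)
    (hpos : ∀ (v : Place K F) (a : K), 0 < v.ord (t - algebraMap K F a) →
      v.ord (t - algebraMap K F a) - 1 ≤ v.ordDifferential (D K F t))
    (hneg : ∀ v : Place K F, v.ord t < 0 → v.ord t - 1 ≤ v.ordDifferential (D K F t))
    (S : Finset K) :
    (∑ a ∈ S, ((Module.finrank K⟮t⟯ F : ℤ)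
        - Nat.card {v : Place K F // 0 < v.ord (t - algebraMap K F a)}))
      + ((Module.finrank K⟮t⟯ F : ℤ) - Nat.card {v : Place K F // v.ord t < 0})
      - 2 * (Module.finrank K⟮t⟯ F : ℤ)
      ≤ 2 * (Module.finrank K (H1 (0 : Divisor K F)) : ℤ) - 2 :=
  rh_of_lower hP t ht (fun v => v.ordDifferential (D K F t)) hpos hneg _
    (fun E hE => Fermat.Agent.S18.RHDeg.degree_le hP t hspan E hE) S

end Fermat.Agent.S18.RHGlue

end
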