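import Mathlib
import Fermat.Agent.S18.CoreDefs

/-!
# S18: Kummer descent along an extension with an integral valuation ring

`E ⊆ E'` fields (via `i : E →+* E'`), `O'` a valuation subring of `E'` every element of which is a
root of a monic polynomial over `E` with coefficients in `O'` (i.e. `O'` is integral over
`O' ∩ E`).  If `d` is a unit of `O'`, `E` contains a primitive `d`-th root of unity and `w ∈ E'`
satisfies `w ^ d ∈ E` and `w ≡ 1` modulo the maximal ideal of `O'`, then `w ∈ E`.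
-/

set_option autoImplicit false

noncomputable section

namespace Fermat.Agent.S18.RootAbs

open Polynomial

/-- A root of a monic polynomial whose coefficients lie in a valuation subring lies in it. -/
theorem mem_of_monic_root {E E' : Type*} [Field E] [Field E'] (i : E →+* E')
    (O' : ValuationSubring E') (P : Polynomial E) (hP : P.Monic)
    (hc : ∀ n, i (P.coeff n) ∈ O') (y : E') (hy : P.eval₂ i y = 0) : y ∈ O' := by
  by_contra hyO
  have hv : 1 < O'.valuation y := by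
    rw [← not_le, ValuationSubring.valuation_le_one_iff]
    exact hyO
  have hy0 : O'.valuation y ≠ 0 := (lt_trans zero_lt_one hv).ne'
  rw [Polynomial.eval₂_eq_sum_range, Finset.sum_range_succ, hP.coeff_natDegree, map_one,
    one_mul] at hy
  have h1 : y ^ P.natDegree = -∑ x ∈ Finset.range P.natDegree, i (P.coeff x) * y ^ x :=
    eq_neg_of_add_eq_zero_right hy
  have h2 : O'.valuation (∑ x ∈ Finset.range P.natDegree, i (P.coeff x) * y ^ x)
      < O'.valuation y ^ P.natDegree := by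
    apply Valuation.map_sum_lt _ (pow_ne_zero _ hy0)
    intro k hk
    rw [Finset.mem_range] at hk
    rw [map_mul, map_pow]
    have hck : O'.valuation (i (P.coeff k)) ≤ 1 :=
      (ValuationSubring.valuation_le_one_iff _ _).mpr (hc k)
    calc O'.valuation (i (P.coeff k)) * O'.valuation y ^ k
        ≤ 1 * O'.valuation y ^ k := mul_le_mul_left hck _
      _ = O'.valuation y ^ k := one_mul _
      _ < O'.valuation y ^ P.natDegree := pow_lt_pow_right₀ hv hk
  rw [← map_pow, h1, Valuation.map_neg] at h2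
  exact lt_irrefl _ h2

/-- A `d`-th root of unity `η ≠ 1` is not congruent to `1` modulo the maximal ideal of a
valuation subring in which `d` is invertible. -/
theorem valuation_root_sub_one {E' : Type*} [Field E'] (O' : ValuationSubring E') (d : ℕ)
    (hd0 : (d : E') ≠ 0) (hd : ((d : E'))⁻¹ ∈ O') (η : E') (hη : η ^ d = 1) (hη1 : η ≠ 1) :
    O'.valuation (η - 1) = 1 := by
  have hdne : d ≠ 0 := by
    rintro rfl
    exact hd0 (by simp)
  have hvη : O'.valuation η = 1 := by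
    have h : O'.valuation η ^ d = 1 := by rw [← map_pow, hη, map_one]
    rcases pow_eq_one_iff.mp h with h1 | h1
    · exact h1
    · exact absurd h1 hdne
  have hle : O'.valuation (η - 1) ≤ 1 := by
    have h := Valuation.map_sub O'.valuation η 1
    rw [hvη, map_one, max_self] at h
    exact h
  rcases lt_or_eq_of_le hle with hlt | heq
  swap
  · exact heq
  exfalso
  have hgeom : ∑ k ∈ Finset.range d, η ^ k = 0 := by
    have h := mul_geom_sum η d
    rw [hη, sub_self] at h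
    rcases mul_eq_zero.mp h with h0 | h0
    · exact absurd (sub_eq_zero.mp h0) hη1
    · exact h0
  have hpow : ∀ k : ℕ, O'.valuation (η ^ k - 1) < 1 := by
    intro k
    rw [← mul_geom_sum η k, map_mul]
    have h2 : O'.valuation (∑ j ∈ Finset.range k, η ^ j) ≤ 1 := by
      apply Valuation.map_sum_le
      intro j _
      rw [map_pow, hvη, one_pow]
    calc O'.valuation (η - 1) * O'.valuation (∑ j ∈ Finset.range k, η ^ j)
        ≤ O'.valuation (η - 1) * 1 := mul_le_mul_right h2 _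
      _ = O'.valuation (η - 1) := mul_one _
      _ < 1 := hlt
  have hdsum : (d : E') = -∑ k ∈ Finset.range d, (η ^ k - 1) := by
    rw [Finset.sum_sub_distrib, hgeom, Finset.sum_const, Finset.card_range, nsmul_eq_mul,
      mul_one, zero_sub, neg_neg]
  have hvd : O'.valuation (d : E') < 1 := by
    rw [hdsum, Valuation.map_neg]
    exact Valuation.map_sum_lt _ one_ne_zero (fun k _ => hpow k)
  have hvd' : O'.valuation ((d : E'))⁻¹ ≤ 1 :=
    (ValuationSubring.valuation_le_one_iff _ _).mpr hd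
  rw [map_inv₀] at hvd'
  have hvd0 : O'.valuation (d : E') ≠ 0 := (Valuation.ne_zero_iff _).mpr hd0
  have h1 : (1 : O'.ValueGroup) ≤ O'.valuation (d : E') := by
    have := (inv_le_one₀ (zero_lt_iff.mpr hvd0)).mp hvd'
    exact this
  exact absurd hvd (not_lt.mpr h1)

/-- If `v (w - 1) < 1` and `η` is a `d`-th root of unity `≠ 1` (`d` invertible), then
`η * w - 1` is a unit. -/
theorem valuation_root_mul_sub_one {E' : Type*} [Field E'] (O' : ValuationSubring E') (d : ℕ)
    (hd0 : (d : E') ≠ 0) (hd : ((d : E'))⁻¹ ∈ O') (η : E') (hη : η ^ d = 1) (hη1 : η ≠ 1)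
    (w : E') (hw : O'.valuation (w - 1) < 1) : O'.valuation (η * w - 1) = 1 := by
  have h1 := valuation_root_sub_one O' d hd0 hd η hη hη1
  have hdne : d ≠ 0 := by
    rintro rfl
    exact hd0 (by simp)
  have hvη : O'.valuation η = 1 := by
    have h : O'.valuation η ^ d = 1 := by rw [← map_pow, hη, map_one]
    rcases pow_eq_one_iff.mp h with h1 | h1
    · exact h1
    · exact absurd h1 hdne
  have hsplit : η * w - 1 = η * (w - 1) + (η - 1) := by ring
  rw [hsplit]
  have hlt : O'.valuation (η * (w - 1)) < O'.valuation (η - 1) := by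
    rw [map_mul, hvη, one_mul, h1]
    exact hw
  rw [Valuation.map_add_eq_of_lt_right _ hlt, h1]

/-- **Kummer descent.**  Let `i : E →+* E'` be an extension of fields and `O'` a valuation
subring of `E'` which is integral over `O' ∩ E` (hypothesis `hint`).  If `d` is invertible in
`O'`, `E` contains a primitive `d`-th root of unity, and `w ∈ E'` satisfies `w ^ d ∈ E` and
`w ≡ 1` modulo the maximal ideal of `O'`, then `w ∈ E`. -/
theorem main {E E' : Type*} [Field E] [Field E'] (i : E →+* E') (O' : ValuationSubring E')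
    (hint : ∀ x ∈ O', ∃ p : Polynomial E, p.Monic ∧ (∀ n, i (p.coeff n) ∈ O') ∧
      p.eval₂ i x = 0)
    (d : ℕ) (hd0 : 0 < d) (hd : ((d : E'))⁻¹ ∈ O')
    (ζ : E) (hζ : IsPrimitiveRoot ζ d)
    (w : E') (u : E) (hwu : w ^ d = i u) (hw : O'.valuation (w - 1) < 1) :
    ∃ x : E, i x = w := by
  classical
  by_contra hne
  let _ : Algebra E E' := i.toAlgebra
  have halg : ∀ x : E, algebraMap E E' x = i x := fun _ => rfl
  have : NeZero d := ⟨hd0.ne'⟩
  have hdE : (d : E) ≠ 0 := (hζ.neZero').ne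
  have hdE' : (d : E') ≠ 0 := by
    have h := i.injective.ne hdE
    rw [map_natCast, map_zero] at h
    exact h
  have hwint : IsIntegral E w := by
    refine ⟨X ^ d - C u, monic_X_pow_sub_C u hd0.ne', ?_⟩
    rw [eval₂_sub, eval₂_pow, eval₂_X, eval₂_C, halg, hwu, sub_self]
  have hpirr : Irreducible (minpoly E w) := minpoly.irreducible hwint
  have : Fact (Irreducible (minpoly E w)) := ⟨hpirr⟩
  have hpdvd : minpoly E w ∣ X ^ d - C u := by
    apply minpoly.dvd E w
    rw [aeval_def, eval₂_sub, eval₂_pow, eval₂_X, eval₂_C, halg, hwu, sub_self]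
  have hpw : (minpoly E w).eval₂ i w = 0 := by
    have h := minpoly.aeval E w
    rwa [aeval_def] at h
  have hdeg : 2 ≤ (minpoly E w).natDegree := by
    by_contra hlt
    have h1 : (minpoly E w).natDegree = 1 := by
      have := minpoly.natDegree_pos hwint
      omega
    have hmem : w ∈ (algebraMap E E').range :=
      minpoly.mem_range_of_degree_eq_one E w
        (by rw [degree_eq_natDegree (minpoly.ne_zero hwint), h1]; rfl)
    obtain ⟨x, hx⟩ := hmem
    exact hne ⟨x, hx⟩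
  have hζ' : IsPrimitiveRoot (i ζ) d := hζ.map_of_injective i.injective
  obtain ⟨d', rfl⟩ : ∃ d', d = d' + 1 := ⟨d - 1, by omega⟩
  have hprod : (X ^ (d' + 1) - C (i u) : E'[X])
      = ∏ n ∈ Finset.range (d' + 1), (X - C ((i ζ) ^ n * w)) :=
    X_pow_sub_C_eq_prod hζ' hd0 hwu
  rw [Finset.prod_range_succ', pow_zero, one_mul] at hprod
  have hqdvd : (minpoly E w).map i ∣
      (∏ n ∈ Finset.range d', (X - C ((i ζ) ^ (n + 1) * w))) * (X - C w) := by
    rw [← hprod]
    have h := Polynomial.map_dvd i hpdvd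
    rwa [Polynomial.map_sub, Polynomial.map_pow, map_X, map_C] at h
  have hroot : ((minpoly E w).map i).IsRoot w := by
    rw [IsRoot.def, eval_map]
    exact hpw
  obtain ⟨g, hg⟩ := dvd_iff_isRoot.mpr hroot
  have hXw : (X - C w : E'[X]) ≠ 0 := X_sub_C_ne_zero w
  have hgdvd : g ∣ ∏ n ∈ Finset.range d', (X - C ((i ζ) ^ (n + 1) * w)) := by
    rw [hg, mul_comm _ (X - C w)] at hqdvd
    exact (mul_dvd_mul_iff_left hXw).mp hqdvd
  have hmap0 : (minpoly E w).map i ≠ 0 :=
    (Polynomial.map_ne_zero_iff i.injective).mpr (minpoly.ne_zero hwint)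
  have hg0 : g ≠ 0 := by
    rintro rfl
    rw [mul_zero] at hg
    exact hmap0 hg
  have hgdeg : g.degree ≠ 0 := by
    have h1 : ((minpoly E w).map i).natDegree = (minpoly E w).natDegree :=
      natDegree_map_eq_of_injective i.injective _
    rw [hg, natDegree_mul hXw hg0, natDegree_X_sub_C] at h1
    have h2 : 1 ≤ g.natDegree := by omega
    rw [degree_eq_natDegree hg0]
    intro h
    have : g.natDegree = 0 := by exact_mod_cast h
    omega
  have hPi0 : ∏ n ∈ Finset.range d', (X - C ((i ζ) ^ (n + 1) * w)) ≠ 0 :=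
    Finset.prod_ne_zero_iff.mpr (fun n _ => X_sub_C_ne_zero _)
  have hPis : (∏ n ∈ Finset.range d', (X - C ((i ζ) ^ (n + 1) * w))).Splits :=
    Splits.prod (fun n _ => Splits.X_sub_C _)
  obtain ⟨a, ha⟩ := (hPis.of_dvd hPi0 hgdvd).exists_eval_eq_zero hgdeg
  have haPi : eval a (∏ n ∈ Finset.range d', (X - C ((i ζ) ^ (n + 1) * w))) = 0 :=
    eval_eq_zero_of_dvd_of_eval_eq_zero hgdvd ha
  rw [eval_prod, Finset.prod_eq_zero_iff] at haPi
  obtain ⟨n, hn, hna⟩ := haPi
  rw [Finset.mem_range] at hn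
  rw [eval_sub, eval_X, eval_C, sub_eq_zero] at hna
  have hap : eval a ((minpoly E w).map i) = 0 := by
    rw [hg, eval_mul, ha, mul_zero]
  rw [eval_map, hna] at hap
  -- the second root
  set ζ₁ : E := ζ ^ (n + 1) with hζ₁
  have hζ₁ne : ζ₁ ≠ 1 := hζ.pow_ne_one_of_pos_of_lt (Nat.succ_ne_zero n) (by omega)
  have hζ₁pow : ζ₁ ^ (d' + 1) = 1 := by
    rw [hζ₁, ← pow_mul, mul_comm, pow_mul, hζ.pow_eq_one, one_pow]
  have hζ₁0 : ζ₁ ≠ 0 := by
    intro h0
    rw [h0, zero_pow (Nat.succ_ne_zero d')] at hζ₁pow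
    exact zero_ne_one hζ₁pow
  have hiζ₁ : i ζ₁ = (i ζ) ^ (n + 1) := by rw [hζ₁, map_pow]
  have hp2 : (minpoly E w).eval₂ i (i ζ₁ * w) = 0 := by rw [hiζ₁]; exact hap
  -- the two homomorphisms out of `AdjoinRoot`
  let ψ₁ : AdjoinRoot (minpoly E w) →+* E' := AdjoinRoot.lift i w hpw
  let ψ₂ : AdjoinRoot (minpoly E w) →+* E' := AdjoinRoot.lift i (i ζ₁ * w) hp2
  let y₀ : AdjoinRoot (minpoly E w) :=
    (AdjoinRoot.root (minpoly E w) - 1) *
      (AdjoinRoot.of (minpoly E w) ζ₁⁻¹ * AdjoinRoot.root (minpoly E w) - 1)⁻¹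
  have hψ₁ : ψ₁ y₀ = (w - 1) * ((i ζ₁)⁻¹ * w - 1)⁻¹ := by
    simp only [ψ₁, y₀, map_mul, map_sub, map_inv₀, map_one, AdjoinRoot.lift_root,
      AdjoinRoot.lift_of]
  have hψ₂ : ψ₂ y₀ = (i ζ₁ * w - 1) * (w - 1)⁻¹ := by
    simp only [ψ₂, y₀, map_mul, map_sub, map_inv₀, map_one, AdjoinRoot.lift_root,
      AdjoinRoot.lift_of]
    rw [← mul_assoc, inv_mul_cancel₀ (by simpa using hζ₁0 : i ζ₁ ≠ 0), one_mul]
  -- valuations
  have hη₂pow : (i ζ₁) ^ (d' + 1) = 1 := by rw [← map_pow, hζ₁pow, map_one]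
  have hη₂ne : i ζ₁ ≠ 1 := fun h => hζ₁ne (i.injective (by rw [h, map_one]))
  have hη₁pow : ((i ζ₁)⁻¹) ^ (d' + 1) = 1 := by rw [inv_pow, hη₂pow, inv_one]
  have hη₁ne : (i ζ₁)⁻¹ ≠ 1 := fun h => hη₂ne (by rw [← inv_inv (i ζ₁), h, inv_one])
  have hv1 : O'.valuation ((i ζ₁)⁻¹ * w - 1) = 1 :=
    valuation_root_mul_sub_one O' (d' + 1) hdE' hd _ hη₁pow hη₁ne w hw
  have hv2 : O'.valuation (i ζ₁ * w - 1) = 1 :=
    valuation_root_mul_sub_one O' (d' + 1) hdE' hd _ hη₂pow hη₂ne w hw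
  have hyO : ψ₁ y₀ ∈ O' := by
    rw [← ValuationSubring.valuation_le_one_iff, hψ₁, map_mul, map_inv₀, hv1, inv_one, mul_one]
    exact hw.le
  obtain ⟨P, hPm, hPc, hPy⟩ := hint _ hyO
  have hP0 : P.eval₂ (AdjoinRoot.of (minpoly E w)) y₀ = 0 := by
    apply ψ₁.injective
    rw [Polynomial.hom_eval₂, map_zero]
    have hcomp : ψ₁.comp (AdjoinRoot.of (minpoly E w)) = i := AdjoinRoot.lift_comp_of hpw
    rw [hcomp]
    exact hPy
  have hPy' : P.eval₂ i (ψ₂ y₀) = 0 := by
    have h := congrArg ψ₂ hP0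
    rw [Polynomial.hom_eval₂, map_zero] at h
    have hcomp : ψ₂.comp (AdjoinRoot.of (minpoly E w)) = i := AdjoinRoot.lift_comp_of hp2
    rw [hcomp] at h
    exact h
  have hy'O : ψ₂ y₀ ∈ O' := mem_of_monic_root i O' P hPm hPc _ hPy'
  rw [← ValuationSubring.valuation_le_one_iff, hψ₂, map_mul, map_inv₀, hv2, one_mul] at hy'O
  have hw1 : w - 1 ≠ 0 := by
    intro h
    exact hne ⟨1, by rw [map_one]; exact (sub_eq_zero.mp h).symm⟩
  have hvw0 : O'.valuation (w - 1) ≠ 0 := (Valuation.ne_zero_iff _).mpr hw1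
  have h1 : (1 : O'.ValueGroup) ≤ O'.valuation (w - 1) :=
    (inv_le_one₀ (zero_lt_iff.mpr hvw0)).mp hy'O
  exact absurd hw (not_lt.mpr h1)

/-! ### The valuation subring of a `RedFacts` relation -/

section Red

variable {K F κ : Type*} [Field K] [Field F] [Algebra K F] {A : ValuationSubring K}
  [Field κ] [Algebra (IsLocalRing.ResidueField A) κ] {Red : F → κ → Prop}

theorem red_zero (hR : RedFacts A Red) : Red 0 0 := by
  have h := hR.const 0
  simpa using h

theorem red_neg_one (hR : RedFacts A Red) : Red (-1) (-1) := by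
  have h := hR.const (-1)
  simpa using h

theorem red_neg (hR : RedFacts A Red) {f : F} {x : κ} (h : Red f x) : Red (-f) (-x) := by
  have h1 := hR.mul _ _ _ _ (red_neg_one hR) h
  simpa using h1

theorem red_sub (hR : RedFacts A Red) {f g : F} {x y : κ} (hf : Red f x) (hg : Red g y) :
    Red (f - g) (x - y) := by
  have h1 := hR.add _ _ _ _ hf (red_neg hR hg)
  simpa [sub_eq_add_neg] using h1

theorem red_pow (hR : RedFacts A Red) {f : F} {x : κ} (h : Red f x) (n : ℕ) :
    Red (f ^ n) (x ^ n) := by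
  induction n with
  | zero => simpa using hR.one
  | succ n ih =>
    rw [pow_succ, pow_succ]
    exact hR.mul _ _ _ _ ih h

theorem ne_zero_of_red (hR : RedFacts A Red) {f : F} {x : κ} (h : Red f x) (hx : x ≠ 0) :
    f ≠ 0 := by
  rintro rfl
  exact hx (hR.unique _ _ _ h (red_zero hR))

/-- A constant which reduces to a nonzero element is a unit of `A`. -/
theorem const_unit (hR : RedFacts A Red) {c : K} {z : κ} (h : Red (algebraMap K F c) z)
    (hz : z ≠ 0) : c ∈ A ∧ c⁻¹ ∈ A := by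
  have hcA : c ∈ A := by
    by_contra hc
    have hci : c⁻¹ ∈ A := (A.mem_or_inv_mem c).resolve_left hc
    have hnu : ¬ IsUnit (⟨c⁻¹, hci⟩ : A) := by
      intro hu
      obtain ⟨b, hb⟩ := isUnit_iff_exists_inv.mp hu
      have hb' : c⁻¹ * (b : K) = 1 := by
        have := congrArg Subtype.val hb
        simpa using this
      have hc0 : c ≠ 0 := by
        rintro rfl
        exact hc (zero_mem _)
      have hbc : (b : K) = c := by
        field_simp at hb'
        exact hb'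
      exact hc (hbc ▸ b.2)
    have hres : IsLocalRing.residue A (⟨c⁻¹, hci⟩ : A) = 0 := by
      rw [IsLocalRing.residue_eq_zero_iff, IsLocalRing.mem_maximalIdeal, mem_nonunits_iff]
      exact hnu
    have h1 := hR.const (⟨c⁻¹, hci⟩ : A)
    rw [hres, map_zero] at h1
    have h2 := hR.mul _ _ _ _ h1 h
    have hc0 : c ≠ 0 := by
      rintro rfl
      exact hc (zero_mem _)
    rw [← map_mul, zero_mul] at h2
    have h3 : (⟨c⁻¹, hci⟩ : A).1 * c = 1 := inv_mul_cancel₀ hc0
    rw [h3, map_one] at h2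
    exact one_ne_zero (hR.unique _ _ _ hR.one h2)
  refine ⟨hcA, ?_⟩
  have h1 := hR.const (⟨c, hcA⟩ : A)
  have h2 : algebraMap (IsLocalRing.ResidueField A) κ (IsLocalRing.residue A ⟨c, hcA⟩) = z :=
    hR.unique _ _ _ h1 h
  have h3 : IsLocalRing.residue A (⟨c, hcA⟩ : A) ≠ 0 := by
    intro h0
    rw [h0, map_zero] at h2
    exact hz h2.symm
  have hu : IsUnit (⟨c, hcA⟩ : A) := by
    by_contra hnu
    apply h3
    rw [IsLocalRing.residue_eq_zero_iff, IsLocalRing.mem_maximalIdeal, mem_nonunits_iff]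
    exact hnu
  obtain ⟨b, hb⟩ := isUnit_iff_exists_inv.mp hu
  have hb' : c * (b : K) = 1 := by
    have := congrArg Subtype.val hb
    simpa using this
  have hbc : (b : K) = c⁻¹ := (eq_inv_of_mul_eq_one_right hb')
  exact hbc ▸ b.2

theorem red_inv (hR : RedFacts A Red) {f : F} {x : κ} (h : Red f x) (hx : x ≠ 0) :
    Red f⁻¹ x⁻¹ := by
  have hf0 : f ≠ 0 := ne_zero_of_red hR h hx
  obtain ⟨c, hc0, y, hy0, hy⟩ := hR.normalize f⁻¹ (inv_ne_zero hf0)
  have h1 := hR.mul _ _ _ _ hy h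
  rw [mul_assoc, inv_mul_cancel₀ hf0, mul_one] at h1
  obtain ⟨hcA, hciA⟩ := const_unit hR h1 (mul_ne_zero hy0 hx)
  have h2 := hR.mul _ _ _ _ (hR.const (⟨c⁻¹, hciA⟩ : A)) hy
  rw [← mul_assoc, ← map_mul] at h2
  have h3 : (⟨c⁻¹, hciA⟩ : A).1 * c = 1 := inv_mul_cancel₀ hc0
  rw [h3, map_one, one_mul] at h2
  have h4 := hR.mul _ _ _ _ h2 h
  rw [inv_mul_cancel₀ hf0] at h4
  have h5 := hR.unique _ _ _ h4 hR.one
  rw [← eq_inv_of_mul_eq_one_left h5]
  exact h2

/-- The valuation subring `{f | ∃ x, Red f x}` of Gauss-integral functions. -/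
def valuationSubring (hR : RedFacts A Red) : ValuationSubring F where
  carrier := {f | ∃ x, Red f x}
  mul_mem' := by
    rintro f g ⟨x, hx⟩ ⟨y, hy⟩
    exact ⟨x * y, hR.mul _ _ _ _ hx hy⟩
  one_mem' := ⟨1, hR.one⟩
  add_mem' := by
    rintro f g ⟨x, hx⟩ ⟨y, hy⟩
    exact ⟨x + y, hR.add _ _ _ _ hx hy⟩
  zero_mem' := ⟨0, red_zero hR⟩
  neg_mem' := by
    rintro f ⟨x, hx⟩
    exact ⟨-x, red_neg hR hx⟩
  mem_or_inv_mem' := by
    intro f
    rcases eq_or_ne f 0 with rfl | hf0
    · exact Or.inl ⟨0, red_zero hR⟩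
    obtain ⟨c, hc0, x, hx0, hx⟩ := hR.normalize f hf0
    rcases A.mem_or_inv_mem c with hc | hc
    · right
      have h1 := red_inv hR hx hx0
      have h2 := hR.mul _ _ _ _ (hR.const (⟨c, hc⟩ : A)) h1
      have hca : algebraMap K F c ≠ 0 := by simpa using hc0
      have e : algebraMap K F ((⟨c, hc⟩ : A) : K) * (algebraMap K F c * f)⁻¹ = f⁻¹ := by
        show algebraMap K F c * (algebraMap K F c * f)⁻¹ = f⁻¹
        rw [mul_inv, ← mul_assoc, mul_inv_cancel₀ hca, one_mul]
      rw [e] at h2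
      exact ⟨_, h2⟩
    · left
      have h2 := hR.mul _ _ _ _ (hR.const (⟨c⁻¹, hc⟩ : A)) hx
      rw [← mul_assoc, ← map_mul] at h2
      have h3 : (⟨c⁻¹, hc⟩ : A).1 * c = 1 := inv_mul_cancel₀ hc0
      rw [h3, map_one, one_mul] at h2
      exact ⟨_, h2⟩

theorem mem_valuationSubring (hR : RedFacts A Red) {f : F} :
    f ∈ valuationSubring hR ↔ ∃ x, Red f x := Iff.rfl

theorem valuation_lt_one_of_red_zero (hR : RedFacts A Red) {f : F} (h : Red f 0) :
    (valuationSubring hR).valuation f < 1 := by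
  have hle : (valuationSubring hR).valuation f ≤ 1 :=
    (ValuationSubring.valuation_le_one_iff _ _).mpr ⟨0, h⟩
  rcases lt_or_eq_of_le hle with hlt | heq
  · exact hlt
  exfalso
  have hf0 : f ≠ 0 := by
    rintro rfl
    rw [map_zero] at heq
    exact zero_ne_one heq
  have hinv : f⁻¹ ∈ valuationSubring hR := by
    rw [← ValuationSubring.valuation_le_one_iff, map_inv₀, heq, inv_one]
  obtain ⟨t, ht⟩ := hinv
  have h1 := hR.mul _ _ _ _ ht h
  rw [inv_mul_cancel₀ hf0, mul_zero] at h1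
  exact one_ne_zero (hR.unique _ _ _ hR.one h1)

end Red

/-- **Kummer descent, `RedFacts` form.**  `i : E →ₐ[K] E'` function fields over an algebraically
closed field `K` with valuation subring `A`; `Red` a Gauss reduction relation on `E'` whose
integral elements are integral over the integral elements of `E` (hypothesis `hint`).  If `d` is
invertible in the residue field, `w ∈ E'`, `w ^ d = u ∈ E` and `u` reduces to `1`, then
`w ∈ E`. -/
theorem of_red {K : Type*} [Field K] [IsAlgClosed K] (A : ValuationSubring K)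
    {E E' κ : Type*} [Field E] [Algebra K E] [Field E'] [Algebra K E'] [Field κ]
    [Algebra (IsLocalRing.ResidueField A) κ] (i : E →ₐ[K] E') (Red : E' → κ → Prop)
    (hR : RedFacts A Red)
    (hint : ∀ (x : E') (y : κ), Red x y → ∃ p : Polynomial E, p.Monic ∧
      (∀ n, ∃ c, Red (i (p.coeff n)) c) ∧ p.eval₂ (i : E →+* E') x = 0)
    (d : ℕ) (hd : ((d : ℕ) : IsLocalRing.ResidueField A) ≠ 0)
    (w : E') (u : E) (hwu : w ^ d = i u) (hu : Red (i u) 1) : ∃ x : E, i x = w := by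
  classical
  have hd0 : 0 < d := Nat.pos_of_ne_zero (by rintro rfl; exact hd (by simp))
  have hdA : ((d : ℕ) : K) ∈ A := natCast_mem A d
  have hdres : IsLocalRing.residue A (⟨((d : ℕ) : K), hdA⟩ : A)
      = ((d : ℕ) : IsLocalRing.ResidueField A) := by
    have h : (⟨((d : ℕ) : K), hdA⟩ : A) = ((d : ℕ) : A) := Subtype.ext (by simp)
    rw [h, map_natCast]
  have hdred := hR.const (⟨((d : ℕ) : K), hdA⟩ : A)
  have hdne : algebraMap (IsLocalRing.ResidueField A) κ
      (IsLocalRing.residue A (⟨((d : ℕ) : K), hdA⟩ : A)) ≠ 0 := by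
    rw [hdres]
    exact (_root_.map_ne_zero _).mpr hd
  obtain ⟨-, hdinv⟩ := const_unit hR hdred hdne
  have hdK : ((d : ℕ) : K) ≠ 0 := by
    intro h0
    apply hd
    rw [← hdres]
    have h : (⟨((d : ℕ) : K), hdA⟩ : A) = 0 := Subtype.ext h0
    rw [h, map_zero]
  have : NeZero ((d : ℕ) : K) := ⟨hdK⟩
  have : NeZero d := ⟨hd0.ne'⟩
  obtain ⟨ζ₀, hζ₀⟩ := HasEnoughRootsOfUnity.exists_primitiveRoot K d
  -- `ζ₀` is a unit of `A` and stays primitive in the residue field
  have hζ₀A : ∀ m : ℕ, ζ₀ ^ m ∈ A := by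
    intro m
    rw [← ValuationSubring.valuation_le_one_iff, map_pow]
    have h : A.valuation ζ₀ ^ d = 1 := by rw [← map_pow, hζ₀.pow_eq_one, map_one]
    rcases pow_eq_one_iff.mp h with h1 | h1
    · rw [h1, one_pow]
    · exact absurd h1 hd0.ne'
  have hζ₀A1 : ζ₀ ∈ A := by simpa using hζ₀A 1
  set ζk : IsLocalRing.ResidueField A := IsLocalRing.residue A ⟨ζ₀, hζ₀A1⟩ with hζk
  have hζkpow : ∀ m : ℕ, ζk ^ m = IsLocalRing.residue A ⟨ζ₀ ^ m, hζ₀A m⟩ := by
    intro m
    rw [hζk, ← map_pow]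
    congr 1
  have hζkprim : IsPrimitiveRoot ζk d := by
    apply IsPrimitiveRoot.mk_of_lt _ hd0
    · rw [hζkpow]
      have h : (⟨ζ₀ ^ d, hζ₀A d⟩ : A) = 1 := Subtype.ext hζ₀.pow_eq_one
      rw [h, map_one]
    · intro l hl0 hld hl1
      have hne1 : ζ₀ ^ l ≠ 1 := hζ₀.pow_ne_one_of_pos_of_lt hl0.ne' hld
      have hpow1 : (ζ₀ ^ l) ^ d = 1 := by
        rw [← pow_mul, mul_comm, pow_mul, hζ₀.pow_eq_one, one_pow]
      have hv := valuation_root_sub_one A d hdK hdinv (ζ₀ ^ l) hpow1 hne1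
      rw [hζkpow] at hl1
      have h0 : IsLocalRing.residue A (⟨ζ₀ ^ l, hζ₀A l⟩ - 1 : A) = 0 := by
        rw [map_sub, hl1, map_one, sub_self]
      rw [IsLocalRing.residue_eq_zero_iff, ValuationSubring.valuation_lt_one_iff] at h0
      have h0' : A.valuation (ζ₀ ^ l - 1) < 1 := h0
      rw [hv] at h0'
      exact lt_irrefl _ h0'
  have hζκ : IsPrimitiveRoot (algebraMap (IsLocalRing.ResidueField A) κ ζk) d :=
    hζkprim.map_of_injective (algebraMap (IsLocalRing.ResidueField A) κ).injective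
  -- normalise `w`
  have hiu0 : i u ≠ 0 := ne_zero_of_red hR hu one_ne_zero
  have hw0 : w ≠ 0 := by
    rintro rfl
    rw [zero_pow hd0.ne'] at hwu
    exact hiu0 hwu.symm
  obtain ⟨c, hc0, x, hx0, hx⟩ := hR.normalize w hw0
  have hxd := red_pow hR hx d
  rw [mul_pow, hwu] at hxd
  have huinv := red_inv hR hu one_ne_zero
  have h1 := hR.mul _ _ _ _ hxd huinv
  rw [mul_assoc, mul_inv_cancel₀ hiu0, mul_one, inv_one, mul_one, ← map_pow] at h1
  obtain ⟨hcdA, hcdiA⟩ := const_unit hR h1 (pow_ne_zero d hx0)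
  have hvc : A.valuation c = 1 := by
    have h2 : A.valuation (c ^ d) ≤ 1 := (ValuationSubring.valuation_le_one_iff _ _).mpr hcdA
    have h3 : A.valuation (c ^ d)⁻¹ ≤ 1 := (ValuationSubring.valuation_le_one_iff _ _).mpr hcdiA
    rw [map_inv₀] at h3
    have hcd0 : A.valuation (c ^ d) ≠ 0 := (Valuation.ne_zero_iff _).mpr (pow_ne_zero d hc0)
    have h4 : (1 : A.ValueGroup) ≤ A.valuation (c ^ d) :=
      (inv_le_one₀ (zero_lt_iff.mpr hcd0)).mp h3
    have h5 : A.valuation c ^ d = 1 := by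
      rw [← map_pow]
      exact le_antisymm h2 h4
    rcases pow_eq_one_iff.mp h5 with h6 | h6
    · exact h6
    · exact absurd h6 hd0.ne'
  have hciA : c⁻¹ ∈ A := by
    rw [← ValuationSubring.valuation_le_one_iff, map_inv₀, hvc, inv_one]
  have h2 := hR.mul _ _ _ _ (hR.const (⟨c⁻¹, hciA⟩ : A)) hx
  rw [← mul_assoc, ← map_mul] at h2
  have h3 : (⟨c⁻¹, hciA⟩ : A).1 * c = 1 := inv_mul_cancel₀ hc0
  rw [h3, map_one, one_mul] at h2
  -- `h2 : Red w ω`
  set ω : κ := algebraMap (IsLocalRing.ResidueField A) κ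
    (IsLocalRing.residue A ⟨c⁻¹, hciA⟩) * x with hω
  have hωd : ω ^ d = 1 := by
    have h4 := red_pow hR h2 d
    rw [hwu] at h4
    exact hR.unique _ _ _ h4 hu
  obtain ⟨n, hn, hnω⟩ := hζκ.eq_pow_of_pow_eq_one hωd
  -- multiply by `ζ₀ ^ (d - n)`
  have h5 : Red (algebraMap K E' (ζ₀ ^ (d - n)) * w) 1 := by
    have h := hR.mul _ _ _ _ (hR.const (⟨ζ₀ ^ (d - n), hζ₀A (d - n)⟩ : A)) h2
    have e : algebraMap (IsLocalRing.ResidueField A) κ
        (IsLocalRing.residue A ⟨ζ₀ ^ (d - n), hζ₀A (d - n)⟩) * ω = 1 := by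
      rw [← hζkpow, map_pow (algebraMap (IsLocalRing.ResidueField A) κ), ← hnω, ← pow_add,
        Nat.sub_add_cancel hn.le, hζκ.pow_eq_one]
    rw [e] at h
    exact h
  set w' : E' := algebraMap K E' (ζ₀ ^ (d - n)) * w with hw'
  have hw'd : w' ^ d = i u := by
    rw [hw', mul_pow, ← map_pow, ← pow_mul, mul_comm (d - n) d, pow_mul, hζ₀.pow_eq_one, one_pow,
      map_one, one_mul, hwu]
  have hw'1 : (valuationSubring hR).valuation (w' - 1) < 1 := by
    apply valuation_lt_one_of_red_zero hR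
    have h6 := red_sub hR h5 hR.one
    rwa [sub_self] at h6
  have hdE' : ((d : ℕ) : E')⁻¹ ∈ valuationSubring hR := by
    have h6 := hR.const (⟨((d : ℕ) : K)⁻¹, hdinv⟩ : A)
    have e : algebraMap K E' (((⟨((d : ℕ) : K)⁻¹, hdinv⟩ : A) : K)) = ((d : ℕ) : E')⁻¹ := by
      show algebraMap K E' (((d : ℕ) : K)⁻¹) = ((d : ℕ) : E')⁻¹
      rw [map_inv₀, map_natCast]
    rw [e] at h6
    exact ⟨_, h6⟩
  have hζE : IsPrimitiveRoot (algebraMap K E ζ₀) d :=
    hζ₀.map_of_injective (algebraMap K E).injective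
  obtain ⟨x₀, hx₀⟩ := main (i : E →+* E') (valuationSubring hR)
    (fun y hy => by
      obtain ⟨z, hz⟩ := hy
      obtain ⟨p, hpm, hpc, hpy⟩ := hint y z hz
      exact ⟨p, hpm, fun n => hpc n, hpy⟩)
    d hd0 hdE' (algebraMap K E ζ₀) hζE w' u hw'd hw'1
  refine ⟨algebraMap K E (ζ₀ ^ n) * x₀, ?_⟩
  have hx₀' : i x₀ = w' := hx₀
  rw [map_mul, hx₀', AlgHom.commutes, hw', ← mul_assoc, ← map_mul, ← pow_add,
    Nat.add_sub_cancel' hn.le, hζ₀.pow_eq_one, map_one, one_mul]

end Fermat.Agent.S18.RootAbs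

end
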