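import Fermat.Agent.S18.Defs
import Fermat.Agent.S18.CoreDefs
import Fermat.Agent.S18.Descent
import Fermat.Agent.S18.Bridge
import Fermat.Agent.S18.RootAbs
import Fermat.Agent.S18.Int

/-!
# S18: descent of roots from level `M` to level `N` (instantiation of `RootAbs.of_red`)

Given a Gauss layer at level `M` (a residue field `κ ⊆ k((q))`, a reduction relation
`Red : F_M → κ → Prop` with `RedFacts`, integral series reduce coefficientwise) in which every
Gauss-integral element is a root of a monic polynomial with Gauss-integral coefficients lying in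
`F_N`, the statement `RootDescentStmt ℓ A N M` holds.

* `mem_of_pow` : the abstract form for two intermediate fields `E ≤ E'` of a field `L / K`;
* `of_red`     : integrality given directly in polynomial form;
* `of_basis`   : integrality derived (`Int.exists_monic`) from a function `j ∈ F_N` with
  `Red j jb`, `jb` transcendental and a lifted family independent over `k(jb)`.
-/

set_option autoImplicit false
set_option synthInstance.maxHeartbeats 400000

noncomputable section

namespace Fermat.Agent.S18.RootDescent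

open AlgebraicCurve ModularCurve Fermat.Agent.S18 IntermediateField

/-- Abstract root descent for two intermediate fields `E ≤ E'`. -/
theorem mem_of_pow {K : Type*} [Field K] [IsAlgClosed K] (A : ValuationSubring K)
    {L κ : Type*} [Field L] [Algebra K L] [Field κ] [Algebra (IsLocalRing.ResidueField A) κ]
    {E E' : IntermediateField K L} (hle : E ≤ E') (Red : E' → κ → Prop) (hR : RedFacts A Red)
    (hmonic : ∀ (x : E') (y : κ), Red x y → ∃ p : Polynomial E', p.Monic ∧
      (∀ m, ((p.coeff m : E') : L) ∈ E ∧ ∃ c, Red (p.coeff m) c) ∧ p.eval x = 0)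
    (d : ℕ) (hd : ((d : ℕ) : IsLocalRing.ResidueField A) ≠ 0) (x a b : L) (hxE' : x ∈ E')
    (ha : a ∈ E) (hb : b ∈ E) (hb0 : b ≠ 0) (hx : x ^ d * b = a)
    (hu : Red ((⟨a, hle ha⟩ : E') / ⟨b, hle hb⟩) 1) : x ∈ E := by
  have hiu : IntermediateField.inclusion hle ((⟨a, ha⟩ : E) / ⟨b, hb⟩)
      = (⟨a, hle ha⟩ : E') / ⟨b, hle hb⟩ := by
    rw [map_div₀]; rfl
  have hb0' : (⟨b, hle hb⟩ : E') ≠ 0 := fun h => hb0 (congrArg Subtype.val h)
  have hwu : (⟨x, hxE'⟩ : E') ^ d = IntermediateField.inclusion hle ((⟨a, ha⟩ : E) / ⟨b, hb⟩) := by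
    rw [hiu, eq_div_iff hb0']
    exact Subtype.ext hx
  have hint' : ∀ (z : E') (y : κ), Red z y →
      ∃ p : Polynomial E, p.Monic ∧
        (∀ n, ∃ c, Red (IntermediateField.inclusion hle (p.coeff n)) c) ∧
        p.eval₂ (IntermediateField.inclusion hle : E →+* E') z = 0 := by
    intro z y hz
    obtain ⟨p, hp, hcoeff, hroot⟩ := hmonic z y hz
    have hl : p ∈ Polynomial.lifts (IntermediateField.inclusion hle : E →+* E') := by
      rw [Polynomial.lifts_iff_coeff_lifts]
      intro n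
      exact ⟨⟨_, (hcoeff n).1⟩, Subtype.ext (IntermediateField.coe_inclusion hle _)⟩
    obtain ⟨q, hq, -, hqm⟩ := Polynomial.lifts_and_natDegree_eq_and_monic hl hp
    refine ⟨q, hqm, fun n => ?_, ?_⟩
    · have h1 : IntermediateField.inclusion hle (q.coeff n) = p.coeff n := by
        rw [← hq, Polynomial.coeff_map]; rfl
      rw [h1]
      exact (hcoeff n).2
    · rw [← Polynomial.eval_map, hq]
      exact hroot
  obtain ⟨x', hx'⟩ := RootAbs.of_red A (IntermediateField.inclusion hle) Red hR hint' d hd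
    (⟨x, hxE'⟩ : E') _ hwu (by rw [hiu]; exact hu)
  have h1 : (x' : L) = x := by
    rw [← IntermediateField.coe_inclusion hle x', hx']
  rw [← h1]
  exact x'.2

/-- **Root descent**, abstract over the Gauss layer at level `M`. -/
theorem of_red {ℓ N M : ℕ} (hℓ : ℓ.Prime) (hN : N ≠ 0) (hM : M ≠ 0) (hNM : N ∣ M)
    (A : ValuationSubring (AlgebraicClosure ℚ)) (hA : A.LiesOverPrime ℓ)
    (κ : IntermediateField (IsLocalRing.ResidueField A)
      (LaurentSeries (IsLocalRing.ResidueField A)))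
    (Red : modularFunctionFieldBar M → κ → Prop)
    (hR : RedFacts A Red)
    (hint : ∀ (V : LaurentSeries A) (hV : genS A V ∈ modularFunctionFieldBar M),
      ∃ hx : redS A V ∈ κ, Red ⟨genS A V, hV⟩ ⟨redS A V, hx⟩)
    (hmonic : ∀ (x : modularFunctionFieldBar M) (y : κ), Red x y →
      ∃ p : Polynomial (modularFunctionFieldBar M), p.Monic ∧
        (∀ m, ((p.coeff m : modularFunctionFieldBar M) : LaurentSeries (AlgebraicClosure ℚ))
            ∈ modularFunctionFieldBar N ∧ ∃ c, Red (p.coeff m) c) ∧ p.eval x = 0) :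
    RootDescentStmt ℓ A N M := by
  intro d hd hdℓ V₁ V₂ h₁ h₂ hred hne hex
  obtain ⟨x, hxM, hx⟩ := hex
  have hle := Descent.bar_le hN hM hNM
  have hV₁ : genS A V₁ ≠ 0 := Descent.genS_ne_zero A hne
  have hV₂ : genS A V₂ ≠ 0 := Descent.genS_ne_zero A (hred ▸ hne)
  -- the reduction of `u = V₁ / V₂` is `1`
  obtain ⟨hx₁, hR₁⟩ := hint V₁ (hle h₁)
  obtain ⟨hx₂, hR₂⟩ := hint V₂ (hle h₂)
  have hxx : (⟨redS A V₂, hx₂⟩ : κ) = ⟨redS A V₁, hx₁⟩ := Subtype.ext hred.symm
  rw [hxx] at hR₂
  have hx0 : (⟨redS A V₁, hx₁⟩ : κ) ≠ 0 := fun h => hne (congrArg Subtype.val h)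
  have ha0 : (⟨genS A V₁, hle h₁⟩ : modularFunctionFieldBar M) ≠ 0 :=
    fun h => hV₁ (congrArg Subtype.val h)
  have hb0 : (⟨genS A V₂, hle h₂⟩ : modularFunctionFieldBar M) ≠ 0 :=
    fun h => hV₂ (congrArg Subtype.val h)
  have hRu : Red ((⟨genS A V₁, hle h₁⟩ : modularFunctionFieldBar M) / ⟨genS A V₂, hle h₂⟩) 1 :=
    Bridge.red_div_one hR hx0 hR₁ hR₂ ha0 hb0
  have hd' : ((d : ℕ) : IsLocalRing.ResidueField A) ≠ 0 :=
    Bridge.natCast_residue_ne_zero hℓ hd hdℓ A hA
  exact ⟨x, mem_of_pow A hle Red hR hmonic d hd' x _ _ hxM h₁ h₂ hV₂ hx hRu, hx⟩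

/-- **Root descent** from the inputs of `ChartInt.hint0` / `Int.exists_monic` at level `M`:
a function `j ∈ F_N` with `Red j jb`, `jb` transcendental over `k`, and a lifted family whose
reductions are independent over `k(jb)` and which is large enough to span `F_M / K(j)`. -/
theorem of_basis {ℓ N M : ℕ} (hℓ : ℓ.Prime) (hN : N ≠ 0) (hM : M ≠ 0) (hNM : N ∣ M)
    (A : ValuationSubring (AlgebraicClosure ℚ)) (hA : A.LiesOverPrime ℓ)
    (κ : IntermediateField (IsLocalRing.ResidueField A)
      (LaurentSeries (IsLocalRing.ResidueField A)))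
    (Red : modularFunctionFieldBar M → κ → Prop)
    (hR : RedFacts A Red)
    (hint : ∀ (V : LaurentSeries A) (hV : genS A V ∈ modularFunctionFieldBar M),
      ∃ hx : redS A V ∈ κ, Red ⟨genS A V, hV⟩ ⟨redS A V, hx⟩)
    {j : modularFunctionFieldBar M} {jb : κ}
    (hjN : (j : LaurentSeries (AlgebraicClosure ℚ)) ∈ modularFunctionFieldBar N)
    (hj : Red j jb) (hjb : Transcendental (IsLocalRing.ResidueField A) jb)
    [Module.Finite (AlgebraicClosure ℚ)⟮j⟯ (modularFunctionFieldBar M)]
    {n : ℕ} {b : Fin n → modularFunctionFieldBar M} {bb : Fin n → κ}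
    (hb : ∀ i, Red (b i) (bb i))
    (hbb : LinearIndependent (IsLocalRing.ResidueField A)⟮jb⟯ bb)
    (hn : Module.finrank (AlgebraicClosure ℚ)⟮j⟯ (modularFunctionFieldBar M) ≤ n) :
    RootDescentStmt ℓ A N M := by
  refine of_red hℓ hN hM hNM A hA κ Red hR hint fun x y hxy => ?_
  obtain ⟨p, hp, hcoeff, hroot⟩ := Int.exists_monic hR hj hjb hb hbb hn hxy
  refine ⟨p, hp, fun m => ⟨?_, (hcoeff m).2⟩, hroot⟩
  have hle : (AlgebraicClosure ℚ)⟮j⟯ ≤
      (modularFunctionFieldBar N).comap (modularFunctionFieldBar M).val := by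
    rw [adjoin_simple_le_iff]
    exact hjN
  exact hle (hcoeff m).1

end Fermat.Agent.S18.RootDescent

end
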