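import Fermat.Agent.S18.Defs
import Fermat.Agent.S18.CoreDefs
import Fermat.Agent.S18.Descent
import Fermat.Agent.S18.Bridge
import Fermat.Agent.S18.RootAbs

/-!
# S18: descent of roots from level `M` to level `N ∣ M` (wiring of `RootAbs.of_red`)

Given a Gauss layer at level `M` only (a residue field `κ ⊆ k((q))`, a reduction relation
`Red : F_M → κ → Prop` with `RedFacts`, coefficientwise reduction of integral series) and the
integrality of Gauss-integral functions over the Gauss-integral elements of `K(g)` for some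
`g ∈ F_N` (e.g. `g = j`), the statement `RootDescentStmt ℓ A N M` holds.
-/

set_option autoImplicit false
set_option synthInstance.maxHeartbeats 400000

noncomputable section

namespace Fermat.Agent.S18.RootWire

open AlgebraicCurve ModularCurve Fermat.Agent.S18 Polynomial

theorem inclusion_div {N M : ℕ} (hle : modularFunctionFieldBar N ≤ modularFunctionFieldBar M)
    (a b : LaurentSeries (AlgebraicClosure ℚ)) (h₁ : a ∈ modularFunctionFieldBar N)
    (h₂ : b ∈ modularFunctionFieldBar N) :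
    IntermediateField.inclusion hle ((⟨a, h₁⟩ : modularFunctionFieldBar N) / ⟨b, h₂⟩)
      = (⟨a, hle h₁⟩ : modularFunctionFieldBar M) / ⟨b, hle h₂⟩ := by
  rw [map_div₀]
  rfl

theorem pow_eq_div {M : ℕ} (x a b : LaurentSeries (AlgebraicClosure ℚ)) (d : ℕ)
    (hxM : x ∈ modularFunctionFieldBar M) (ha : a ∈ modularFunctionFieldBar M)
    (hb : b ∈ modularFunctionFieldBar M) (hb0 : b ≠ 0) (hx : x ^ d * b = a) :
    (⟨x, hxM⟩ : modularFunctionFieldBar M) ^ d
      = (⟨a, ha⟩ : modularFunctionFieldBar M) / ⟨b, hb⟩ := by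
  apply Subtype.ext
  rw [SubmonoidClass.coe_pow, IntermediateField.coe_div]
  show x ^ d = a / b
  rw [eq_div_iff hb0]
  exact hx

/-- Monic polynomials over `F_M` with coefficients in `K(g)`, `g ∈ F_N`, descend to `F_N`. -/
theorem lift_monic {N M : ℕ} (hle : modularFunctionFieldBar N ≤ modularFunctionFieldBar M)
    (A : ValuationSubring (AlgebraicClosure ℚ))
    (κ : IntermediateField (IsLocalRing.ResidueField A)
      (LaurentSeries (IsLocalRing.ResidueField A)))
    (Red : modularFunctionFieldBar M → κ → Prop)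
    (g : modularFunctionFieldBar M)
    (hg : (g : LaurentSeries (AlgebraicClosure ℚ)) ∈ modularFunctionFieldBar N)
    (hmonic : ∀ (f : modularFunctionFieldBar M) (x : κ), Red f x →
      ∃ p : Polynomial (modularFunctionFieldBar M), p.Monic ∧
        (∀ n, p.coeff n ∈ IntermediateField.adjoin (AlgebraicClosure ℚ) {g} ∧
          ∃ c, Red (p.coeff n) c) ∧ p.eval f = 0) :
    ∀ (y : modularFunctionFieldBar M) (z : κ), Red y z →
      ∃ p : Polynomial (modularFunctionFieldBar N), p.Monic ∧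
        (∀ n, ∃ c, Red (IntermediateField.inclusion hle (p.coeff n)) c) ∧
        p.eval₂ ((IntermediateField.inclusion hle :
          modularFunctionFieldBar N →ₐ[AlgebraicClosure ℚ] modularFunctionFieldBar M) :
            modularFunctionFieldBar N →+* modularFunctionFieldBar M) y = 0 := by
  have hgle : IntermediateField.adjoin (AlgebraicClosure ℚ) {g}
      ≤ (modularFunctionFieldBar N).comap (modularFunctionFieldBar M).val := by
    rw [IntermediateField.adjoin_le_iff]
    rintro y hy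
    rw [Set.mem_singleton_iff] at hy
    subst hy
    exact hg
  intro y z hyz
  obtain ⟨p₀, hp₀m, hp₀c, hp₀y⟩ := hmonic y z hyz
  have hlift : p₀ ∈ Polynomial.lifts
      ((IntermediateField.inclusion hle :
        modularFunctionFieldBar N →ₐ[AlgebraicClosure ℚ] modularFunctionFieldBar M) :
          modularFunctionFieldBar N →+* modularFunctionFieldBar M) := by
    rw [Polynomial.lifts_iff_coeff_lifts]
    intro n
    have hmem : ((p₀.coeff n : modularFunctionFieldBar M) :
        LaurentSeries (AlgebraicClosure ℚ)) ∈ modularFunctionFieldBar N := hgle (hp₀c n).1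
    exact ⟨⟨_, hmem⟩, Subtype.ext rfl⟩
  obtain ⟨q, hq, -, hqm⟩ := Polynomial.lifts_and_natDegree_eq_and_monic hlift hp₀m
  refine ⟨q, hqm, ?_, ?_⟩
  · intro n
    obtain ⟨c, hc⟩ := (hp₀c n).2
    refine ⟨c, ?_⟩
    have : IntermediateField.inclusion hle (q.coeff n) = p₀.coeff n := by
      rw [← hq, Polynomial.coeff_map]
      rfl
    rw [this]
    exact hc
  · rw [← Polynomial.eval_map, hq]
    exact hp₀y

/-- `V₁ / V₂` reduces to `1` at level `M`. -/
theorem red_quot {M : ℕ} (A : ValuationSubring (AlgebraicClosure ℚ))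
    (κ : IntermediateField (IsLocalRing.ResidueField A)
      (LaurentSeries (IsLocalRing.ResidueField A)))
    (Red : modularFunctionFieldBar M → κ → Prop)
    (hR : RedFacts A Red)
    (hint : ∀ (V : LaurentSeries A) (hV : genS A V ∈ modularFunctionFieldBar M),
      ∃ hx : redS A V ∈ κ, Red ⟨genS A V, hV⟩ ⟨redS A V, hx⟩)
    (V₁ V₂ : LaurentSeries A) (h₁ : genS A V₁ ∈ modularFunctionFieldBar M)
    (h₂ : genS A V₂ ∈ modularFunctionFieldBar M) (hred : redS A V₁ = redS A V₂)
    (hne : redS A V₁ ≠ 0) :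
    Red ((⟨genS A V₁, h₁⟩ : modularFunctionFieldBar M) / ⟨genS A V₂, h₂⟩) 1 := by
  have hV₁ : genS A V₁ ≠ 0 := Descent.genS_ne_zero A hne
  have hV₂ : genS A V₂ ≠ 0 := Descent.genS_ne_zero A (hred ▸ hne)
  have ha0 : (⟨genS A V₁, h₁⟩ : modularFunctionFieldBar M) ≠ 0 :=
    fun h => hV₁ (congrArg Subtype.val h)
  have hb0 : (⟨genS A V₂, h₂⟩ : modularFunctionFieldBar M) ≠ 0 :=
    fun h => hV₂ (congrArg Subtype.val h)
  obtain ⟨hx₁, hR₁⟩ := hint V₁ h₁
  obtain ⟨hx₂, hR₂⟩ := hint V₂ h₂
  have hxx : (⟨redS A V₂, hx₂⟩ : κ) = ⟨redS A V₁, hx₁⟩ := Subtype.ext hred.symm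
  rw [hxx] at hR₂
  have hx0 : (⟨redS A V₁, hx₁⟩ : κ) ≠ 0 := fun h => hne (congrArg Subtype.val h)
  exact Bridge.red_div_one hR hx0 hR₁ hR₂ ha0 hb0

/-- **Root descent (wiring).** -/
theorem main {ℓ N M : ℕ} (hN : N ≠ 0) (hM : M ≠ 0) (hNM : N ∣ M) (hℓ : ℓ.Prime)
    (A : ValuationSubring (AlgebraicClosure ℚ)) (hA : A.LiesOverPrime ℓ)
    (κ : IntermediateField (IsLocalRing.ResidueField A)
      (LaurentSeries (IsLocalRing.ResidueField A)))
    (Red : modularFunctionFieldBar M → κ → Prop)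
    (hR : RedFacts A Red)
    (hint : ∀ (V : LaurentSeries A) (hV : genS A V ∈ modularFunctionFieldBar M),
      ∃ hx : redS A V ∈ κ, Red ⟨genS A V, hV⟩ ⟨redS A V, hx⟩)
    (g : modularFunctionFieldBar M)
    (hg : (g : LaurentSeries (AlgebraicClosure ℚ)) ∈ modularFunctionFieldBar N)
    (hmonic : ∀ (f : modularFunctionFieldBar M) (x : κ), Red f x →
      ∃ p : Polynomial (modularFunctionFieldBar M), p.Monic ∧
        (∀ n, p.coeff n ∈ IntermediateField.adjoin (AlgebraicClosure ℚ) {g} ∧
          ∃ c, Red (p.coeff n) c) ∧ p.eval f = 0) :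
    RootDescentStmt ℓ A N M := by
  intro d hd hdℓ V₁ V₂ h₁ h₂ hred hne hex
  obtain ⟨x, hxM, hx⟩ := hex
  have hle := Descent.bar_le hN hM hNM
  have hV₂ : genS A V₂ ≠ 0 := Descent.genS_ne_zero A (hred ▸ hne)
  have hiu := inclusion_div hle (genS A V₁) (genS A V₂) h₁ h₂
  have hRu : Red (IntermediateField.inclusion hle
      ((⟨genS A V₁, h₁⟩ : modularFunctionFieldBar N) / ⟨genS A V₂, h₂⟩)) 1 := by
    rw [hiu]
    exact red_quot A κ Red hR hint V₁ V₂ (hle h₁) (hle h₂) hred hne
  have hwu : (⟨x, hxM⟩ : modularFunctionFieldBar M) ^ d = IntermediateField.inclusion hle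
      ((⟨genS A V₁, h₁⟩ : modularFunctionFieldBar N) / ⟨genS A V₂, h₂⟩) := by
    rw [hiu]
    exact pow_eq_div x (genS A V₁) (genS A V₂) d hxM (hle h₁) (hle h₂) hV₂ hx
  have hdk := Bridge.natCast_residue_ne_zero hℓ hd hdℓ A hA
  obtain ⟨x₀, hx₀⟩ := RootAbs.of_red A (IntermediateField.inclusion hle) Red hR
    (lift_monic hle A κ Red g hg hmonic) d hdk ⟨x, hxM⟩ _ hwu hRu
  have hxN : x ∈ modularFunctionFieldBar N := by
    have h' : (x₀ : LaurentSeries (AlgebraicClosure ℚ)) = x := by
      rw [← IntermediateField.coe_inclusion hle x₀, hx₀]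
    rw [← h']
    exact x₀.2
  exact ⟨x, hxN, hx⟩

end Fermat.Agent.S18.RootWire

end
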