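import Mathlib

/-!
# S18: `D x` spans `Ω[F⁄K]` when `F / K(x)` is separable (any characteristic)

Characteristic-free version of `Fermat.Agent.S24.span_D_eq_top`: the hypothesis `CharZero` is
replaced by separability of `F` over `K(x)`.
-/

set_option autoImplicit false

noncomputable section

namespace Fermat.Agent.S18.SpanSep

open KaehlerDifferential

variable {K F M : Type*} [Field K] [Field F] [Algebra K F]
  [AddCommGroup M] [Module F M] [Module K M]

/-- Chain rule for a polynomial all of whose coefficients are killed by the derivation. -/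
theorem derivation_eval (d : Derivation K F M) (f : F) (p : Polynomial F)
    (hp : ∀ i, d (p.coeff i) = 0) :
    d (p.eval f) = p.derivative.eval f • d f := by
  rw [Polynomial.eval_eq_sum, Polynomial.derivative_eval, Polynomial.sum_def, Polynomial.sum_def,
    map_sum, Finset.sum_smul]
  refine Finset.sum_congr rfl fun i _ => ?_
  rw [Derivation.leibniz, hp i, smul_zero, add_zero, Derivation.leibniz_pow,
    ← Nat.cast_smul_eq_nsmul F i, smul_smul, smul_smul]

/-- A derivation killing `x` kills `K(x)`. -/
theorem derivation_adjoin_eq_zero (d : Derivation K F M) (x : F) (hx : d x = 0) (f : F)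
    (hf : f ∈ IntermediateField.adjoin K {x}) : d f = 0 := by
  induction hf using IntermediateField.adjoin_induction with
  | mem y hy =>
    rw [Set.mem_singleton_iff] at hy
    rw [hy, hx]
  | algebraMap a => exact d.map_algebraMap a
  | add a b _ _ ha hb => rw [map_add, ha, hb, add_zero]
  | inv a _ ha => rw [Derivation.leibniz_inv, ha, smul_zero]
  | mul a b _ _ ha hb => rw [Derivation.leibniz, ha, hb, smul_zero, smul_zero, add_zero]

/-- A `K`-derivation of `F` killing `x` kills every element of `F` separable over `K(x)`. -/
theorem derivation_eq_zero_of_isSeparable (x : F) (d : Derivation K F M) (hx : d x = 0) (f : F)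
    (hf : IsSeparable (IntermediateField.adjoin K {x}) f) : d f = 0 := by
  set L := IntermediateField.adjoin K {x} with hL
  set p := minpoly L f with hp
  have hsep : p.Separable := hf
  have h0 : (p.map (algebraMap L F)).eval f = 0 := by
    rw [Polynomial.eval_map_algebraMap, hp, minpoly.aeval]
  have h1 := derivation_eval d f (p.map (algebraMap L F)) (fun i => by
    rw [Polynomial.coeff_map]
    exact derivation_adjoin_eq_zero d x hx _ (p.coeff i).2)
  rw [h0, map_zero, Polynomial.derivative_map, Polynomial.eval_map_algebraMap] at h1
  have h2 : Polynomial.aeval f (Polynomial.derivative p) ≠ 0 :=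
    hsep.aeval_derivative_ne_zero (minpoly.aeval L f)
  exact (smul_eq_zero.mp h1.symm).resolve_left h2

/-- If `F` is separable over `K(x)` (any characteristic), then `D x` spans `Ω[F⁄K]`. -/
theorem span_D_eq_top_of_isSeparable (x : F)
    [Algebra.IsSeparable (IntermediateField.adjoin K {x}) F] :
    Submodule.span F {(KaehlerDifferential.D K F x : Ω[F⁄K])} = ⊤ := by
  set S := Submodule.span F {(KaehlerDifferential.D K F x : Ω[F⁄K])} with hS
  let d : Derivation K F (Ω[F⁄K] ⧸ S) := S.mkQ.compDer (D K F)
  have hx : d x = 0 := by
    change S.mkQ (D K F x) = 0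
    rw [Submodule.mkQ_apply, Submodule.Quotient.mk_eq_zero]
    exact Submodule.subset_span rfl
  rw [eq_top_iff, ← KaehlerDifferential.span_range_derivation K F, Submodule.span_le]
  rintro _ ⟨f, rfl⟩
  have hf : d f = 0 := derivation_eq_zero_of_isSeparable x d hx f
    (Algebra.IsSeparable.isSeparable _ f)
  change S.mkQ (D K F f) = 0 at hf
  rwa [Submodule.mkQ_apply, Submodule.Quotient.mk_eq_zero] at hf

/-- Every differential is a multiple of `D x` when `F / K(x)` is separable. -/
theorem exists_eq_smul_D_of_isSeparable (x : F)
    [Algebra.IsSeparable (IntermediateField.adjoin K {x}) F]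
    (ω : Ω[F⁄K]) : ∃ c : F, ω = c • (KaehlerDifferential.D K F x : Ω[F⁄K]) := by
  have hmem : ω ∈ Submodule.span F {(KaehlerDifferential.D K F x : Ω[F⁄K])} :=
    span_D_eq_top_of_isSeparable (K := K) x ▸ Submodule.mem_top
  obtain ⟨c, hc⟩ := Submodule.mem_span_singleton.mp hmem
  exact ⟨c, hc.symm⟩

end Fermat.Agent.S18.SpanSep

end
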